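/-
S30 route, block [Det] — LimLevel.lean (helper9).

The *level-`n` datum* consumed by the concrete limit step `S30/LimGlue.lean` and produced by
`S30/LevelGlue.lean`: an `𝒪[G_ℚ]`-module `V` killed by `p ^ n`, with a vector `w` whose
annihilator is contained in `p ^ n 𝒪`, of finite level, on which every Frobenius element at a
good prime `ℓ` satisfies `σ² − a_ℓ σ + ℓ = 0` and the inertia groups at the unramified primes act
trivially.

Also: the three pieces of modular bookkeeping shared by the producer and the consumer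
(`goodPrime`, `heckeEig`, `unrPrime`).
-/
import Mathlib
import Fermat.Prelude.Def_EllipticCurve_FrobeniusTrace
import Fermat.Prelude.Def_FLTPrelim_Ramification
import Fermat.Prelude.Def_GaloisRep_Residual
import Fermat.Prelude.Def_CuspForm_HeckeAlgebra

set_option autoImplicit false

namespace Fermat.Agent.S30.LimLevel

/-- `ℚ̄`. -/
local notation "Qb" => AlgebraicClosure ℚ

/-- `Gal(ℚ̄/ℚ)`. -/
local notation "GQ" => (AlgebraicClosure ℚ ≃ₐ[ℚ] AlgebraicClosure ℚ)

/-- **The level-`n` datum.**  `good ℓ` singles out the primes at which the Frobenius relation is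
known, `a ℓ` is the prescribed trace, `unr q` singles out the primes with trivial inertia. -/
structure Level (𝒪 : Type) [CommRing 𝒪] (p n : ℕ) (good : ℕ → Prop) (a : ℕ → 𝒪)
    (unr : ℕ → Prop) : Type 1 where
  /-- the module -/
  V : Type
  [instAddCommGroup : AddCommGroup V]
  [instModule : Module 𝒪 V]
  /-- the Galois action -/
  r : GQ →* Module.End 𝒪 V
  /-- the distinguished vector -/
  w : V
  tors : ∀ x : V, (p : 𝒪) ^ n • x = 0
  ann : ∀ c : 𝒪, c • w = 0 → (p : 𝒪) ^ n ∣ c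
  level : GaloisFactorsThroughFiniteLevel r
  frob : ∀ ℓ : ℕ, good ℓ → ∀ A : ValuationSubring Qb, A.LiesOverPrime ℓ →
    ∀ σ : GQ, A.IsFrobeniusAt σ ℓ →
      r σ * r σ - a ℓ • r σ + (ℓ : 𝒪) • (1 : Module.End 𝒪 V) = 0
  inert : ∀ q : ℕ, unr q → ∀ P : ValuationSubring Qb, P.LiesOverPrime q →
    ∀ τ ∈ P.inertiaSubgroupIn ℚ, r τ = 1

attribute [instance] Level.instAddCommGroup Level.instModule

/-! ### Modular bookkeeping -/

/-- The primes at which the Frobenius relation is used: `ℓ` prime, `ℓ ∤ N`, `ℓ ∉ S`. -/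
def goodPrime (N : ℕ) (S : Set ℕ) (ℓ : ℕ) : Prop := ℓ.Prime ∧ ¬ ℓ ∣ N ∧ ℓ ∉ S

/-- The primes at which the representation has to be unramified: `q` prime, `q ∤ N`, `q ≠ p`. -/
def unrPrime (N p : ℕ) (q : ℕ) : Prop := q.Prime ∧ ¬ q ∣ N ∧ q ≠ p

open Classical in
/-- The Hecke eigenvalue `χ(T_ℓ)` at a good prime (and `0` elsewhere). -/
noncomputable def heckeEig (N : ℕ) [NeZero N] (S : Set ℕ) {𝒪 : Type} [CommRing 𝒪]
    (χ : CuspForm.heckeAlgebra N 2 S →+* 𝒪) (ℓ : ℕ) : 𝒪 :=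
  if h : goodPrime N S ℓ then χ (CuspForm.heckeAlgebra.T h.1 h.2.1 h.2.2) else 0

theorem heckeEig_eq (N : ℕ) [NeZero N] (S : Set ℕ) {𝒪 : Type} [CommRing 𝒪]
    (χ : CuspForm.heckeAlgebra N 2 S →+* 𝒪) {ℓ : ℕ} (hℓ : ℓ.Prime) (hℓN : ¬ ℓ ∣ N)
    (hℓS : ℓ ∉ S) : heckeEig N S χ ℓ = χ (CuspForm.heckeAlgebra.T hℓ hℓN hℓS) := by
  have h : goodPrime N S ℓ := ⟨hℓ, hℓN, hℓS⟩
  rw [heckeEig, dif_pos h]

end Fermat.Agent.S30.LimLevel
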