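/-
S30 — Defs.lean (architect of the [Det] half: helper63; captain: helper33, top split in
`S30/Top.lean`).  BINDING leaf statements of the arithmetic half of S30.

The determinant (pseudo-representation) `(t, d)` of `G_ℚ` attached to a ring hom `χ : 𝕋 → 𝒪`
(`S30Top.DetStatement`) is read off a family of LEVELS (`LimLevel.Level`, one for each `n`):
`𝒪`-modules `V_n` with `G_ℚ`-action, killed by `p ^ n`, with a vector `w_n` of annihilator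
`p ^ n 𝒪`, of finite level, on which the Frobenius elements at the good primes `ℓ` satisfy
`σ² - χ(T_ℓ) σ + ℓ = 0` and the inertia groups at the unramified primes act trivially.
(In the model: `V_n ⊆ 𝒪 ⊗ J₀(N)[p ^ n]` is the `𝒪`-span of the Galois orbit of
`w_n = (1 ⊗ θ_n) e`, `e ∈ 𝒪 ⊗ Lpar N` a primitive `χ`-eigenvector and
`θ_n : Lpar N / p ^ n → J₀(N)[p ^ n]` the Kummer map of `[K]`.)

* `KAway N p n`      — the `[K]` input at torsion order `p ^ n`, Hecke clause for `ℓ ≠ p`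
                       (`kAway_of_kStatement`: it follows from `S29.KStatement N (p ^ n)`);
* `LevelStatement`   — [Level]: a level exists at every `n` (from `KAway N p n`);
* `PseudoStatement`  — [Pseudo]: the determinant `(t, d)` from the levels, the `𝒪`-valued
                       `p`-adic cyclotomic character `d` and weak Frobenius density `[FD]`.
Glue: `S30/Plan.lean` (`detStatement_of_leaves`).
-/
import Mathlib
import Fermat.Agent.S29.Defs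
import Fermat.Agent.S30.LimLevel

set_option autoImplicit false

open ModularCurve

namespace Fermat.Agent.S30

open Fermat.Agent.S29 (Qb GQ)
open Fermat.Agent.S30.LimLevel

/-! ### The `[K]` input -/

/-- **[K] away from `p`** at torsion order `p ^ n`: an additive `θ : Lpar N → J₀(N)` with values
in the `p ^ n`-torsion, with kernel `p ^ n · Lpar N`, commuting with `T_ℓ` for all primes
`ℓ ∤ N`, `ℓ ≠ p`. -/
def KAway (N p n : ℕ) [NeZero N] : Prop :=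
  ∃ θ : Fermat.Agent.S41.Lpar N →+ JZero N,
    (∀ u : Fermat.Agent.S41.Lpar N, p ^ n • θ u = 0) ∧
    (∀ u : Fermat.Agent.S41.Lpar N, θ u = 0 →
      ∃ z : Fermat.Agent.S41.Lpar N, u = ((p ^ n : ℕ) : ℤ) • z) ∧
    (∀ (ℓ : ℕ) (hℓ : ℓ.Prime) (hℓN : ¬ ℓ ∣ N), ℓ ≠ p → ∀ u : Fermat.Agent.S41.Lpar N,
      θ (Fermat.Agent.S29.heckeLpar N ℓ hℓ hℓN u) = heckeOperatorBar N ⟨ℓ, hℓ⟩ (θ u))

/-- The `[K]` statement of S29 at the modulus `p ^ n` gives `KAway N p n`. -/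
theorem kAway_of_kStatement {N p : ℕ} [NeZero N] (hp : p.Prime) (n : ℕ)
    (h : Fermat.Agent.S29.KStatement N (p ^ n)) : KAway N p n := by
  obtain ⟨θ, h1, h2, h3⟩ := h
  refine ⟨θ, h1, h2, fun ℓ hℓ hℓN hℓp u => h3 ℓ hℓ hℓN ?_ u⟩
  intro hℓpn
  rcases Nat.eq_zero_or_pos n with hn | hn
  · rw [hn, pow_zero] at hℓpn
    exact hℓ.one_lt.ne' hℓpn
  · have hdvd : p ∣ ℓ := hℓpn ▸ dvd_pow_self p hn.ne'
    exact hℓp ((Nat.prime_dvd_prime_iff_eq hp hℓ).mp hdvd).symm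

/-! ### Leaf statements -/

/-- **[Level]** a level exists at every `n`, from `[K]` at `p ^ n` (model: the `𝒪`-span of the
Galois orbit of `(1 ⊗ θ_n) e` in `𝒪 ⊗ J₀(N)[p ^ n]`; inputs `[Eig∞]`, `[Flat]`, `[Mod_n]`, and
the S37 core datum at `p ^ n` through `S29/ESUse`, `S29/GalHecke`, `S29/FinLevel`). -/
def LevelStatement : Prop :=
  ∀ (N p : ℕ) [NeZero N], p.Prime → ∀ S : Finset ℕ, p ∈ S →
    (∀ q : ℕ, q.Prime → q ∣ N → q ∈ S) →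
    ∀ (𝒪 : Type) [CommRing 𝒪] [IsDomain 𝒪] [IsDiscreteValuationRing 𝒪] [CharZero 𝒪]
      (χ : CuspForm.heckeAlgebra N 2 (↑S : Set ℕ) →+* 𝒪) (n : ℕ),
      KAway N p n →
      Nonempty (Level 𝒪 p n (goodPrime N (↑S : Set ℕ)) (heckeEig N (↑S : Set ℕ) χ)
        (unrPrime N p))

/-- **[Pseudo]** the determinant `(t, d)` from the levels: `𝒪` separated and complete for the
`p`-adic topology, `d` the `𝒪`-valued `p`-adic cyclotomic character (in the SPEC form: if `g`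
acts on `μ_{p^n}` as the `k`-th power then `d g ≡ k mod p ^ n`), weak Frobenius density `[FD]`
for the good primes, and a level at every `n`. -/
def PseudoStatement : Prop :=
  ∀ (𝒪 : Type) [CommRing 𝒪] (p : ℕ),
    (∀ a : 𝒪, (∀ n : ℕ, (p : 𝒪) ^ n ∣ a) → a = 0) →
    (∀ f : ℕ → 𝒪, (∀ n, (p : 𝒪) ^ n ∣ f (n + 1) - f n) → ∃ L : 𝒪, ∀ n, (p : 𝒪) ^ n ∣ f n - L) →
    ∀ (good : ℕ → Prop) (a : ℕ → 𝒪) (unr : ℕ → Prop) (S : Finset ℕ),
    (∀ ℓ : ℕ, ℓ.Prime → ℓ ∉ S → good ℓ) → Fermat.Agent.S29.FDStatement →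
    ∀ d : GQ →* 𝒪ˣ,
    (∀ (g : GQ) (n k : ℕ), (∀ ζ : Qb, ζ ^ (p ^ n) = 1 → g ζ = ζ ^ k) →
      (p : 𝒪) ^ n ∣ ((d g : 𝒪ˣ) : 𝒪) - (k : 𝒪)) →
    (∀ n : ℕ, ∃ L : IntermediateField ℚ Qb, FiniteDimensional ℚ L ∧
      ∀ σ : GQ, (∀ x ∈ L, σ x = x) → ∀ ζ : Qb, ζ ^ (p ^ n) = 1 → σ ζ = ζ) →
    (∀ ℓ : ℕ, good ℓ → ∀ A : ValuationSubring Qb, A.LiesOverPrime ℓ →
      ∀ σ : GQ, A.IsFrobeniusAt σ ℓ → ∀ (n : ℕ) (ζ : Qb), ζ ^ (p ^ n) = 1 → σ ζ = ζ ^ ℓ) →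
    (∀ q : ℕ, unr q → ∀ P : ValuationSubring Qb, P.LiesOverPrime q →
      ∀ τ ∈ P.inertiaSubgroupIn ℚ, ∀ (n : ℕ) (ζ : Qb), ζ ^ (p ^ n) = 1 → τ ζ = ζ) →
    (∀ n : ℕ, Nonempty (Level 𝒪 p n good a unr)) →
    ∃ t : GQ → 𝒪, t 1 = 2 ∧ (∀ g h : GQ, t (g * h) = t (h * g)) ∧
      (∀ g h : GQ, t (g * h) + ((d h : 𝒪ˣ) : 𝒪) * t (g * h⁻¹) = t g * t h) ∧
      (∀ n : ℕ, ∃ L : IntermediateField ℚ Qb, FiniteDimensional ℚ L ∧
        ∀ σ : GQ, (∀ x ∈ L, σ x = x) → ∀ g : GQ, (p : 𝒪) ^ n ∣ t (σ * g) - t g) ∧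
      (∀ ℓ : ℕ, good ℓ → ∀ A : ValuationSubring Qb, A.LiesOverPrime ℓ →
        ∀ σ : GQ, A.IsFrobeniusAt σ ℓ → t σ = a ℓ ∧ ((d σ : 𝒪ˣ) : 𝒪) = (ℓ : 𝒪)) ∧
      (∀ q : ℕ, unr q → ∀ P : ValuationSubring Qb, P.LiesOverPrime q →
        ∀ τ ∈ P.inertiaSubgroupIn ℚ, ∀ g : GQ, t (τ * g) = t g) ∧
      (∃ c : GQ, c * c = 1 ∧ t c = 0 ∧ ((d c : 𝒪ˣ) : 𝒪) = -1)

end Fermat.Agent.S30
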