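/-
S30, leaf (1) [Eig∞] (A copy; owner: helper97) — every point of the Hecke algebra occurs in the
parabolic lattice.

Route: the determinant trick.  The coordinates (in a `ℤ`-basis `b` of `Lpar N`) of the period
class `periodHomPair N (f, 0)` of a cusp form `f` are `r` additive functionals on `S₂(Γ₀(N))`
which are jointly injective (`S21`) and satisfy
`λ_m (T_ℓ f) = ∑ n, M_ℓ (m, n) * λ_n (f)` (`S16/HeckePairB`), `M_ℓ` the integer matrix of
`T_ℓ` on `Lpar N`.  Hence for any `r` rows `(ℓ_a, m_a)` the matrix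
`A (a, n) = M_{ℓ_a} (m_a, n) - δ (m_a, n) T_{ℓ_a}` over the commutative ring
`𝕋 = heckeAlgebra N 2 S` has `det A = 0` (adjugate; `𝕋` acts faithfully on forms).  Applying a
ring homomorphism `χ : 𝕋 → k` to a field, all `r × r` minors of the stacked matrix
`(M_ℓ - χ (T_ℓ))` over `k` vanish, so there is a common kernel vector (`S41/FSAlg`).
No eigenform, no embedding into `ℂ`, no integrality and no hypothesis on the characteristic are
needed.

* `exists_coord_of_ringHom_abs` : the abstract statement;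
* `exists_coord_of_ringHom`     : **(A)** `χ : 𝕋 →+* k`, `k` any field — nonzero eigen-coordinates;
* `exists_primitive_of_ne_zero` : scaling to a primitive vector over a valuation ring;
* `exists_primitive_coord`      : **(B)** `χ : 𝕋 →+* 𝒪`, `𝒪` a valuation ring — eigen-coordinates
  with one coordinate equal to `1`;
* `exists_eigen`                : **(C) = [Eig∞]** the primitive eigenvector `e ∈ 𝒪 ⊗ Lpar N`.
-/
import Mathlib
import Fermat.Prelude.Def_CuspForm_HeckeAlgebra
import Fermat.Agent.S21.Main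
import Fermat.Agent.S16.HeckePairB
import Fermat.Agent.S16.LiftLemma
import Fermat.Agent.S22.GammaFG
import Fermat.Agent.S41.Defs
import Fermat.Agent.S41.ParMem
import Fermat.Agent.S41.LparFree
import Fermat.Agent.S41.FSAlg
import Fermat.Agent.S29.Defs
import Fermat.Agent.S29.EigAlgB

set_option autoImplicit false

open CongruenceSubgroup ModularCurve ModularCurve.Period
open scoped MatrixGroups TensorProduct

namespace Fermat.Agent.S30.EigInf

open Fermat.Agent.S16 (heckeTHom heckeUHom tData)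
open Fermat.Agent.S41 (Lpar)
open Fermat.Agent.S29 (Jp heckeJp heckeLpar KStatement)
open Module

/-- **The determinant trick.**  Let `L` be a lattice with `ℤ`-basis `b`, complexified through
`j : L → W` (independent over `ℂ`), with operators `T i` on `L` and `TW i` on `W` intertwined by
`j`.  Let `P : V → W` be an injective `ℂ`-linear map with image in the span of `j L`, and let a
commutative ring `𝕋` act faithfully on `V` (through `φ`) with `P ∘ φ (t i) = TW i ∘ P`.  Then for
EVERY ring homomorphism `χ` from `𝕋` to a field `k` there is a nonzero vector `x ∈ k ^ r` which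
is a common eigenvector of the integer matrices of the `T i` with eigenvalues `χ (t i)`. -/
theorem exists_coord_of_ringHom_abs {I : Type*} {L : Type*} [AddCommGroup L] {r : ℕ}
    (b : Basis (Fin r) ℤ L) {W : Type*} [AddCommGroup W] [Module ℂ W] (j : L →+ W)
    (hind : LinearIndependent ℂ (fun n => j (b n)))
    (T : I → L →+ L) (TW : I → W →ₗ[ℂ] W) (hj : ∀ i x, j (T i x) = TW i (j x))
    {V : Type*} [AddCommGroup V] [Module ℂ V] (P : V →ₗ[ℂ] W) (hPinj : Function.Injective P)
    (hPspan : ∀ f, P f ∈ Submodule.span ℂ (Set.range j))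
    {𝕋 : Type*} [CommRing 𝕋] (φ : 𝕋 →+* Module.End ℂ V) (hφ : Function.Injective φ)
    (t : I → 𝕋) (hP : ∀ i f, P (φ (t i) f) = TW i (P f))
    {k : Type*} [Field k] (χ : 𝕋 →+* k) :
    ∃ x : Fin r → k, x ≠ 0 ∧
      ∀ i m, ∑ n, ((b.repr (T i (b n)) m : ℤ) : k) * x n = χ (t i) * x m := by
  classical
  let e : Fin r → W := fun n => j (b n)
  let M : I → Fin r → Fin r → ℤ := fun i m n => b.repr (T i (b n)) m
  have hTb : ∀ i n, T i (b n) = ∑ m, M i m n • b m := fun i n => (b.sum_repr (T i (b n))).symm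
  have hjx : ∀ x : L, j x = ∑ n, ((b.repr x n : ℤ) : ℂ) • e n := by
    intro x
    conv_lhs => rw [← b.sum_repr x]
    rw [map_sum]
    refine Finset.sum_congr rfl fun n _ => ?_
    rw [map_zsmul, Int.cast_smul_eq_zsmul]
  have hspan_le : Submodule.span ℂ (Set.range j) ≤ Submodule.span ℂ (Set.range e) := by
    rw [Submodule.span_le]
    rintro _ ⟨x, rfl⟩
    rw [hjx x]
    exact Submodule.sum_mem _ fun n _ => Submodule.smul_mem _ _ (Submodule.subset_span ⟨n, rfl⟩)
  -- coordinates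
  choose c hc using fun f : V =>
    (Submodule.mem_span_range_iff_exists_fun ℂ).mp (hspan_le (hPspan f))
  have hcuniq : ∀ (f : V) (d : Fin r → ℂ), P f = ∑ n, d n • e n → c f = d := by
    intro f d hd
    have h1 : ∑ n, (c f n - d n) • e n = 0 := by
      simp_rw [sub_smul]
      rw [Finset.sum_sub_distrib, hc f, ← hd, sub_self]
    funext n
    exact sub_eq_zero.mp (Fintype.linearIndependent_iff.mp hind _ h1 n)
  have hcadd : ∀ f g : V, c (f + g) = c f + c g := by
    intro f g
    apply hcuniq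
    rw [map_add, ← hc f, ← hc g, ← Finset.sum_add_distrib]
    refine Finset.sum_congr rfl fun n _ => ?_
    rw [Pi.add_apply, add_smul]
  let Λ : V →+ (Fin r → ℂ) := AddMonoidHom.mk' c hcadd
  have hΛ : ∀ f, Λ f = c f := fun f => rfl
  have hΛinj : ∀ f, Λ f = 0 → f = 0 := by
    intro f hf
    apply hPinj
    rw [map_zero, ← hc f, ← hΛ f, hf]
    simp
  -- equivariance
  have hequiv : ∀ i f m, Λ (φ (t i) f) m = ∑ n, ((M i m n : ℤ) : ℂ) * Λ f n := by
    intro i f m
    have h1 : c (φ (t i) f) = fun m => ∑ n, ((M i m n : ℤ) : ℂ) * c f n := by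
      apply hcuniq
      rw [hP, ← hc f, map_sum]
      have h0 : ∀ n, TW i (c f n • e n) = ∑ m, (((M i m n : ℤ) : ℂ) * c f n) • e m := by
        intro n
        rw [map_smul, ← hj, hTb, map_sum, Finset.smul_sum]
        refine Finset.sum_congr rfl fun m _ => ?_
        rw [map_zsmul, ← Int.cast_smul_eq_zsmul ℂ, smul_smul, mul_comm]
      simp_rw [h0]
      rw [Finset.sum_comm]
      refine Finset.sum_congr rfl fun m _ => ?_
      rw [Finset.sum_smul]
    rw [hΛ, h1]
    rfl
  -- the rows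
  let R : I × Fin r → Fin r → k := fun s n =>
    ((M s.1 s.2 n : ℤ) : k) - if s.2 = n then χ (t s.1) else 0
  have hdet : ∀ g : Fin r → I × Fin r, (Matrix.of fun a => R (g a)).det = 0 := by
    intro g
    let A : Matrix (Fin r) (Fin r) 𝕋 :=
      Matrix.of fun a n => ((M (g a).1 (g a).2 n : ℤ) : 𝕋) - if (g a).2 = n then t (g a).1 else 0
    -- each row kills the coordinates
    have hrow : ∀ (a : Fin r) (f : V), ∑ n, Λ (φ (A a n) f) n = 0 := by
      intro a f
      have h1 : ∀ n, Λ (φ (A a n) f) n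
          = ((M (g a).1 (g a).2 n : ℤ) : ℂ) * Λ f n
            - if (g a).2 = n then Λ (φ (t (g a).1) f) n else 0 := by
        intro n
        simp only [A, Matrix.of_apply, map_sub, map_intCast, LinearMap.sub_apply]
        rw [Pi.sub_apply]
        have h0 : Λ (((M (g a).1 (g a).2 n : ℤ) : Module.End ℂ V) f) n
            = ((M (g a).1 (g a).2 n : ℤ) : ℂ) * Λ f n := by
          rw [Module.End.intCast_apply, map_zsmul, Pi.smul_apply, zsmul_eq_mul]
        rw [h0]
        split_ifs with hn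
        · rfl
        · rw [map_zero, LinearMap.zero_apply, map_zero, Pi.zero_apply]
      simp_rw [h1]
      rw [Finset.sum_sub_distrib, Finset.sum_ite_eq, if_pos (Finset.mem_univ _),
        hequiv, sub_self]
    have hA : A.det = 0 := by
      apply hφ
      rw [map_zero]
      ext f
      rw [LinearMap.zero_apply]
      apply hΛinj
      funext q
      rw [Pi.zero_apply]
      have h1 : ∀ n, (A.adjugate * A) q n = if q = n then A.det else 0 := by
        intro n
        rw [Matrix.adjugate_mul, Matrix.smul_apply, Matrix.one_apply, smul_eq_mul]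
        split_ifs
        · rw [mul_one]
        · rw [mul_zero]
      have h2 : Λ (φ A.det f) q = ∑ n, Λ (φ ((A.adjugate * A) q n) f) n := by
        simp_rw [h1]
        rw [Finset.sum_eq_single q]
        · rw [if_pos rfl]
        · intro n _ hn
          rw [if_neg (Ne.symm hn), map_zero, LinearMap.zero_apply, map_zero, Pi.zero_apply]
        · intro h
          exact absurd (Finset.mem_univ q) h
      have h3 : ∀ n, Λ (φ ((A.adjugate * A) q n) f) n
          = ∑ a, Λ (φ (A a n) (φ (A.adjugate q a) f)) n := by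
        intro n
        rw [Matrix.mul_apply, map_sum, LinearMap.sum_apply, map_sum, Finset.sum_apply]
        refine Finset.sum_congr rfl fun a _ => ?_
        rw [mul_comm, map_mul, Module.End.mul_apply]
      rw [h2]
      simp_rw [h3]
      rw [Finset.sum_comm]
      exact Finset.sum_eq_zero fun a _ => hrow a _
    have hmat : (Matrix.of fun a => R (g a)) = χ.mapMatrix A := by
      ext a n
      simp only [RingHom.mapMatrix_apply, Matrix.map_apply, Matrix.of_apply, A, R, map_sub,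
        map_intCast]
      split_ifs with hn
      · rfl
      · rw [map_zero]
    rw [hmat, ← RingHom.map_det, hA, map_zero]
  obtain ⟨x, hx0, hx⟩ := Fermat.Agent.S41.FSAlg.exists_ne_zero_dotProduct_eq_zero R hdet
  refine ⟨x, hx0, ?_⟩
  intro i m
  have h1 := hx (i, m)
  simp only [dotProduct, R, sub_mul, Finset.sum_sub_distrib, ite_mul, zero_mul,
    Finset.sum_ite_eq, Finset.mem_univ, if_true] at h1
  exact sub_eq_zero.mp h1

/-- **(A)** Every ring homomorphism `χ` from the Hecke algebra `𝕋 = heckeAlgebra N 2 S` to a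
field `k` (ANY field) occurs in `k ⊗ Lpar N`: in any `ℤ`-basis `b` of `Lpar N` there is a nonzero
`x : Fin r → k` which is a common eigenvector of the integer matrices of all `T_ℓ`
(`ℓ ∤ N` prime, `ℓ ∉ S`) with eigenvalues `χ (T_ℓ)`. -/
theorem exists_coord_of_ringHom (N : ℕ) [NeZero N] (S : Set ℕ) {r : ℕ}
    (b : Module.Basis (Fin r) ℤ (Lpar N)) {k : Type*} [Field k]
    (χ : CuspForm.heckeAlgebra N 2 S →+* k) :
    ∃ x : Fin r → k, x ≠ 0 ∧
      ∀ (ℓ : ℕ) (hℓ : ℓ.Prime) (hℓN : ¬ ℓ ∣ N) (hℓS : ℓ ∉ S) (m : Fin r),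
        ∑ n, ((b.repr (heckeLpar N ℓ hℓ hℓN (b n)) m : ℤ) : k) * x n
          = χ (CuspForm.heckeAlgebra.T hℓ hℓN hℓS) * x m := by
  classical
  have hfg : Group.FG ↥(Gamma0 N) := Fermat.Agent.S22.gamma0_fg N
  -- the index type
  let I : Type := {ℓ : ℕ // ℓ.Prime ∧ ¬ ℓ ∣ N ∧ ℓ ∉ S}
  have hprime : ∀ i : I, Fact (i.1.Prime) := fun i => ⟨i.2.1⟩
  -- the operators on the lattice
  let T : I → (Lpar N →+ Lpar N) := fun i => (heckeLpar N i.1 i.2.1 i.2.2.1).toAddMonoidHom
  -- the operators on complex classes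
  let TW : I → ((Additive (Gamma0 N) →+ ℂ) →ₗ[ℂ] (Additive (Gamma0 N) →+ ℂ)) := fun i =>
    haveI := hprime i
    { toFun := fun φ => heckeTHom N i.1 i.2.2.1 φ
      map_add' := fun φ ψ => (tData N i.1 i.2.2.1).op_add φ ψ
      map_smul' := fun c φ => (tData N i.1 i.2.2.1).op_smul c φ }
  -- complexification
  let j : Lpar N →+ (Additive (Gamma0 N) →+ ℂ) :=
    { toFun := fun x => (Int.castAddHom ℂ).comp x.1
      map_zero' := AddMonoidHom.comp_zero _
      map_add' := fun x y => AddMonoidHom.comp_add _ x.1 y.1 }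
  have hj : ∀ i x, j (T i x) = TW i (j x) := fun i x =>
    haveI := hprime i
    ((tData N i.1 i.2.2.1).op_comp (Int.castAddHom ℂ) x.1).symm
  have hind : LinearIndependent ℂ (fun n => j (b n)) :=
    Fermat.Agent.S41.FSAlg.linearIndependent_intCast_comp (fun n => (b n).1)
      (b.linearIndependent.map' (Lpar N).subtype (Submodule.ker_subtype _))
  -- the period map on the first factor
  let P : CuspForm (Gamma0 N) 2 →ₗ[ℂ] (Additive (Gamma0 N) →+ ℂ) :=
    (periodHomPair N).comp (LinearMap.inl ℂ (CuspForm (Gamma0 N) 2) (CuspForm (Gamma0 N) 2))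
  have hPdef : ∀ f, P f = periodHomPair N (f, 0) := fun f => rfl
  have hPinj : Function.Injective P := by
    intro f g hfg'
    rw [hPdef, hPdef] at hfg'
    exact congrArg Prod.fst (Fermat.Agent.S21.periodHomPair_injective_Gamma0 N hfg')
  have hPspan : ∀ f, P f ∈ Submodule.span ℂ (Set.range j) := by
    intro f
    have hvpar : P f ∈ parabolicHoms ℂ (Gamma0 N) ℂ :=
      Fermat.Agent.S21.range_periodHomPair_le_Gamma0 N ⟨(f, 0), rfl⟩
    have h1 := Fermat.Agent.S16.LiftLemma.mem_span_toC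
      {γ : Gamma0 N | ((γ : SL(2, ℤ)) : Matrix (Fin 2) (Fin 2) ℤ).trace ^ 2 = 4} (P f)
      (fun γ hγ => hvpar γ hγ)
    refine Submodule.span_mono ?_ h1
    rintro _ ⟨ψ, hψ, rfl⟩
    exact ⟨⟨ψ, fun γ hγ => hψ γ hγ⟩, rfl⟩
  -- the Hecke algebra acting on forms
  let φ : CuspForm.heckeAlgebra N 2 S →+* Module.End ℂ (CuspForm (Gamma0 N) 2) :=
    { toFun := fun t => t.1
      map_one' := rfl
      map_mul' := fun _ _ => rfl
      map_zero' := rfl
      map_add' := fun _ _ => rfl }
  have hφ : Function.Injective φ := Subtype.val_injective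
  let t : I → CuspForm.heckeAlgebra N 2 S := fun i =>
    CuspForm.heckeAlgebra.T i.2.1 i.2.2.1 i.2.2.2
  have hP : ∀ i f, P (φ (t i) f) = TW i (P f) := by
    intro i f
    have := hprime i
    have h1 := Fermat.Agent.S16.HeckePairB.periodHomPair_heckeTLin i.2.1 i.2.2.1 f 0
    rw [map_zero] at h1
    exact h1
  obtain ⟨x, hx0, hx⟩ := exists_coord_of_ringHom_abs b j hind T TW hj P hPinj hPspan φ hφ t hP χ
  exact ⟨x, hx0, fun ℓ hℓ hℓN hℓS m => hx ⟨ℓ, hℓ, hℓN, hℓS⟩ m⟩

/-- Scaling a nonzero vector over the fraction field of a valuation ring to a vector over the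
ring with one coordinate equal to `1` (divide by a coordinate of maximal absolute value). -/
theorem exists_primitive_of_ne_zero {𝒪 : Type*} [CommRing 𝒪] [IsDomain 𝒪] [ValuationRing 𝒪]
    {K : Type*} [Field K] [Algebra 𝒪 K] [IsFractionRing 𝒪 K] {r : ℕ} (x : Fin r → K)
    (hx : x ≠ 0) :
    ∃ (i : Fin r) (y : Fin r → 𝒪), x i ≠ 0 ∧ y i = 1 ∧
      ∀ n, algebraMap 𝒪 K (y n) = x n / x i := by
  classical
  obtain ⟨n₀, hn₀⟩ := Function.ne_iff.mp hx
  have hne : Nonempty (Fin r) := ⟨n₀⟩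
  obtain ⟨i, hi⟩ := Finite.exists_max (fun n => ValuationRing.valuation 𝒪 K (x n))
  have hxi : x i ≠ 0 := by
    intro h0
    apply hn₀
    have h1 := hi n₀
    simp only [h0, map_zero] at h1
    have h2 : ValuationRing.valuation 𝒪 K (x n₀) = 0 := le_antisymm h1 zero_le
    exact (Valuation.zero_iff _).mp h2
  have hvi : 0 < ValuationRing.valuation 𝒪 K (x i) :=
    lt_of_le_of_ne zero_le (fun h => hxi ((Valuation.zero_iff _).mp h.symm))
  have hy : ∀ n, ∃ a : 𝒪, algebraMap 𝒪 K a = x n / x i := by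
    intro n
    apply (ValuationRing.mem_integer_iff 𝒪 K _).mp
    rw [Valuation.mem_integer_iff, map_div₀]
    exact (div_le_one₀ hvi).mpr (hi n)
  choose y hy using hy
  refine ⟨i, y, hxi, ?_, hy⟩
  apply IsFractionRing.injective 𝒪 K
  rw [hy i, div_self hxi, map_one]

/-- **(B)** The primitive coordinate vector of a ring homomorphism `χ : 𝕋 → 𝒪` into a valuation
ring (e.g. a discrete valuation ring): in any `ℤ`-basis `b` of `Lpar N` there is a vector
`x : Fin r → 𝒪` with one coordinate equal to `1` which is a common eigenvector of the integer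
matrices of all `T_ℓ` (`ℓ ∤ N` prime, `ℓ ∉ S`) with eigenvalues `χ (T_ℓ)`. -/
theorem exists_primitive_coord (N : ℕ) [NeZero N] (S : Set ℕ) {r : ℕ}
    (b : Module.Basis (Fin r) ℤ (Lpar N)) {𝒪 : Type*} [CommRing 𝒪] [IsDomain 𝒪] [ValuationRing 𝒪]
    (χ : CuspForm.heckeAlgebra N 2 S →+* 𝒪) :
    ∃ x : Fin r → 𝒪, (∃ i, x i = 1) ∧
      ∀ (ℓ : ℕ) (hℓ : ℓ.Prime) (hℓN : ¬ ℓ ∣ N) (hℓS : ℓ ∉ S) (m : Fin r),
        ∑ n, ((b.repr (heckeLpar N ℓ hℓ hℓN (b n)) m : ℤ) : 𝒪) * x n
          = χ (CuspForm.heckeAlgebra.T hℓ hℓN hℓS) * x m := by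
  classical
  obtain ⟨x, hx0, hx⟩ := exists_coord_of_ringHom N S b
    ((algebraMap 𝒪 (FractionRing 𝒪)).comp χ)
  obtain ⟨i, y, hxi, hyi, hy⟩ := exists_primitive_of_ne_zero (𝒪 := 𝒪) x hx0
  refine ⟨y, ⟨i, hyi⟩, ?_⟩
  intro ℓ hℓ hℓN hℓS m
  apply IsFractionRing.injective 𝒪 (FractionRing 𝒪)
  rw [map_sum, map_mul, hy m]
  have h1 := hx ℓ hℓ hℓN hℓS m
  rw [RingHom.comp_apply] at h1
  rw [← mul_div_assoc, ← h1, Finset.sum_div]
  refine Finset.sum_congr rfl fun n _ => ?_
  rw [map_mul, hy n, map_intCast, mul_div_assoc]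

/-- **(C) = [Eig∞].** For a ring homomorphism `χ : 𝕋 → 𝒪` into a valuation ring there is a
PRIMITIVE `e ∈ 𝒪 ⊗ Lpar N` (if `a • e` is divisible by `c` then `c ∣ a`; in particular
`e ∉ 𝔪 • (𝒪 ⊗ Lpar N)`) with `(1 ⊗ T_ℓ) e = χ (T_ℓ) • e` for all primes `ℓ ∤ N`, `ℓ ∉ S`. -/
theorem exists_eigen (N : ℕ) [NeZero N] (S : Set ℕ)
    {𝒪 : Type*} [CommRing 𝒪] [IsDomain 𝒪] [ValuationRing 𝒪]
    (χ : CuspForm.heckeAlgebra N 2 S →+* 𝒪) :
    ∃ e : 𝒪 ⊗[ℤ] (Lpar N),
      (∀ (a c : 𝒪) (e' : 𝒪 ⊗[ℤ] (Lpar N)), a • e = c • e' → c ∣ a) ∧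
      ∀ (ℓ : ℕ) (hℓ : ℓ.Prime) (hℓN : ¬ ℓ ∣ N) (hℓS : ℓ ∉ S),
        (heckeLpar N ℓ hℓ hℓN).baseChange 𝒪 e = χ (CuspForm.heckeAlgebra.T hℓ hℓN hℓS) • e := by
  classical
  have hfin : Module.Finite ℤ (Lpar N) := Fermat.Agent.S41.LparFree.lpar_finite N
  have hfree : Module.Free ℤ (Lpar N) := Fermat.Agent.S41.LparFree.lpar_free N
  set b := Module.finBasis ℤ (Lpar N) with hb
  obtain ⟨x, ⟨i, hxi⟩, hx⟩ := exists_primitive_coord N S b χ
  refine ⟨∑ n, x n ⊗ₜ[ℤ] (b n), ?_, ?_⟩
  · intro a c e' h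
    have h1 : (∑ n, x n ⊗ₜ[ℤ] (b n) : 𝒪 ⊗[ℤ] (Lpar N))
        = ∑ n, x n • (Algebra.TensorProduct.basis 𝒪 b) n := by
      refine Finset.sum_congr rfl fun n _ => ?_
      rw [Algebra.TensorProduct.basis_apply, TensorProduct.smul_tmul', smul_eq_mul, mul_one]
    have h2 := congrArg (fun z => (Algebra.TensorProduct.basis 𝒪 b).repr z i) h
    simp only [h1, map_smul, Module.Basis.repr_sum_self, Finsupp.smul_apply, smul_eq_mul, hxi,
      mul_one] at h2
    exact ⟨_, h2⟩
  · intro ℓ hℓ hℓN hℓS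
    exact Fermat.Agent.S29.EigB.baseChange_sum_tmul (k := 𝒪) (AddMonoidHom.id (Lpar N)) b x
      (heckeLpar N ℓ hℓ hℓN) (heckeLpar N ℓ hℓ hℓN) (fun u => rfl)
      (Matrix.of fun i j => b.repr (heckeLpar N ℓ hℓ hℓN (b i)) j)
      (fun i => (b.sum_repr _).symm)
      (χ (CuspForm.heckeAlgebra.T hℓ hℓN hℓS))
      (fun j => by
        rw [← hx ℓ hℓ hℓN hℓS j]
        refine Finset.sum_congr rfl fun i _ => ?_
        rw [mul_comm]
        rfl)

end Fermat.Agent.S30.EigInf
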