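/-
S30 — EigLevel.lean (helper11).  The level-`m` transport + [Flat] half of leaf [Eig∞]
(lead's route #2062, items (1)/(2); split with helper97, whose `S30/EigInf.lean` supplies the
primitive coordinate vector by the determinant trick).

* `dvd_of_smul_sum_tmul_eq_zero` ([Flat], Mathlib-only): for `θ : L → J` additive with
  `ker θ ⊆ m • L`, a `ℤ`-basis `b` of `L` and a flat `ℤ`-algebra `𝒪`, the annihilator in `𝒪` of
  `∑ x n ⊗ θ (b n) ∈ 𝒪 ⊗ J` lies in `m 𝒪` as soon as some `x i = 1`.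
* `exists_eigen_level_of_coord`: a primitive common eigen-coordinate vector `x` of the integer
  matrices of the `T_ℓ` (`ℓ ∉ S`) on `Lpar N`, with eigenvalues `χ (T_ℓ)`, is transported by the
  `θ` of `KStatement N m` to an eigenvector `w ∈ 𝒪 ⊗ J₀(N)[m]` with annihilator `⊆ m 𝒪`.
-/
import Mathlib
import Fermat.Prelude.Def_CuspForm_HeckeAlgebra
import Fermat.Agent.S29.Defs

set_option autoImplicit false

open scoped TensorProduct

namespace Fermat.Agent.S30.EigLevel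

section Flat

variable {𝒪 : Type*} [CommRing 𝒪] {L J : Type*} [AddCommGroup L] [AddCommGroup J]

/-- The `i`-th coordinate functional on `𝒪 ⊗ L` attached to a `ℤ`-basis of `L`. -/
noncomputable def coordO {r : ℕ} (b : Module.Basis (Fin r) ℤ L) (i : Fin r) :
    𝒪 ⊗[ℤ] L →ₗ[𝒪] 𝒪 :=
  (TensorProduct.AlgebraTensorModule.rid ℤ 𝒪 𝒪).toLinearMap ∘ₗ (b.coord i).baseChange 𝒪

theorem coordO_tmul {r : ℕ} (b : Module.Basis (Fin r) ℤ L) (i : Fin r) (c : 𝒪) (u : L) :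
    coordO b i (c ⊗ₜ[ℤ] u) = c * ((b.repr u i : ℤ) : 𝒪) := by
  simp [coordO, mul_comm]

theorem coordO_sum_tmul {r : ℕ} (b : Module.Basis (Fin r) ℤ L) (i : Fin r) (x : Fin r → 𝒪) :
    coordO b i (∑ n, x n ⊗ₜ[ℤ] b n) = x i := by
  classical
  rw [map_sum]
  simp_rw [coordO_tmul, Module.Basis.repr_self, Finsupp.single_apply]
  simp

/-- Every coordinate of an element in the image of `𝒪 ⊗ ker θ` is divisible by `m`, if
`ker θ ⊆ m • L`. -/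
theorem dvd_coordO_of_mem_range {r : ℕ} (b : Module.Basis (Fin r) ℤ L) (θ : L →ₗ[ℤ] J) (m : ℕ)
    (hker : ∀ u, θ u = 0 → ∃ z, u = (m : ℤ) • z) (i : Fin r)
    (t : 𝒪 ⊗[ℤ] (LinearMap.ker θ)) :
    (m : 𝒪) ∣ coordO b i ((LinearMap.ker θ).subtype.lTensor 𝒪 t) := by
  induction t using TensorProduct.induction_on with
  | zero => simp
  | tmul c u =>
    obtain ⟨z, hz⟩ := hker (u : L) u.2
    rw [LinearMap.lTensor_tmul, Submodule.subtype_apply, coordO_tmul, hz, map_smul]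
    refine ⟨c * ((b.repr z i : ℤ) : 𝒪), ?_⟩
    simp only [Finsupp.smul_apply, smul_eq_mul, Int.cast_mul, Int.cast_natCast]
    ring
  | add t₁ t₂ h₁ h₂ =>
    rw [map_add, map_add]
    exact dvd_add h₁ h₂

/-- **[Flat].**  Let `θ : L → J` be additive with `ker θ ⊆ m • L`, `b` a `ℤ`-basis of `L` and `𝒪`
a flat `ℤ`-algebra.  If `x : Fin r → 𝒪` has a coordinate equal to `1`, then the annihilator in
`𝒪` of `∑ x n ⊗ θ (b n) ∈ 𝒪 ⊗ J` is contained in `m 𝒪`. -/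
theorem dvd_of_smul_sum_tmul_eq_zero [Module.Flat ℤ 𝒪] {r : ℕ} (b : Module.Basis (Fin r) ℤ L)
    (θ : L →ₗ[ℤ] J) (m : ℕ) (hker : ∀ u, θ u = 0 → ∃ z, u = (m : ℤ) • z)
    (x : Fin r → 𝒪) (hx1 : ∃ i, x i = 1) (a : 𝒪)
    (ha : a • (∑ n, x n ⊗ₜ[ℤ] θ (b n) : 𝒪 ⊗[ℤ] J) = 0) : (m : 𝒪) ∣ a := by
  classical
  obtain ⟨i, hi⟩ := hx1
  set e : 𝒪 ⊗[ℤ] L := ∑ n, x n ⊗ₜ[ℤ] b n with he
  -- `θ = ι ∘ g`
  set g : L →ₗ[ℤ] LinearMap.range θ := θ.rangeRestrict with hg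
  set ι : LinearMap.range θ →ₗ[ℤ] J := (LinearMap.range θ).subtype with hι
  have hθ : θ = ι ∘ₗ g := by
    ext u
    rfl
  have h1 : θ.lTensor 𝒪 (a • e) = 0 := by
    have h2 : θ.lTensor 𝒪 (a • e) = θ.baseChange 𝒪 (a • e) := rfl
    rw [h2, map_smul, he, map_sum]
    simp_rw [LinearMap.baseChange_tmul]
    exact ha
  rw [hθ, LinearMap.lTensor_comp, LinearMap.comp_apply] at h1
  have hinj : Function.Injective (ι.lTensor 𝒪) :=
    Module.Flat.lTensor_preserves_injective_linearMap ι (Submodule.injective_subtype _)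
  have h3 : g.lTensor 𝒪 (a • e) = 0 := hinj (by rw [h1, map_zero])
  have hex : Function.Exact ((LinearMap.ker g).subtype.lTensor 𝒪) (g.lTensor 𝒪) :=
    lTensor_exact 𝒪 (LinearMap.exact_subtype_ker_map g) (LinearMap.surjective_rangeRestrict θ)
  obtain ⟨t, ht⟩ := (hex (a • e)).mp h3
  have hkg : ∀ u, g u = 0 → ∃ z, u = (m : ℤ) • z := by
    intro u hu
    apply hker u
    have := congrArg Subtype.val hu
    simpa [hg] using this
  have h4 := dvd_coordO_of_mem_range b g m hkg i t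
  rw [ht, map_smul, he, coordO_sum_tmul, hi, smul_eq_mul, mul_one] at h4
  exact h4

/-- Base change of an additive operator on an eigen-coordinate sum: if `T (b n) = ∑ M k n • b k`
and `∑ₙ M k n * x n = c * x k`, then `∑ x n ⊗ θ (T (b n)) = c • ∑ x n ⊗ θ (b n)` for every
additive `θ`. -/
theorem sum_tmul_map_eq_smul {r : ℕ} (b : Module.Basis (Fin r) ℤ L) (T : L →ₗ[ℤ] L)
    (θ : L →ₗ[ℤ] J) (x : Fin r → 𝒪) (c : 𝒪)
    (hx : ∀ k, ∑ n, ((b.repr (T (b n)) k : ℤ) : 𝒪) * x n = c * x k) :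
    (∑ n, x n ⊗ₜ[ℤ] θ (T (b n)) : 𝒪 ⊗[ℤ] J) = c • ∑ n, x n ⊗ₜ[ℤ] θ (b n) := by
  classical
  have h1 : ∀ n, x n ⊗ₜ[ℤ] θ (T (b n))
      = ∑ k, (((b.repr (T (b n)) k : ℤ) : 𝒪) * x n) ⊗ₜ[ℤ] θ (b k) := by
    intro n
    conv_lhs => rw [← b.sum_repr (T (b n)), map_sum, TensorProduct.tmul_sum]
    refine Finset.sum_congr rfl fun k _ => ?_
    rw [map_zsmul, TensorProduct.tmul_smul, TensorProduct.smul_tmul', zsmul_eq_mul]
  simp_rw [h1]
  rw [Finset.sum_comm, Finset.smul_sum]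
  refine Finset.sum_congr rfl fun k _ => ?_
  rw [← TensorProduct.sum_tmul, hx k, TensorProduct.smul_tmul', smul_eq_mul]

end Flat

section Level

open ModularCurve AlgebraicCurve CongruenceSubgroup
open Fermat.Agent.S41 (Lpar)
open Fermat.Agent.S29 (Jp heckeJp heckeLpar KStatement mem_Jp_iff)

/-- **Level-`m` transport of a primitive eigen-coordinate vector** (the half (B) ⇒ (D) of leaf
[Eig∞], including [Flat]).  `hx` is the conclusion of `EigInf.exists_primitive_coord`. -/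
theorem exists_eigen_level_of_coord (N : ℕ) [NeZero N] (S : Set ℕ) {𝒪 : Type*} [CommRing 𝒪]
    [IsDomain 𝒪] [CharZero 𝒪] (χ : CuspForm.heckeAlgebra N 2 S →+* 𝒪) {r : ℕ}
    (b : Module.Basis (Fin r) ℤ (Lpar N)) (x : Fin r → 𝒪) (hx1 : ∃ i, x i = 1)
    (hx : ∀ (ℓ : ℕ) (hℓ : ℓ.Prime) (hℓN : ¬ ℓ ∣ N) (hℓS : ℓ ∉ S) (m : Fin r),
      ∑ n, ((b.repr (heckeLpar N ℓ hℓ hℓN (b n)) m : ℤ) : 𝒪) * x n
        = χ (CuspForm.heckeAlgebra.T hℓ hℓN hℓS) * x m)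
    (m : ℕ) (hK : KStatement N m) :
    ∃ (θ' : Lpar N →+ Jp N m) (w : 𝒪 ⊗[ℤ] (Jp N m)),
      w = ∑ n, x n ⊗ₜ[ℤ] θ' (b n) ∧
      (∀ a : 𝒪, a • w = 0 → (m : 𝒪) ∣ a) ∧
      ∀ (ℓ : ℕ) (hℓ : ℓ.Prime) (hℓN : ¬ ℓ ∣ N) (hℓS : ℓ ∉ S), ℓ ≠ m →
        (heckeJp N m ⟨ℓ, hℓ⟩).baseChange 𝒪 w = χ (CuspForm.heckeAlgebra.T hℓ hℓN hℓS) • w := by
  classical
  obtain ⟨θ, hθ1, hθ2, hθ3⟩ := hK
  -- corestriction of `θ` to the `m`-torsion
  let θ' : Lpar N →+ Jp N m :=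
    { toFun := fun u => ⟨θ u, (mem_Jp_iff N m (θ u)).mpr (hθ1 u)⟩
      map_zero' := Subtype.ext (map_zero θ)
      map_add' := fun u v => Subtype.ext (map_add θ u v) }
  have hker : ∀ u, θ'.toIntLinearMap u = 0 → ∃ z, u = (m : ℤ) • z := by
    intro u hu
    apply hθ2 u
    have h : ((θ' u : Jp N m) : JZero N) = 0 := congrArg Subtype.val hu
    exact h
  have hheck : ∀ (ℓ : ℕ) (hℓ : ℓ.Prime) (hℓN : ¬ ℓ ∣ N), ℓ ≠ m → ∀ u,
      heckeJp N m ⟨ℓ, hℓ⟩ (θ' u) = θ' (heckeLpar N ℓ hℓ hℓN u) := by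
    intro ℓ hℓ hℓN hℓm u
    apply Subtype.ext
    change heckeOperatorBar N ⟨ℓ, hℓ⟩ (θ u) = θ (heckeLpar N ℓ hℓ hℓN u)
    exact (hθ3 ℓ hℓ hℓN hℓm u).symm
  refine ⟨θ', ∑ n, x n ⊗ₜ[ℤ] θ' (b n), rfl, ?_, ?_⟩
  · intro a ha
    exact dvd_of_smul_sum_tmul_eq_zero b θ'.toIntLinearMap m hker x hx1 a ha
  · intro ℓ hℓ hℓN hℓS hℓm
    rw [map_sum]
    simp_rw [LinearMap.baseChange_tmul, hheck ℓ hℓ hℓN hℓm]
    exact sum_tmul_map_eq_smul b (heckeLpar N ℓ hℓ hℓN) θ'.toIntLinearMap x _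
      (fun k => hx ℓ hℓ hℓN hℓS k)

end Level

end Fermat.Agent.S30.EigLevel
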