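/-
S30 — leaf [Mod_n] (helper32): the level-`n` Galois module of the route, abstractly, with
coefficients in a commutative ring (generalisation of `S29/ModOrbit.lean` from a field to a ring).

Input: an abelian group `M` (in the application `J₀(N)(ℚ̄)[pⁿ]`) with an action of
`G_ℚ = Gal(ℚ̄/ℚ)` by additive maps, every element of `M` being fixed by the Galois group of a
number field ("finite level"); additive operators `TM i` commuting with the action; a commutative
ring `R` and a simultaneous eigenvector `v ∈ R ⊗[ℤ] M` of the `TM i` with eigenvalues `lam i`.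

Output: the `R`-span `V` of the Galois orbit of `v` — a finitely generated `R`-module with a
representation `r` of `G_ℚ` factoring through a finite level, generated by the orbit of a vector
`w`, embedded `G_ℚ`-equivariantly into `R ⊗[ℤ] M` with `w ↦ v`; every `σ` acting trivially on
`M` acts trivially on `V`, and every relation `σ² − TM i ∘ σ + c = 0` valid on `M` becomes
`r σ² − lam i • r σ + c = 0` on `V`.
-/
import Mathlib
import Fermat.Prelude.Def_GaloisRep_Residual

set_option autoImplicit false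

open scoped TensorProduct

namespace Fermat.Agent.S30.ModOrbitR

local notation "GQ" => (AlgebraicClosure ℚ ≃ₐ[ℚ] AlgebraicClosure ℚ)

section Core

variable {M : Type} [AddCommGroup M] (act : GQ →* AddMonoid.End M)
variable (R : Type) [CommRing R]

/-- The base change to `R` of the action of `σ`. -/
noncomputable def actR (σ : GQ) : R ⊗[ℤ] M →ₗ[R] R ⊗[ℤ] M :=
  LinearMap.baseChange R (act σ).toIntLinearMap

theorem actR_tmul (σ : GQ) (a : R) (m : M) : actR act R σ (a ⊗ₜ[ℤ] m) = a ⊗ₜ[ℤ] act σ m := by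
  rw [actR, LinearMap.baseChange_tmul]
  rfl

theorem actR_one (x : R ⊗[ℤ] M) : actR act R 1 x = x := by
  induction x using TensorProduct.induction_on with
  | zero => simp
  | tmul a m => rw [actR_tmul, map_one]; rfl
  | add x y hx hy => rw [map_add, hx, hy]

theorem actR_mul (σ τ : GQ) (x : R ⊗[ℤ] M) :
    actR act R (σ * τ) x = actR act R σ (actR act R τ x) := by
  induction x using TensorProduct.induction_on with
  | zero => simp
  | tmul a m => rw [actR_tmul, actR_tmul, actR_tmul, map_mul]; rfl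
  | add x y hx hy => rw [map_add, hx, hy, map_add, map_add]

variable {act}

/-- Every element of `R ⊗ M` has finite level. -/
theorem exists_level
    (hFL : ∀ m : M, ∃ L : IntermediateField ℚ (AlgebraicClosure ℚ), FiniteDimensional ℚ L ∧
      ∀ σ : GQ, (∀ z ∈ L, σ z = z) → act σ m = m)
    (x : R ⊗[ℤ] M) :
    ∃ L : IntermediateField ℚ (AlgebraicClosure ℚ), FiniteDimensional ℚ L ∧
      ∀ σ : GQ, (∀ z ∈ L, σ z = z) → actR act R σ x = x := by
  induction x using TensorProduct.induction_on with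
  | zero => exact ⟨⊥, inferInstance, fun σ _ => map_zero _⟩
  | tmul a m =>
    obtain ⟨L, hL, h⟩ := hFL m
    exact ⟨L, hL, fun σ hσ => by rw [actR_tmul, h σ hσ]⟩
  | add x y hx hy =>
    obtain ⟨L₁, hL₁, h₁⟩ := hx
    obtain ⟨L₂, hL₂, h₂⟩ := hy
    refine ⟨L₁ ⊔ L₂, inferInstance, fun σ hσ => ?_⟩
    rw [map_add, h₁ σ fun z hz => hσ z ((le_sup_left : L₁ ≤ L₁ ⊔ L₂) hz),
      h₂ σ fun z hz => hσ z ((le_sup_right : L₂ ≤ L₁ ⊔ L₂) hz)]

/-- A finite set of elements of `R ⊗ M` has a common finite level. -/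
theorem exists_level_finset
    (hFL : ∀ m : M, ∃ L : IntermediateField ℚ (AlgebraicClosure ℚ), FiniteDimensional ℚ L ∧
      ∀ σ : GQ, (∀ z ∈ L, σ z = z) → act σ m = m)
    (S : Finset (R ⊗[ℤ] M)) :
    ∃ L : IntermediateField ℚ (AlgebraicClosure ℚ), FiniteDimensional ℚ L ∧
      ∀ σ : GQ, (∀ z ∈ L, σ z = z) → ∀ x ∈ S, actR act R σ x = x := by
  classical
  induction S using Finset.induction_on with
  | empty => exact ⟨⊥, inferInstance, fun σ _ x hx => absurd hx (Finset.notMem_empty x)⟩
  | insert a S _ ih =>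
    obtain ⟨L₁, hL₁, h₁⟩ := exists_level R hFL a
    obtain ⟨L₂, hL₂, h₂⟩ := ih
    refine ⟨L₁ ⊔ L₂, inferInstance, fun σ hσ x hx => ?_⟩
    rcases Finset.mem_insert.mp hx with rfl | hx
    · exact h₁ σ fun z hz => hσ z ((le_sup_left : L₁ ≤ L₁ ⊔ L₂) hz)
    · exact h₂ σ (fun z hz => hσ z ((le_sup_right : L₂ ≤ L₁ ⊔ L₂) hz)) x hx

/-- The Galois orbit of an element of `R ⊗ M` is finite. -/
theorem finite_orbit
    (hFL : ∀ m : M, ∃ L : IntermediateField ℚ (AlgebraicClosure ℚ), FiniteDimensional ℚ L ∧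
      ∀ σ : GQ, (∀ z ∈ L, σ z = z) → act σ m = m)
    (x : R ⊗[ℤ] M) : (Set.range fun σ : GQ => actR act R σ x).Finite := by
  classical
  obtain ⟨L, hL, h⟩ := exists_level R hFL x
  -- the orbit map factors through the restriction to `L`
  let res : GQ → (L →ₐ[ℚ] AlgebraicClosure ℚ) := fun σ => (σ : AlgebraicClosure ℚ →ₐ[ℚ]
    AlgebraicClosure ℚ).comp L.val
  have hfac : ∀ σ τ : GQ, res σ = res τ → actR act R σ x = actR act R τ x := by
    intro σ τ hστ
    have hfix : ∀ z ∈ L, (τ⁻¹ * σ) z = z := by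
      intro z hz
      have h1 : σ z = τ z := DFunLike.congr_fun hστ ⟨z, hz⟩
      rw [AlgEquiv.mul_apply, h1]
      exact τ.symm_apply_apply z
    have h2 := h (τ⁻¹ * σ) hfix
    have h3 : actR act R σ x = actR act R τ (actR act R (τ⁻¹ * σ) x) := by
      rw [← actR_mul, mul_inv_cancel_left]
    rw [h3, h2]
  have hsub : (Set.range fun σ : GQ => actR act R σ x) ⊆
      Set.range fun q : Set.range res => actR act R (Classical.choose q.2) x := by
    rintro _ ⟨σ, rfl⟩
    refine ⟨⟨res σ, σ, rfl⟩, ?_⟩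
    exact hfac _ _ (Classical.choose_spec (⟨σ, rfl⟩ : ∃ τ, res τ = res σ))
  exact (Set.finite_range _).subset hsub

end Core

/-- **[Mod_n]** the orbit-span module over a commutative ring. -/
theorem exists_orbit_module {M : Type} [AddCommGroup M]
    (act : (AlgebraicClosure ℚ ≃ₐ[ℚ] AlgebraicClosure ℚ) →* AddMonoid.End M)
    (hFL : ∀ m : M, ∃ L : IntermediateField ℚ (AlgebraicClosure ℚ), FiniteDimensional ℚ L ∧
      ∀ σ : AlgebraicClosure ℚ ≃ₐ[ℚ] AlgebraicClosure ℚ, (∀ z ∈ L, σ z = z) → act σ m = m)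
    {R : Type} [CommRing R] {I : Type*} (TM : I → (M →+ M)) (lam : I → R)
    (hGH : ∀ (i : I) (σ : AlgebraicClosure ℚ ≃ₐ[ℚ] AlgebraicClosure ℚ) (m : M),
      act σ (TM i m) = TM i (act σ m))
    (v : R ⊗[ℤ] M)
    (hv : ∀ i, LinearMap.baseChange R (TM i).toIntLinearMap v = lam i • v) :
    ∃ (V : Type) (_ : AddCommGroup V) (_ : Module R V) (_ : Module.Finite R V)
      (r : (AlgebraicClosure ℚ ≃ₐ[ℚ] AlgebraicClosure ℚ) →* Module.End R V) (w : V)
      (ι : V →ₗ[R] R ⊗[ℤ] M),
      Function.Injective ι ∧ ι w = v ∧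
      (∀ (σ : AlgebraicClosure ℚ ≃ₐ[ℚ] AlgebraicClosure ℚ) (x : V),
        ι (r σ x) = LinearMap.baseChange R (act σ).toIntLinearMap (ι x)) ∧
      Submodule.span R (Set.range fun σ : AlgebraicClosure ℚ ≃ₐ[ℚ] AlgebraicClosure ℚ =>
        r σ w) = ⊤ ∧
      GaloisFactorsThroughFiniteLevel r ∧
      (∀ σ : AlgebraicClosure ℚ ≃ₐ[ℚ] AlgebraicClosure ℚ, (∀ m : M, act σ m = m) → r σ = 1) ∧
      (∀ (σ : AlgebraicClosure ℚ ≃ₐ[ℚ] AlgebraicClosure ℚ) (i : I) (c : ℤ),
        (∀ m : M, act σ (act σ m) - TM i (act σ m) + c • m = 0) →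
          r σ * r σ - lam i • r σ + (c : R) • (1 : Module.End R V) = 0) := by
  classical
  -- the span of the orbit
  set O : Set (R ⊗[ℤ] M) := Set.range fun σ : GQ => actR act R σ v with hO
  have hOfin : O.Finite := finite_orbit R hFL v
  set W : Submodule R (R ⊗[ℤ] M) := Submodule.span R O with hW
  have hvW : v ∈ W := Submodule.subset_span ⟨1, actR_one act R v⟩
  -- stability
  have hstab : ∀ σ : GQ, ∀ w ∈ W, actR act R σ w ∈ W := by
    intro σ w hw
    induction hw using Submodule.span_induction with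
    | mem x hx =>
      obtain ⟨τ, rfl⟩ := hx
      exact Submodule.subset_span ⟨σ * τ, actR_mul act R σ τ v⟩
    | zero => rw [map_zero]; exact W.zero_mem
    | add x y _ _ hx hy => rw [map_add]; exact W.add_mem hx hy
    | smul a x _ hx => rw [map_smul]; exact W.smul_mem a hx
  -- the operators `TM i ⊗ 1`
  let TK : I → (R ⊗[ℤ] M →ₗ[R] R ⊗[ℤ] M) := fun i =>
    LinearMap.baseChange R (TM i).toIntLinearMap
  have hTK_tmul : ∀ (i : I) (a : R) (m : M), TK i (a ⊗ₜ[ℤ] m) = a ⊗ₜ[ℤ] TM i m := by
    intro i a m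
    simp [TK]
  have hcomm : ∀ (i : I) (σ : GQ) (x : R ⊗[ℤ] M),
      actR act R σ (TK i x) = TK i (actR act R σ x) := by
    intro i σ x
    induction x using TensorProduct.induction_on with
    | zero => simp
    | tmul a m => rw [hTK_tmul, actR_tmul, actR_tmul, hTK_tmul, hGH]
    | add x y hx hy => rw [map_add, map_add, hx, hy, map_add, map_add]
  have hTW : ∀ (i : I), ∀ w ∈ W, TK i w = lam i • w := by
    intro i w hw
    induction hw using Submodule.span_induction with
    | mem x hx =>
      obtain ⟨τ, rfl⟩ := hx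
      show TK i (actR act R τ v) = lam i • actR act R τ v
      rw [← hcomm, show TK i v = lam i • v from hv i, map_smul]
    | zero => rw [map_zero, smul_zero]
    | add x y _ _ hx hy => rw [map_add, hx, hy, smul_add]
    | smul a x _ hx => rw [map_smul, hx, smul_comm]
  -- the representation
  let r : GQ →* Module.End R W :=
    { toFun := fun σ => (actR act R σ).restrict (hstab σ)
      map_one' := by
        refine LinearMap.ext fun w => Subtype.ext ?_
        simp [LinearMap.restrict_apply, actR_one]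
      map_mul' := fun σ τ => by
        refine LinearMap.ext fun w => Subtype.ext ?_
        simp [LinearMap.restrict_apply, actR_mul] }
  have hr : ∀ (σ : GQ) (w : W), ((r σ w : W) : R ⊗[ℤ] M) = actR act R σ (w : R ⊗[ℤ] M) :=
    fun σ w => rfl
  have hWfin : Module.Finite R W := Module.Finite.span_of_finite R hOfin
  refine ⟨W, inferInstance, inferInstance, hWfin, r, ⟨v, hvW⟩, W.subtype,
    Submodule.injective_subtype W, rfl, fun σ x => rfl, ?_, ?_, ?_, ?_⟩
  · -- generated by the orbit of `w`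
    rw [eq_top_iff]
    rintro ⟨x, hx⟩ -
    induction hx using Submodule.span_induction with
    | mem x hx =>
      obtain ⟨τ, rfl⟩ := hx
      exact Submodule.subset_span ⟨τ, Subtype.ext rfl⟩
    | zero => exact Submodule.zero_mem _
    | add x y hx hy ihx ihy =>
      have : (⟨x + y, W.add_mem hx hy⟩ : W) = ⟨x, hx⟩ + ⟨y, hy⟩ := rfl
      rw [this]
      exact Submodule.add_mem _ ihx ihy
    | smul a x hx ihx =>
      have : (⟨a • x, W.smul_mem a hx⟩ : W) = a • ⟨x, hx⟩ := rfl
      rw [this]
      exact Submodule.smul_mem _ a ihx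
  · -- finite level
    obtain ⟨L, hL, h⟩ := exists_level_finset R hFL hOfin.toFinset
    refine ⟨L, hL, fun σ hσ => ?_⟩
    have hall : ∀ w ∈ W, actR act R σ w = w := by
      intro w hw
      induction hw using Submodule.span_induction with
      | mem x hx => exact h σ hσ x (hOfin.mem_toFinset.mpr hx)
      | zero => rw [map_zero]
      | add x y _ _ hx hy => rw [map_add, hx, hy]
      | smul a x _ hx => rw [map_smul, hx]
    refine LinearMap.ext fun w => Subtype.ext ?_
    rw [hr, hall _ w.2]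
    rfl
  · -- trivial action
    intro σ hσ
    have hone : act σ = 1 := by
      ext m
      exact hσ m
    refine LinearMap.ext fun w => Subtype.ext ?_
    rw [hr]
    have : actR act R σ = actR act R 1 := by
      unfold actR
      rw [hone, map_one]
    rw [this, actR_one]
    rfl
  · -- relations
    intro σ i c hrel
    have hrelK : ∀ x : R ⊗[ℤ] M,
        actR act R σ (actR act R σ x) - TK i (actR act R σ x) + (c : R) • x = 0 := by
      intro x
      induction x using TensorProduct.induction_on with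
      | zero => simp
      | tmul a m =>
        rw [actR_tmul, actR_tmul, hTK_tmul]
        have h1 : (c : R) • (a ⊗ₜ[ℤ] m) = a ⊗ₜ[ℤ] (c • m) := by
          rw [Int.cast_smul_eq_zsmul, TensorProduct.tmul_smul]
        rw [h1, ← TensorProduct.tmul_sub, ← TensorProduct.tmul_add, hrel m, TensorProduct.tmul_zero]
      | add x y hx hy =>
        have : actR act R σ (actR act R σ (x + y)) - TK i (actR act R σ (x + y)) +
            (c : R) • (x + y) =
            (actR act R σ (actR act R σ x) - TK i (actR act R σ x) + (c : R) • x) +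
            (actR act R σ (actR act R σ y) - TK i (actR act R σ y) + (c : R) • y) := by
          simp only [map_add, smul_add]
          abel
        rw [this, hx, hy, add_zero]
    refine LinearMap.ext fun w => Subtype.ext ?_
    have h1 := hrelK (w : R ⊗[ℤ] M)
    rw [hTW i _ (hstab σ _ w.2)] at h1
    simpa [hr] using h1

/-- An integer killing `M` kills `R ⊗[ℤ] M`. -/
theorem intCast_smul_eq_zero {M : Type} [AddCommGroup M] (R : Type) [CommRing R] (c : ℤ)
    (hc : ∀ m : M, c • m = 0) (x : R ⊗[ℤ] M) : (c : R) • x = 0 := by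
  induction x using TensorProduct.induction_on with
  | zero => rw [smul_zero]
  | tmul a m =>
    rw [Int.cast_smul_eq_zsmul, ← TensorProduct.tmul_smul, hc m, TensorProduct.tmul_zero]
  | add x y hx hy => rw [smul_add, hx, hy, add_zero]

/-- **[Mod_n]**, consumer form: the orbit-span module with its generator `w`; the annihilator of
`w` is that of `v`, integers killing `M` kill the module, and the quadratic relations are also
given in the operator form `r σ + c • r σ⁻¹ = lam i`. -/
theorem exists_orbit_module_ann {M : Type} [AddCommGroup M]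
    (act : (AlgebraicClosure ℚ ≃ₐ[ℚ] AlgebraicClosure ℚ) →* AddMonoid.End M)
    (hFL : ∀ m : M, ∃ L : IntermediateField ℚ (AlgebraicClosure ℚ), FiniteDimensional ℚ L ∧
      ∀ σ : AlgebraicClosure ℚ ≃ₐ[ℚ] AlgebraicClosure ℚ, (∀ z ∈ L, σ z = z) → act σ m = m)
    {R : Type} [CommRing R] {I : Type*} (TM : I → (M →+ M)) (lam : I → R)
    (hGH : ∀ (i : I) (σ : AlgebraicClosure ℚ ≃ₐ[ℚ] AlgebraicClosure ℚ) (m : M),
      act σ (TM i m) = TM i (act σ m))
    (v : R ⊗[ℤ] M)
    (hv : ∀ i, LinearMap.baseChange R (TM i).toIntLinearMap v = lam i • v) :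
    ∃ (V : Type) (_ : AddCommGroup V) (_ : Module R V) (_ : Module.Finite R V)
      (r : (AlgebraicClosure ℚ ≃ₐ[ℚ] AlgebraicClosure ℚ) →* Module.End R V) (w : V),
      (∀ a : R, a • w = 0 ↔ a • v = 0) ∧
      (∀ c : ℤ, (∀ m : M, c • m = 0) → ∀ x : V, (c : R) • x = 0) ∧
      Submodule.span R (Set.range fun σ : AlgebraicClosure ℚ ≃ₐ[ℚ] AlgebraicClosure ℚ =>
        r σ w) = ⊤ ∧
      GaloisFactorsThroughFiniteLevel r ∧
      (∀ σ : AlgebraicClosure ℚ ≃ₐ[ℚ] AlgebraicClosure ℚ, (∀ m : M, act σ m = m) → r σ = 1) ∧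
      (∀ (σ : AlgebraicClosure ℚ ≃ₐ[ℚ] AlgebraicClosure ℚ) (i : I) (c : ℤ),
        (∀ m : M, act σ (act σ m) - TM i (act σ m) + c • m = 0) →
          r σ * r σ - lam i • r σ + (c : R) • (1 : Module.End R V) = 0) ∧
      (∀ (σ : AlgebraicClosure ℚ ≃ₐ[ℚ] AlgebraicClosure ℚ) (i : I) (c : ℤ),
        (∀ m : M, act σ (act σ m) - TM i (act σ m) + c • m = 0) →
          r σ + (c : R) • r σ⁻¹ = lam i • (1 : Module.End R V)) := by
  obtain ⟨V, iA, iM, iF, r, w, ι, hι, hιw, -, hspan, hlev, htriv, hrel⟩ :=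
    exists_orbit_module act hFL TM lam hGH v hv
  refine ⟨V, iA, iM, iF, r, w, ?_, ?_, hspan, hlev, htriv, hrel, ?_⟩
  · intro a
    rw [← hιw, ← map_smul]
    exact ⟨fun h => by rw [h, map_zero], fun h => hι (by rw [h, map_zero])⟩
  · intro c hc x
    apply hι
    rw [map_smul, map_zero]
    exact intCast_smul_eq_zero R c hc (ι x)
  · intro σ i c h
    have h1 := hrel σ i c h
    have h2 : r σ * r σ⁻¹ = 1 := by rw [← map_mul, mul_inv_cancel, map_one]
    have h3 : (r σ * r σ - lam i • r σ + (c : R) • (1 : Module.End R V)) * r σ⁻¹ = 0 := by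
      rw [h1, zero_mul]
    rw [add_mul, sub_mul, mul_assoc, h2, mul_one, smul_mul_assoc, h2, smul_mul_assoc,
      one_mul] at h3
    rw [← sub_eq_zero]
    rw [← h3]
    abel

end Fermat.Agent.S30.ModOrbitR
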