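/-
S30 route, block [Det] — LevelGlue.lean (helper65).

The *concrete level-`n` datum* of the route: the `𝒪`-span of the Galois orbit of an eigenvector
`v ∈ 𝒪 ⊗ J₀(N)[pⁿ]` is a `LimLevel.Level` (the input of `S30/LimGlue.lean`).

* `nonempty_level_of_vector` — from a vector `v ∈ 𝒪 ⊗[ℤ] J₀(N)[pⁿ]` whose annihilator is contained
  in `pⁿ 𝒪` and which is an eigenvector of all `T_ℓ` (`ℓ ∤ N`, `ℓ ∉ S`) with eigenvalues `χ(T_ℓ)`:
  `S30/ModOrbitR` (the orbit module) + `S29/ESGH` (Eichler–Shimura, inertia, Galois–Hecke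
  commutation and finite level on `J[pⁿ]`, from the unconditional S37 core datum).
* `exists_vector` — such a vector from `KAway N p n` (block [K] at `pⁿ`, Hecke clause away from
  `p`): `v = ∑ x_i ⊗ θ(b_i)` for the primitive eigen-coordinates `x` of `S30/EigInf` and the
  flatness lemma of `S30/EigLevel`.
* `levelStatement : S30.LevelStatement` — the leaf [Level] of `S30/Defs.lean`.
-/
import Mathlib
import Fermat.Agent.S29.Defs
import Fermat.Agent.S29.ESGH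
import Fermat.Agent.S29.SpecCoreS37
import Fermat.Agent.S30.LimLevel
import Fermat.Agent.S30.ModOrbitR
import Fermat.Agent.S30.Defs
import Fermat.Agent.S30.EigInf
import Fermat.Agent.S30.EigLevel

set_option autoImplicit false

noncomputable section

open ModularCurve AlgebraicCurve
open scoped TensorProduct

namespace Fermat.Agent.S30.LevelGlue

open Fermat.Agent.S29 (Qb GQ Jp galJp heckeJp mem_Jp_iff)
open Fermat.Agent.S30

/-- A prime `ℓ ∤ N`, `ℓ ≠ p` does not divide `N * p ^ n`. -/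
theorem not_dvd_mul_pow {N p ℓ : ℕ} (hp : p.Prime) (hℓ : ℓ.Prime) (hℓN : ¬ ℓ ∣ N)
    (hℓp : ℓ ≠ p) (n : ℕ) : ¬ ℓ ∣ N * p ^ n := by
  intro h
  rcases hℓ.dvd_mul.mp h with h | h
  · exact hℓN h
  · exact hℓp ((Nat.prime_dvd_prime_iff_eq hℓ hp).mp (hℓ.dvd_of_dvd_pow h))

/-- **The level-`n` datum from an eigenvector in `𝒪 ⊗ J₀(N)[pⁿ]`.** -/
theorem nonempty_level_of_vector (N p : ℕ) [NeZero N] (hp : p.Prime) (S : Set ℕ) (hpS : p ∈ S)
    {𝒪 : Type} [CommRing 𝒪] (χ : CuspForm.heckeAlgebra N 2 S →+* 𝒪) (n : ℕ)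
    (v : 𝒪 ⊗[ℤ] (Jp N (p ^ n)))
    (hann : ∀ a : 𝒪, a • v = 0 → (p : 𝒪) ^ n ∣ a)
    (hv : ∀ (ℓ : ℕ) (hℓ : ℓ.Prime) (hℓN : ¬ ℓ ∣ N) (hℓS : ℓ ∉ S),
      (heckeJp N (p ^ n) ⟨ℓ, hℓ⟩).baseChange 𝒪 v = χ (CuspForm.heckeAlgebra.T hℓ hℓN hℓS) • v) :
    Nonempty (LimLevel.Level 𝒪 p n (LimLevel.goodPrime N S) (LimLevel.heckeEig N S χ)
      (LimLevel.unrPrime N p)) := by
  classical
  have hIn := Fermat.Agent.S29.inertiaStatement_of_specCore N (p ^ n)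
    (Fermat.Agent.S29.specCoreStatement N (p ^ n))
  have hES := Fermat.Agent.S29.esStatement_of_specCore N (p ^ n)
    (Fermat.Agent.S29.specCoreStatement N (p ^ n))
  have hGH := Fermat.Agent.S29.ghStatement N (p ^ n)
  have hFL := Fermat.Agent.S29.flStatement N (p ^ n) (pow_ne_zero n hp.ne_zero)
  -- the action by additive maps
  let act : GQ →* AddMonoid.End (Jp N (p ^ n)) :=
    { toFun := fun σ => (galJp N (p ^ n) σ).toAddMonoidHom
      map_one' := by rw [map_one]; rfl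
      map_mul' := fun σ τ => by rw [map_mul]; rfl }
  have hact : ∀ (σ : GQ) (m : Jp N (p ^ n)),
      ((act σ m : Jp N (p ^ n)) : JZero N) = σ • (m : JZero N) := fun _ _ => rfl
  have hm : ∀ m : Jp N (p ^ n), p ^ n • (m : JZero N) = 0 :=
    fun m => (mem_Jp_iff N (p ^ n) _).mp m.2
  -- index set: the good primes
  let I : Type := {ℓ : ℕ // LimLevel.goodPrime N S ℓ}
  have hIp : ∀ i : I, i.1 ≠ p := fun i h => i.2.2.2 (h ▸ hpS)
  have hIdvd : ∀ i : I, ¬ i.1 ∣ N * p ^ n := fun i =>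
    not_dvd_mul_pow hp i.2.1 i.2.2.1 (hIp i) n
  let TM : I → (Jp N (p ^ n) →+ Jp N (p ^ n)) :=
    fun i => (heckeJp N (p ^ n) ⟨i.1, i.2.1⟩).toAddMonoidHom
  have hTM : ∀ (i : I) (m : Jp N (p ^ n)),
      ((TM i m : Jp N (p ^ n)) : JZero N) = heckeOperatorBar N ⟨i.1, i.2.1⟩ (m : JZero N) :=
    fun _ _ => rfl
  obtain ⟨V, i1, i2, -, r, w, hw, htors, -, hfin, htriv, hquad, -⟩ :=
    ModOrbitR.exists_orbit_module_ann act
      (fun m => by
        obtain ⟨L, hL, hfix⟩ := hFL (m : JZero N) (hm m)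
        exact ⟨L, hL, fun σ hσ => Subtype.ext (hfix σ hσ)⟩)
      TM (fun i : I => χ (CuspForm.heckeAlgebra.T i.2.1 i.2.2.1 i.2.2.2))
      (fun i σ m => Subtype.ext (by
        rw [hact, hTM, hTM, hact]
        exact (hGH i.1 i.2.1 (hIdvd i) σ (m : JZero N) (hm m)).symm))
      v
      (fun i => by
        have e : (TM i).toIntLinearMap = heckeJp N (p ^ n) ⟨i.1, i.2.1⟩ :=
          LinearMap.ext fun _ => rfl
        rw [e]
        exact hv i.1 i.2.1 i.2.2.1 i.2.2.2)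
  refine ⟨{ V := V, r := r, w := w, tors := ?_, ann := ?_, level := hfin, frob := ?_,
            inert := ?_ }⟩
  · intro x
    have h := htors ((p : ℤ) ^ n) (fun m => Subtype.ext (by
      have h1 := hm m
      rw [Submodule.coe_smul, ZeroMemClass.coe_zero]
      rw [← h1]
      norm_cast)) x
    rw [← h]
    norm_cast
  · intro c hc
    exact hann c ((hw c).mp hc)
  · intro ℓ hℓg A hA σ hσ
    let i : I := ⟨ℓ, hℓg⟩
    have h := hquad σ i (ℓ : ℤ) (fun m => Subtype.ext (by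
      have h1 := hES ℓ hℓg.1 (hIdvd i) A hA σ hσ (m : JZero N) (hm m)
      rw [Submodule.coe_add, Submodule.coe_sub, Submodule.coe_smul, hact, hact, hTM, hact,
        natCast_zsmul]
      exact h1))
    rw [Int.cast_natCast] at h
    rw [LimLevel.heckeEig_eq N S χ hℓg.1 hℓg.2.1 hℓg.2.2]
    exact h
  · intro q hq P hP τ hτ
    refine htriv τ (fun m => Subtype.ext ?_)
    rw [hact]
    exact hIn q hq.1 (not_dvd_mul_pow hp hq.1 hq.2.1 hq.2.2 n) P hP τ hτ (m : JZero N) (hm m)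

/-- **The eigenvector at level `pⁿ`** from `KAway N p n`: `v = ∑ x_i ⊗ θ (b_i)` for primitive
eigen-coordinates `x` of `χ` in a `ℤ`-basis `b` of `Lpar N`. -/
theorem exists_vector (N p : ℕ) [NeZero N] (S : Set ℕ) (hpS : p ∈ S)
    {𝒪 : Type} [CommRing 𝒪] [IsDomain 𝒪] [ValuationRing 𝒪] [CharZero 𝒪]
    (χ : CuspForm.heckeAlgebra N 2 S →+* 𝒪) (n : ℕ) (hK : KAway N p n) :
    ∃ v : 𝒪 ⊗[ℤ] (Jp N (p ^ n)), (∀ a : 𝒪, a • v = 0 → (p : 𝒪) ^ n ∣ a) ∧
      ∀ (ℓ : ℕ) (hℓ : ℓ.Prime) (hℓN : ¬ ℓ ∣ N) (hℓS : ℓ ∉ S),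
        (heckeJp N (p ^ n) ⟨ℓ, hℓ⟩).baseChange 𝒪 v
          = χ (CuspForm.heckeAlgebra.T hℓ hℓN hℓS) • v := by
  classical
  have hfin : Module.Finite ℤ (Fermat.Agent.S41.Lpar N) :=
    Fermat.Agent.S41.LparFree.lpar_finite N
  have hfree : Module.Free ℤ (Fermat.Agent.S41.Lpar N) := Fermat.Agent.S41.LparFree.lpar_free N
  set b := Module.finBasis ℤ (Fermat.Agent.S41.Lpar N) with hb
  obtain ⟨x, hx1, hx⟩ := EigInf.exists_primitive_coord N S b χ
  obtain ⟨θ, hθ1, hθ2, hθ3⟩ := hK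
  -- corestriction of `θ` to the `pⁿ`-torsion
  let θ' : Fermat.Agent.S41.Lpar N →+ Jp N (p ^ n) :=
    { toFun := fun u => ⟨θ u, (mem_Jp_iff N (p ^ n) (θ u)).mpr (hθ1 u)⟩
      map_zero' := Subtype.ext (map_zero θ)
      map_add' := fun u v => Subtype.ext (map_add θ u v) }
  have hker : ∀ u, θ'.toIntLinearMap u = 0 → ∃ z, u = ((p ^ n : ℕ) : ℤ) • z := by
    intro u hu
    apply hθ2 u
    have h : ((θ' u : Jp N (p ^ n)) : JZero N) = 0 := congrArg Subtype.val hu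
    exact h
  have hheck : ∀ (ℓ : ℕ) (hℓ : ℓ.Prime) (hℓN : ¬ ℓ ∣ N), ℓ ≠ p → ∀ u,
      heckeJp N (p ^ n) ⟨ℓ, hℓ⟩ (θ' u) = θ' (Fermat.Agent.S29.heckeLpar N ℓ hℓ hℓN u) := by
    intro ℓ hℓ hℓN hℓp u
    apply Subtype.ext
    change heckeOperatorBar N ⟨ℓ, hℓ⟩ (θ u) = θ (Fermat.Agent.S29.heckeLpar N ℓ hℓ hℓN u)
    exact (hθ3 ℓ hℓ hℓN hℓp u).symm
  refine ⟨∑ i, x i ⊗ₜ[ℤ] θ' (b i), ?_, ?_⟩
  · intro a ha
    have h := EigLevel.dvd_of_smul_sum_tmul_eq_zero b θ'.toIntLinearMap (p ^ n) hker x hx1 a ha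
    rwa [Nat.cast_pow] at h
  · intro ℓ hℓ hℓN hℓS
    have hℓp : ℓ ≠ p := fun h => hℓS (h ▸ hpS)
    rw [map_sum]
    simp_rw [LinearMap.baseChange_tmul, hheck ℓ hℓ hℓN hℓp]
    exact EigLevel.sum_tmul_map_eq_smul b (Fermat.Agent.S29.heckeLpar N ℓ hℓ hℓN)
      θ'.toIntLinearMap x _ (fun k => hx ℓ hℓ hℓN hℓS k)

/-- **[Level]** — the leaf of `S30/Defs.lean`: a level exists at every `n`. -/
theorem levelStatement : LevelStatement := by
  intro N p _ hp S hpS _ 𝒪 _ _ _ _ χ n hK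
  obtain ⟨v, hann, hv⟩ := exists_vector N p (↑S : Set ℕ) (Finset.mem_coe.mpr hpS) χ n hK
  exact nonempty_level_of_vector N p hp (↑S : Set ℕ) (Finset.mem_coe.mpr hpS) χ n v hann hv

end Fermat.Agent.S30.LevelGlue
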