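/-
S30, leaf [Lat] (helper61): the stable lattice of a bounded, adically continuous two-dimensional
matrix representation of `Gal(ℚ̄/ℚ)` over the fraction field of a discrete valuation ring.

* `exists_galoisRepAdic` : a monoid hom `ρ : Gal(ℚ̄/ℚ) → M₂(K)`, `K = Frac 𝒪`, `𝒪` a DVR, which is
  bounded (`r • ρ g ∈ M₂(𝒪)` for a fixed `r ≠ 0`) and entrywise adically continuous, comes from a
  `GaloisRepAdic 𝒪` with the same characteristic polynomials, trivial wherever `ρ` is trivial.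
* generic pieces (any group `G`): `lat`, `latRep`, `free_finite_finrank`, `charpoly_latRep`,
  `latRep_sub_mem`, `latRep_eq_one`.
-/
import Mathlib
import Fermat.Prelude.Def_GaloisRep_Adic

set_option autoImplicit false

namespace Fermat.Agent.S30.Lat

open Matrix Polynomial

/-- `Gal(ℚ̄/ℚ)`. -/
abbrev GQ : Type := AlgebraicClosure ℚ ≃ₐ[ℚ] AlgebraicClosure ℚ

/-! ### The lattice generated by the columns of a matrix representation -/

section Lattice

variable {G : Type*} [Group G] {𝒪 K : Type*} [CommRing 𝒪] [Field K] [Algebra 𝒪 K]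

/-- The coordinatewise map `𝒪² → K²`. -/
noncomputable def incl (𝒪 K : Type*) [CommRing 𝒪] [Field K] [Algebra 𝒪 K] :
    (Fin 2 → 𝒪) →ₗ[𝒪] (Fin 2 → K) :=
  (Algebra.linearMap 𝒪 K).compLeft (Fin 2)

theorem incl_apply (w : Fin 2 → 𝒪) (i : Fin 2) : incl 𝒪 K w i = algebraMap 𝒪 K (w i) := rfl

theorem incl_injective [IsDomain 𝒪] [IsFractionRing 𝒪 K] : Function.Injective (incl 𝒪 K) := by
  intro v w h
  funext i
  exact IsFractionRing.injective 𝒪 K (congrFun h i)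

/-- Multiplication by a matrix over `K`, as an `𝒪`-linear map. -/
def mulVecO (𝒪 : Type*) {K : Type*} [CommRing 𝒪] [Field K] [Algebra 𝒪 K]
    (A : Matrix (Fin 2) (Fin 2) K) : (Fin 2 → K) →ₗ[𝒪] (Fin 2 → K) where
  toFun v := A.mulVec v
  map_add' := Matrix.mulVec_add A
  map_smul' a v := Matrix.mulVec_smul A a v

@[simp] theorem mulVecO_apply (A : Matrix (Fin 2) (Fin 2) K) (v : Fin 2 → K) :
    mulVecO 𝒪 A v = A.mulVec v := rfl

/-- The `j`-th column of `ρ g`. -/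
def colv (ρ : G →* Matrix (Fin 2) (Fin 2) K) (g : G) (j : Fin 2) : Fin 2 → K := fun i => ρ g i j

theorem mulVec_colv (ρ : G →* Matrix (Fin 2) (Fin 2) K) (h g : G) (j : Fin 2) :
    (ρ h).mulVec (colv ρ g j) = colv ρ (h * g) j := by
  funext i
  simp [colv, Matrix.mulVec, dotProduct, map_mul, Matrix.mul_apply]

/-- The `𝒪`-lattice spanned by all columns of all `ρ g`. -/
def lat (𝒪 : Type*) {K : Type*} [CommRing 𝒪] [Field K] [Algebra 𝒪 K]
    (ρ : G →* Matrix (Fin 2) (Fin 2) K) : Submodule 𝒪 (Fin 2 → K) :=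
  Submodule.span 𝒪 (Set.range fun p : G × Fin 2 => colv ρ p.1 p.2)

theorem colv_mem_lat (ρ : G →* Matrix (Fin 2) (Fin 2) K) (g : G) (j : Fin 2) :
    colv ρ g j ∈ lat 𝒪 ρ :=
  Submodule.subset_span ⟨(g, j), rfl⟩

theorem mulVec_mem_lat (ρ : G →* Matrix (Fin 2) (Fin 2) K) (h : G) {v : Fin 2 → K}
    (hv : v ∈ lat 𝒪 ρ) : (ρ h).mulVec v ∈ lat 𝒪 ρ := by
  induction hv using Submodule.span_induction with
  | mem x hx =>
    obtain ⟨⟨g, j⟩, rfl⟩ := hx
    rw [mulVec_colv]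
    exact colv_mem_lat ρ _ j
  | zero => rw [Matrix.mulVec_zero]; exact Submodule.zero_mem _
  | add x y _ _ hx hy => rw [Matrix.mulVec_add]; exact add_mem hx hy
  | smul a x _ hx => rw [Matrix.mulVec_smul]; exact Submodule.smul_mem _ a hx

theorem colv_one (ρ : G →* Matrix (Fin 2) (Fin 2) K) (j : Fin 2) :
    colv ρ 1 j = Pi.single j 1 := by
  funext i
  simp [colv, Matrix.one_apply, Pi.single_apply]

theorem incl_eq_sum (ρ : G →* Matrix (Fin 2) (Fin 2) K) (w : Fin 2 → 𝒪) :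
    incl 𝒪 K w = ∑ j : Fin 2, w j • colv ρ 1 j := by
  funext i
  rw [Finset.sum_apply, Fin.sum_univ_two]
  simp only [incl_apply, Pi.smul_apply, colv_one, Pi.single_apply]
  fin_cases i <;> simp [Algebra.smul_def]

theorem incl_mem_lat (ρ : G →* Matrix (Fin 2) (Fin 2) K) (w : Fin 2 → 𝒪) :
    incl 𝒪 K w ∈ lat 𝒪 ρ := by
  rw [incl_eq_sum ρ]
  exact Submodule.sum_mem _ fun j _ => Submodule.smul_mem _ _ (colv_mem_lat ρ 1 j)

theorem smul_mem_range_incl (ρ : G →* Matrix (Fin 2) (Fin 2) K) {r : 𝒪}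
    (hb : ∀ (g : G) (i j : Fin 2), ∃ a : 𝒪, algebraMap 𝒪 K a = algebraMap 𝒪 K r * ρ g i j)
    {v : Fin 2 → K} (hv : v ∈ lat 𝒪 ρ) : r • v ∈ LinearMap.range (incl 𝒪 K) := by
  induction hv using Submodule.span_induction with
  | mem x hx =>
    obtain ⟨⟨g, j⟩, rfl⟩ := hx
    choose a ha using fun i => hb g i j
    refine ⟨a, ?_⟩
    funext i
    simp [incl_apply, ha, colv, Algebra.smul_def]
  | zero => rw [smul_zero]; exact Submodule.zero_mem _
  | add x y _ _ hx hy => rw [smul_add]; exact add_mem hx hy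
  | smul a x _ hx => rw [smul_comm]; exact Submodule.smul_mem _ a hx

/-- The action of `G` on the lattice. -/
def latRep (𝒪 : Type*) {K : Type*} [CommRing 𝒪] [Field K] [Algebra 𝒪 K]
    (ρ : G →* Matrix (Fin 2) (Fin 2) K) : G →* Module.End 𝒪 (lat 𝒪 ρ) where
  toFun g := (mulVecO 𝒪 (ρ g)).restrict (fun _ hv => mulVec_mem_lat ρ g hv)
  map_one' := by
    ext v : 2
    show (ρ 1).mulVec (v : Fin 2 → K) = v
    rw [map_one, Matrix.one_mulVec]
  map_mul' g h := by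
    ext v : 2
    show (ρ (g * h)).mulVec (v : Fin 2 → K) = (ρ g).mulVec ((ρ h).mulVec (v : Fin 2 → K))
    rw [map_mul, Matrix.mulVec_mulVec]

theorem coe_latRep_apply (ρ : G →* Matrix (Fin 2) (Fin 2) K) (g : G) (v : lat 𝒪 ρ) :
    ((latRep 𝒪 ρ g v : lat 𝒪 ρ) : Fin 2 → K) = (ρ g).mulVec (v : Fin 2 → K) := rfl

theorem latRep_eq_one (ρ : G →* Matrix (Fin 2) (Fin 2) K) {τ : G} (h : ρ τ = 1) :
    latRep 𝒪 ρ τ = 1 := by
  ext v : 2
  rw [coe_latRep_apply, h, Matrix.one_mulVec]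
  rfl

end Lattice

/-! ### Freeness and rank of the lattice (over a principal ideal domain) -/

section Free

variable {G : Type*} [Group G] {𝒪 K : Type*} [CommRing 𝒪] [IsDomain 𝒪] [Field K] [Algebra 𝒪 K]
  [IsFractionRing 𝒪 K]

omit [IsDomain 𝒪] in
theorem smul_left_cancel_of_ne_zero {r : 𝒪} (hr : r ≠ 0) {v w : Fin 2 → K} (h : r • v = r • w) :
    v = w := by
  funext i
  have h1 := congrFun h i
  simp only [Pi.smul_apply, Algebra.smul_def] at h1
  exact mul_left_cancel₀ ((map_ne_zero_iff _ (IsFractionRing.injective 𝒪 K)).mpr hr) h1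

/-- `v ↦ r • v`, as a map from the lattice to `𝒪²` (`r` a common denominator). -/
noncomputable def toStd (ρ : G →* Matrix (Fin 2) (Fin 2) K) {r : 𝒪}
    (hb : ∀ (g : G) (i j : Fin 2), ∃ a : 𝒪, algebraMap 𝒪 K a = algebraMap 𝒪 K r * ρ g i j) :
    lat 𝒪 ρ →ₗ[𝒪] (Fin 2 → 𝒪) :=
  (LinearEquiv.ofInjective (incl 𝒪 K) incl_injective).symm.toLinearMap.comp
    (LinearMap.codRestrict (LinearMap.range (incl 𝒪 K))
      ((LinearMap.lsmul 𝒪 (Fin 2 → K) r).comp (lat 𝒪 ρ).subtype)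
      (fun v => smul_mem_range_incl ρ hb v.2))

theorem incl_toStd (ρ : G →* Matrix (Fin 2) (Fin 2) K) {r : 𝒪}
    (hb : ∀ (g : G) (i j : Fin 2), ∃ a : 𝒪, algebraMap 𝒪 K a = algebraMap 𝒪 K r * ρ g i j)
    (v : lat 𝒪 ρ) : incl 𝒪 K (toStd ρ hb v) = r • (v : Fin 2 → K) := by
  unfold toStd
  simp only [LinearMap.coe_comp, LinearEquiv.coe_coe, Function.comp_apply]
  rw [← LinearEquiv.ofInjective_apply (incl 𝒪 K) (h := incl_injective), LinearEquiv.apply_symm_apply]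
  rfl

theorem toStd_injective (ρ : G →* Matrix (Fin 2) (Fin 2) K) {r : 𝒪} (hr : r ≠ 0)
    (hb : ∀ (g : G) (i j : Fin 2), ∃ a : 𝒪, algebraMap 𝒪 K a = algebraMap 𝒪 K r * ρ g i j) :
    Function.Injective (toStd ρ hb) := by
  intro v w h
  apply Subtype.ext
  apply smul_left_cancel_of_ne_zero hr
  rw [← incl_toStd ρ hb v, ← incl_toStd ρ hb w, h]

/-- The lattice of a bounded representation is free of rank two. -/
theorem free_finite_finrank [IsPrincipalIdealRing 𝒪] (ρ : G →* Matrix (Fin 2) (Fin 2) K) {r : 𝒪}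
    (hr : r ≠ 0)
    (hb : ∀ (g : G) (i j : Fin 2), ∃ a : 𝒪, algebraMap 𝒪 K a = algebraMap 𝒪 K r * ρ g i j) :
    Module.Free 𝒪 (lat 𝒪 ρ) ∧ Module.Finite 𝒪 (lat 𝒪 ρ) ∧ Module.finrank 𝒪 (lat 𝒪 ρ) = 2 := by
  classical
  have hinj := toStd_injective ρ hr hb
  obtain ⟨n, b⟩ := Submodule.basisOfPid (Pi.basisFun 𝒪 (Fin 2)) (LinearMap.range (toStd ρ hb))
  let b' : Module.Basis (Fin n) 𝒪 (lat 𝒪 ρ) :=
    b.map (LinearEquiv.ofInjective (toStd ρ hb) hinj).symm
  have hfree : Module.Free 𝒪 (lat 𝒪 ρ) := Module.Free.of_basis b'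
  have hfin : Module.Finite 𝒪 (lat 𝒪 ρ) := Module.Finite.of_basis b'
  refine ⟨hfree, hfin, le_antisymm ?_ ?_⟩
  · have h1 := LinearMap.finrank_le_finrank_of_injective hinj
    simpa using h1
  · have h2 : Function.Injective
        (LinearMap.codRestrict (lat 𝒪 ρ) (incl 𝒪 K) (incl_mem_lat ρ)) := by
      intro v w h
      exact incl_injective (congrArg Subtype.val h)
    have h3 := LinearMap.finrank_le_finrank_of_injective h2
    simpa using h3

omit [IsDomain 𝒪] in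
/-- Characteristic polynomials: the action on the lattice has the characteristic polynomial of
the matrix. -/
theorem charpoly_latRep (ρ : G →* Matrix (Fin 2) (Fin 2) K) [Module.Free 𝒪 (lat 𝒪 ρ)]
    [Module.Finite 𝒪 (lat 𝒪 ρ)] (b : Module.Basis (Fin 2) 𝒪 (lat 𝒪 ρ)) (g : G) :
    (LinearMap.charpoly (latRep 𝒪 ρ g)).map (algebraMap 𝒪 K) = (ρ g).charpoly := by
  classical
  set M := LinearMap.toMatrix b b (latRep 𝒪 ρ g) with hM
  rw [← LinearMap.charpoly_toMatrix (latRep 𝒪 ρ g) b, ← Matrix.charpoly_map]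
  let P : Matrix (Fin 2) (Fin 2) K := Matrix.of fun i j => ((b j : lat 𝒪 ρ) : Fin 2 → K) i
  have hP : IsUnit P := by
    rw [← Matrix.linearIndependent_cols_iff_isUnit]
    have h1 : LinearIndependent 𝒪 (fun j => ((b j : lat 𝒪 ρ) : Fin 2 → K)) :=
      b.linearIndependent.map' (lat 𝒪 ρ).subtype (Submodule.ker_subtype _)
    exact (LinearIndependent.iff_fractionRing 𝒪 K).mp h1
  have hconj : ρ g * P = P * M.map (algebraMap 𝒪 K) := by
    ext i j
    have h1 : (ρ g * P) i j = ((latRep 𝒪 ρ g (b j) : lat 𝒪 ρ) : Fin 2 → K) i := by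
      rw [coe_latRep_apply]
      rfl
    have h2 : (latRep 𝒪 ρ g (b j) : lat 𝒪 ρ) = ∑ k, M k j • b k := by
      conv_lhs => rw [← b.sum_repr (latRep 𝒪 ρ g (b j))]
      refine Finset.sum_congr rfl fun k _ => ?_
      rw [hM, LinearMap.toMatrix_apply]
    rw [h1, h2, Matrix.mul_apply]
    simp only [Submodule.coe_sum, Submodule.coe_smul, Finset.sum_apply,
      Algebra.smul_def, Matrix.map_apply, P, Matrix.of_apply]
    exact Finset.sum_congr rfl fun k _ => mul_comm _ _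
  obtain ⟨Pu, hPu⟩ := hP
  have hρ : ρ g = Pu.val * M.map (algebraMap 𝒪 K) * Pu.val⁻¹ := by
    rw [← Matrix.coe_units_inv, hPu, ← hconj, mul_assoc, ← hPu, Units.mul_inv, mul_one]
  rw [hρ, Matrix.charpoly_units_conj]

end Free

/-! ### Adic continuity (over a discrete valuation ring) -/

section DVR

variable {G : Type*} [Group G] {𝒪 K : Type*} [CommRing 𝒪] [IsDomain 𝒪]
  [IsDiscreteValuationRing 𝒪] [Field K] [Algebra 𝒪 K] [IsFractionRing 𝒪 K]

/-- In a discrete valuation ring, `𝔪 ^ (n + k) ⊆ r • 𝔪 ^ n` for `k` the valuation of `r ≠ 0`. -/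
theorem exists_pow_shift {r : 𝒪} (hr : r ≠ 0) :
    ∃ k : ℕ, ∀ n : ℕ, ∀ a ∈ IsLocalRing.maximalIdeal 𝒪 ^ (n + k),
      ∃ b ∈ IsLocalRing.maximalIdeal 𝒪 ^ n, a = r * b := by
  obtain ⟨ϖ, hϖ⟩ := IsDiscreteValuationRing.exists_irreducible 𝒪
  obtain ⟨k, u, rfl⟩ := IsDiscreteValuationRing.eq_unit_mul_pow_irreducible hr hϖ
  refine ⟨k, fun n a ha => ?_⟩
  rw [hϖ.maximalIdeal_eq, Ideal.span_singleton_pow, Ideal.mem_span_singleton] at ha
  obtain ⟨c, rfl⟩ := ha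
  refine ⟨↑u⁻¹ * ϖ ^ n * c, ?_, ?_⟩
  · rw [hϖ.maximalIdeal_eq, Ideal.span_singleton_pow, Ideal.mem_span_singleton]
    exact ⟨↑u⁻¹ * c, by ring⟩
  · have h1 : (u : 𝒪) * ↑u⁻¹ = 1 := Units.mul_inv u
    rw [pow_add]
    linear_combination (-(ϖ ^ n * ϖ ^ k * c)) * h1

/-- Entrywise continuity of `ρ` gives adic continuity of the action on the lattice. -/
theorem latRep_sub_mem (ρ : G →* Matrix (Fin 2) (Fin 2) K) {r : 𝒪}
    (hb : ∀ (g : G) (i j : Fin 2), ∃ a : 𝒪, algebraMap 𝒪 K a = algebraMap 𝒪 K r * ρ g i j)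
    {n k : ℕ}
    (hk : ∀ a ∈ IsLocalRing.maximalIdeal 𝒪 ^ (n + k),
      ∃ b ∈ IsLocalRing.maximalIdeal 𝒪 ^ n, a = r * b)
    {σ : G}
    (hσ : ∀ i j : Fin 2, ∃ a ∈ IsLocalRing.maximalIdeal 𝒪 ^ (n + k),
      algebraMap 𝒪 K a = (ρ σ - 1) i j)
    (v : lat 𝒪 ρ) :
    latRep 𝒪 ρ σ v - v ∈ (IsLocalRing.maximalIdeal 𝒪 ^ n) • (⊤ : Submodule 𝒪 (lat 𝒪 ρ)) := by
  set w := toStd ρ hb v with hw
  have hwv : incl 𝒪 K w = r • (v : Fin 2 → K) := incl_toStd ρ hb v
  choose a ha ha' using hσ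
  choose b hb' hab using fun i j => hk (a i j) (ha i j)
  let c : Fin 2 → 𝒪 := fun i => ∑ j, b i j * w j
  have hc : ∀ i, c i ∈ IsLocalRing.maximalIdeal 𝒪 ^ n := fun i =>
    Ideal.sum_mem _ fun j _ => Ideal.mul_mem_right _ _ (hb' i j)
  have key : (latRep 𝒪 ρ σ v - v : lat 𝒪 ρ)
      = ∑ i : Fin 2, c i • (⟨colv ρ 1 i, colv_mem_lat ρ 1 i⟩ : lat 𝒪 ρ) := by
    apply Subtype.ext
    rw [Submodule.coe_sub, coe_latRep_apply, Submodule.coe_sum]
    simp only [Submodule.coe_smul]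
    rw [← incl_eq_sum ρ c]
    funext i
    have h1 : ((ρ σ).mulVec (v : Fin 2 → K) - (v : Fin 2 → K)) i
        = ∑ j, (ρ σ - 1) i j * (v : Fin 2 → K) j := by
      have h0 : (ρ σ).mulVec (v : Fin 2 → K) - (v : Fin 2 → K)
          = (ρ σ - 1).mulVec (v : Fin 2 → K) := by
        rw [Matrix.sub_mulVec, Matrix.one_mulVec]
      rw [h0]
      rfl
    rw [h1, incl_apply, map_sum]
    refine Finset.sum_congr rfl fun j _ => ?_
    have h2 : algebraMap 𝒪 K (w j) = algebraMap 𝒪 K r * (v : Fin 2 → K) j := by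
      have h3 := congrFun hwv j
      simpa [incl_apply, Algebra.smul_def] using h3
    rw [← ha' i j, hab i j, map_mul, map_mul, h2]
    ring
  rw [key]
  exact Submodule.sum_mem _ fun i _ => Submodule.smul_mem_smul (hc i) Submodule.mem_top

end DVR

/-! ### The main theorem -/

/-- **[Lat]**  A bounded, entrywise adically continuous matrix representation of `Gal(ℚ̄/ℚ)` over
the fraction field of a discrete valuation ring `𝒪` has a stable lattice: there is a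
`GaloisRepAdic 𝒪` with the same characteristic polynomials, trivial wherever `ρ` is trivial. -/
theorem exists_galoisRepAdic {𝒪 K : Type} [CommRing 𝒪] [IsDomain 𝒪] [IsDiscreteValuationRing 𝒪]
    [Field K] [Algebra 𝒪 K] [IsFractionRing 𝒪 K]
    (ρ : GQ →* Matrix (Fin 2) (Fin 2) K)
    (hbdd : ∃ r : 𝒪, r ≠ 0 ∧ ∀ (g : GQ) (i j : Fin 2),
      ∃ a : 𝒪, algebraMap 𝒪 K a = algebraMap 𝒪 K r * ρ g i j)
    (hcont : ∀ n : ℕ, ∃ L : IntermediateField ℚ (AlgebraicClosure ℚ), FiniteDimensional ℚ L ∧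
      ∀ σ : GQ, (∀ x ∈ L, σ x = x) → ∀ i j : Fin 2,
        ∃ a ∈ IsLocalRing.maximalIdeal 𝒪 ^ n, algebraMap 𝒪 K a = (ρ σ - 1) i j) :
    ∃ R : GaloisRepAdic 𝒪,
      (∀ g : GQ, (LinearMap.charpoly (R.ρ g)).map (algebraMap 𝒪 K) = (ρ g).charpoly) ∧
      (∀ τ : GQ, ρ τ = 1 → R.ρ τ = 1) := by
  obtain ⟨r, hr, hb⟩ := hbdd
  obtain ⟨hfree, hfin, hrank⟩ := free_finite_finrank ρ hr hb
  obtain ⟨k, hk⟩ := exists_pow_shift hr
  refine ⟨{ V := lat 𝒪 ρ
            finrank_eq := hrank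
            ρ := latRep 𝒪 ρ
            isAdicContinuous := ?_ }, ?_, ?_⟩
  · intro n
    obtain ⟨L, hL, hLσ⟩ := hcont (n + k)
    exact ⟨L, hL, fun σ hσ v => latRep_sub_mem ρ hb (hk n) (hLσ σ hσ) v⟩
  · intro g
    exact charpoly_latRep ρ (Module.finBasisOfFinrankEq 𝒪 (lat 𝒪 ρ) hrank) g
  · intro τ hτ
    exact latRep_eq_one ρ hτ

end Fermat.Agent.S30.Lat
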