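/-
S30, leaf [OddDet] (helper104): from an odd two-dimensional pseudo-character to a representation.

`K` a field with `2 ≠ 0`, `G` a group, `t : G → K`, `d : G →* Kˣ` with
* `t 1 = 2`, `t (g h) = t (h g)`, `t (g h) + d h · t (g h⁻¹) = t g · t h`,
and `c : G` with `c c = 1`, `t c = 0`, `d c = -1` ("complex conjugation").  Then there is a
homomorphism `ρ : G →* M₂(K)` with `trace (ρ g) = t g`, `det (ρ g) = d g`, and `ρ τ = 1` for every
`τ` with `t (τ g) = t g` for all `g`.

The matrices are explicit.  With `a g = (t g + t (c g))/2`, `δ g = (t g - t (c g))/2` and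
`x g h = a (g h) - a g · a h`:
* if `x = 0` identically, `ρ g = diag (a g, δ g)`;
* if `x g₀ h₀ ≠ 0`, `ρ g = !![a g, x g h₀ / x g₀ h₀; x g₀ g, δ g]`.

Proof: let `T` be the linear extension of `t` to the group algebra `K[G]`; it is central.  For
`e = (1 ± c)/2` one has `T (e y e z) = T (e y) · T (e z)` for all `y z : K[G]` (a four-term identity
on group elements, extended bilinearly).  With `X y z = T (e₁ y e₂ z)` everything else follows by
cyclic rotation under `T`.  No quotient of the group algebra is needed.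
-/
import Mathlib

set_option autoImplicit false

noncomputable section

namespace Fermat.Agent.S30.OddDet

open MonoidAlgebra

variable {K : Type*} [Field K] {G : Type*}

/-! ### The trace functional on the group algebra -/

/-- The `K`-linear extension of `t : G → K` to the group algebra. -/
def trL (t : G → K) : MonoidAlgebra K G →ₗ[K] K :=
  (Finsupp.linearCombination K t) ∘ₗ (MonoidAlgebra.coeffLinearEquiv K).toLinearMap

theorem trL_single (t : G → K) (g : G) (r : K) : trL t (single g r) = r * t g := by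
  simp [trL]

variable [Group G]

theorem trL_of (t : G → K) (g : G) : trL t (of K G g) = t g := by
  simp [trL]

theorem of_mul_of (g h : G) : of K G g * of K G h = of K G (g * h) := (map_mul _ g h).symm

/-- The trace functional is central. -/
theorem trL_mul_comm {t : G → K} (htc : ∀ g h, t (g * h) = t (h * g)) (y z : MonoidAlgebra K G) :
    trL t (y * z) = trL t (z * y) := by
  induction y using MonoidAlgebra.induction_on with
  | of g =>
    induction z using MonoidAlgebra.induction_on with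
    | of h => rw [of_mul_of, of_mul_of, trL_of, trL_of, htc]
    | add z₁ z₂ h₁ h₂ => rw [mul_add, add_mul, map_add, map_add, h₁, h₂]
    | smul r z h => rw [mul_smul_comm, smul_mul_assoc, map_smul, map_smul, h]
  | add y₁ y₂ h₁ h₂ => rw [mul_add, add_mul, map_add, map_add, h₁, h₂]
  | smul r y h => rw [mul_smul_comm, smul_mul_assoc, map_smul, map_smul, h]

/-! ### The two idempotents -/

/-- The element `(1 + s c)/2` of the group algebra (`s = ±1`). -/
def idem (c : G) (s : K) : MonoidAlgebra K G := (2⁻¹ : K) • (1 + s • of K G c)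

theorem idem_add_idem (h2 : (2 : K) ≠ 0) (c : G) : idem c (1 : K) + idem c (-1 : K) = 1 := by
  have h : (1 + (1 : K) • of K G c) + (1 + (-1 : K) • of K G c) =
      (2 : K) • (1 : MonoidAlgebra K G) := by
    rw [two_smul, neg_smul]
    abel
  rw [idem, idem, ← smul_add, h, smul_smul, inv_mul_cancel₀ h2, one_smul]

theorem trL_idem_mul_of (t : G → K) (c : G) (s : K) (g : G) :
    trL t (idem c s * of K G g) = 2⁻¹ * (t g + s * t (c * g)) := by
  simp only [idem, smul_mul_assoc, add_mul, one_mul, of_mul_of, map_smul, map_add, trL_of,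
    smul_eq_mul]

/-- The basic four-term identity on group elements. -/
theorem trL_idem_of_idem_of {t : G → K} {d : G →* Kˣ} {c : G}
    (htc : ∀ g h, t (g * h) = t (h * g))
    (htd : ∀ g h, t (g * h) + (d h : K) * t (g * h⁻¹) = t g * t h)
    (hc : c * c = 1) (hdc : ((d c : Kˣ) : K) = -1) {s : K} (hs : s * s = 1) (g h : G) :
    trL t (idem c s * of K G g * idem c s * of K G h) =
      trL t (idem c s * of K G g) * trL t (idem c s * of K G h) := by
  rw [trL_idem_mul_of, trL_idem_mul_of]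
  have hcinv : c⁻¹ = c := inv_eq_of_mul_eq_one_left hc
  have hdch : ((d (c * h) : Kˣ) : K) = -(d h : K) := by
    rw [map_mul, Units.val_mul, hdc]; ring
  have E1 := htd g h
  have E2 := htd g (c * h)
  have E3 := htd (c * g) h
  have E4 := htd (c * g) (c * h)
  have W3 : t (c * g * h⁻¹) = t (g * (c * h)⁻¹) := by
    rw [mul_inv_rev, hcinv, mul_assoc c, htc c, mul_assoc]
  have W4 : t (c * g * (c * h)⁻¹) = t (g * h⁻¹) := by
    rw [mul_inv_rev, hcinv, mul_assoc c, htc c, mul_assoc, mul_assoc, hc, mul_one]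
  rw [hdch] at E2 E4
  rw [W3] at E3
  rw [W4] at E4
  have L : trL t (idem c s * of K G g * idem c s * of K G h) =
      2⁻¹ * 2⁻¹ * (t (g * h) + s * t (g * (c * h)) + s * t (c * g * h)
        + s * s * t (c * g * (c * h))) := by
    simp only [idem, smul_mul_assoc, mul_smul_comm, add_mul, mul_add, one_mul, mul_one,
      of_mul_of, map_smul, map_add, trL_of, smul_eq_mul, mul_assoc]
    ring
  rw [L]
  linear_combination (2⁻¹ * 2⁻¹ : K) * E1 + (2⁻¹ * 2⁻¹ * s) * E2 + (2⁻¹ * 2⁻¹ * s) * E3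
    + (2⁻¹ * 2⁻¹ * s * s) * E4 + (2⁻¹ * 2⁻¹ * (d h : K) * t (g * h⁻¹)) * hs

/-- **Key identity**: `T (e y e z) = T (e y) · T (e z)` for `e = (1 + s c)/2`, `s = ±1`. -/
theorem trL_idem_mul_idem_mul {t : G → K} {d : G →* Kˣ} {c : G}
    (htc : ∀ g h, t (g * h) = t (h * g))
    (htd : ∀ g h, t (g * h) + (d h : K) * t (g * h⁻¹) = t g * t h)
    (hc : c * c = 1) (hdc : ((d c : Kˣ) : K) = -1) {s : K} (hs : s * s = 1)
    (y z : MonoidAlgebra K G) :
    trL t (idem c s * y * idem c s * z) = trL t (idem c s * y) * trL t (idem c s * z) := by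
  induction y using MonoidAlgebra.induction_on with
  | of g =>
    induction z using MonoidAlgebra.induction_on with
    | of h => exact trL_idem_of_idem_of htc htd hc hdc hs g h
    | add z₁ z₂ h₁ h₂ => rw [mul_add, mul_add, map_add, map_add, h₁, h₂, mul_add]
    | smul r z h =>
      rw [mul_smul_comm, mul_smul_comm, map_smul, map_smul, h, smul_eq_mul, smul_eq_mul]
      ring
  | add y₁ y₂ h₁ h₂ =>
    simp only [mul_add, add_mul, map_add, h₁, h₂]
  | smul r y h =>
    simp only [mul_smul_comm, smul_mul_assoc, map_smul, smul_eq_mul, h]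
    ring

/-! ### The functionals `a`, `δ`, `X` on the group algebra -/

section Algebra

variable (t : G → K) (c : G)

/-- `a y = T (e₁ y)`. -/
def aL (y : MonoidAlgebra K G) : K := trL t (idem c (1 : K) * y)

/-- `δ y = T (e₂ y)`. -/
def dL (y : MonoidAlgebra K G) : K := trL t (idem c (-1 : K) * y)

/-- `X y z = T (e₁ y e₂ z)`. -/
def xL (y z : MonoidAlgebra K G) : K := trL t (idem c (1 : K) * y * idem c (-1 : K) * z)

variable {t c} {d : G →* Kˣ}

theorem xL_eq_aL (y z : MonoidAlgebra K G) : xL t c y z = aL t c (y * idem c (-1 : K) * z) := by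
  unfold xL aL
  simp only [mul_assoc]

theorem xL_eq_dL (htc : ∀ g h, t (g * h) = t (h * g)) (y z : MonoidAlgebra K G) :
    xL t c y z = dL t c (z * idem c (1 : K) * y) := by
  unfold xL dL
  rw [show idem c (1 : K) * y * idem c (-1 : K) * z = (idem c (1 : K) * y) * (idem c (-1 : K) * z)
    by simp only [mul_assoc], trL_mul_comm htc]
  simp only [mul_assoc]

theorem split_mul (h2 : (2 : K) ≠ 0) (u v : MonoidAlgebra K G) :
    u * idem c (1 : K) * v + u * idem c (-1 : K) * v = u * v := by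
  rw [← add_mul, ← mul_add, idem_add_idem h2, mul_one]

section Identities

variable (h2 : (2 : K) ≠ 0) (htc : ∀ g h, t (g * h) = t (h * g))
  (htd : ∀ g h, t (g * h) + (d h : K) * t (g * h⁻¹) = t g * t h)
  (hc : c * c = 1) (hdc : ((d c : Kˣ) : K) = -1)

include htc htd hc hdc

theorem aL_mul_aL (y z : MonoidAlgebra K G) :
    trL t (idem c (1 : K) * y * idem c (1 : K) * z) = aL t c y * aL t c z :=
  trL_idem_mul_idem_mul htc htd hc hdc (by ring) y z

theorem dL_mul_dL (y z : MonoidAlgebra K G) :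
    trL t (idem c (-1 : K) * y * idem c (-1 : K) * z) = dL t c y * dL t c z :=
  trL_idem_mul_idem_mul htc htd hc hdc (by ring) y z

include h2

/-- (I1) `a (y z) = a y · a z + X y z`. -/
theorem aL_mul (y z : MonoidAlgebra K G) :
    aL t c (y * z) = aL t c y * aL t c z + xL t c y z := by
  rw [← aL_mul_aL htc htd hc hdc y z]
  unfold aL xL
  rw [← map_add, split_mul h2, mul_assoc]

/-- (I2) `δ (y z) = δ y · δ z + X z y`. -/
theorem dL_mul (y z : MonoidAlgebra K G) :
    dL t c (y * z) = dL t c y * dL t c z + xL t c z y := by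
  rw [← dL_mul_dL htc htd hc hdc y z]
  have e : xL t c z y = trL t (idem c (-1 : K) * y * idem c (1 : K) * z) := by
    unfold xL
    rw [show idem c (1 : K) * z * idem c (-1 : K) * y =
      (idem c (1 : K) * z) * (idem c (-1 : K) * y) by simp only [mul_assoc], trL_mul_comm htc]
    simp only [mul_assoc]
  rw [e]
  unfold dL
  rw [add_comm, ← map_add, split_mul h2, mul_assoc]

omit h2 in
/-- (I3) `X y z · X y' z' = X y z' · X y' z`. -/
theorem xL_mul_xL (y z y' z' : MonoidAlgebra K G) :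
    xL t c y z * xL t c y' z' = xL t c y z' * xL t c y' z := by
  rw [xL_eq_aL y z, xL_eq_aL y' z', xL_eq_dL htc y z', xL_eq_dL htc y' z,
    ← aL_mul_aL htc htd hc hdc, mul_comm (dL t c _), ← dL_mul_dL htc htd hc hdc]
  rw [show idem c (-1 : K) * (z * idem c (1 : K) * y') * idem c (-1 : K) * (z' * idem c (1 : K) * y)
      = (idem c (-1 : K) * z * idem c (1 : K) * y' * idem c (-1 : K) * z') * (idem c (1 : K) * y)
    by simp only [mul_assoc],
    trL_mul_comm htc (idem c (-1 : K) * z * idem c (1 : K) * y' * idem c (-1 : K) * z')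
      (idem c (1 : K) * y)]
  simp only [mul_assoc]

/-- (I4) `X (y z) w = a y · X z w + X y w · δ z`. -/
theorem xL_mul_left (y z w : MonoidAlgebra K G) :
    xL t c (y * z) w = aL t c y * xL t c z w + xL t c y w * dL t c z := by
  have h1 : trL t (idem c (1 : K) * y * idem c (1 : K) * (z * idem c (-1 : K) * w)) =
      aL t c y * xL t c z w := by
    rw [aL_mul_aL htc htd hc hdc, xL_eq_aL]
  have h2' : trL t (idem c (1 : K) * y * idem c (-1 : K) * (z * idem c (-1 : K) * w)) =
      xL t c y w * dL t c z := by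
    rw [show idem c (1 : K) * y * idem c (-1 : K) * (z * idem c (-1 : K) * w) =
        (idem c (1 : K) * y) * (idem c (-1 : K) * z * idem c (-1 : K) * w) by simp only [mul_assoc],
      trL_mul_comm htc (idem c (1 : K) * y) (idem c (-1 : K) * z * idem c (-1 : K) * w),
      show idem c (-1 : K) * z * idem c (-1 : K) * w * (idem c (1 : K) * y) =
        idem c (-1 : K) * z * idem c (-1 : K) * (w * idem c (1 : K) * y) by simp only [mul_assoc],
      dL_mul_dL htc htd hc hdc, ← xL_eq_dL htc, mul_comm]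
  rw [← h1, ← h2', ← map_add, split_mul h2]
  unfold xL
  simp only [mul_assoc]

/-- (I5) `X w (y z) = X w y · a z + δ y · X w z`. -/
theorem xL_mul_right (y z w : MonoidAlgebra K G) :
    xL t c w (y * z) = xL t c w y * aL t c z + dL t c y * xL t c w z := by
  have h1 : trL t (idem c (1 : K) * w * idem c (-1 : K) * y * idem c (1 : K) * z) =
      xL t c w y * aL t c z := by
    rw [show idem c (1 : K) * w * idem c (-1 : K) * y * idem c (1 : K) * z =
        (idem c (1 : K) * w * idem c (-1 : K) * y) * (idem c (1 : K) * z) by simp only [mul_assoc],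
      trL_mul_comm htc (idem c (1 : K) * w * idem c (-1 : K) * y) (idem c (1 : K) * z),
      show idem c (1 : K) * z * (idem c (1 : K) * w * idem c (-1 : K) * y) =
        idem c (1 : K) * z * idem c (1 : K) * (w * idem c (-1 : K) * y) by simp only [mul_assoc],
      aL_mul_aL htc htd hc hdc, ← xL_eq_aL, mul_comm]
  have h2' : trL t (idem c (1 : K) * w * idem c (-1 : K) * y * idem c (-1 : K) * z) =
      dL t c y * xL t c w z := by
    rw [show idem c (1 : K) * w * idem c (-1 : K) * y * idem c (-1 : K) * z =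
        (idem c (1 : K) * w) * (idem c (-1 : K) * y * idem c (-1 : K) * z) by simp only [mul_assoc],
      trL_mul_comm htc (idem c (1 : K) * w) (idem c (-1 : K) * y * idem c (-1 : K) * z),
      show idem c (-1 : K) * y * idem c (-1 : K) * z * (idem c (1 : K) * w) =
        idem c (-1 : K) * y * idem c (-1 : K) * (z * idem c (1 : K) * w) by simp only [mul_assoc],
      dL_mul_dL htc htd hc hdc, ← xL_eq_dL htc]
  rw [← h1, ← h2', ← map_add, split_mul h2]
  unfold xL
  simp only [mul_assoc]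

end Identities

end Algebra

/-! ### The functions `a`, `δ`, `x` on the group -/

/-- `a g = (t g + t (c g)) / 2`. -/
def aFun (t : G → K) (c : G) (g : G) : K := (t g + t (c * g)) / 2

/-- `δ g = (t g - t (c g)) / 2`. -/
def dFun (t : G → K) (c : G) (g : G) : K := (t g - t (c * g)) / 2

/-- `x g h = a (g h) - a g · a h`. -/
def xFun (t : G → K) (c : G) (g h : G) : K := aFun t c (g * h) - aFun t c g * aFun t c h

section Functions

variable {t : G → K} {c : G} {d : G →* Kˣ}

theorem aL_of (g : G) : aL t c (of K G g) = aFun t c g := by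
  unfold aL aFun
  rw [trL_idem_mul_of]
  ring

theorem dL_of (g : G) : dL t c (of K G g) = dFun t c g := by
  unfold dL dFun
  rw [trL_idem_mul_of]
  ring

/-- `a g + δ g = t g`. -/
theorem aFun_add_dFun (h2 : (2 : K) ≠ 0) (g : G) : aFun t c g + dFun t c g = t g := by
  unfold aFun dFun
  field_simp
  ring

/-- `a (g h) = a g · a h + x g h` (by definition). -/
theorem aFun_mul (g h : G) : aFun t c (g * h) = aFun t c g * aFun t c h + xFun t c g h := by
  unfold xFun
  ring

theorem aFun_one (h2 : (2 : K) ≠ 0) (ht1 : t 1 = 2) (htc0 : t c = 0) : aFun t c 1 = 1 := by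
  unfold aFun
  rw [mul_one, ht1, htc0, add_zero, div_self h2]

theorem dFun_one (h2 : (2 : K) ≠ 0) (ht1 : t 1 = 2) (htc0 : t c = 0) : dFun t c 1 = 1 := by
  unfold dFun
  rw [mul_one, ht1, htc0, sub_zero, div_self h2]

theorem xFun_one_left (h2 : (2 : K) ≠ 0) (ht1 : t 1 = 2) (htc0 : t c = 0) (h : G) :
    xFun t c 1 h = 0 := by
  unfold xFun
  rw [one_mul, aFun_one h2 ht1 htc0, one_mul, sub_self]

theorem xFun_one_right (h2 : (2 : K) ≠ 0) (ht1 : t 1 = 2) (htc0 : t c = 0) (g : G) :
    xFun t c g 1 = 0 := by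
  unfold xFun
  rw [mul_one, aFun_one h2 ht1 htc0, mul_one, sub_self]

section Identities

variable (h2 : (2 : K) ≠ 0) (htc : ∀ g h, t (g * h) = t (h * g))
  (htd : ∀ g h, t (g * h) + (d h : K) * t (g * h⁻¹) = t g * t h)
  (hc : c * c = 1) (hdc : ((d c : Kˣ) : K) = -1)

include h2 htc htd hc hdc

theorem xL_of (g h : G) : xL t c (of K G g) (of K G h) = xFun t c g h := by
  have h1 := aL_mul h2 htc htd hc hdc (of K G g) (of K G h)
  rw [of_mul_of, aL_of, aL_of, aL_of] at h1
  unfold xFun
  rw [h1]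
  ring

/-- `x g h · x g' h' = x g h' · x g' h`. -/
theorem xFun_mul_xFun (g h g' h' : G) :
    xFun t c g h * xFun t c g' h' = xFun t c g h' * xFun t c g' h := by
  have h1 := xL_mul_xL htc htd hc hdc (of K G g) (of K G h) (of K G g') (of K G h')
  rwa [xL_of h2 htc htd hc hdc, xL_of h2 htc htd hc hdc, xL_of h2 htc htd hc hdc,
    xL_of h2 htc htd hc hdc] at h1

/-- `δ (g h) = δ g · δ h + x h g`. -/
theorem dFun_mul (g h : G) : dFun t c (g * h) = dFun t c g * dFun t c h + xFun t c h g := by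
  have h1 := dL_mul h2 htc htd hc hdc (of K G g) (of K G h)
  rwa [of_mul_of, dL_of, dL_of, dL_of, xL_of h2 htc htd hc hdc] at h1

/-- `x (g h) w = a g · x h w + x g w · δ h`. -/
theorem xFun_mul_left (g h w : G) :
    xFun t c (g * h) w = aFun t c g * xFun t c h w + xFun t c g w * dFun t c h := by
  have h1 := xL_mul_left h2 htc htd hc hdc (of K G g) (of K G h) (of K G w)
  rwa [of_mul_of, xL_of h2 htc htd hc hdc, xL_of h2 htc htd hc hdc, xL_of h2 htc htd hc hdc,
    aL_of, dL_of] at h1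

/-- `x w (g h) = x w g · a h + δ g · x w h`. -/
theorem xFun_mul_right (g h w : G) :
    xFun t c w (g * h) = xFun t c w g * aFun t c h + dFun t c g * xFun t c w h := by
  have h1 := xL_mul_right h2 htc htd hc hdc (of K G g) (of K G h) (of K G w)
  rwa [of_mul_of, xL_of h2 htc htd hc hdc, xL_of h2 htc htd hc hdc, xL_of h2 htc htd hc hdc,
    aL_of, dL_of] at h1

end Identities

/-- `a (g²) = t g · a g - d g`. -/
theorem aFun_sq (h2 : (2 : K) ≠ 0) (ht1 : t 1 = 2)
    (htd : ∀ g h, t (g * h) + (d h : K) * t (g * h⁻¹) = t g * t h) (htc0 : t c = 0) (g : G) :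
    aFun t c (g * g) = t g * aFun t c g - (d g : K) := by
  have E1 := htd g g
  have E2 := htd (c * g) g
  rw [mul_inv_cancel, ht1] at E1
  rw [mul_assoc c g g⁻¹, mul_inv_cancel, mul_one, htc0, mul_zero, add_zero, mul_assoc] at E2
  unfold aFun
  field_simp
  linear_combination E1 + E2

/-- `a g · δ g - x g g = d g`: the determinant. -/
theorem aFun_mul_dFun_sub (h2 : (2 : K) ≠ 0) (ht1 : t 1 = 2)
    (htd : ∀ g h, t (g * h) + (d h : K) * t (g * h⁻¹) = t g * t h) (htc0 : t c = 0) (g : G) :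
    aFun t c g * dFun t c g - xFun t c g g = (d g : K) := by
  have h1 := aFun_sq (c := c) h2 ht1 htd htc0 g
  have h3 := aFun_add_dFun (t := t) (c := c) h2 g
  unfold xFun
  linear_combination (-1 : K) * h1 + aFun t c g * h3

/-- If `t (τ g) = t g` for all `g`, then `a`, `δ`, `x` do not see `τ`. -/
theorem aFun_of_trivial (htc : ∀ g h, t (g * h) = t (h * g)) {τ : G}
    (hτ : ∀ g, t (τ * g) = t g) (g : G) : aFun t c (τ * g) = aFun t c g := by
  unfold aFun
  rw [hτ, htc c (τ * g), mul_assoc, hτ, htc g c]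

theorem aFun_of_trivial' (htc : ∀ g h, t (g * h) = t (h * g)) {τ : G}
    (hτ : ∀ g, t (τ * g) = t g) (g : G) : aFun t c (g * τ) = aFun t c g := by
  unfold aFun
  rw [htc g τ, hτ, ← mul_assoc, htc (c * g) τ, hτ]

theorem aFun_trivial (h2 : (2 : K) ≠ 0) (ht1 : t 1 = 2) (htc0 : t c = 0)
    (htc : ∀ g h, t (g * h) = t (h * g)) {τ : G} (hτ : ∀ g, t (τ * g) = t g) :
    aFun t c τ = 1 := by
  have h := aFun_of_trivial (c := c) htc hτ 1
  rwa [mul_one, aFun_one h2 ht1 htc0] at h

theorem dFun_trivial (h2 : (2 : K) ≠ 0) (ht1 : t 1 = 2) (htc0 : t c = 0)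
    (htc : ∀ g h, t (g * h) = t (h * g)) {τ : G} (hτ : ∀ g, t (τ * g) = t g) :
    dFun t c τ = 1 := by
  have h1 := aFun_add_dFun (t := t) (c := c) h2 τ
  have h3 := aFun_trivial (c := c) h2 ht1 htc0 htc hτ
  have h4 : t τ = 2 := by
    have := hτ 1
    rwa [mul_one, ht1] at this
  rw [h3, h4] at h1
  linear_combination h1

theorem xFun_trivial_left (h2 : (2 : K) ≠ 0) (ht1 : t 1 = 2) (htc0 : t c = 0)
    (htc : ∀ g h, t (g * h) = t (h * g)) {τ : G} (hτ : ∀ g, t (τ * g) = t g) (h : G) :
    xFun t c τ h = 0 := by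
  unfold xFun
  rw [aFun_of_trivial htc hτ, aFun_trivial h2 ht1 htc0 htc hτ, one_mul, sub_self]

theorem xFun_trivial_right (h2 : (2 : K) ≠ 0) (ht1 : t 1 = 2) (htc0 : t c = 0)
    (htc : ∀ g h, t (g * h) = t (h * g)) {τ : G} (hτ : ∀ g, t (τ * g) = t g) (g : G) :
    xFun t c g τ = 0 := by
  unfold xFun
  rw [aFun_of_trivial' htc hτ, aFun_trivial h2 ht1 htc0 htc hτ, mul_one, sub_self]

end Functions

/-! ### The representation -/

section Rep

variable {t : G → K} {c : G} {d : G →* Kˣ}

/-- **[OddDet], non-diagonal case, explicit entries.**  For any `(g₀, h₀)` with `x g₀ h₀ ≠ 0`,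
`g ↦ !![a g, x g h₀ / x g₀ h₀; x g₀ g, δ g]` is a homomorphism with trace `t` and determinant `d`,
trivial on every `τ` with `t (τ g) = t g` for all `g`. -/
theorem exists_rep_of_xFun_ne (h2 : (2 : K) ≠ 0) (ht1 : t 1 = 2)
    (htc : ∀ g h, t (g * h) = t (h * g))
    (htd : ∀ g h, t (g * h) + (d h : K) * t (g * h⁻¹) = t g * t h)
    (hc : c * c = 1) (htc0 : t c = 0) (hdc : ((d c : Kˣ) : K) = -1)
    (g₀ h₀ : G) (hx : xFun t c g₀ h₀ ≠ 0) :
    ∃ ρ : G →* Matrix (Fin 2) (Fin 2) K,
      (∀ g, ρ g = !![aFun t c g, xFun t c g h₀ / xFun t c g₀ h₀; xFun t c g₀ g, dFun t c g]) ∧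
      (∀ g, (ρ g).trace = t g) ∧ (∀ g, (ρ g).det = (d g : K)) ∧
      (∀ τ, (∀ g, t (τ * g) = t g) → ρ τ = 1) := by
  set x₀ : K := xFun t c g₀ h₀ with hx₀
  let M : G → Matrix (Fin 2) (Fin 2) K := fun g =>
    !![aFun t c g, xFun t c g h₀ / x₀; xFun t c g₀ g, dFun t c g]
  have hM1 : M 1 = 1 := by
    show !![aFun t c 1, xFun t c 1 h₀ / x₀; xFun t c g₀ 1, dFun t c 1] = 1
    rw [aFun_one h2 ht1 htc0, dFun_one h2 ht1 htc0, xFun_one_left h2 ht1 htc0,
      xFun_one_right h2 ht1 htc0, zero_div, Matrix.one_fin_two]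
  have hMmul : ∀ g h, M (g * h) = M g * M h := by
    intro g h
    show !![aFun t c (g * h), xFun t c (g * h) h₀ / x₀; xFun t c g₀ (g * h), dFun t c (g * h)] =
      !![aFun t c g, xFun t c g h₀ / x₀; xFun t c g₀ g, dFun t c g] *
        !![aFun t c h, xFun t c h h₀ / x₀; xFun t c g₀ h, dFun t c h]
    have k1 : xFun t c g h * x₀ = xFun t c g h₀ * xFun t c g₀ h :=
      xFun_mul_xFun h2 htc htd hc hdc g h g₀ h₀
    have k2 : xFun t c h g * x₀ = xFun t c h h₀ * xFun t c g₀ g :=
      xFun_mul_xFun h2 htc htd hc hdc h g g₀ h₀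
    have e11 : aFun t c (g * h) =
        aFun t c g * aFun t c h + xFun t c g h₀ / x₀ * xFun t c g₀ h := by
      rw [aFun_mul]
      field_simp
      linear_combination k1
    have e12 : xFun t c (g * h) h₀ / x₀ =
        aFun t c g * (xFun t c h h₀ / x₀) + xFun t c g h₀ / x₀ * dFun t c h := by
      rw [xFun_mul_left h2 htc htd hc hdc]
      field_simp
    have e21 : xFun t c g₀ (g * h) =
        xFun t c g₀ g * aFun t c h + dFun t c g * xFun t c g₀ h :=
      xFun_mul_right h2 htc htd hc hdc g h g₀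
    have e22 : dFun t c (g * h) =
        xFun t c g₀ g * (xFun t c h h₀ / x₀) + dFun t c g * dFun t c h := by
      rw [dFun_mul h2 htc htd hc hdc]
      field_simp
      linear_combination k2
    rw [Matrix.mul_fin_two, ← e11, ← e12, ← e21, ← e22]
  refine ⟨{ toFun := M, map_one' := hM1, map_mul' := hMmul }, fun g => rfl, fun g => ?_,
    fun g => ?_, fun τ hτ => ?_⟩
  · show (!![aFun t c g, xFun t c g h₀ / x₀; xFun t c g₀ g, dFun t c g]).trace = t g
    rw [Matrix.trace_fin_two_of, aFun_add_dFun h2]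
  · show (!![aFun t c g, xFun t c g h₀ / x₀; xFun t c g₀ g, dFun t c g]).det = (d g : K)
    have k : xFun t c g g * x₀ = xFun t c g h₀ * xFun t c g₀ g :=
      xFun_mul_xFun h2 htc htd hc hdc g g g₀ h₀
    have hd := aFun_mul_dFun_sub (c := c) h2 ht1 htd htc0 g
    rw [Matrix.det_fin_two_of, ← hd]
    field_simp
    linear_combination k
  · show !![aFun t c τ, xFun t c τ h₀ / x₀; xFun t c g₀ τ, dFun t c τ] = 1
    rw [aFun_trivial h2 ht1 htc0 htc hτ, dFun_trivial h2 ht1 htc0 htc hτ,
      xFun_trivial_left h2 ht1 htc0 htc hτ, xFun_trivial_right h2 ht1 htc0 htc hτ, zero_div,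
      Matrix.one_fin_two]

/-- **[OddDet], diagonal case.**  If `x = 0` identically, `g ↦ diag (a g, δ g)` is a homomorphism
with trace `t` and determinant `d`, trivial on every `τ` with `t (τ g) = t g` for all `g`. -/
theorem exists_rep_of_xFun_eq_zero (h2 : (2 : K) ≠ 0) (ht1 : t 1 = 2)
    (htc : ∀ g h, t (g * h) = t (h * g))
    (htd : ∀ g h, t (g * h) + (d h : K) * t (g * h⁻¹) = t g * t h)
    (hc : c * c = 1) (htc0 : t c = 0) (hdc : ((d c : Kˣ) : K) = -1)
    (hx : ∀ g h, xFun t c g h = 0) :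
    ∃ ρ : G →* Matrix (Fin 2) (Fin 2) K,
      (∀ g, ρ g = !![aFun t c g, 0; 0, dFun t c g]) ∧
      (∀ g, (ρ g).trace = t g) ∧ (∀ g, (ρ g).det = (d g : K)) ∧
      (∀ τ, (∀ g, t (τ * g) = t g) → ρ τ = 1) := by
  let M : G → Matrix (Fin 2) (Fin 2) K := fun g => !![aFun t c g, 0; 0, dFun t c g]
  have hM1 : M 1 = 1 := by
    show !![aFun t c 1, 0; 0, dFun t c 1] = 1
    rw [aFun_one h2 ht1 htc0, dFun_one h2 ht1 htc0, Matrix.one_fin_two]
  have hMmul : ∀ g h, M (g * h) = M g * M h := by
    intro g h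
    show !![aFun t c (g * h), 0; 0, dFun t c (g * h)] =
      !![aFun t c g, 0; 0, dFun t c g] * !![aFun t c h, 0; 0, dFun t c h]
    have e11 : aFun t c (g * h) = aFun t c g * aFun t c h := by
      rw [aFun_mul, hx, add_zero]
    have e22 : dFun t c (g * h) = dFun t c g * dFun t c h := by
      rw [dFun_mul h2 htc htd hc hdc, hx, add_zero]
    rw [Matrix.mul_fin_two, e11, e22]
    simp
  refine ⟨{ toFun := M, map_one' := hM1, map_mul' := hMmul }, fun g => rfl, fun g => ?_,
    fun g => ?_, fun τ hτ => ?_⟩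
  · show (!![aFun t c g, 0; 0, dFun t c g]).trace = t g
    rw [Matrix.trace_fin_two_of, aFun_add_dFun h2]
  · show (!![aFun t c g, 0; 0, dFun t c g]).det = (d g : K)
    have hd := aFun_mul_dFun_sub (c := c) h2 ht1 htd htc0 g
    rw [hx, sub_zero] at hd
    rw [Matrix.det_fin_two_of, hd, mul_zero, sub_zero]
  · show !![aFun t c τ, 0; 0, dFun t c τ] = 1
    rw [aFun_trivial h2 ht1 htc0 htc hτ, dFun_trivial h2 ht1 htc0 htc hτ, Matrix.one_fin_two]

/-- **[OddDet]** (lead's statement, board #2062 step (4)): an odd two-dimensional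
pseudo-character `(t, d)` over a field with `2 ≠ 0` is the trace/determinant of a homomorphism
`ρ : G →* M₂(K)`, trivial on every `τ` with `t (τ g) = t g` for all `g`. -/
theorem exists_rep (h2 : (2 : K) ≠ 0) (ht1 : t 1 = 2)
    (htc : ∀ g h, t (g * h) = t (h * g))
    (htd : ∀ g h, t (g * h) + (d h : K) * t (g * h⁻¹) = t g * t h)
    (hc : c * c = 1) (htc0 : t c = 0) (hdc : ((d c : Kˣ) : K) = -1) :
    ∃ ρ : G →* Matrix (Fin 2) (Fin 2) K,
      (∀ g, (ρ g).trace = t g ∧ (ρ g).det = (d g : K)) ∧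
      (∀ τ, (∀ g, t (τ * g) = t g) → ρ τ = 1) := by
  by_cases hx : ∀ g h, xFun t c g h = 0
  · obtain ⟨ρ, -, h1, h3, h4⟩ := exists_rep_of_xFun_eq_zero h2 ht1 htc htd hc htc0 hdc hx
    exact ⟨ρ, fun g => ⟨h1 g, h3 g⟩, h4⟩
  · obtain ⟨g₀, hx⟩ := not_forall.mp hx
    obtain ⟨h₀, hx₀⟩ := not_forall.mp hx
    obtain ⟨ρ, -, h1, h3, h4⟩ := exists_rep_of_xFun_ne h2 ht1 htc htd hc htc0 hdc g₀ h₀ hx₀
    exact ⟨ρ, fun g => ⟨h1 g, h3 g⟩, h4⟩

/-- The same with the hypothesis `d c = -1` stated in `Kˣ`. -/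
theorem exists_rep' (h2 : (2 : K) ≠ 0) (ht1 : t 1 = 2)
    (htc : ∀ g h, t (g * h) = t (h * g))
    (htd : ∀ g h, t (g * h) + (d h : K) * t (g * h⁻¹) = t g * t h)
    (hc : c * c = 1) (htc0 : t c = 0) (hdc : d c = -1) :
    ∃ ρ : G →* Matrix (Fin 2) (Fin 2) K,
      (∀ g, (ρ g).trace = t g ∧ (ρ g).det = (d g : K)) ∧
      (∀ τ, (∀ g, t (τ * g) = t g) → ρ τ = 1) :=
  exists_rep h2 ht1 htc htd hc htc0 (by rw [hdc]; simp)

end Rep

end Fermat.Agent.S30.OddDet
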