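/-
S30 — Top.lean (captain: helper33).  BINDING top split of S30 and its glue.

Frozen goal: for a ring hom `χ : heckeAlgebra N 2 S →+* 𝒪'` into a complete DVR `𝒪'` of
characteristic zero with `p ∈ 𝔪`, a finite DVR extension `𝒪''` and a `ρ : GaloisRepAdic 𝒪''` with
`charpoly ρ(Frob_ℓ) = X² - χ(T_ℓ) X + ℓ` for `ℓ ∉ S` and `ρ` unramified at all `q ∤ N`, `q ≠ p`.
We take `𝒪'' := 𝒪'`.

* `DetStatement p N S 𝒪 χ`  — [Det], the arithmetic half: the determinant (pseudo-representation)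
  `(t, d)` of `G_ℚ` attached to `χ`, with (P1) the pseudo-character identities, (P4) complex
  conjugation, (P2) `p`-adic continuity of `t`, (P3a) values at Frobenius elements, (P3b)
  inertia-invariance at all `q ∤ N`, `q ≠ p`.
* `OddRepStatement`          — [OddRep], pure algebra + lattice: an odd continuous determinant with
  values in a DVR of characteristic zero is the determinant of a `GaloisRepAdic`.
* `result_of_det_oddRep`     — the frozen S30 statement from the two halves.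
-/
import Mathlib
import Fermat.Prelude.Def_CuspForm_HeckeGaloisRepDatum

set_option autoImplicit false

open Polynomial

namespace Fermat.Agent.S30Top

/-- `ℚ̄`. -/
abbrev Qb : Type := AlgebraicClosure ℚ

/-- `G_ℚ`. -/
abbrev GQ : Type := AlgebraicClosure ℚ ≃ₐ[ℚ] AlgebraicClosure ℚ

/-- (P1) the pseudo-character identities of a 2-dimensional determinant `(t, d)`. -/
def IsPseudo {G : Type*} [Group G] {𝒪 : Type*} [CommRing 𝒪] (t : G → 𝒪) (d : G →* 𝒪ˣ) : Prop :=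
  t 1 = 2 ∧ (∀ g h : G, t (g * h) = t (h * g)) ∧
    ∀ g h : G, t (g * h) + ((d h : 𝒪ˣ) : 𝒪) * t (g * h⁻¹) = t g * t h

/-- (P4) an odd involution: `c * c = 1`, `t c = 0`, `d c = -1`. -/
def IsOddAt {G : Type*} [Group G] {𝒪 : Type*} [CommRing 𝒪] (t : G → 𝒪) (d : G →* 𝒪ˣ) : Prop :=
  ∃ c : G, c * c = 1 ∧ t c = 0 ∧ d c = -1

/-- (P2) `ϖ`-adic continuity of `t` on `G_ℚ`: for every `n` there is a finite level `L` such that
`t (σ * g) ≡ t g mod ϖ ^ n` for all `g` and all `σ` fixing `L`. -/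
def IsContAt {𝒪 : Type*} [CommRing 𝒪] (ϖ : 𝒪) (t : GQ → 𝒪) : Prop :=
  ∀ n : ℕ, ∃ L : IntermediateField ℚ Qb, FiniteDimensional ℚ L ∧
    ∀ σ : GQ, (∀ x ∈ L, σ x = x) → ∀ g : GQ, ϖ ^ n ∣ t (σ * g) - t g

/-- **[Det]** the determinant attached to `χ`. -/
def DetStatement (p N : ℕ) [NeZero N] (S : Finset ℕ) (𝒪 : Type) [CommRing 𝒪]
    (χ : CuspForm.heckeAlgebra N 2 (↑S : Set ℕ) →+* 𝒪) : Prop :=
  ∃ (t : GQ → 𝒪) (d : GQ →* 𝒪ˣ),
    IsPseudo t d ∧ IsOddAt t d ∧ IsContAt (p : 𝒪) t ∧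
    (∀ (ℓ : ℕ) (hℓ : ℓ.Prime) (hℓN : ¬ ℓ ∣ N) (hℓS : ℓ ∉ (↑S : Set ℕ)),
      ∀ A : ValuationSubring (AlgebraicClosure ℚ), A.LiesOverPrime ℓ →
        ∀ σ : GQ, A.IsFrobeniusAt σ ℓ →
          t σ = χ (CuspForm.heckeAlgebra.T hℓ hℓN hℓS) ∧ ((d σ : 𝒪ˣ) : 𝒪) = (ℓ : 𝒪)) ∧
    (∀ q : ℕ, q.Prime → ¬ q ∣ N → q ≠ p →
      ∀ P : ValuationSubring (AlgebraicClosure ℚ), P.LiesOverPrime q →
        ∀ τ ∈ P.inertiaSubgroupIn ℚ, ∀ g : GQ, t (τ * g) = t g)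

/-- **[OddRep]** an odd, `p`-adically continuous determinant of `G_ℚ` with values in a DVR of
characteristic zero (with `p` a nonunit) is the determinant of a `GaloisRepAdic`. -/
def OddRepStatement : Prop :=
  ∀ (𝒪 : Type) [CommRing 𝒪] [IsDomain 𝒪] [IsDiscreteValuationRing 𝒪] [CharZero 𝒪] (p : ℕ),
    (p : 𝒪) ∈ IsLocalRing.maximalIdeal 𝒪 →
    ∀ (t : GQ → 𝒪) (d : GQ →* 𝒪ˣ), IsPseudo t d → IsOddAt t d → IsContAt (p : 𝒪) t →
      ∃ R : GaloisRepAdic 𝒪,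
        (∀ g : GQ, LinearMap.charpoly (R.ρ g) = X ^ 2 - C (t g) * X + C ((d g : 𝒪ˣ) : 𝒪)) ∧
        (∀ τ : GQ, (∀ g : GQ, t (τ * g) = t g) → R.ρ τ = 1)

/-- **S30 from [Det] and [OddRep]** (frozen conclusion, with `𝒪'' := 𝒪'`). -/
theorem result_of_det_oddRep (hodd : OddRepStatement)
    (p : ℕ) [Fact p.Prime] (N : ℕ) [NeZero N] (S : Finset ℕ)
    (𝒪' : Type) [CommRing 𝒪'] [IsDomain 𝒪'] [IsDiscreteValuationRing 𝒪']
    [IsAdicComplete (IsLocalRing.maximalIdeal 𝒪') 𝒪'] [Finite (IsLocalRing.ResidueField 𝒪')]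
    [CharZero 𝒪'] (hp𝒪' : (p : 𝒪') ∈ IsLocalRing.maximalIdeal 𝒪')
    (χ : CuspForm.heckeAlgebra N 2 (↑S : Set ℕ) →+* 𝒪')
    (hdet : DetStatement p N S 𝒪' χ) :
    ∃ (𝒪'' : Type) (_ : CommRing 𝒪'') (_ : IsDomain 𝒪'') (_ : IsDiscreteValuationRing 𝒪'')
      (_ : IsAdicComplete (IsLocalRing.maximalIdeal 𝒪'') 𝒪'')
      (_ : Finite (IsLocalRing.ResidueField 𝒪'')) (_ : CharZero 𝒪'')
      (_ : Algebra 𝒪' 𝒪'') (_ : Module.Finite 𝒪' 𝒪'') (_ : IsLocalHom (algebraMap 𝒪' 𝒪'')),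
    Function.Injective (algebraMap 𝒪' 𝒪'') ∧
    ∃ ρ : GaloisRepAdic 𝒪'',
      (∀ (ℓ : ℕ) (hℓ : ℓ.Prime) (hℓN : ¬ ℓ ∣ N) (hℓS : ℓ ∉ (↑S : Set ℕ)),
        ∀ A : ValuationSubring (AlgebraicClosure ℚ), A.LiesOverPrime ℓ →
          ∀ σ : AlgebraicClosure ℚ ≃ₐ[ℚ] AlgebraicClosure ℚ, A.IsFrobeniusAt σ ℓ →
            LinearMap.charpoly (ρ.ρ σ) =
              X ^ 2 - C (algebraMap 𝒪' 𝒪'' (χ (CuspForm.heckeAlgebra.T hℓ hℓN hℓS))) * X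
                + C ((ℓ : 𝒪''))) ∧
      (∀ q : ℕ, q.Prime → ¬ q ∣ N → q ≠ p → ρ.IsUnramifiedAt q) := by
  obtain ⟨t, d, hps, hoddat, hcont, hfrob, hin⟩ := hdet
  obtain ⟨R, hR, hR1⟩ := hodd 𝒪' p hp𝒪' t d hps hoddat hcont
  refine ⟨𝒪', inferInstance, inferInstance, inferInstance, inferInstance, inferInstance,
    inferInstance, Algebra.id 𝒪', inferInstance, inferInstance, Function.injective_id, R, ?_, ?_⟩
  · intro ℓ hℓ hℓN hℓS A hA σ hσ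
    obtain ⟨h1, h2⟩ := hfrob ℓ hℓ hℓN hℓS A hA σ hσ
    rw [hR σ, h1, h2]
    rfl
  · intro q hq hqN hqp P hP τ hτ
    exact hR1 τ (hin q hq hqN hqp P hP τ hτ)

end Fermat.Agent.S30Top
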