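/-
S30, leaf [OddRep] (copy B, helper78): an odd, `p`-adically continuous determinant `(t, d)` of
`Gal(ℚ̄/ℚ)` with values in a discrete valuation ring `𝒪` of characteristic zero (with `p` a
nonunit) is the determinant of a `GaloisRepAdic 𝒪`.

Glue of the two landed leaves
* [OddDet] (`S30/OddDet.lean`): over `K = Frac 𝒪` the pseudo-character is the trace/determinant of
  an explicit matrix representation, with entries `a g = (t g + t (c g))/2`,
  `δ g = (t g - t (c g))/2`, `x g h₀ / x g₀ h₀`, `x g₀ g`, where `x g h = a (g h) - a g · a h`;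
* [Lat] (`S30/Lat.lean`): a bounded, entrywise adically continuous matrix representation over `K`
  has a stable lattice.

The bookkeeping in between: with the integral numerators `A g = t g + t (c g)`,
`D g = t g - t (c g)`, `Ξ g h = 2 A (g h) - A g · A h` one has `a = A/2`, `δ = D/2`, `x = Ξ/4`, so
`r · ρ g ∈ M₂(𝒪)` for the fixed `r = 4 Ξ(g₀, h₀)` (resp. `r = 2` in the diagonal case), and if
`q ∣ t (σ g) - t g` for all `g` then `q ∣ A σ - 2, D σ - 2, Ξ(σ, h), Ξ(g, σ)`, whence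
`r · (ρ σ - 1) ∈ q · M₂(𝒪)`.  Since `r ∣ p ^ s` for some `s` (DVR, `p` a nonunit), continuity at
level `n + s` of `t` gives entrywise continuity at level `n` of `ρ`.
-/
import Mathlib
import Fermat.Prelude.Def_GaloisRep_Adic
import Fermat.Agent.S30.Top
import Fermat.Agent.S30.OddDet
import Fermat.Agent.S30.Lat

set_option autoImplicit false

namespace Fermat.Agent.S30.OddRepB

open Polynomial

open Fermat.Agent.S30Top (GQ Qb IsPseudo IsOddAt IsContAt OddRepStatement)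
open Fermat.Agent.S30.OddDet (aFun dFun xFun)

/-! ### Integral numerators and their congruences -/

section Numerators

variable {𝒪 : Type*} [CommRing 𝒪] {G : Type*} [Group G]

/-- `A g = t g + t (c g)` (so that `a = A / 2`). -/
def aI (t : G → 𝒪) (c g : G) : 𝒪 := t g + t (c * g)

/-- `D g = t g - t (c g)` (so that `δ = D / 2`). -/
def dI (t : G → 𝒪) (c g : G) : 𝒪 := t g - t (c * g)

/-- `Ξ g h = 2 A (g h) - A g · A h` (so that `x = Ξ / 4`). -/
def xI (t : G → 𝒪) (c g h : G) : 𝒪 := 2 * aI t c (g * h) - aI t c g * aI t c h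

variable {t : G → 𝒪} {c : G}

theorem dvd_aI_sub (ht1 : t 1 = 2) (htc0 : t c = 0) (htc : ∀ g h, t (g * h) = t (h * g))
    {q : 𝒪} {σ : G} (hσ : ∀ g, q ∣ t (σ * g) - t g) : q ∣ aI t c σ - 2 := by
  have h1 : q ∣ t σ - t 1 := by simpa using hσ 1
  have h2 : q ∣ t (c * σ) - t c := by
    rw [htc c σ]; exact hσ c
  have e : aI t c σ - 2 = (t σ - t 1) + (t (c * σ) - t c) := by
    rw [aI, ht1, htc0]; ring
  rw [e]
  exact dvd_add h1 h2

theorem dvd_dI_sub (ht1 : t 1 = 2) (htc0 : t c = 0) (htc : ∀ g h, t (g * h) = t (h * g))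
    {q : 𝒪} {σ : G} (hσ : ∀ g, q ∣ t (σ * g) - t g) : q ∣ dI t c σ - 2 := by
  have h1 : q ∣ t σ - t 1 := by simpa using hσ 1
  have h2 : q ∣ t (c * σ) - t c := by
    rw [htc c σ]; exact hσ c
  have e : dI t c σ - 2 = (t σ - t 1) - (t (c * σ) - t c) := by
    rw [dI, ht1, htc0]; ring
  rw [e]
  exact dvd_sub h1 h2

theorem dvd_aI_mul_left (htc : ∀ g h, t (g * h) = t (h * g))
    {q : 𝒪} {σ : G} (hσ : ∀ g, q ∣ t (σ * g) - t g) (h : G) :
    q ∣ aI t c (σ * h) - aI t c h := by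
  have h1 : q ∣ t (σ * h) - t h := hσ h
  have h2 : q ∣ t (c * (σ * h)) - t (c * h) := by
    rw [htc c (σ * h), mul_assoc, htc c h]; exact hσ (h * c)
  have e : aI t c (σ * h) - aI t c h = (t (σ * h) - t h) + (t (c * (σ * h)) - t (c * h)) := by
    rw [aI, aI]; ring
  rw [e]
  exact dvd_add h1 h2

theorem dvd_aI_mul_right (htc : ∀ g h, t (g * h) = t (h * g))
    {q : 𝒪} {σ : G} (hσ : ∀ g, q ∣ t (σ * g) - t g) (g : G) :
    q ∣ aI t c (g * σ) - aI t c g := by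
  have h1 : q ∣ t (g * σ) - t g := by
    rw [htc g σ]; exact hσ g
  have h2 : q ∣ t (c * (g * σ)) - t (c * g) := by
    rw [← mul_assoc, htc (c * g) σ]; exact hσ (c * g)
  have e : aI t c (g * σ) - aI t c g = (t (g * σ) - t g) + (t (c * (g * σ)) - t (c * g)) := by
    rw [aI, aI]; ring
  rw [e]
  exact dvd_add h1 h2

theorem dvd_xI_left (ht1 : t 1 = 2) (htc0 : t c = 0) (htc : ∀ g h, t (g * h) = t (h * g))
    {q : 𝒪} {σ : G} (hσ : ∀ g, q ∣ t (σ * g) - t g) (h : G) : q ∣ xI t c σ h := by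
  have e : xI t c σ h =
      2 * (aI t c (σ * h) - aI t c h) - (aI t c σ - 2) * aI t c h := by
    rw [xI]; ring
  rw [e]
  exact dvd_sub (Dvd.dvd.mul_left (dvd_aI_mul_left htc hσ h) _)
    (Dvd.dvd.mul_right (dvd_aI_sub ht1 htc0 htc hσ) _)

theorem dvd_xI_right (ht1 : t 1 = 2) (htc0 : t c = 0) (htc : ∀ g h, t (g * h) = t (h * g))
    {q : 𝒪} {σ : G} (hσ : ∀ g, q ∣ t (σ * g) - t g) (g : G) : q ∣ xI t c g σ := by
  have e : xI t c g σ =
      2 * (aI t c (g * σ) - aI t c g) - aI t c g * (aI t c σ - 2) := by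
    rw [xI]; ring
  rw [e]
  exact dvd_sub (Dvd.dvd.mul_left (dvd_aI_mul_right htc hσ g) _)
    (Dvd.dvd.mul_left (dvd_aI_sub ht1 htc0 htc hσ) _)

end Numerators

/-! ### The entries over the fraction field -/

section Field

variable {𝒪 : Type*} [CommRing 𝒪] {K : Type*} [Field K] (φ : 𝒪 →+* K) {G : Type*} [Group G]

theorem aFun_map (t : G → 𝒪) (c g : G) :
    aFun (fun g => φ (t g)) c g = φ (aI t c g) / 2 := by
  simp only [aFun, aI, map_add]

theorem dFun_map (t : G → 𝒪) (c g : G) :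
    dFun (fun g => φ (t g)) c g = φ (dI t c g) / 2 := by
  simp only [dFun, dI, map_sub]

theorem xFun_map (h2 : (2 : K) ≠ 0) (t : G → 𝒪) (c g h : G) :
    xFun (fun g => φ (t g)) c g h = φ (xI t c g h) / 4 := by
  have h4 : (4 : K) ≠ 0 := by
    have : (4 : K) = 2 * 2 := by norm_num
    rw [this]; exact mul_ne_zero h2 h2
  rw [xFun, aFun_map φ, aFun_map φ, aFun_map φ, xI]
  simp only [map_sub, map_mul, map_ofNat]
  field_simp
  ring

/-- Scaled boundedness and scaled continuity of a matrix representation `ρ` over `K` with respect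
to an `𝒪`-valued function `t`: `r · ρ g ∈ M₂(𝒪)`, and `r · (ρ σ - 1) ∈ q · M₂(𝒪)` whenever
`q ∣ t (σ g) - t g` for all `g`. -/
def Scaled (t : G → 𝒪) (ρ : G →* Matrix (Fin 2) (Fin 2) K) (r : 𝒪) : Prop :=
  (∀ (g : G) (i j : Fin 2), ∃ a : 𝒪, φ a = φ r * ρ g i j) ∧
  (∀ (q : 𝒪) (σ : G), (∀ g, q ∣ t (σ * g) - t g) →
    ∀ i j : Fin 2, ∃ a : 𝒪, q ∣ a ∧ φ a = φ r * (ρ σ - 1) i j)

/-- The diagonal case. -/
theorem scaled_diag (h2 : (2 : K) ≠ 0) {t : G → 𝒪} {c : G} (ht1 : t 1 = 2) (htc0 : t c = 0)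
    (htc : ∀ g h, t (g * h) = t (h * g)) (ρ : G →* Matrix (Fin 2) (Fin 2) K)
    (hρ : ∀ g, ρ g = !![aFun (fun g => φ (t g)) c g, 0; 0, dFun (fun g => φ (t g)) c g]) :
    Scaled φ t ρ 2 := by
  have hφ2 : φ 2 = 2 := map_ofNat φ 2
  constructor
  · intro g i j
    rw [hρ g, aFun_map φ, dFun_map φ, hφ2]
    fin_cases i <;> fin_cases j
    · exact ⟨aI t c g, by simp; field_simp⟩
    · exact ⟨0, by simp⟩
    · exact ⟨0, by simp⟩
    · exact ⟨dI t c g, by simp; field_simp⟩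
  · intro q σ hσ i j
    rw [hρ σ, aFun_map φ, dFun_map φ, hφ2]
    fin_cases i <;> fin_cases j
    · exact ⟨aI t c σ - 2, dvd_aI_sub ht1 htc0 htc hσ, by simp [hφ2]; field_simp⟩
    · exact ⟨0, dvd_zero _, by simp⟩
    · exact ⟨0, dvd_zero _, by simp⟩
    · exact ⟨dI t c σ - 2, dvd_dI_sub ht1 htc0 htc hσ, by simp [hφ2]; field_simp⟩

/-- The non-diagonal case. -/
theorem scaled_offdiag (h2 : (2 : K) ≠ 0) {t : G → 𝒪} {c : G} (ht1 : t 1 = 2) (htc0 : t c = 0)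
    (htc : ∀ g h, t (g * h) = t (h * g)) (ρ : G →* Matrix (Fin 2) (Fin 2) K) (g₀ h₀ : G)
    (hx : xFun (fun g => φ (t g)) c g₀ h₀ ≠ 0)
    (hρ : ∀ g, ρ g = !![aFun (fun g => φ (t g)) c g,
      xFun (fun g => φ (t g)) c g h₀ / xFun (fun g => φ (t g)) c g₀ h₀;
      xFun (fun g => φ (t g)) c g₀ g, dFun (fun g => φ (t g)) c g]) :
    Scaled φ t ρ (4 * xI t c g₀ h₀) := by
  have h4 : (4 : K) ≠ 0 := by
    have : (4 : K) = 2 * 2 := by norm_num
    rw [this]; exact mul_ne_zero h2 h2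
  have hφ2 : φ 2 = 2 := map_ofNat φ 2
  have hφ4 : φ 4 = 4 := map_ofNat φ 4
  rw [xFun_map φ h2] at hx
  have hu : φ (xI t c g₀ h₀) ≠ 0 := fun h => hx (by rw [h, zero_div])
  constructor
  · intro g i j
    rw [hρ g, aFun_map φ, dFun_map φ, xFun_map φ h2, xFun_map φ h2, xFun_map φ h2]
    fin_cases i <;> fin_cases j
    · exact ⟨2 * xI t c g₀ h₀ * aI t c g, by simp [hφ2, hφ4]; field_simp; ring⟩
    · exact ⟨4 * xI t c g h₀, by simp [hφ4]; field_simp⟩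
    · exact ⟨xI t c g₀ h₀ * xI t c g₀ g, by simp [hφ4]; field_simp⟩
    · exact ⟨2 * xI t c g₀ h₀ * dI t c g, by simp [hφ2, hφ4]; field_simp; ring⟩
  · intro q σ hσ i j
    rw [hρ σ, aFun_map φ, dFun_map φ, xFun_map φ h2, xFun_map φ h2, xFun_map φ h2]
    fin_cases i <;> fin_cases j
    · exact ⟨2 * xI t c g₀ h₀ * (aI t c σ - 2),
        Dvd.dvd.mul_left (dvd_aI_sub ht1 htc0 htc hσ) _, by simp [hφ2, hφ4]; field_simp; ring⟩
    · exact ⟨4 * xI t c σ h₀, Dvd.dvd.mul_left (dvd_xI_left ht1 htc0 htc hσ h₀) _,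
        by simp [hφ4]; field_simp⟩
    · exact ⟨xI t c g₀ h₀ * xI t c g₀ σ, Dvd.dvd.mul_left (dvd_xI_right ht1 htc0 htc hσ g₀) _,
        by simp [hφ4]; field_simp⟩
    · exact ⟨2 * xI t c g₀ h₀ * (dI t c σ - 2),
        Dvd.dvd.mul_left (dvd_dI_sub ht1 htc0 htc hσ) _, by simp [hφ2, hφ4]; field_simp; ring⟩

end Field

/-! ### From scaled data to a `GaloisRepAdic` -/

/-- In a discrete valuation ring every nonzero element divides a power of any nonunit. -/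
theorem exists_dvd_pow {𝒪 : Type*} [CommRing 𝒪] [IsDomain 𝒪] [IsDiscreteValuationRing 𝒪]
    {p r : 𝒪} (hp : p ∈ IsLocalRing.maximalIdeal 𝒪) (hr : r ≠ 0) : ∃ s : ℕ, r ∣ p ^ s := by
  obtain ⟨ϖ, hϖ⟩ := IsDiscreteValuationRing.exists_irreducible 𝒪
  obtain ⟨n, u, rfl⟩ := IsDiscreteValuationRing.eq_unit_mul_pow_irreducible hr hϖ
  rw [hϖ.maximalIdeal_eq, Ideal.mem_span_singleton] at hp
  obtain ⟨q, rfl⟩ := hp
  refine ⟨n, ⟨((u⁻¹ : 𝒪ˣ) : 𝒪) * q ^ n, ?_⟩⟩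
  rw [mul_pow]
  calc ϖ ^ n * q ^ n = ((u : 𝒪) * ((u⁻¹ : 𝒪ˣ) : 𝒪)) * (ϖ ^ n * q ^ n) := by
        rw [Units.mul_inv, one_mul]
    _ = (u : 𝒪) * ϖ ^ n * (((u⁻¹ : 𝒪ˣ) : 𝒪) * q ^ n) := by ring

/-- A matrix representation of `G_ℚ` over `K = Frac 𝒪` with scaled boundedness and scaled
continuity with respect to a `p`-adically continuous `t`, with trace `t` and determinant `δ`, comes
from a `GaloisRepAdic 𝒪` with characteristic polynomials `X² - t X + δ`. -/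
theorem exists_adic_of_scaled {𝒪 K : Type} [CommRing 𝒪] [IsDomain 𝒪] [IsDiscreteValuationRing 𝒪]
    [Field K] [Algebra 𝒪 K] [IsFractionRing 𝒪 K]
    {p : 𝒪} (hp : p ∈ IsLocalRing.maximalIdeal 𝒪) (t δ : GQ → 𝒪) (hcont : IsContAt p t)
    (ρ : GQ →* Matrix (Fin 2) (Fin 2) K) (r : 𝒪) (hr : r ≠ 0)
    (hS : Scaled (algebraMap 𝒪 K) t ρ r)
    (htr : ∀ g, (ρ g).trace = algebraMap 𝒪 K (t g))
    (hdet : ∀ g, (ρ g).det = algebraMap 𝒪 K (δ g)) :
    ∃ R : GaloisRepAdic 𝒪,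
      (∀ g : GQ, LinearMap.charpoly (R.ρ g) = X ^ 2 - C (t g) * X + C (δ g)) ∧
      (∀ τ : GQ, (∀ g : GQ, t (τ * g) = t g) → R.ρ τ = 1) := by
  have hinj : Function.Injective (algebraMap 𝒪 K) := IsFractionRing.injective 𝒪 K
  have hr' : algebraMap 𝒪 K r ≠ 0 := fun h => hr (hinj (by rw [h, map_zero]))
  obtain ⟨s, q', hq'⟩ := exists_dvd_pow hp hr
  obtain ⟨R, hR, hR1⟩ := Fermat.Agent.S30.Lat.exists_galoisRepAdic ρ ⟨r, hr, hS.1⟩ (by
    intro n
    obtain ⟨L, hL, hLσ⟩ := hcont (n + s)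
    refine ⟨L, hL, fun σ hσ i j => ?_⟩
    obtain ⟨a, ⟨b, rfl⟩, hab⟩ := hS.2 (p ^ (n + s)) σ (hLσ σ hσ) i j
    refine ⟨p ^ n * (q' * b), Ideal.mul_mem_right _ _ (Ideal.pow_mem_pow hp n), ?_⟩
    have e : p ^ (n + s) * b = r * (p ^ n * (q' * b)) := by
      rw [pow_add, hq']; ring
    rw [e, map_mul] at hab
    exact mul_left_cancel₀ hr' hab)
  refine ⟨R, fun g => ?_, fun τ hτ => hR1 τ ?_⟩
  · apply Polynomial.map_injective (algebraMap 𝒪 K) hinj
    rw [hR g, Matrix.charpoly_fin_two, htr, hdet]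
    simp only [Polynomial.map_add, Polynomial.map_sub, Polynomial.map_mul, Polynomial.map_pow,
      Polynomial.map_X, Polynomial.map_C]
  · have h0 : ρ τ - 1 = 0 := by
      ext i j
      obtain ⟨a, ha0, ha⟩ := hS.2 0 τ (fun g => by rw [hτ g, sub_self]) i j
      rw [zero_dvd_iff] at ha0
      rw [ha0, map_zero] at ha
      rcases mul_eq_zero.mp ha.symm with h | h
      · exact absurd h hr'
      · rw [h]; rfl
    exact sub_eq_zero.mp h0

/-! ### [OddRep] -/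

/-- **[OddRep]** (copy B): the Prop of `S30/Top.lean`, verbatim. -/
theorem oddRepStatement : OddRepStatement := by
  intro 𝒪 _ _ _ _ p hp t d hps hodd hcont
  obtain ⟨ht1, htc, htd⟩ := hps
  obtain ⟨c, hc, htc0, hdc⟩ := hodd
  let K : Type := FractionRing 𝒪
  let φ : 𝒪 →+* K := algebraMap 𝒪 K
  have hinj : Function.Injective φ := IsFractionRing.injective 𝒪 K
  have hK0 : CharZero K := charZero_of_injective_algebraMap hinj
  have h2 : (2 : K) ≠ 0 := two_ne_zero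
  let tK : GQ → K := fun g => φ (t g)
  let dK : GQ →* Kˣ := (Units.map (φ : 𝒪 →* K)).comp d
  have hdK : ∀ g, ((dK g : Kˣ) : K) = φ ((d g : 𝒪ˣ) : 𝒪) := fun g => rfl
  have ht1K : tK 1 = 2 := by
    show φ (t 1) = 2
    rw [ht1, map_ofNat]
  have htcK : ∀ g h, tK (g * h) = tK (h * g) := fun g h => congrArg φ (htc g h)
  have htdK : ∀ g h, tK (g * h) + ((dK h : Kˣ) : K) * tK (g * h⁻¹) = tK g * tK h := by
    intro g h
    show φ (t (g * h)) + φ ((d h : 𝒪ˣ) : 𝒪) * φ (t (g * h⁻¹)) = φ (t g) * φ (t h)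
    rw [← map_mul, ← map_add, htd g h, map_mul]
  have htc0K : tK c = 0 := by
    show φ (t c) = 0
    rw [htc0, map_zero]
  have hdcK : ((dK c : Kˣ) : K) = -1 := by
    rw [hdK, hdc]
    simp
  by_cases hx : ∀ g h, xFun tK c g h = 0
  · obtain ⟨ρ, hρ, htr, hdet, -⟩ :=
      Fermat.Agent.S30.OddDet.exists_rep_of_xFun_eq_zero h2 ht1K htcK htdK hc htc0K hdcK hx
    exact exists_adic_of_scaled hp t (fun g => ((d g : 𝒪ˣ) : 𝒪)) hcont ρ 2 two_ne_zero
      (scaled_diag φ h2 ht1 htc0 htc ρ hρ) htr hdet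
  · obtain ⟨g₀, hx⟩ := not_forall.mp hx
    obtain ⟨h₀, hx₀⟩ := not_forall.mp hx
    obtain ⟨ρ, hρ, htr, hdet, -⟩ :=
      Fermat.Agent.S30.OddDet.exists_rep_of_xFun_ne h2 ht1K htcK htdK hc htc0K hdcK g₀ h₀ hx₀
    have h4𝒪 : (4 : 𝒪) ≠ 0 := by exact_mod_cast (show (4 : ℕ) ≠ 0 by norm_num)
    have hu : xI t c g₀ h₀ ≠ 0 := by
      intro h
      apply hx₀
      show xFun (fun g => φ (t g)) c g₀ h₀ = 0
      rw [xFun_map φ h2, h, map_zero, zero_div]
    exact exists_adic_of_scaled hp t (fun g => ((d g : 𝒪ˣ) : 𝒪)) hcont ρ (4 * xI t c g₀ h₀)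
      (mul_ne_zero h4𝒪 hu) (scaled_offdiag φ h2 ht1 htc0 htc ρ g₀ h₀ hx₀ hρ) htr hdet

end Fermat.Agent.S30.OddRepB
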