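/-
S30 — CycInf.lean (helper34): block [Cyc∞] of the S30 route (lead's blueprint, step (3)).

The `p`-adic cyclotomic character `d : G_ℚ →* 𝒪ˣ` with values in a commutative ring `𝒪` which is
`p`-adically separated and complete (in the elementary sequential form used by `LimCore`), built
directly as a limit in `𝒪` of the integers `k_n` with `g ζ = ζ ^ k_n` on `μ_{p^n}`.

* `ActsBy p n g k`       : `g` acts on the `p^n`-th roots of unity of `ℚ̄` as the `k`-th power;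
* `IsCyc p d`            : the SPEC `ActsBy p n g k → p^n ∣ d g - k`;
* `exists_cyclotomic`    : existence of `d` with `IsCyc p d`;
* values: `eq_natCast_of_actsBy` (Frobenius, inertia), `eq_neg_one_of_inv` (complex conjugation),
  `dvd_sub_one_of_fixes` (continuity), `smul_eq_nsmul_of_actsBy` (action on `p^n`-torsion modules);
* `cycField p n`         : the finite level `ℚ(μ_{p^n})`, with `finiteDimensional_cycField`.

Mathlib only.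
-/
import Mathlib

set_option autoImplicit false

namespace Fermat.Agent.S30.CycInf

/-- `ℚ̄`. -/
abbrev Qb : Type := AlgebraicClosure ℚ

/-- `G_ℚ = Gal(ℚ̄ / ℚ)`. -/
abbrev GQ : Type := Qb ≃ₐ[ℚ] Qb

/-- `g` acts on the `p ^ n`-th roots of unity of `ℚ̄` as the `k`-th power map. -/
def ActsBy (p n : ℕ) (g : GQ) (k : ℕ) : Prop :=
  ∀ ζ : Qb, ζ ^ (p ^ n) = 1 → g ζ = ζ ^ k

section ActsBy

variable {p : ℕ}

theorem exists_primitiveRoot (hp : p ≠ 0) (n : ℕ) : ∃ ζ : Qb, IsPrimitiveRoot ζ (p ^ n) := by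
  have : NeZero (p : ℚ) := ⟨Nat.cast_ne_zero.mpr hp⟩
  exact HasEnoughRootsOfUnity.exists_primitiveRoot Qb (p ^ n)

/-- Every element of `G_ℚ` acts on `μ_{p^n}` as a power map. -/
theorem exists_actsBy (hp : p ≠ 0) (g : GQ) (n : ℕ) : ∃ k : ℕ, ActsBy p n g k := by
  obtain ⟨ζ, hζ⟩ := exists_primitiveRoot hp n
  have : NeZero (p ^ n) := ⟨pow_ne_zero n hp⟩
  have h1 : (g ζ) ^ (p ^ n) = 1 := by
    rw [← map_pow, hζ.pow_eq_one, map_one]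
  obtain ⟨k, -, hk⟩ := hζ.eq_pow_of_pow_eq_one h1
  refine ⟨k, fun ξ hξ => ?_⟩
  obtain ⟨i, -, hi⟩ := hζ.eq_pow_of_pow_eq_one hξ
  rw [← hi, map_pow, ← hk, ← pow_mul, ← pow_mul, mul_comm]

theorem ActsBy.one (n : ℕ) : ActsBy p n 1 1 := fun ζ _ => by
  rw [pow_one]
  rfl

theorem ActsBy.mul {n : ℕ} {g h : GQ} {k k' : ℕ} (hg : ActsBy p n g k) (hh : ActsBy p n h k') :
    ActsBy p n (g * h) (k * k') := fun ζ hζ => by
  rw [AlgEquiv.mul_apply, hh ζ hζ, map_pow, hg ζ hζ, ← pow_mul]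

theorem ActsBy.pow {n : ℕ} {g : GQ} {k : ℕ} (hg : ActsBy p n g k) (j : ℕ) :
    ActsBy p n (g ^ j) (k ^ j) := by
  induction j with
  | zero =>
    rw [pow_zero, pow_zero]
    exact ActsBy.one n
  | succ j ih =>
    rw [pow_succ, pow_succ]
    exact ih.mul hg

theorem ActsBy.of_le {m n : ℕ} (hmn : m ≤ n) {g : GQ} {k : ℕ} (hg : ActsBy p n g k) :
    ActsBy p m g k := fun ζ hζ => by
  refine hg ζ ?_
  obtain ⟨e, rfl⟩ := Nat.exists_eq_add_of_le hmn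
  rw [pow_add, pow_mul, hζ, one_pow]

/-- The exponent is unique modulo `p ^ n`. -/
theorem ActsBy.int_dvd_sub (hp : p ≠ 0) {n : ℕ} {g : GQ} {k k' : ℕ} (hg : ActsBy p n g k)
    (hg' : ActsBy p n g k') : ((p ^ n : ℕ) : ℤ) ∣ (k : ℤ) - (k' : ℤ) := by
  obtain ⟨ζ, hζ⟩ := exists_primitiveRoot hp n
  have hζ0 : ζ ≠ 0 := hζ.ne_zero (pow_ne_zero n hp)
  have h1 : ζ ^ k = ζ ^ k' := by
    rw [← hg ζ hζ.pow_eq_one, ← hg' ζ hζ.pow_eq_one]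
  have h2 : ζ ^ ((k : ℤ) - (k' : ℤ)) = 1 := by
    rw [zpow_sub₀ hζ0, zpow_natCast, zpow_natCast, h1, div_self (pow_ne_zero _ hζ0)]
  exact (hζ.zpow_eq_one_iff_dvd _).mp h2

end ActsBy

section Ring

variable {p : ℕ} {𝒪 : Type*} [CommRing 𝒪]

theorem cast_dvd_of_int_dvd {n : ℕ} {k k' : ℕ} (h : ((p ^ n : ℕ) : ℤ) ∣ (k : ℤ) - (k' : ℤ)) :
    (p : 𝒪) ^ n ∣ (k : 𝒪) - (k' : 𝒪) := by
  obtain ⟨m, hm⟩ := h
  refine ⟨(m : 𝒪), ?_⟩
  have := congrArg (Int.cast : ℤ → 𝒪) hm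
  push_cast at this
  exact this

theorem ActsBy.dvd_sub (hp : p ≠ 0) {n : ℕ} {g : GQ} {k k' : ℕ} (hg : ActsBy p n g k)
    (hg' : ActsBy p n g k') : (p : 𝒪) ^ n ∣ (k : 𝒪) - (k' : 𝒪) :=
  cast_dvd_of_int_dvd (hg.int_dvd_sub hp hg')

/-- **SPEC** of the `p`-adic cyclotomic character with values in `𝒪`. -/
def IsCyc (p : ℕ) (d : GQ →* 𝒪ˣ) : Prop :=
  ∀ (g : GQ) (n k : ℕ), ActsBy p n g k → (p : 𝒪) ^ n ∣ ((d g : 𝒪ˣ) : 𝒪) - (k : 𝒪)

/-- **[Cyc∞]** existence of the `p`-adic cyclotomic character with values in a `p`-adically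
separated and complete ring. -/
theorem exists_cyclotomic (hp : p ≠ 0)
    (hsep : ∀ a : 𝒪, (∀ n : ℕ, (p : 𝒪) ^ n ∣ a) → a = 0)
    (hcompl : ∀ f : ℕ → 𝒪, (∀ n : ℕ, (p : 𝒪) ^ n ∣ f (n + 1) - f n) →
      ∃ L : 𝒪, ∀ n : ℕ, (p : 𝒪) ^ n ∣ f n - L) :
    ∃ d : GQ →* 𝒪ˣ, IsCyc p d := by
  classical
  choose kk hkk using fun (g : GQ) (n : ℕ) => exists_actsBy hp g n
  have hstep : ∀ (g : GQ) (n : ℕ), (p : 𝒪) ^ n ∣ ((kk g (n + 1) : ℕ) : 𝒪) - ((kk g n : ℕ) : 𝒪) :=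
    fun g n => ((hkk g (n + 1)).of_le (Nat.le_succ n)).dvd_sub hp (hkk g n)
  choose L hL using fun g : GQ => hcompl (fun n => ((kk g n : ℕ) : 𝒪)) (hstep g)
  have hspec : ∀ (g : GQ) (n k : ℕ), ActsBy p n g k → (p : 𝒪) ^ n ∣ L g - (k : 𝒪) := by
    intro g n k hk
    have h1 : (p : 𝒪) ^ n ∣ ((kk g n : ℕ) : 𝒪) - (k : 𝒪) := (hkk g n).dvd_sub hp hk
    have h2 : L g - (k : 𝒪) = (((kk g n : ℕ) : 𝒪) - (k : 𝒪)) - (((kk g n : ℕ) : 𝒪) - L g) := by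
      ring
    rw [h2]
    exact dvd_sub h1 (hL g n)
  have hone : L 1 = 1 := by
    rw [← sub_eq_zero]
    refine hsep _ fun n => ?_
    have h := hspec 1 n 1 (ActsBy.one n)
    rwa [Nat.cast_one] at h
  have hmul : ∀ g h : GQ, L (g * h) = L g * L h := by
    intro g h
    rw [← sub_eq_zero]
    refine hsep _ fun n => ?_
    have h1 := hspec (g * h) n (kk g n * kk h n) ((hkk g n).mul (hkk h n))
    have h2 := hspec g n (kk g n) (hkk g n)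
    have h3 := hspec h n (kk h n) (hkk h n)
    have e : L (g * h) - L g * L h =
        (L (g * h) - ((kk g n * kk h n : ℕ) : 𝒪)) -
          ((L g - ((kk g n : ℕ) : 𝒪)) * L h + ((kk g n : ℕ) : 𝒪) * (L h - ((kk h n : ℕ) : 𝒪))) := by
      push_cast
      ring
    rw [e]
    exact dvd_sub h1 (dvd_add (Dvd.dvd.mul_right h2 _) (Dvd.dvd.mul_left h3 _))
  let d₀ : GQ →* 𝒪 := { toFun := L, map_one' := hone, map_mul' := hmul }
  refine ⟨d₀.toHomUnits, fun g n k hk => ?_⟩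
  rw [MonoidHom.coe_toHomUnits]
  exact hspec g n k hk

variable {d : GQ →* 𝒪ˣ}

/-- **(V1)** if `g` acts on all `p`-power roots of unity as the `k`-th power then `d g = k`
(Frobenius at `ℓ ≠ p`: `k = ℓ`; inertia at `q ≠ p`: `k = 1`). -/
theorem eq_natCast_of_actsBy (hsep : ∀ a : 𝒪, (∀ n : ℕ, (p : 𝒪) ^ n ∣ a) → a = 0)
    (hd : IsCyc p d) (g : GQ) (k : ℕ) (h : ∀ n : ℕ, ActsBy p n g k) :
    ((d g : 𝒪ˣ) : 𝒪) = (k : 𝒪) := by
  rw [← sub_eq_zero]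
  exact hsep _ fun n => hd g n k (h n)

/-- `d g = 1` if `g` fixes all `p`-power roots of unity. -/
theorem eq_one_of_fixes (hsep : ∀ a : 𝒪, (∀ n : ℕ, (p : 𝒪) ^ n ∣ a) → a = 0)
    (hd : IsCyc p d) (g : GQ) (h : ∀ (n : ℕ) (ζ : Qb), ζ ^ (p ^ n) = 1 → g ζ = ζ) : d g = 1 := by
  apply Units.ext
  have h1 := eq_natCast_of_actsBy hsep hd g 1 (fun n ζ hζ => by rw [pow_one]; exact h n ζ hζ)
  rw [h1, Nat.cast_one, Units.val_one]

/-- **(V2)** complex conjugation: if `c` inverts all `p`-power roots of unity then `d c = -1`. -/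
theorem eq_neg_one_of_inv (hp : p ≠ 0) (hsep : ∀ a : 𝒪, (∀ n : ℕ, (p : 𝒪) ^ n ∣ a) → a = 0)
    (hd : IsCyc p d) (c : GQ) (h : ∀ (n : ℕ) (ζ : Qb), ζ ^ (p ^ n) = 1 → c ζ = ζ⁻¹) :
    ((d c : 𝒪ˣ) : 𝒪) = -1 := by
  rw [← sub_eq_zero, sub_neg_eq_add]
  refine hsep _ fun n => ?_
  have hpos : 1 ≤ p ^ n := Nat.one_le_pow _ _ (Nat.pos_of_ne_zero hp)
  have hact : ActsBy p n c (p ^ n - 1) := by
    intro ζ hζ
    rw [h n ζ hζ]
    symm
    apply eq_inv_of_mul_eq_one_left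
    rw [← pow_succ, Nat.sub_add_cancel hpos, hζ]
  have h1 := hd c n (p ^ n - 1) hact
  have e : ((d c : 𝒪ˣ) : 𝒪) + 1 = (((d c : 𝒪ˣ) : 𝒪) - ((p ^ n - 1 : ℕ) : 𝒪)) + (p : 𝒪) ^ n := by
    rw [Nat.cast_sub hpos]
    push_cast
    ring
  rw [e]
  exact dvd_add h1 (dvd_refl _)

/-- **(V3)** continuity: if `σ` fixes the `p ^ n`-th roots of unity then `d σ ≡ 1 mod p ^ n`. -/
theorem dvd_sub_one_of_fixes (hd : IsCyc p d) (σ : GQ) (n : ℕ)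
    (h : ∀ ζ : Qb, ζ ^ (p ^ n) = 1 → σ ζ = ζ) : (p : 𝒪) ^ n ∣ ((d σ : 𝒪ˣ) : 𝒪) - 1 := by
  have h1 := hd σ n 1 (fun ζ hζ => by rw [pow_one]; exact h ζ hζ)
  rwa [Nat.cast_one] at h1

/-- **(V4)** on a module killed by `p ^ n`, `d g` acts as the integer `k` whenever `g` acts on
`μ_{p^n}` as the `k`-th power. -/
theorem smul_eq_nsmul_of_actsBy (hd : IsCyc p d) {X : Type*} [AddCommGroup X] [Module 𝒪 X]
    (n : ℕ) (hX : ∀ x : X, (p : 𝒪) ^ n • x = 0) (g : GQ) (k : ℕ) (h : ActsBy p n g k) (x : X) :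
    ((d g : 𝒪ˣ) : 𝒪) • x = k • x := by
  obtain ⟨m, hm⟩ := hd g n k h
  have h1 : ((d g : 𝒪ˣ) : 𝒪) = (k : 𝒪) + (p : 𝒪) ^ n * m := by
    rw [← hm]
    ring
  rw [h1, add_smul, mul_comm, mul_smul, hX, smul_zero, add_zero, Nat.cast_smul_eq_nsmul]

/-- `d g ≡ d h mod p ^ n` if `g` and `h` agree on the `p ^ n`-th roots of unity. -/
theorem dvd_sub_of_eq_on (hp : p ≠ 0) (hd : IsCyc p d) (g h : GQ) (n : ℕ)
    (hgh : ∀ ζ : Qb, ζ ^ (p ^ n) = 1 → g ζ = h ζ) :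
    (p : 𝒪) ^ n ∣ ((d g : 𝒪ˣ) : 𝒪) - ((d h : 𝒪ˣ) : 𝒪) := by
  obtain ⟨k, hk⟩ := exists_actsBy hp h n
  have hk' : ActsBy p n g k := fun ζ hζ => by rw [hgh ζ hζ, hk ζ hζ]
  have e : ((d g : 𝒪ˣ) : 𝒪) - ((d h : 𝒪ˣ) : 𝒪) =
      (((d g : 𝒪ˣ) : 𝒪) - (k : 𝒪)) - (((d h : 𝒪ˣ) : 𝒪) - (k : 𝒪)) := by ring
  rw [e]
  exact dvd_sub (hd g n k hk') (hd h n k hk)

end Ring

/-! ### The finite level `ℚ(μ_{p^n})` -/

section Level

variable {p : ℕ}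

/-- The field `ℚ(μ_{p^n}) ⊆ ℚ̄`. -/
noncomputable def cycField (p n : ℕ) : IntermediateField ℚ Qb :=
  IntermediateField.adjoin ℚ {ζ : Qb | ζ ^ (p ^ n) = 1}

theorem mem_cycField {n : ℕ} {ζ : Qb} (hζ : ζ ^ (p ^ n) = 1) : ζ ∈ cycField p n :=
  IntermediateField.subset_adjoin ℚ _ hζ

theorem finite_setOf_pow_eq_one (hp : p ≠ 0) (n : ℕ) : {ζ : Qb | ζ ^ (p ^ n) = 1}.Finite := by
  have hne : (Polynomial.X ^ (p ^ n) - 1 : Polynomial Qb) ≠ 0 :=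
    Polynomial.X_pow_sub_C_ne_zero (Nat.pos_of_ne_zero (pow_ne_zero n hp)) 1
  refine (Polynomial.finite_setOfPred_isRoot hne).subset fun ζ hζ => ?_
  simp only [Set.mem_ofPred_eq] at hζ ⊢
  rw [Polynomial.IsRoot.def, Polynomial.eval_sub, Polynomial.eval_pow, Polynomial.eval_X,
    Polynomial.eval_one, hζ, sub_self]

theorem finiteDimensional_cycField (hp : p ≠ 0) (n : ℕ) : FiniteDimensional ℚ (cycField p n) := by
  have : Finite {ζ : Qb | ζ ^ (p ^ n) = 1} := (finite_setOf_pow_eq_one hp n).to_subtype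
  have halg : Algebra.IsAlgebraic ℚ Qb := AlgebraicClosure.isAlgebraic ℚ
  exact IntermediateField.finiteDimensional_adjoin fun x _ =>
    (Algebra.IsAlgebraic.isAlgebraic x).isIntegral

/-- An automorphism fixing `ℚ(μ_{p^n})` fixes the `p ^ n`-th roots of unity. -/
theorem fixes_of_forall_mem {n : ℕ} {σ : GQ} (h : ∀ x ∈ cycField p n, σ x = x) (ζ : Qb)
    (hζ : ζ ^ (p ^ n) = 1) : σ ζ = ζ :=
  h ζ (mem_cycField hζ)

/-- Two automorphisms agreeing on `ℚ(μ_{p^n})` act in the same way on `μ_{p^n}`. -/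
theorem ActsBy.congr {n : ℕ} {g h : GQ} {k : ℕ} (hgh : ∀ x ∈ cycField p n, g x = h x)
    (hh : ActsBy p n h k) : ActsBy p n g k := fun ζ hζ => by
  rw [hgh ζ (mem_cycField hζ), hh ζ hζ]

/-- **(L)** the finite level of `μ_{p^n}`. -/
theorem exists_level (hp : p ≠ 0) (n : ℕ) :
    ∃ L : IntermediateField ℚ Qb, FiniteDimensional ℚ L ∧
      (∀ σ : GQ, (∀ x ∈ L, σ x = x) → ∀ ζ : Qb, ζ ^ (p ^ n) = 1 → σ ζ = ζ) ∧
      ∀ ζ : Qb, ζ ^ (p ^ n) = 1 → ζ ∈ L :=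
  ⟨cycField p n, finiteDimensional_cycField hp n, fun _ h ζ hζ => fixes_of_forall_mem h ζ hζ,
    fun _ hζ => mem_cycField hζ⟩

end Level

end Fermat.Agent.S30.CycInf
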