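/-
S30 leaf [Cyc_n] — CycN.lean (helper106).

Roots of unity of order prime to `ℓ` under Frobenius and inertia at `ℓ`, for `Gal(ℚ̄/ℚ)`:

* `orderOf_residue` — a primitive `m`-th root of unity in a valuation subring `A` of residue
  characteristic `ℓ ∤ m` has a residue class of order exactly `m`;
* `frobenius_apply_of_pow_eq_one` — every Frobenius element at every `A` over `ℓ ∤ m` raises the
  `m`-th roots of unity to the `ℓ`-th power;
* `inertia_apply_of_pow_eq_one` — the inertia group of such an `A` fixes them;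
* `chi hζ : GQ →* (ZMod m)ˣ` — the mod-`m` cyclotomic character, with its values at Frobenius
  elements and on inertia, its finite level `ℚ(ζ)`, and its compatibility for `m ∣ m'`;
* the `p`-adic form, for Mathlib's `cyclotomicCharacter Qb p`.

Use `m := p ^ n` (any prime `ℓ ≠ p` satisfies `¬ ℓ ∣ p ^ n`, `not_dvd_prime_pow`).
-/
import Mathlib
import Fermat.Prelude.Def_EllipticCurve_FrobeniusTrace

set_option autoImplicit false

noncomputable section

namespace Fermat.Agent.S30.CycN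

/-- `ℚ̄`. -/
abbrev Qb : Type := AlgebraicClosure ℚ

/-- `Gal(ℚ̄/ℚ)`. -/
abbrev GQ : Type := Qb ≃ₐ[ℚ] Qb

/-- In any monoid, equal powers of an element of positive order have congruent exponents. -/
theorem modEq_of_pow_eq {M : Type*} [Monoid M] {x : M} {a b : ℕ} (hx : 0 < orderOf x)
    (h : x ^ a = x ^ b) : a ≡ b [MOD orderOf x] := by
  have h1 : x ^ (a % orderOf x) = x ^ (b % orderOf x) := by
    rw [pow_mod_orderOf, pow_mod_orderOf, h]
  exact pow_injOn_Iio_orderOf (Nat.mod_lt _ hx) (Nat.mod_lt _ hx) h1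

/-- A prime not dividing `p` does not divide `p ^ n` (`p` prime). -/
theorem not_dvd_prime_pow {p ℓ : ℕ} (hℓ : ℓ.Prime) (hp : p.Prime) (hℓp : ℓ ≠ p) (n : ℕ) :
    ¬ ℓ ∣ p ^ n := fun h =>
  hℓp ((Nat.prime_dvd_prime_iff_eq hℓ hp).mp (hℓ.dvd_of_dvd_pow h))

/-! ### Roots of unity in a valuation subring and its residue field -/

section Residue

variable {L : Type*} [Field L]

/-- A root of unity lies in every valuation subring. -/
theorem mem_of_pow_eq_one (A : ValuationSubring L) {ζ : L} {n : ℕ} (hn : n ≠ 0)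
    (h : ζ ^ n = 1) : ζ ∈ A := by
  rcases A.mem_or_inv_mem ζ with h1 | h1
  · exact h1
  · obtain ⟨m, rfl⟩ := Nat.exists_eq_succ_of_ne_zero hn
    have h2 : ζ = ζ⁻¹ ^ m := by
      rw [inv_pow]
      rw [pow_succ] at h
      exact eq_inv_of_mul_eq_one_right h
    rw [h2]
    exact pow_mem h1 m

/-- The residue class of the residue characteristic vanishes. -/
theorem residue_natCast_eq_zero (A : ValuationSubring L) {ℓ : ℕ} (hA : (ℓ : L) ∈ A.nonunits) :
    (ℓ : IsLocalRing.ResidueField A) = 0 := by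
  have h0 : IsLocalRing.residue A (ℓ : A) = 0 := by
    rw [IsLocalRing.residue_eq_zero_iff]
    obtain ⟨ha, hm⟩ := ValuationSubring.mem_nonunits_iff_exists_mem_maximalIdeal.mp hA
    have : (⟨(ℓ : L), ha⟩ : A) = (ℓ : A) := Subtype.ext (by simp)
    rwa [this] at hm
  simpa using h0

/-- If the residue characteristic `ℓ` does not divide `m`, a primitive `m`-th root of unity in a
valuation subring `A` has a residue class of order exactly `m`. -/
theorem orderOf_residue (A : ValuationSubring L) {m ℓ : ℕ} (hm : m ≠ 0) (hℓ : ℓ.Prime)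
    (hℓm : ¬ ℓ ∣ m) (hA : (ℓ : L) ∈ A.nonunits) {ζ : L} (hζ : IsPrimitiveRoot ζ m)
    (hζA : ζ ∈ A) : orderOf (IsLocalRing.residue A ⟨ζ, hζA⟩) = m := by
  obtain ⟨n, rfl⟩ := Nat.exists_eq_succ_of_ne_zero hm
  set z : A := ⟨ζ, hζA⟩ with hz
  have hzp : z ^ (n + 1) = 1 := Subtype.ext (by simpa [hz] using hζ.pow_eq_one)
  -- `∏_{1 ≤ k ≤ n} (1 - z ^ k) = n + 1` in `A`
  have hprod : ∏ k ∈ Finset.range n, (1 - z ^ (k + 1)) = ((n + 1 : ℕ) : A) := by
    apply Subtype.ext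
    have := hζ.prod_one_sub_pow_eq_order
    simpa [hz] using this
  have hℓ0 := residue_natCast_eq_zero A hA
  rw [orderOf_eq_iff (Nat.succ_pos n)]
  refine ⟨by rw [← map_pow, hzp, map_one], fun j hj hj0 hj1 => ?_⟩
  -- the factor `k = j - 1` of the product vanishes in the residue field
  have h2 := congrArg (IsLocalRing.residue A) hprod
  rw [map_prod, map_natCast] at h2
  have h3 : ∏ k ∈ Finset.range n, IsLocalRing.residue A (1 - z ^ (k + 1)) = 0 := by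
    apply Finset.prod_eq_zero (i := j - 1)
    · rw [Finset.mem_range]
      omega
    · rw [map_sub, map_one, map_pow, Nat.sub_add_cancel hj0, hj1, sub_self]
  rw [h3] at h2
  -- now `n + 1 = 0` and `ℓ = 0` in the residue field, with `gcd (n + 1) ℓ = 1`
  have hcop : Nat.Coprime (n + 1) ℓ := ((Nat.Prime.coprime_iff_not_dvd hℓ).mpr hℓm).symm
  have h4 : ((Nat.gcd (n + 1) ℓ : ℕ) : IsLocalRing.ResidueField A) = 0 := by
    have hb := Nat.gcd_eq_gcd_ab (n + 1) ℓ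
    have : ((Nat.gcd (n + 1) ℓ : ℤ) : IsLocalRing.ResidueField A) = 0 := by
      rw [hb]
      push_cast
      have h2' : ((n : IsLocalRing.ResidueField A) + 1) = 0 := by
        have := h2.symm
        push_cast at this
        exact this
      rw [h2', hℓ0]
      ring
    exact_mod_cast this
  rw [hcop] at h4
  simp at h4

end Residue

/-! ### Frobenius and inertia on roots of unity -/

section Roots

variable {m : ℕ}

/-- If `g` in the decomposition group of `A` (over `ℓ ∤ m`) acts on the residue field as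
`x ↦ x ^ k` on the class of a primitive `m`-th root of unity `ζ`, and `g ζ = ζ ^ a`, then
`a ≡ k` modulo `m`. -/
theorem modEq_of_residue (hm : m ≠ 0) {ℓ : ℕ} (hℓ : ℓ.Prime) (hℓm : ¬ ℓ ∣ m)
    (A : ValuationSubring Qb) (hA : A.LiesOverPrime ℓ) {ζ : Qb} (hζ : IsPrimitiveRoot ζ m)
    (g : A.decompositionSubgroup ℚ) (a k : ℕ) (hga : (g : GQ) ζ = ζ ^ a)
    (h : g • IsLocalRing.residue A ⟨ζ, mem_of_pow_eq_one A hm hζ.pow_eq_one⟩ =
      IsLocalRing.residue A ⟨ζ, mem_of_pow_eq_one A hm hζ.pow_eq_one⟩ ^ k) :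
    a ≡ k [MOD m] := by
  set hζA := mem_of_pow_eq_one A hm hζ.pow_eq_one with hζA_def
  set z : A := ⟨ζ, hζA⟩ with hz
  have hord := orderOf_residue A hm hℓ hℓm hA hζ hζA
  have hgz : g • z = z ^ a := by
    apply Subtype.ext
    show (g : GQ) ζ = _
    rw [hga]
    simp [hz]
  have h1 : IsLocalRing.residue A z ^ a = IsLocalRing.residue A z ^ k := by
    rw [← map_pow, ← hgz, IsLocalRing.ResidueField.residue_smul]
    exact h
  have := modEq_of_pow_eq (by rw [hord]; exact Nat.pos_of_ne_zero hm) h1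
  rwa [hord] at this

/-- Every automorphism raises a primitive `m`-th root of unity to some power. -/
theorem exists_pow_eq_apply (hm : m ≠ 0) {ζ : Qb} (hζ : IsPrimitiveRoot ζ m) (σ : GQ) :
    ∃ a : ℕ, σ ζ = ζ ^ a := by
  have : NeZero m := ⟨hm⟩
  exact ⟨_, (hζ.autToPow_spec ℚ σ).symm⟩

/-- If `σ ζ = ζ ^ a` for a primitive `m`-th root of unity `ζ`, then `σ ξ = ξ ^ a` for every
`m`-th root of unity `ξ`. -/
theorem apply_eq_pow_of_pow_eq_one (hm : m ≠ 0) {ζ : Qb} (hζ : IsPrimitiveRoot ζ m) (σ : GQ)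
    (a : ℕ) (ha : σ ζ = ζ ^ a) (ξ : Qb) (hξ : ξ ^ m = 1) : σ ξ = ξ ^ a := by
  have : NeZero m := ⟨hm⟩
  obtain ⟨i, -, rfl⟩ := hζ.eq_pow_of_pow_eq_one hξ
  rw [map_pow, ha, ← pow_mul, ← pow_mul, mul_comm]

/-- Every `m`-th root of unity is a power of a fixed primitive one: existence of a primitive
`m`-th root of unity in `ℚ̄`. -/
theorem exists_isPrimitiveRoot (hm : m ≠ 0) : ∃ ζ : Qb, IsPrimitiveRoot ζ m := by
  have : NeZero m := ⟨hm⟩
  exact HasEnoughRootsOfUnity.exists_primitiveRoot Qb m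

/-- **Frobenius on roots of unity**: every Frobenius element at every valuation subring over a
prime `ℓ ∤ m` raises the `m`-th roots of unity to the `ℓ`-th power. -/
theorem frobenius_apply_of_pow_eq_one (hm : m ≠ 0) {ℓ : ℕ} (hℓ : ℓ.Prime) (hℓm : ¬ ℓ ∣ m)
    (A : ValuationSubring Qb) (hA : A.LiesOverPrime ℓ) (σ : GQ) (hσ : A.IsFrobeniusAt σ ℓ)
    (ξ : Qb) (hξ : ξ ^ m = 1) : σ ξ = ξ ^ ℓ := by
  obtain ⟨ζ, hζ⟩ := exists_isPrimitiveRoot hm
  obtain ⟨a, ha⟩ := exists_pow_eq_apply hm hζ σ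
  obtain ⟨hmem, hfrob⟩ := hσ
  have h1 : a ≡ ℓ [MOD m] :=
    modEq_of_residue hm hℓ hℓm A hA hζ ⟨σ, hmem⟩ a ℓ ha (hfrob _)
  have h2 : ζ ^ a = ζ ^ ℓ := by
    rw [pow_eq_pow_mod a hζ.pow_eq_one, pow_eq_pow_mod ℓ hζ.pow_eq_one]
    exact congrArg (ζ ^ ·) h1
  exact apply_eq_pow_of_pow_eq_one hm hζ σ ℓ (ha.trans h2) ξ hξ

/-- Elements of the inertia group act trivially on the residue field. -/
theorem smul_residue_of_mem_inertia (A : ValuationSubring Qb) (g : A.decompositionSubgroup ℚ)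
    (hg : g ∈ A.inertiaSubgroup ℚ) (x : IsLocalRing.ResidueField A) : g • x = x := by
  have h1 : MulSemiringAction.toRingAut (A.decompositionSubgroup ℚ)
      (IsLocalRing.ResidueField A) g = 1 := hg
  exact congrArg (fun e : RingAut (IsLocalRing.ResidueField A) => e x) h1

/-- **Inertia on roots of unity**: the inertia group of a valuation subring over a prime
`ℓ ∤ m` fixes the `m`-th roots of unity. -/
theorem inertia_apply_of_pow_eq_one (hm : m ≠ 0) {ℓ : ℕ} (hℓ : ℓ.Prime) (hℓm : ¬ ℓ ∣ m)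
    (A : ValuationSubring Qb) (hA : A.LiesOverPrime ℓ) (τ : GQ)
    (hτ : τ ∈ A.inertiaSubgroupIn ℚ) (ξ : Qb) (hξ : ξ ^ m = 1) : τ ξ = ξ := by
  obtain ⟨g, hg, rfl⟩ := hτ
  obtain ⟨ζ, hζ⟩ := exists_isPrimitiveRoot hm
  obtain ⟨a, ha⟩ := exists_pow_eq_apply hm hζ (g : GQ)
  have h1 : a ≡ 1 [MOD m] :=
    modEq_of_residue hm hℓ hℓm A hA hζ g a 1 ha
      (by rw [smul_residue_of_mem_inertia A g hg, pow_one])
  have h2 : ζ ^ a = ζ ^ 1 := by
    rw [pow_eq_pow_mod a hζ.pow_eq_one, pow_eq_pow_mod 1 hζ.pow_eq_one]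
    exact congrArg (ζ ^ ·) h1
  have h3 := apply_eq_pow_of_pow_eq_one hm hζ (g : GQ) 1 (ha.trans h2) ξ hξ
  rwa [pow_one] at h3

end Roots

/-! ### The mod-`m` cyclotomic character -/

section Chi

variable {m : ℕ} [NeZero m] {ζ : Qb} (hζ : IsPrimitiveRoot ζ m)

/-- The mod-`m` cyclotomic character: `σ ξ = ξ ^ (chi σ)` on `m`-th roots of unity. -/
def chi : GQ →* (ZMod m)ˣ := hζ.autToPow ℚ

theorem chi_spec (σ : GQ) : ζ ^ ((chi hζ σ : (ZMod m)ˣ) : ZMod m).val = σ ζ :=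
  hζ.autToPow_spec ℚ σ

/-- `σ ξ = ξ ^ (chi σ)` for every `m`-th root of unity `ξ`. -/
theorem apply_eq_pow_chi (σ : GQ) (ξ : Qb) (hξ : ξ ^ m = 1) :
    σ ξ = ξ ^ ((chi hζ σ : (ZMod m)ˣ) : ZMod m).val :=
  apply_eq_pow_of_pow_eq_one (NeZero.ne m) hζ σ _ (chi_spec hζ σ).symm ξ hξ

include hζ in
/-- `chi σ` is determined by any exponent `a` with `σ ζ = ζ ^ a`. -/
theorem chi_eq_of_apply_eq (σ : GQ) (a : ℕ) (h : σ ζ = ζ ^ a) :
    ((chi hζ σ : (ZMod m)ˣ) : ZMod m) = (a : ZMod m) := by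
  have h1 : ζ ^ ((chi hζ σ : (ZMod m)ˣ) : ZMod m).val = ζ ^ a := (chi_spec hζ σ).trans h
  have hord : orderOf ζ = m := hζ.eq_orderOf.symm
  have h2 := modEq_of_pow_eq (by rw [hord]; exact Nat.pos_of_ne_zero (NeZero.ne m)) h1
  rw [hord] at h2
  have h3 := (ZMod.natCast_eq_natCast_iff _ _ m).mpr h2
  rwa [ZMod.natCast_zmod_val] at h3

include hζ in
/-- The cyclotomic character at a Frobenius element over `ℓ ∤ m` is `ℓ`. -/
theorem chi_eq_of_isFrobeniusAt {ℓ : ℕ} (hℓ : ℓ.Prime) (hℓm : ¬ ℓ ∣ m)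
    (A : ValuationSubring Qb) (hA : A.LiesOverPrime ℓ) (σ : GQ) (hσ : A.IsFrobeniusAt σ ℓ) :
    ((chi hζ σ : (ZMod m)ˣ) : ZMod m) = (ℓ : ZMod m) :=
  chi_eq_of_apply_eq hζ σ ℓ
    (frobenius_apply_of_pow_eq_one (NeZero.ne m) hℓ hℓm A hA σ hσ ζ hζ.pow_eq_one)

include hζ in
/-- `chi σ = 1` as soon as `σ` fixes `ζ`. -/
theorem chi_eq_one_of_apply_eq (σ : GQ) (h : σ ζ = ζ) : chi hζ σ = 1 := by
  have h2 := chi_eq_of_apply_eq hζ σ 1 (by rw [pow_one]; exact h)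
  apply Units.ext
  rw [Units.val_one]
  simpa using h2

include hζ in
/-- The cyclotomic character is trivial on inertia over `ℓ ∤ m`. -/
theorem chi_eq_one_of_mem_inertia {ℓ : ℕ} (hℓ : ℓ.Prime) (hℓm : ¬ ℓ ∣ m)
    (A : ValuationSubring Qb) (hA : A.LiesOverPrime ℓ) (τ : GQ)
    (hτ : τ ∈ A.inertiaSubgroupIn ℚ) : chi hζ τ = 1 :=
  chi_eq_one_of_apply_eq hζ τ
    (inertia_apply_of_pow_eq_one (NeZero.ne m) hℓ hℓm A hA τ hτ ζ hζ.pow_eq_one)

include hζ in
/-- Finite level: the cyclotomic character is trivial on `Gal(ℚ̄/ℚ(ζ))`. -/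
theorem chi_eq_one_of_fixes (σ : GQ) (hσ : ∀ x ∈ IntermediateField.adjoin ℚ {ζ}, σ x = x) :
    chi hζ σ = 1 :=
  chi_eq_one_of_apply_eq hζ σ (hσ ζ (IntermediateField.mem_adjoin_simple_self ℚ ζ))

include hζ in
/-- The level `ℚ(ζ)` is a number field. -/
theorem finiteDimensional_adjoin : FiniteDimensional ℚ (IntermediateField.adjoin ℚ {ζ}) :=
  IntermediateField.adjoin.finiteDimensional
    ((hζ.isIntegral (Nat.pos_of_ne_zero (NeZero.ne m))).tower_top)

include hζ in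
/-- The cyclotomic character has finite level. -/
theorem exists_level : ∃ L : IntermediateField ℚ Qb, FiniteDimensional ℚ L ∧
    ∀ σ : GQ, (∀ x ∈ L, σ x = x) → chi hζ σ = 1 :=
  ⟨IntermediateField.adjoin ℚ {ζ}, finiteDimensional_adjoin hζ, chi_eq_one_of_fixes hζ⟩

/-- Compatibility of the characters for `m ∣ m'`. -/
theorem chi_cast {m' : ℕ} [NeZero m'] {ζ' : Qb} (hζ' : IsPrimitiveRoot ζ' m') (hmm' : m ∣ m')
    (σ : GQ) :
    ZMod.castHom hmm' (ZMod m) ((chi hζ' σ : (ZMod m')ˣ) : ZMod m') =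
      ((chi hζ σ : (ZMod m)ˣ) : ZMod m) := by
  have hξ : ζ ^ m' = 1 := by
    obtain ⟨k, rfl⟩ := hmm'
    rw [pow_mul, hζ.pow_eq_one, one_pow]
  have h1 := apply_eq_pow_chi hζ' σ ζ hξ
  have h2 := chi_eq_of_apply_eq hζ σ _ h1
  rw [h2, ← map_natCast (ZMod.castHom hmm' (ZMod m)), ZMod.natCast_zmod_val]

end Chi

/-! ### The `p`-adic cyclotomic character -/

section Padic

variable (p : ℕ) [Fact p.Prime]

/-- The `p`-adic cyclotomic character of `Gal(ℚ̄/ℚ)` (Mathlib's `cyclotomicCharacter`). -/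
def chiPadic : GQ →* ℤ_[p]ˣ :=
  (cyclotomicCharacter Qb p).comp (MulSemiringAction.toRingAut GQ Qb)

/-- `σ ξ = ξ ^ (χ_p(σ) mod p ^ n)` on `p ^ n`-th roots of unity. -/
theorem chiPadic_spec (n : ℕ) (σ : GQ) (ξ : Qb) (hξ : ξ ^ p ^ n = 1) :
    σ ξ = ξ ^ (PadicInt.toZModPow n ((chiPadic p σ : ℤ_[p]ˣ) : ℤ_[p])).val :=
  cyclotomicCharacter.spec p (MulSemiringAction.toRingAut GQ Qb σ) ξ hξ

/-- `χ_p(σ) mod p ^ n` is determined by any exponent `a` with `σ ζ = ζ ^ a` for one primitive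
`p ^ n`-th root of unity `ζ`. -/
theorem toZModPow_chiPadic_eq (n : ℕ) {ζ : Qb} (hζ : IsPrimitiveRoot ζ (p ^ n)) (σ : GQ) (a : ℕ)
    (h : σ ζ = ζ ^ a) :
    PadicInt.toZModPow n ((chiPadic p σ : ℤ_[p]ˣ) : ℤ_[p]) = (a : ZMod (p ^ n)) := by
  have hpn : p ^ n ≠ 0 := pow_ne_zero n (Fact.out : p.Prime).ne_zero
  have : NeZero (p ^ n) := ⟨hpn⟩
  have h1 : ζ ^ (PadicInt.toZModPow n ((chiPadic p σ : ℤ_[p]ˣ) : ℤ_[p])).val = ζ ^ a :=
    (chiPadic_spec p n σ ζ hζ.pow_eq_one).symm.trans h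
  have hord : orderOf ζ = p ^ n := hζ.eq_orderOf.symm
  have h2 := modEq_of_pow_eq (by rw [hord]; exact Nat.pos_of_ne_zero hpn) h1
  rw [hord] at h2
  have h3 := (ZMod.natCast_eq_natCast_iff _ _ (p ^ n)).mpr h2
  rwa [ZMod.natCast_zmod_val] at h3

/-- The `p`-adic cyclotomic character at a Frobenius element over `ℓ ≠ p` is `ℓ`. -/
theorem chiPadic_eq_of_isFrobeniusAt {ℓ : ℕ} (hℓ : ℓ.Prime) (hℓp : ℓ ≠ p)
    (A : ValuationSubring Qb) (hA : A.LiesOverPrime ℓ) (σ : GQ) (hσ : A.IsFrobeniusAt σ ℓ) :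
    ((chiPadic p σ : ℤ_[p]ˣ) : ℤ_[p]) = (ℓ : ℤ_[p]) := by
  refine PadicInt.ext_of_toZModPow.mp fun n => ?_
  have hpn : p ^ n ≠ 0 := pow_ne_zero n (Fact.out : p.Prime).ne_zero
  obtain ⟨ζ, hζ⟩ := exists_isPrimitiveRoot hpn
  rw [toZModPow_chiPadic_eq p n hζ σ ℓ
    (frobenius_apply_of_pow_eq_one hpn hℓ (not_dvd_prime_pow hℓ Fact.out hℓp n) A hA σ hσ ζ
      hζ.pow_eq_one), map_natCast]

/-- If `σ` fixes a primitive `p ^ n`-th root of unity then `χ_p(σ) ≡ 1` modulo `p ^ n`. -/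
theorem toZModPow_chiPadic_eq_one (n : ℕ) {ζ : Qb} (hζ : IsPrimitiveRoot ζ (p ^ n)) (σ : GQ)
    (h : σ ζ = ζ) : PadicInt.toZModPow n ((chiPadic p σ : ℤ_[p]ˣ) : ℤ_[p]) = 1 := by
  rw [toZModPow_chiPadic_eq p n hζ σ 1 (by rw [pow_one]; exact h), Nat.cast_one]

/-- An automorphism fixing all `p`-power roots of unity has trivial `p`-adic cyclotomic
character. -/
theorem chiPadic_eq_one_of_fixes (σ : GQ) (h : ∀ (n : ℕ) (ξ : Qb), ξ ^ p ^ n = 1 → σ ξ = ξ) :
    chiPadic p σ = 1 := by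
  apply Units.ext
  rw [Units.val_one]
  refine PadicInt.ext_of_toZModPow.mp fun n => ?_
  have hpn : p ^ n ≠ 0 := pow_ne_zero n (Fact.out : p.Prime).ne_zero
  obtain ⟨ζ, hζ⟩ := exists_isPrimitiveRoot hpn
  rw [toZModPow_chiPadic_eq_one p n hζ σ (h n ζ hζ.pow_eq_one), map_one]

/-- The `p`-adic cyclotomic character is trivial on inertia over `ℓ ≠ p`. -/
theorem chiPadic_eq_one_of_mem_inertia {ℓ : ℕ} (hℓ : ℓ.Prime) (hℓp : ℓ ≠ p)
    (A : ValuationSubring Qb) (hA : A.LiesOverPrime ℓ) (τ : GQ)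
    (hτ : τ ∈ A.inertiaSubgroupIn ℚ) : chiPadic p τ = 1 :=
  chiPadic_eq_one_of_fixes p τ fun n ξ hξ =>
    inertia_apply_of_pow_eq_one (pow_ne_zero n (Fact.out : p.Prime).ne_zero) hℓ
      (not_dvd_prime_pow hℓ Fact.out hℓp n) A hA τ hτ ξ hξ

/-- Continuity: for every `n` there is a number field `L` such that `χ_p(σ) ≡ 1` modulo `p ^ n`
for all `σ` fixing `L`. -/
theorem exists_level_chiPadic (n : ℕ) : ∃ L : IntermediateField ℚ Qb, FiniteDimensional ℚ L ∧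
    ∀ σ : GQ, (∀ x ∈ L, σ x = x) →
      PadicInt.toZModPow n ((chiPadic p σ : ℤ_[p]ˣ) : ℤ_[p]) = 1 := by
  have hpn : p ^ n ≠ 0 := pow_ne_zero n (Fact.out : p.Prime).ne_zero
  have : NeZero (p ^ n) := ⟨hpn⟩
  obtain ⟨ζ, hζ⟩ := exists_isPrimitiveRoot hpn
  exact ⟨IntermediateField.adjoin ℚ {ζ}, finiteDimensional_adjoin hζ, fun σ hσ =>
    toZModPow_chiPadic_eq_one p n hζ σ (hσ ζ (IntermediateField.mem_adjoin_simple_self ℚ ζ))⟩

end Padic

end Fermat.Agent.S30.CycN
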