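/-
S30, leaf [Lim] — abstract core (helper65).  Mathlib only.

The "determinant as a limit" step of the S30 route (lead's blueprint, item (3)), in abstract form.

Setting: a commutative ring `𝒪` with an element `ϖ` such that `𝒪` is `ϖ`-adically separated and
complete (`hsep`, `hcompl`; both hold for a complete discrete valuation ring and `0 ≠ ϖ ∈ 𝔪`, see
`sep_of_dvr`, `compl_of_dvr`), a group `G` with a character `d : G →* 𝒪ˣ`, and for every `n` an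
`𝒪[G]`-module `X n` killed by `ϖ ^ n` with a vector `w n` whose annihilator is contained in
`ϖ ^ n 𝒪`.  If for every `g` and `n` the operator `g + d(g) g⁻¹` is ONE scalar simultaneously on
`X n` and `X (n+1)`, then there is a function `t : G → 𝒪` with `g + d(g) g⁻¹ = t(g)` on every
`X n`; it is a two-dimensional pseudo-character with determinant `d`
(`t 1 = 2`, `t (g h) = t (h g)`, `t (g h) + d(h) t (g h⁻¹) = t g * t h`), and it is unique modulo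
`ϖ ^ n` on `w n`.
-/
import Mathlib

set_option autoImplicit false

namespace Fermat.Agent.S30.LimCore

section Core

variable {𝒪 : Type*} [CommRing 𝒪] (ϖ : 𝒪) {G : Type*} [Group G] (d : G →* 𝒪ˣ)
variable (X : ℕ → Type*) [∀ n, AddCommGroup (X n)] [∀ n, Module 𝒪 (X n)]
variable (π : ∀ n, G →* Module.End 𝒪 (X n)) (w : ∀ n, X n)

/-- The data of the limit step: `t` realises `g + d(g) g⁻¹` on every level. -/
def IsTrace (t : G → 𝒪) : Prop :=
  ∀ (n : ℕ) (g : G), π n g + ((d g : 𝒪ˣ) : 𝒪) • π n g⁻¹ = t g • (1 : Module.End 𝒪 (X n))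

variable {ϖ d X π w}

/-- Two scalars acting in the same way on all the `w n` are equal. -/
theorem eq_of_forall_smul_eq (hsep : ∀ a : 𝒪, (∀ n : ℕ, ϖ ^ n ∣ a) → a = 0)
    (hann : ∀ (n : ℕ) (a : 𝒪), a • w n = 0 → ϖ ^ n ∣ a) {a b : 𝒪}
    (h : ∀ n : ℕ, a • w n = b • w n) : a = b := by
  have h0 : a - b = 0 := by
    apply hsep
    intro n
    apply hann n
    rw [sub_smul, h n, sub_self]
  exact sub_eq_zero.mp h0

/-- A scalar operator identity on every level gives an identity of scalars. -/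
theorem eq_of_forall_smul_one_eq (hsep : ∀ a : 𝒪, (∀ n : ℕ, ϖ ^ n ∣ a) → a = 0)
    (hann : ∀ (n : ℕ) (a : 𝒪), a • w n = 0 → ϖ ^ n ∣ a) {a b : 𝒪}
    (h : ∀ n : ℕ, a • (1 : Module.End 𝒪 (X n)) = b • (1 : Module.End 𝒪 (X n))) : a = b := by
  apply eq_of_forall_smul_eq hsep hann
  intro n
  have h1 := congrArg (fun f : Module.End 𝒪 (X n) => f (w n)) (h n)
  simpa using h1

theorem map_inv_mul_map (n : ℕ) (g : G) : π n g⁻¹ * π n g = 1 := by
  rw [← map_mul, inv_mul_cancel, map_one]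

theorem map_mul_map_inv (n : ℕ) (g : G) : π n g * π n g⁻¹ = 1 := by
  rw [← map_mul, mul_inv_cancel, map_one]

/-- **(P1)** for a trace function: `t 1 = 2`. -/
theorem IsTrace.apply_one {t : G → 𝒪} (ht : IsTrace d X π t)
    (hsep : ∀ a : 𝒪, (∀ n : ℕ, ϖ ^ n ∣ a) → a = 0)
    (hann : ∀ (n : ℕ) (a : 𝒪), a • w n = 0 → ϖ ^ n ∣ a) : t 1 = 2 := by
  apply eq_of_forall_smul_one_eq hsep hann
  intro n
  have h := ht n 1
  rw [inv_one, _root_.map_one, _root_.map_one, Units.val_one, one_smul] at h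
  rw [← h, two_smul]

/-- **(P1)** for a trace function: `t` is central. -/
theorem IsTrace.apply_mul_comm {t : G → 𝒪} (ht : IsTrace d X π t)
    (hsep : ∀ a : 𝒪, (∀ n : ℕ, ϖ ^ n ∣ a) → a = 0)
    (hann : ∀ (n : ℕ) (a : 𝒪), a • w n = 0 → ϖ ^ n ∣ a) (g h : G) : t (g * h) = t (h * g) := by
  apply eq_of_forall_smul_one_eq hsep hann
  intro n
  have h1 := ht n (g * h)
  have h2 := ht n (h * g)
  rw [← h2]
  have e1 : π n (h * g) = π n h * π n (g * h) * π n h⁻¹ := by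
    rw [← map_mul, ← map_mul]
    congr 1
    group
  have e2 : π n (h * g)⁻¹ = π n h * π n (g * h)⁻¹ * π n h⁻¹ := by
    rw [← map_mul, ← map_mul]
    congr 1
    group
  have e3 : d (h * g) = d (g * h) := by
    rw [map_mul, map_mul, mul_comm]
  rw [e1, e2, e3]
  have e4 : π n h * π n (g * h) * π n h⁻¹ +
      ((d (g * h) : 𝒪ˣ) : 𝒪) • (π n h * π n (g * h)⁻¹ * π n h⁻¹) =
      π n h * (π n (g * h) + ((d (g * h) : 𝒪ˣ) : 𝒪) • π n (g * h)⁻¹) * π n h⁻¹ := by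
    rw [mul_add, add_mul, mul_smul_comm, smul_mul_assoc]
  rw [e4, h1, mul_smul_comm, mul_one, smul_mul_assoc, map_mul_map_inv]

/-- **(P1)** for a trace function: the pseudo-character identity with determinant `d`. -/
theorem IsTrace.apply_mul_add {t : G → 𝒪} (ht : IsTrace d X π t)
    (hsep : ∀ a : 𝒪, (∀ n : ℕ, ϖ ^ n ∣ a) → a = 0)
    (hann : ∀ (n : ℕ) (a : 𝒪), a • w n = 0 → ϖ ^ n ∣ a) (g h : G) :
    t (g * h) + ((d h : 𝒪ˣ) : 𝒪) * t (g * h⁻¹) = t g * t h := by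
  apply eq_of_forall_smul_one_eq hsep hann
  intro n
  have h1 := ht n (g * h)
  have h2 := ht n (g * h⁻¹)
  have h3 := ht n g
  have h4 := ht n h
  -- `t g * t h` as an operator
  have e1 : (t g * t h) • (1 : Module.End 𝒪 (X n)) =
      π n g * (t h • (1 : Module.End 𝒪 (X n))) +
        ((d g : 𝒪ˣ) : 𝒪) • ((t h • (1 : Module.End 𝒪 (X n))) * π n g⁻¹) := by
    rw [mul_smul_comm, mul_one, smul_mul_assoc, one_mul, smul_comm ((d g : 𝒪ˣ) : 𝒪) (t h),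
      ← smul_add, h3, smul_smul, mul_comm]
  have e2 : (g * h)⁻¹ = h⁻¹ * g⁻¹ := mul_inv_rev g h
  have e3 : (g * h⁻¹)⁻¹ = h * g⁻¹ := by
    rw [mul_inv_rev, inv_inv]
  have e4 : ((d h : 𝒪ˣ) : 𝒪) * ((d (g * h⁻¹) : 𝒪ˣ) : 𝒪) = ((d g : 𝒪ˣ) : 𝒪) := by
    rw [← Units.val_mul, _root_.map_mul, map_inv, mul_comm, inv_mul_cancel_right]
  have e5 : ((d (g * h) : 𝒪ˣ) : 𝒪) = ((d g : 𝒪ˣ) : 𝒪) * ((d h : 𝒪ˣ) : 𝒪) := by
    rw [_root_.map_mul, Units.val_mul]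
  have E1 : π n (g * h) + ((d (g * h) : 𝒪ˣ) : 𝒪) • π n (g * h)⁻¹ =
      π n g * π n h + (((d g : 𝒪ˣ) : 𝒪) * ((d h : 𝒪ˣ) : 𝒪)) • (π n h⁻¹ * π n g⁻¹) := by
    rw [e2, e5, _root_.map_mul, _root_.map_mul]
  have E2 : ((d h : 𝒪ˣ) : 𝒪) • (π n (g * h⁻¹) + ((d (g * h⁻¹) : 𝒪ˣ) : 𝒪) • π n (g * h⁻¹)⁻¹) =
      ((d h : 𝒪ˣ) : 𝒪) • (π n g * π n h⁻¹) + ((d g : 𝒪ˣ) : 𝒪) • (π n h * π n g⁻¹) := by
    rw [e3, smul_add, smul_smul, e4, _root_.map_mul, _root_.map_mul]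
  have E3 : π n g * (π n h + ((d h : 𝒪ˣ) : 𝒪) • π n h⁻¹) +
      ((d g : 𝒪ˣ) : 𝒪) • ((π n h + ((d h : 𝒪ˣ) : 𝒪) • π n h⁻¹) * π n g⁻¹) =
      π n g * π n h + ((d h : 𝒪ˣ) : 𝒪) • (π n g * π n h⁻¹) +
        ((d g : 𝒪ˣ) : 𝒪) • (π n h * π n g⁻¹) +
        (((d g : 𝒪ˣ) : 𝒪) * ((d h : 𝒪ˣ) : 𝒪)) • (π n h⁻¹ * π n g⁻¹) := by
    rw [mul_add, add_mul, mul_smul_comm, smul_mul_assoc, smul_add, smul_smul]
    abel
  rw [e1, ← h4, E3, add_smul, ← h1, mul_smul, ← h2, E1, E2]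
  abel

/-- **(U)** uniqueness modulo `ϖ ^ n`: a scalar realising `g + d(g) g⁻¹` on `w n` is congruent
to `t g`. -/
theorem IsTrace.dvd_sub {t : G → 𝒪} (ht : IsTrace d X π t)
    (hann : ∀ (n : ℕ) (a : 𝒪), a • w n = 0 → ϖ ^ n ∣ a) (n : ℕ) (g : G) (t' : 𝒪)
    (h : π n g (w n) + ((d g : 𝒪ˣ) : 𝒪) • π n g⁻¹ (w n) = t' • w n) : ϖ ^ n ∣ t' - t g := by
  apply hann n
  have h1 := congrArg (fun f : Module.End 𝒪 (X n) => f (w n)) (ht n g)
  simp only [LinearMap.add_apply, LinearMap.smul_apply, Module.End.one_apply] at h1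
  rw [sub_smul, ← h, h1, sub_self]

/-- **(P3)** a scalar realising `g + d(g) g⁻¹` on every `w n` is `t g`. -/
theorem IsTrace.eq_of_forall_rel {t : G → 𝒪} (ht : IsTrace d X π t)
    (hsep : ∀ a : 𝒪, (∀ n : ℕ, ϖ ^ n ∣ a) → a = 0)
    (hann : ∀ (n : ℕ) (a : 𝒪), a • w n = 0 → ϖ ^ n ∣ a) (g : G) (a : 𝒪)
    (h : ∀ n : ℕ, π n g (w n) + ((d g : 𝒪ˣ) : 𝒪) • π n g⁻¹ (w n) = a • w n) : t g = a := by
  have h0 : a - t g = 0 := hsep _ fun n => ht.dvd_sub hann n g a (h n)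
  exact (sub_eq_zero.mp h0).symm

/-- **(P2)** continuity: if `σ` acts trivially on `X n` and `d σ ≡ 1` modulo `ϖ ^ n`, then
`t (σ g) ≡ t g` modulo `ϖ ^ n`. -/
theorem IsTrace.dvd_sub_of_eq {t : G → 𝒪} (ht : IsTrace d X π t)
    (htors : ∀ (n : ℕ) (x : X n), ϖ ^ n • x = 0)
    (hann : ∀ (n : ℕ) (a : 𝒪), a • w n = 0 → ϖ ^ n ∣ a) (n : ℕ) (σ g : G)
    (hσ : π n σ = 1) (hd : ϖ ^ n ∣ ((d σ : 𝒪ˣ) : 𝒪) - 1) : ϖ ^ n ∣ t (σ * g) - t g := by
  apply ht.dvd_sub hann n g (t (σ * g))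
  have h1 := congrArg (fun f : Module.End 𝒪 (X n) => f (w n)) (ht n (σ * g))
  simp only [LinearMap.add_apply, LinearMap.smul_apply, Module.End.one_apply] at h1
  have hσi : π n σ⁻¹ = 1 := by
    have := map_inv_mul_map (π := π) n σ
    rwa [hσ, mul_one] at this
  have e1 : π n (σ * g) = π n g := by
    rw [map_mul, hσ, one_mul]
  have e2 : π n (σ * g)⁻¹ = π n g⁻¹ := by
    rw [mul_inv_rev, map_mul, hσi, mul_one]
  rw [e1, e2] at h1
  rw [← h1]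
  congr 1
  obtain ⟨k, hk⟩ := hd
  have e3 : ((d (σ * g) : 𝒪ˣ) : 𝒪) = ((d g : 𝒪ˣ) : 𝒪) + ϖ ^ n * (k * ((d g : 𝒪ˣ) : 𝒪)) := by
    rw [map_mul, Units.val_mul, ← mul_assoc, ← hk]
    ring
  rw [e3, add_smul, mul_smul, htors n, add_zero]

/-- If `σ` acts trivially on every level and `d σ = 1`, then `t (σ g) = t g` for all `g`. -/
theorem IsTrace.apply_mul_of_forall_eq_one {t : G → 𝒪} (ht : IsTrace d X π t)
    (hsep : ∀ a : 𝒪, (∀ n : ℕ, ϖ ^ n ∣ a) → a = 0)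
    (htors : ∀ (n : ℕ) (x : X n), ϖ ^ n • x = 0)
    (hann : ∀ (n : ℕ) (a : 𝒪), a • w n = 0 → ϖ ^ n ∣ a) (σ : G)
    (hσ : ∀ n : ℕ, π n σ = 1) (hd : d σ = 1) (g : G) : t (σ * g) = t g := by
  have h0 : t (σ * g) - t g = 0 := by
    apply hsep
    intro n
    apply ht.dvd_sub_of_eq htors hann n σ g (hσ n)
    rw [hd, Units.val_one, sub_self]
    exact dvd_zero _
  exact sub_eq_zero.mp h0

/-- **(P4)** an involution `c` with `d c = -1` has trace `0`. -/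
theorem IsTrace.eq_zero_of_involution {t : G → 𝒪} (ht : IsTrace d X π t)
    (hsep : ∀ a : 𝒪, (∀ n : ℕ, ϖ ^ n ∣ a) → a = 0)
    (hann : ∀ (n : ℕ) (a : 𝒪), a • w n = 0 → ϖ ^ n ∣ a) (c : G) (hc : c * c = 1)
    (hdc : d c = -1) : t c = 0 := by
  apply ht.eq_of_forall_rel hsep hann c 0
  intro n
  have hci : c⁻¹ = c := inv_eq_of_mul_eq_one_left hc
  rw [hci, hdc, Units.val_neg, Units.val_one, neg_one_smul, add_neg_cancel, zero_smul]

/-- **[Lim], abstract core.**  If for every `g` and `n` the operator `g + d(g) g⁻¹` is one scalar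
simultaneously on `X n` and `X (n + 1)`, then there is a trace function `t : G → 𝒪`: it realises
`g + d(g) g⁻¹` on every level, it is a pseudo-character of dimension two with determinant `d`,
and it is unique modulo `ϖ ^ n` on `w n`. -/
theorem exists_trace (hsep : ∀ a : 𝒪, (∀ n : ℕ, ϖ ^ n ∣ a) → a = 0)
    (hcompl : ∀ f : ℕ → 𝒪, (∀ n : ℕ, ϖ ^ n ∣ f (n + 1) - f n) → ∃ L : 𝒪, ∀ n : ℕ, ϖ ^ n ∣ f n - L)
    (htors : ∀ (n : ℕ) (x : X n), ϖ ^ n • x = 0)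
    (hann : ∀ (n : ℕ) (a : 𝒪), a • w n = 0 → ϖ ^ n ∣ a)
    (hrel : ∀ (g : G) (n : ℕ), ∃ t' : 𝒪,
      (π n g + ((d g : 𝒪ˣ) : 𝒪) • π n g⁻¹ = t' • (1 : Module.End 𝒪 (X n))) ∧
      (π (n + 1) g + ((d g : 𝒪ˣ) : 𝒪) • π (n + 1) g⁻¹ = t' • (1 : Module.End 𝒪 (X (n + 1))))) :
    ∃ t : G → 𝒪,
      (∀ (n : ℕ) (g : G), π n g + ((d g : 𝒪ˣ) : 𝒪) • π n g⁻¹ = t g • (1 : Module.End 𝒪 (X n))) ∧
      t 1 = 2 ∧ (∀ g h : G, t (g * h) = t (h * g)) ∧
      (∀ g h : G, t (g * h) + ((d h : 𝒪ˣ) : 𝒪) * t (g * h⁻¹) = t g * t h) ∧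
      (∀ (n : ℕ) (g : G) (t' : 𝒪),
        π n g (w n) + ((d g : 𝒪ˣ) : 𝒪) • π n g⁻¹ (w n) = t' • w n → ϖ ^ n ∣ t' - t g) := by
  classical
  choose s hs using hrel
  -- the approximations `s g n` are Cauchy
  have hcauchy : ∀ (g : G) (n : ℕ), ϖ ^ n ∣ s g (n + 1) - s g n := by
    intro g n
    have h1 := (hs g n).2
    have h2 := (hs g (n + 1)).1
    have h3 : (s g (n + 1) - s g n) • w (n + 1) = 0 := by
      have h4 := congrArg (fun f : Module.End 𝒪 (X (n + 1)) => f (w (n + 1))) (h1.symm.trans h2)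
      simp only [LinearMap.smul_apply, Module.End.one_apply] at h4
      rw [sub_smul, ← h4, sub_self]
    have h5 := hann (n + 1) _ h3
    exact Dvd.dvd.trans (pow_dvd_pow ϖ (Nat.le_succ n)) h5
  choose t htlim using fun g => hcompl (s g) (hcauchy g)
  have ht : IsTrace d X π t := by
    intro n g
    rw [(hs g n).1]
    obtain ⟨k, hk⟩ := htlim g n
    have e : s g n = t g + ϖ ^ n * k := by
      rw [← hk]
      ring
    rw [e, add_smul]
    have hz : (ϖ ^ n * k) • (1 : Module.End 𝒪 (X n)) = 0 := by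
      apply LinearMap.ext
      intro x
      rw [LinearMap.smul_apply, Module.End.one_apply, LinearMap.zero_apply, mul_comm, mul_smul,
        htors n, smul_zero]
    rw [hz, add_zero]
  exact ⟨t, ht, ht.apply_one hsep hann, ht.apply_mul_comm hsep hann, ht.apply_mul_add hsep hann,
    fun n g t' h => ht.dvd_sub hann n g t' h⟩

end Core

/-! ### The completeness hypotheses for a complete discrete valuation ring -/

section DVR

variable {𝒪 : Type*} [CommRing 𝒪] [IsDomain 𝒪] [IsDiscreteValuationRing 𝒪]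

/-- `ϖ`-adic separatedness of a discrete valuation ring, for `ϖ` in the maximal ideal. -/
theorem sep_of_dvr {ϖ : 𝒪} (hϖ : ϖ ∈ IsLocalRing.maximalIdeal 𝒪) (a : 𝒪)
    (h : ∀ n : ℕ, ϖ ^ n ∣ a) : a = 0 := by
  have h1 : a ∈ ⨅ n : ℕ, IsLocalRing.maximalIdeal 𝒪 ^ n := by
    rw [Ideal.mem_iInf]
    intro n
    obtain ⟨k, rfl⟩ := h n
    exact Ideal.mul_mem_right _ _ (Ideal.pow_mem_pow hϖ n)
  rw [Ideal.iInf_pow_eq_bot_of_isLocalRing _ (IsLocalRing.maximalIdeal.isMaximal 𝒪).ne_top] at h1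
  exact h1

/-- `ϖ`-adic completeness of a complete discrete valuation ring, for `0 ≠ ϖ` in the maximal
ideal. -/
theorem compl_of_dvr [IsAdicComplete (IsLocalRing.maximalIdeal 𝒪) 𝒪] {ϖ : 𝒪}
    (hϖ : ϖ ∈ IsLocalRing.maximalIdeal 𝒪) (hϖ0 : ϖ ≠ 0) (f : ℕ → 𝒪)
    (hf : ∀ n : ℕ, ϖ ^ n ∣ f (n + 1) - f n) : ∃ L : 𝒪, ∀ n : ℕ, ϖ ^ n ∣ f n - L := by
  -- telescoping
  have htel : ∀ (n k : ℕ), ϖ ^ n ∣ f (n + k) - f n := by
    intro n k
    induction k with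
    | zero => simp
    | succ k ih =>
      have h1 : ϖ ^ n ∣ f (n + k + 1) - f (n + k) :=
        Dvd.dvd.trans (pow_dvd_pow ϖ (Nat.le_add_right n k)) (hf (n + k))
      have e : f (n + (k + 1)) - f n = (f (n + k + 1) - f (n + k)) + (f (n + k) - f n) := by
        rw [← add_assoc]
        ring
      rw [e]
      exact dvd_add h1 ih
  have hmem : ∀ (n : ℕ) (x : 𝒪), ϖ ^ n ∣ x → x ∈ IsLocalRing.maximalIdeal 𝒪 ^ n := by
    rintro n x ⟨k, rfl⟩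
    exact Ideal.mul_mem_right _ _ (Ideal.pow_mem_pow hϖ n)
  -- the limit for the `𝔪`-adic topology
  obtain ⟨L, hL⟩ := IsPrecomplete.prec (I := IsLocalRing.maximalIdeal 𝒪) (M := 𝒪)
    inferInstance (f := f) (by
      intro m n hmn
      obtain ⟨k, rfl⟩ := Nat.exists_eq_add_of_le hmn
      rw [SModEq.sub_mem, smul_eq_mul, Ideal.mul_top]
      have h1 := hmem m _ (htel m k)
      have h2 : f m - f (m + k) = -(f (m + k) - f m) := by ring
      rw [h2]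
      exact Ideal.neg_mem_iff _ |>.mpr h1)
  refine ⟨L, fun n => ?_⟩
  -- `ϖ ^ n 𝒪` is a power of the maximal ideal
  obtain ⟨π₀, hπ₀⟩ := IsDiscreteValuationRing.exists_irreducible 𝒪
  obtain ⟨j, u, hu⟩ := IsDiscreteValuationRing.eq_unit_mul_pow_irreducible
    (pow_ne_zero n hϖ0) hπ₀
  have hmaxj : ∀ x : 𝒪, x ∈ IsLocalRing.maximalIdeal 𝒪 ^ j → ϖ ^ n ∣ x := by
    intro x hx
    rw [hπ₀.maximalIdeal_eq, Ideal.span_singleton_pow, Ideal.mem_span_singleton] at hx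
    obtain ⟨y, rfl⟩ := hx
    rw [hu]
    exact ⟨((u⁻¹ : 𝒪ˣ) : 𝒪) * y, by
      rw [mul_comm (u : 𝒪), mul_assoc, ← mul_assoc (u : 𝒪), Units.mul_inv, one_mul]⟩
  -- compare at a large index
  have h1 : ϖ ^ n ∣ f (n + j) - f n := htel n j
  have h2 : f (n + j) - L ∈ IsLocalRing.maximalIdeal 𝒪 ^ j := by
    have h3 := hL (n + j)
    rw [SModEq.sub_mem, smul_eq_mul, Ideal.mul_top] at h3
    exact Ideal.pow_le_pow_right (Nat.le_add_left j n) h3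
  have h4 : ϖ ^ n ∣ f (n + j) - L := hmaxj _ h2
  have e : f n - L = (f (n + j) - L) - (f (n + j) - f n) := by ring
  rw [e]
  exact dvd_sub h4 h1

end DVR

end Fermat.Agent.S30.LimCore
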