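/-
S30 — Plan.lean (architect of the [Det] half: helper63).  Glue of the arithmetic half:

    [Pseudo] + [Level] + [FD] + (∀ n, KAway N p n)   ⟹   `S30Top.DetStatement p N S 𝒪 χ`

for a complete discrete valuation ring `𝒪` of characteristic zero with `p` in its maximal ideal.
The remaining inputs are landed theorems and are cited directly: `p`-adic separatedness and
completeness of `𝒪` (`LimCore.sep_of_dvr`, `LimCore.compl_of_dvr`), the `𝒪`-valued `p`-adic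
cyclotomic character (`CycInf.exists_cyclotomic`, `CycInf.exists_level`), the action of Frobenius
and inertia on the `p`-power roots of unity (`CycN`).
-/
import Mathlib
import Fermat.Agent.S30.Defs
import Fermat.Agent.S30.Top
import Fermat.Agent.S30.LimCore
import Fermat.Agent.S30.CycInf
import Fermat.Agent.S30.CycN

set_option autoImplicit false

open ModularCurve

namespace Fermat.Agent.S30.Plan

open Fermat.Agent.S29 (Qb GQ)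
open Fermat.Agent.S30.LimLevel

/-- **[Det] from its leaves.** -/
theorem detStatement_of_leaves (hPseudo : PseudoStatement) (hLevel : LevelStatement)
    (hFD : Fermat.Agent.S29.FDStatement)
    (p : ℕ) [Fact p.Prime] (N : ℕ) [NeZero N] (S : Finset ℕ) (hpS : p ∈ S)
    (hNS : ∀ q : ℕ, q.Prime → q ∣ N → q ∈ S)
    (𝒪 : Type) [CommRing 𝒪] [IsDomain 𝒪] [IsDiscreteValuationRing 𝒪]
    [IsAdicComplete (IsLocalRing.maximalIdeal 𝒪) 𝒪] [CharZero 𝒪]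
    (hp𝒪 : (p : 𝒪) ∈ IsLocalRing.maximalIdeal 𝒪)
    (χ : CuspForm.heckeAlgebra N 2 (↑S : Set ℕ) →+* 𝒪)
    (hK : ∀ n : ℕ, KAway N p n) :
    Fermat.Agent.S30Top.DetStatement p N S 𝒪 χ := by
  have hp : p.Prime := Fact.out
  have hp0 : (p : 𝒪) ≠ 0 := Nat.cast_ne_zero.mpr hp.ne_zero
  have hsep : ∀ a : 𝒪, (∀ n : ℕ, (p : 𝒪) ^ n ∣ a) → a = 0 :=
    fun a h => LimCore.sep_of_dvr hp𝒪 a h
  have hcompl : ∀ f : ℕ → 𝒪, (∀ n, (p : 𝒪) ^ n ∣ f (n + 1) - f n) →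
      ∃ L : 𝒪, ∀ n, (p : 𝒪) ^ n ∣ f n - L :=
    fun f h => LimCore.compl_of_dvr hp𝒪 hp0 f h
  obtain ⟨d, hd⟩ := CycInf.exists_cyclotomic (p := p) (𝒪 := 𝒪) hp.ne_zero hsep hcompl
  have hS : ∀ ℓ : ℕ, ℓ.Prime → ℓ ∉ S → goodPrime N (↑S : Set ℕ) ℓ := by
    intro ℓ hℓ hℓS
    exact ⟨hℓ, fun hℓN => hℓS (hNS ℓ hℓ hℓN), fun h => hℓS (Finset.mem_coe.mp h)⟩
  have hcycL : ∀ n : ℕ, ∃ L : IntermediateField ℚ Qb, FiniteDimensional ℚ L ∧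
      ∀ σ : GQ, (∀ x ∈ L, σ x = x) → ∀ ζ : Qb, ζ ^ (p ^ n) = 1 → σ ζ = ζ := by
    intro n
    obtain ⟨L, hL, h, -⟩ := CycInf.exists_level (p := p) hp.ne_zero n
    exact ⟨L, hL, h⟩
  have hcycF : ∀ ℓ : ℕ, goodPrime N (↑S : Set ℕ) ℓ → ∀ A : ValuationSubring Qb,
      A.LiesOverPrime ℓ → ∀ σ : GQ, A.IsFrobeniusAt σ ℓ → ∀ (n : ℕ) (ζ : Qb),
      ζ ^ (p ^ n) = 1 → σ ζ = ζ ^ ℓ := by
    intro ℓ hℓ A hA σ hσ n ζ hζ
    have hℓp : ℓ ≠ p := fun h => hℓ.2.2 (Finset.mem_coe.mpr (h ▸ hpS))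
    exact CycN.frobenius_apply_of_pow_eq_one (pow_ne_zero n hp.ne_zero) hℓ.1
      (CycN.not_dvd_prime_pow hℓ.1 hp hℓp n) A hA σ hσ ζ hζ
  have hcycI : ∀ q : ℕ, unrPrime N p q → ∀ P : ValuationSubring Qb, P.LiesOverPrime q →
      ∀ τ ∈ P.inertiaSubgroupIn ℚ, ∀ (n : ℕ) (ζ : Qb), ζ ^ (p ^ n) = 1 → τ ζ = ζ := by
    intro q hq P hP τ hτ n ζ hζ
    exact CycN.inertia_apply_of_pow_eq_one (pow_ne_zero n hp.ne_zero) hq.1
      (CycN.not_dvd_prime_pow hq.1 hp hq.2.2 n) P hP τ hτ ζ hζ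
  obtain ⟨t, h1, h2, h3, hP2, hP3a, hP3b, c, hc, htc, hdc⟩ :=
    hPseudo 𝒪 p hsep hcompl (goodPrime N (↑S : Set ℕ)) (heckeEig N (↑S : Set ℕ) χ)
      (unrPrime N p) S hS hFD d (fun g n k hk => hd g n k hk) hcycL hcycF hcycI
      (fun n => hLevel N p hp S hpS hNS 𝒪 χ n (hK n))
  refine ⟨t, d, ⟨h1, h2, h3⟩, ⟨c, hc, htc, Units.ext ?_⟩, hP2, ?_, ?_⟩
  · rw [hdc, Units.val_neg, Units.val_one]
  · intro ℓ hℓ hℓN hℓS A hA σ hσ
    have h := hP3a ℓ ⟨hℓ, hℓN, hℓS⟩ A hA σ hσ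
    rw [heckeEig_eq N (↑S : Set ℕ) χ hℓ hℓN hℓS] at h
    exact h
  · intro q hq hqN hqp P hP τ hτ g
    exact hP3b q ⟨hq, hqN, hqp⟩ P hP τ hτ g

end Fermat.Agent.S30.Plan
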