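/-
S30 — PseudoTop.lean (helper63, architect of the [Det] half): the leaf `[Pseudo]` in its binding
form.

`pseudoStatement : Fermat.Agent.S30.PseudoStatement` is helper9's `LimGlue.exists_pseudo` (the
concrete limit step) for `p ≠ 0`; for `p = 0` the hypotheses are contradictory (weak Frobenius
density gives a Frobenius element `σ` at a good prime `ℓ`, and the cyclotomic hypothesis at
`n = 1` would give `σ 2 = 2 ^ ℓ`).
-/
import Mathlib
import Fermat.Agent.S30.Defs
import Fermat.Agent.S30.LimGlue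

set_option autoImplicit false

namespace Fermat.Agent.S30.PseudoTop

open Fermat.Agent.S29 (Qb GQ)

/-- **[Pseudo]**, binding form. -/
theorem pseudoStatement : Fermat.Agent.S30.PseudoStatement := by
  intro 𝒪 _ p hsep hcompl good a unr S hS hFD d hd hcycL hcycF hcycI lev
  rcases eq_or_ne p 0 with rfl | hp
  · exfalso
    obtain ⟨ℓ, A, σ, j, hℓ, hℓS, hA, hσ, -⟩ :=
      hFD ⊥ inferInstance S 1
    have h := hcycF ℓ (hS ℓ hℓ hℓS) A hA σ hσ 1 2 (by simp)
    have h2 : σ (2 : Qb) = 2 := map_ofNat σ 2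
    rw [h2] at h
    have h3 : ((2 : ℕ) : Qb) = ((2 ^ ℓ : ℕ) : Qb) := by
      push_cast
      exact h
    have h4 : 2 = 2 ^ ℓ := Nat.cast_injective h3
    have h5 : 2 ^ 1 < 2 ^ ℓ := Nat.pow_lt_pow_right (by norm_num) hℓ.one_lt
    omega
  · obtain ⟨t, h1, h2, h3, h4, h5, h6, c, hc1, hc2, hc3⟩ :=
      Fermat.Agent.S30.LimGlue.exists_pseudo p hp hsep hcompl good a unr S hS hFD d hd hcycL
        hcycF hcycI lev
    refine ⟨t, h1, h2, h3, h4, h5, h6, c, hc1, hc2, ?_⟩
    rw [hc3, Units.val_neg, Units.val_one]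

end Fermat.Agent.S30.PseudoTop
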