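/-
S30 route (lead's blueprint, item (6) [Conj]) — Conj.lean (helper93).

Complex conjugation as an element of `Gal(ℚ̄/ℚ)`:

* `exists_conj_of_emb ι` : for every embedding `ι : ℚ̄ →+* ℂ` there is `c ∈ Gal(ℚ̄/ℚ)` with
  `c * c = 1` and `ι (c x) = conj (ι x)` for all `x`;
* `exists_conj` : there is `c ∈ Gal(ℚ̄/ℚ)` with `c * c = 1` which inverts every root of unity.

Construction: the field range `R` of `ι` is normal over `ℚ` (it is isomorphic to `ℚ̄`), so complex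
conjugation restricts to `R` (`AlgEquiv.restrictNormal`); transport along `ℚ̄ ≃ R`.
-/
import Mathlib

set_option autoImplicit false

namespace Fermat.Agent.S30.Conj

/-- `ℚ̄`. -/
local notation "Qb" => AlgebraicClosure ℚ

/-- `Gal(ℚ̄/ℚ)`. -/
local notation "GQ" => (AlgebraicClosure ℚ ≃ₐ[ℚ] AlgebraicClosure ℚ)

/-- Complex conjugation as a `ℚ`-algebra automorphism of `ℂ`. -/
noncomputable def conjQ : ℂ ≃ₐ[ℚ] ℂ := AlgEquiv.restrictScalars ℚ Complex.conjAe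

theorem conjQ_apply (z : ℂ) : conjQ z = (starRingEnd ℂ) z := rfl

/-- **Complex conjugation through an embedding.**  For every embedding `ι : ℚ̄ → ℂ` there is an
involution `c ∈ Gal(ℚ̄/ℚ)` inducing complex conjugation through `ι`. -/
theorem exists_conj_of_emb (ι : Qb →+* ℂ) :
    ∃ c : GQ, c * c = 1 ∧ ∀ x : Qb, ι (c x) = (starRingEnd ℂ) (ι x) := by
  classical
  let ιA : Qb →ₐ[ℚ] ℂ := ι.toRatAlgHom
  let e : Qb ≃ₐ[ℚ] ιA.fieldRange := AlgEquiv.ofInjectiveField ιA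
  have he : ∀ x : Qb, ((e x : ιA.fieldRange) : ℂ) = ι x := fun x => rfl
  have hAC : IsAlgClosure ℚ Qb := ⟨AlgebraicClosure.isAlgClosed ℚ, AlgebraicClosure.isAlgebraic ℚ⟩
  have hNQ : Normal ℚ Qb := IsAlgClosure.normal ℚ Qb
  have hN : Normal ℚ ιA.fieldRange := Normal.of_algEquiv e
  let cR : ιA.fieldRange ≃ₐ[ℚ] ιA.fieldRange := conjQ.restrictNormal ιA.fieldRange
  have hcR : ∀ y : ιA.fieldRange, ((cR y : ιA.fieldRange) : ℂ) = (starRingEnd ℂ) (y : ℂ) :=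
    fun y => conjQ.restrictNormal_commutes ιA.fieldRange y
  let c : GQ := e.trans (cR.trans e.symm)
  have hc : ∀ x : Qb, ι (c x) = (starRingEnd ℂ) (ι x) := by
    intro x
    have h1 : c x = e.symm (cR (e x)) := rfl
    rw [h1, ← he (e.symm (cR (e x))), AlgEquiv.apply_symm_apply, hcR, he]
  refine ⟨c, ?_, hc⟩
  ext x
  apply ι.injective
  rw [AlgEquiv.mul_apply, hc, hc, AlgEquiv.one_apply]
  exact Complex.conj_conj _

/-- **[Conj]** There is an involution `c ∈ Gal(ℚ̄/ℚ)` ("complex conjugation") which inverts every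
root of unity of `ℚ̄`. -/
theorem exists_conj :
    ∃ c : GQ, c * c = 1 ∧ ∀ (ζ : Qb) (n : ℕ), n ≠ 0 → ζ ^ n = 1 → c ζ = ζ⁻¹ := by
  have hAlg : Algebra.IsAlgebraic ℚ Qb := AlgebraicClosure.isAlgebraic ℚ
  let ι : Qb →+* ℂ := (IsAlgClosed.lift (R := ℚ) (S := Qb) (M := ℂ)).toRingHom
  obtain ⟨c, hcc, hc⟩ := exists_conj_of_emb ι
  refine ⟨c, hcc, fun ζ n hn hζ => ?_⟩
  apply ι.injective
  have h1 : (ι ζ) ^ n = 1 := by rw [← map_pow, hζ, map_one]
  have h2 : ‖ι ζ‖ = 1 := Complex.norm_eq_one_of_pow_eq_one h1 hn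
  rw [hc, map_inv₀]
  exact (RCLike.inv_eq_conj h2).symm

end Fermat.Agent.S30.Conj
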