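/-
S30, leaf [Cyc∞] — closers (helper34).

The `𝒪`-valued `p`-adic cyclotomic character `d : Gal(ℚ̄/ℚ) →* 𝒪ˣ` of `S30/CycInf.lean`, for a
complete discrete valuation ring `𝒪` of characteristic zero with `p ∈ 𝔪` (the frozen setting of
S30), together with everything the determinant step uses about it:

* the SPEC (`g = (ζ ↦ ζ ^ k)` on `μ_{p^n}` implies `d g ≡ k` modulo `p ^ n`);
* `d σ = ℓ` for every Frobenius element `σ` at a prime `ℓ ≠ p` (with `S30/CycN.lean`);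
* `d τ = 1` for `τ` in an inertia group at a prime `q ≠ p` (with `S30/CycN.lean`);
* `d c = -1` for every `c` inverting the roots of unity (with `S30/Conj.lean`);
* continuity: `d σ ≡ 1` modulo `p ^ n` for `σ` fixing the finite extension `ℚ(μ_{p^n})`.

The statements are also given for an arbitrary `d` satisfying the SPEC (`CycInf.IsCyc p d`), so
that a consumer may fix `d` once.
-/
import Mathlib
import Fermat.Prelude.Def_EllipticCurve_FrobeniusTrace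
import Fermat.Agent.S30.CycInf
import Fermat.Agent.S30.CycN
import Fermat.Agent.S30.Conj
import Fermat.Agent.S30.LimCore

set_option autoImplicit false

namespace Fermat.Agent.S30.CycInfS

open Fermat.Agent.S30

/-! ### For an arbitrary character with the SPEC -/

section Spec

variable {p : ℕ} {𝒪 : Type*} [CommRing 𝒪] {d : CycInf.GQ →* 𝒪ˣ}

/-- **Frobenius**: `d σ = ℓ` for a Frobenius element at a prime `ℓ ≠ p`. -/
theorem apply_frobenius (hp : p.Prime) (hsep : ∀ a : 𝒪, (∀ n : ℕ, (p : 𝒪) ^ n ∣ a) → a = 0)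
    (hd : CycInf.IsCyc p d) {ℓ : ℕ} (hℓ : ℓ.Prime) (hℓp : ℓ ≠ p)
    (A : ValuationSubring CycInf.Qb) (hA : A.LiesOverPrime ℓ) (σ : CycInf.GQ)
    (hσ : A.IsFrobeniusAt σ ℓ) : ((d σ : 𝒪ˣ) : 𝒪) = (ℓ : 𝒪) :=
  CycInf.eq_natCast_of_actsBy hsep hd σ ℓ fun n ζ hζ =>
    CycN.frobenius_apply_of_pow_eq_one (pow_ne_zero n hp.ne_zero) hℓ
      (CycN.not_dvd_prime_pow hℓ hp hℓp n) A hA σ hσ ζ hζ

/-- **Inertia**: `d τ = 1` for `τ` in an inertia group at a prime `q ≠ p`. -/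
theorem apply_inertia (hp : p.Prime) (hsep : ∀ a : 𝒪, (∀ n : ℕ, (p : 𝒪) ^ n ∣ a) → a = 0)
    (hd : CycInf.IsCyc p d) {q : ℕ} (hq : q.Prime) (hqp : q ≠ p)
    (P : ValuationSubring CycInf.Qb) (hP : P.LiesOverPrime q) (τ : CycInf.GQ)
    (hτ : τ ∈ P.inertiaSubgroupIn ℚ) : d τ = 1 :=
  CycInf.eq_one_of_fixes hsep hd τ fun n ζ hζ =>
    CycN.inertia_apply_of_pow_eq_one (pow_ne_zero n hp.ne_zero) hq
      (CycN.not_dvd_prime_pow hq hp hqp n) P hP τ hτ ζ hζ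

/-- **Complex conjugation**: `d c = -1` for every `c` inverting the roots of unity. -/
theorem apply_conj (hp : p.Prime) (hsep : ∀ a : 𝒪, (∀ n : ℕ, (p : 𝒪) ^ n ∣ a) → a = 0)
    (hd : CycInf.IsCyc p d) (c : CycInf.GQ)
    (hc : ∀ (ζ : CycInf.Qb) (n : ℕ), n ≠ 0 → ζ ^ n = 1 → c ζ = ζ⁻¹) :
    ((d c : 𝒪ˣ) : 𝒪) = -1 :=
  CycInf.eq_neg_one_of_inv hp.ne_zero hsep hd c fun n ζ hζ =>
    hc ζ (p ^ n) (pow_ne_zero n hp.ne_zero) hζ

/-- Unit form of `apply_conj`: `d c = -1` in `𝒪ˣ`. -/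
theorem apply_conj_units (hp : p.Prime) (hsep : ∀ a : 𝒪, (∀ n : ℕ, (p : 𝒪) ^ n ∣ a) → a = 0)
    (hd : CycInf.IsCyc p d) (c : CycInf.GQ)
    (hc : ∀ (ζ : CycInf.Qb) (n : ℕ), n ≠ 0 → ζ ^ n = 1 → c ζ = ζ⁻¹) : d c = -1 := by
  apply Units.ext
  rw [apply_conj hp hsep hd c hc, Units.val_neg, Units.val_one]

/-- **Continuity**: modulo `p ^ n` the character `d` is trivial on the automorphisms fixing a
finite extension of `ℚ`. -/
theorem exists_level_dvd (hp : p.Prime) (hd : CycInf.IsCyc p d) (n : ℕ) :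
    ∃ L : IntermediateField ℚ CycInf.Qb, FiniteDimensional ℚ L ∧
      (∀ σ : CycInf.GQ, (∀ x ∈ L, σ x = x) → (p : 𝒪) ^ n ∣ ((d σ : 𝒪ˣ) : 𝒪) - 1) ∧
      (∀ σ : CycInf.GQ, (∀ x ∈ L, σ x = x) →
        ∀ ζ : CycInf.Qb, ζ ^ (p ^ n) = 1 → σ ζ = ζ) := by
  obtain ⟨L, hL, hfix, -⟩ := CycInf.exists_level hp.ne_zero n
  exact ⟨L, hL, fun σ hσ => CycInf.dvd_sub_one_of_fixes hd σ n (hfix σ hσ), hfix⟩

/-- A complex conjugation: an involution `c` with `d c = -1` for EVERY character `d` with the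
SPEC (the element does not depend on `d`). -/
theorem exists_conj (hp : p.Prime) :
    ∃ c : CycInf.GQ, c * c = 1 ∧
      (∀ (ζ : CycInf.Qb) (n : ℕ), n ≠ 0 → ζ ^ n = 1 → c ζ = ζ⁻¹) ∧
      ∀ {𝒪 : Type*} [CommRing 𝒪] {d : CycInf.GQ →* 𝒪ˣ},
        (∀ a : 𝒪, (∀ n : ℕ, (p : 𝒪) ^ n ∣ a) → a = 0) → CycInf.IsCyc p d →
          ((d c : 𝒪ˣ) : 𝒪) = -1 := by
  obtain ⟨c, hcc, hc⟩ := Conj.exists_conj
  exact ⟨c, hcc, hc, fun hsep hd => apply_conj hp hsep hd c hc⟩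

end Spec

/-! ### The frozen setting: a complete discrete valuation ring with `p ∈ 𝔪` -/

section DVR

variable (p : ℕ) {𝒪 : Type*} [CommRing 𝒪] [IsDomain 𝒪] [IsDiscreteValuationRing 𝒪]

/-- `p`-adic separatedness of a discrete valuation ring with `p ∈ 𝔪`. -/
theorem sep_natCast (hp𝒪 : (p : 𝒪) ∈ IsLocalRing.maximalIdeal 𝒪) (a : 𝒪)
    (h : ∀ n : ℕ, (p : 𝒪) ^ n ∣ a) : a = 0 :=
  LimCore.sep_of_dvr hp𝒪 a h

/-- `p`-adic completeness of a complete discrete valuation ring of characteristic zero with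
`p ∈ 𝔪`. -/
theorem compl_natCast [IsAdicComplete (IsLocalRing.maximalIdeal 𝒪) 𝒪] [CharZero 𝒪]
    (hp : p ≠ 0) (hp𝒪 : (p : 𝒪) ∈ IsLocalRing.maximalIdeal 𝒪) (f : ℕ → 𝒪)
    (hf : ∀ n : ℕ, (p : 𝒪) ^ n ∣ f (n + 1) - f n) :
    ∃ L : 𝒪, ∀ n : ℕ, (p : 𝒪) ^ n ∣ f n - L :=
  LimCore.compl_of_dvr hp𝒪 (Nat.cast_ne_zero.mpr hp) f hf

/-- **[Cyc∞], packaged for the frozen setting of S30.**  For a complete discrete valuation ring
`𝒪` of characteristic zero with `p ∈ 𝔪` there is a character `d : Gal(ℚ̄/ℚ) →* 𝒪ˣ` (the `p`-adic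
cyclotomic character) with: the SPEC; `d σ = ℓ` at every Frobenius element at `ℓ ≠ p`; `d = 1` on
the inertia groups at `q ≠ p`; `d c = -1` for every `c` inverting the roots of unity; and `d ≡ 1`
modulo `p ^ n` on the automorphisms fixing a finite extension of `ℚ` containing `μ_{p^n}`. -/
theorem exists_cyclotomic_dvr [IsAdicComplete (IsLocalRing.maximalIdeal 𝒪) 𝒪] [CharZero 𝒪]
    (hp : p.Prime) (hp𝒪 : (p : 𝒪) ∈ IsLocalRing.maximalIdeal 𝒪) :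
    ∃ d : CycInf.GQ →* 𝒪ˣ,
      (∀ (g : CycInf.GQ) (n k : ℕ), (∀ ζ : CycInf.Qb, ζ ^ (p ^ n) = 1 → g ζ = ζ ^ k) →
        (p : 𝒪) ^ n ∣ ((d g : 𝒪ˣ) : 𝒪) - (k : 𝒪)) ∧
      (∀ ℓ : ℕ, ℓ.Prime → ℓ ≠ p → ∀ A : ValuationSubring CycInf.Qb, A.LiesOverPrime ℓ →
        ∀ σ : CycInf.GQ, A.IsFrobeniusAt σ ℓ → ((d σ : 𝒪ˣ) : 𝒪) = (ℓ : 𝒪)) ∧
      (∀ q : ℕ, q.Prime → q ≠ p → ∀ P : ValuationSubring CycInf.Qb, P.LiesOverPrime q →
        ∀ τ ∈ P.inertiaSubgroupIn ℚ, d τ = 1) ∧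
      (∀ c : CycInf.GQ, (∀ (ζ : CycInf.Qb) (n : ℕ), n ≠ 0 → ζ ^ n = 1 → c ζ = ζ⁻¹) →
        ((d c : 𝒪ˣ) : 𝒪) = -1) ∧
      (∀ n : ℕ, ∃ L : IntermediateField ℚ CycInf.Qb, FiniteDimensional ℚ L ∧
        (∀ σ : CycInf.GQ, (∀ x ∈ L, σ x = x) → (p : 𝒪) ^ n ∣ ((d σ : 𝒪ˣ) : 𝒪) - 1) ∧
        (∀ σ : CycInf.GQ, (∀ x ∈ L, σ x = x) →
          ∀ ζ : CycInf.Qb, ζ ^ (p ^ n) = 1 → σ ζ = ζ)) := by
  have hsep : ∀ a : 𝒪, (∀ n : ℕ, (p : 𝒪) ^ n ∣ a) → a = 0 := sep_natCast p hp𝒪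
  obtain ⟨d, hd⟩ := CycInf.exists_cyclotomic (𝒪 := 𝒪) hp.ne_zero hsep
    (compl_natCast p hp.ne_zero hp𝒪)
  exact ⟨d, hd, fun ℓ hℓ hℓp A hA σ hσ => apply_frobenius hp hsep hd hℓ hℓp A hA σ hσ,
    fun q hq hqp P hP τ hτ => apply_inertia hp hsep hd hq hqp P hP τ hτ,
    fun c hc => apply_conj hp hsep hd c hc, fun n => exists_level_dvd hp hd n⟩

end DVR

end Fermat.Agent.S30.CycInfS
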