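/-
S30 route (lead's GO, step (3) [Lim] and leaf [Cyc_n]), block [CycO] (helper6):
the `p`-adic cyclotomic character of `Gal(ℚ̄/ℚ)` with values in a ring `R` which is
`I`-adically complete with `p ∈ I` (for S30: `R = 𝒪'`, `I = 𝔪`).

* `padicHom I hp : ℤ_[p] →+* R`      — the canonical ring homomorphism;
* `chi p : GQ →* ℤ_[p]ˣ`             — Mathlib's `cyclotomicCharacter` on `Gal(ℚ̄/ℚ)`;
* `cycChar I hp : GQ →* Rˣ`          — its image in `R`;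
* `cycChar_sub_dvd`                  — `σ ξ = ξ ^ k` on `μ_{p^n}` ⇒ `p ^ n ∣ d σ - k` in `R`;
* `cycChar_frobenius`                — `d (Frob_ℓ) = ℓ` for `ℓ ≠ p`;
* `cycChar_inertia`                  — `d = 1` on inertia at `ℓ ≠ p`;
* `cycChar_conj`                     — `d c = -1` for a complex conjugation;
* `cycChar_finiteLevel`              — `d ≡ 1 mod p ^ n` on `Gal(ℚ̄/ℚ(ζ_{p^n}))`.
-/
import Mathlib
import Fermat.Agent.S29.Cyc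

set_option autoImplicit false

namespace Fermat.Agent.S30.CycO

open Fermat.Agent.S29

/-! ### Ring homomorphisms out of `ℤ_[p]` -/

section Hom

variable {p : ℕ} [Fact p.Prime]

/-- `x ≡ k mod p ^ n` in `ℤ_[p]`, in divisibility form. -/
theorem exists_eq_pow_mul_of_toZModPow {n k : ℕ} {x : ℤ_[p]}
    (h : PadicInt.toZModPow n x = (k : ZMod (p ^ n))) :
    ∃ y : ℤ_[p], x - (k : ℤ_[p]) = (p : ℤ_[p]) ^ n * y := by
  have h1 : x - (k : ℤ_[p]) ∈ RingHom.ker (PadicInt.toZModPow (p := p) n) := by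
    rw [RingHom.mem_ker, map_sub, h, map_natCast, sub_self]
  rw [PadicInt.ker_toZModPow] at h1
  obtain ⟨a, ha⟩ := Ideal.mem_span_singleton'.mp h1
  exact ⟨a, by rw [← ha, mul_comm]⟩

/-- a ring homomorphism from `ℤ_[p]` to a ring in which `p ^ m = 0` is given by `appr`. -/
theorem hom_eq_natCast_appr {S : Type*} [CommRing S] (g : ℤ_[p] →+* S) (m : ℕ)
    (h : (p : S) ^ m = 0) (x : ℤ_[p]) : g x = ((x.appr m : ℕ) : S) := by
  obtain ⟨a, ha⟩ := Ideal.mem_span_singleton'.mp (PadicInt.appr_spec m x)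
  have h1 : x = (x.appr m : ℤ_[p]) + a * (p : ℤ_[p]) ^ m := by rw [ha]; ring
  have h2 := congrArg g h1
  rw [map_add, map_mul, map_pow, map_natCast, map_natCast, h, mul_zero, add_zero] at h2
  exact h2

variable {R : Type*} [CommRing R] (I : Ideal R)

omit [Fact p.Prime] in
theorem natCast_pow_quot_eq_zero (hp : (p : R) ∈ I) (n : ℕ) :
    ((p : R ⧸ I ^ n)) ^ n = 0 := by
  have h1 : (p : R) ^ n ∈ I ^ n := Ideal.pow_mem_pow hp n
  have h2 := Ideal.Quotient.eq_zero_iff_mem.mpr h1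
  rwa [map_pow, map_natCast] at h2

/-- the level-`n` homomorphism `ℤ_[p] → ℤ/p^n → R ⧸ I ^ n`. -/
noncomputable def levelHom (hp : (p : R) ∈ I) (n : ℕ) : ℤ_[p] →+* R ⧸ I ^ n :=
  (ZMod.castHom (ringChar.dvd (R := R ⧸ I ^ n)
    (show (((p ^ n : ℕ) : ℕ) : R ⧸ I ^ n) = 0 by
      push_cast; exact natCast_pow_quot_eq_zero I hp n)) (R ⧸ I ^ n)).comp
    (PadicInt.toZModPow n)

/-- **the canonical ring homomorphism `ℤ_[p] →+* R`** for an `I`-adically complete ring `R`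
with `p ∈ I`. -/
noncomputable def padicHom [IsAdicComplete I R] (hp : (p : R) ∈ I) : ℤ_[p] →+* R :=
  IsAdicComplete.liftRingHom I (levelHom I hp) (by
    intro m n hle
    ext x
    rw [hom_eq_natCast_appr _ m (natCast_pow_quot_eq_zero I hp m) x,
      hom_eq_natCast_appr _ m (natCast_pow_quot_eq_zero I hp m) x])

end Hom

/-! ### Roots of unity of `p`-power order modulo a valuation subring over `ℓ ≠ p` -/

section Residue

/-- a `p`-power root of unity which reduces to `1` modulo a valuation subring over `ℓ ≠ p`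
is `1`. -/
theorem eq_one_of_residue_eq_one (A : ValuationSubring Qb) {ℓ p : ℕ} (hℓ : ℓ.Prime)
    (hp : p.Prime) (hℓp : ℓ ≠ p) (hℓA : (ℓ : Qb) ∈ A.nonunits) :
    ∀ (n : ℕ) (w : A), (w : Qb) ^ p ^ n = 1 → IsLocalRing.residue A w = 1 → (w : Qb) = 1 := by
  intro n
  induction n with
  | zero =>
    intro w hw _
    simpa using hw
  | succ n ih =>
    intro w hw hres
    have h1 : ((w ^ p : A) : Qb) = 1 := by
      apply ih (w ^ p)
      · push_cast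
        rw [← pow_mul, ← pow_succ']
        exact hw
      · rw [map_pow, hres, one_pow]
    by_contra hne
    have h2 : (w : Qb) ^ p = 1 := by
      have := h1
      push_cast at this
      exact this
    have hprim : IsPrimitiveRoot (w : Qb) p := by
      have : Fact p.Prime := ⟨hp⟩
      have h3 := orderOf_eq_prime h2 hne
      rw [← h3]
      exact IsPrimitiveRoot.orderOf _
    exact Cyc.residue_ne_one A hℓ hp hℓp hℓA w hprim hres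

/-- two `p`-power roots of unity with the same reduction modulo a valuation subring over
`ℓ ≠ p` are equal. -/
theorem eq_of_residue_eq (A : ValuationSubring Qb) {ℓ p : ℕ} (hℓ : ℓ.Prime)
    (hp : p.Prime) (hℓp : ℓ ≠ p) (hℓA : (ℓ : Qb) ∈ A.nonunits) (n : ℕ) (u v : A)
    (hu : (u : Qb) ^ p ^ n = 1) (hv : (v : Qb) ^ p ^ n = 1)
    (h : IsLocalRing.residue A u = IsLocalRing.residue A v) : (u : Qb) = (v : Qb) := by
  have hpn : 0 < p ^ n := pow_pos hp.pos n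
  have hv' : v ^ p ^ n = 1 := Subtype.ext (by push_cast; exact hv)
  have hvv : v * v ^ (p ^ n - 1) = 1 := by
    rw [← pow_succ', Nat.sub_add_cancel hpn, hv']
  have h1 : ((u * v ^ (p ^ n - 1) : A) : Qb) = 1 := by
    apply eq_one_of_residue_eq_one A hℓ hp hℓp hℓA n
    · push_cast
      rw [mul_pow, hu, one_mul, ← pow_mul, mul_comm, pow_mul, hv, one_pow]
    · rw [map_mul, h, ← map_mul, hvv, map_one]
  have h2 : ((v * v ^ (p ^ n - 1) : A) : Qb) = 1 := by rw [hvv]; rfl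
  push_cast at h1 h2
  have h3 : (v : Qb) ^ (p ^ n - 1) ≠ 0 := by
    intro h0
    rw [h0, mul_zero] at h2
    exact zero_ne_one h2
  exact mul_right_cancel₀ h3 (h1.trans h2.symm)

/-- a Frobenius element at `A | ℓ`, `ℓ ≠ p`, raises `p`-power roots of unity to the `ℓ`-th
power. -/
theorem frob_root_pow (A : ValuationSubring Qb) {ℓ p : ℕ} (hℓ : ℓ.Prime) (hp : p.Prime)
    (hℓp : ℓ ≠ p) (hℓA : (ℓ : Qb) ∈ A.nonunits) {σ : GQ} (hσ : A.IsFrobeniusAt σ ℓ)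
    (n : ℕ) (ξ : Qb) (hξ : ξ ^ p ^ n = 1) : σ ξ = ξ ^ ℓ := by
  have hpn : p ^ n ≠ 0 := (pow_pos hp.pos n).ne'
  have hξA : ξ ∈ A := Cyc.root_mem A hpn hξ
  set z : A := ⟨ξ, hξA⟩ with hz
  have h1 := hσ.smul_residue_eq (IsLocalRing.residue A z)
  rw [← IsLocalRing.ResidueField.residue_smul, ← map_pow] at h1
  have h2 := eq_of_residue_eq A hℓ hp hℓp hℓA n _ _ ?_ ?_ h1
  · push_cast at h2
    exact h2
  · show (σ ξ) ^ p ^ n = 1
    rw [← map_pow, hξ, map_one]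
  · push_cast
    show (ξ ^ ℓ) ^ p ^ n = 1
    rw [← pow_mul, mul_comm, pow_mul, hξ, one_pow]

/-- inertia at `A | ℓ`, `ℓ ≠ p`, fixes the `p`-power roots of unity. -/
theorem inertia_root_pow (A : ValuationSubring Qb) {ℓ p : ℕ} (hℓ : ℓ.Prime) (hp : p.Prime)
    (hℓp : ℓ ≠ p) (hℓA : (ℓ : Qb) ∈ A.nonunits) {τ : GQ} (hτ : τ ∈ A.inertiaSubgroupIn ℚ)
    (n : ℕ) (ξ : Qb) (hξ : ξ ^ p ^ n = 1) : τ ξ = ξ := by
  have hpn : p ^ n ≠ 0 := (pow_pos hp.pos n).ne'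
  obtain ⟨g, hg, rfl⟩ := hτ
  have hξA : ξ ∈ A := Cyc.root_mem A hpn hξ
  set z : A := ⟨ξ, hξA⟩ with hz
  have h1 : g • IsLocalRing.residue A z = IsLocalRing.residue A z := by
    have := congrArg (fun f : RingAut (IsLocalRing.ResidueField A) => f (IsLocalRing.residue A z))
      (MonoidHom.mem_ker.mp hg)
    exact this
  rw [← IsLocalRing.ResidueField.residue_smul] at h1
  have h2 := eq_of_residue_eq A hℓ hp hℓp hℓA n _ _ ?_ ?_ h1
  · exact h2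
  · show ((g : GQ) ξ) ^ p ^ n = 1
    rw [← map_pow, hξ, map_one]
  · exact hξ

end Residue

/-! ### The `ℤ_[p]`-valued character -/

section Chi

variable (p : ℕ) [Fact p.Prime]

/-- Mathlib's `p`-adic cyclotomic character, on `Gal(ℚ̄/ℚ)`. -/
noncomputable def chi : GQ →* ℤ_[p]ˣ :=
  (cyclotomicCharacter Qb p).comp (MulSemiringAction.toRingAut GQ Qb)

instance hasEnoughRootsOfUnity_Qb (i : ℕ) : HasEnoughRootsOfUnity Qb (p ^ i) :=
  haveI : NeZero ((p : ℕ) : ℚ) := ⟨by exact_mod_cast (Fact.out : p.Prime).ne_zero⟩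
  AlgebraicClosure.hasEnoughRootsOfUnity_pow ℚ p i

variable {p}

theorem chi_spec (σ : GQ) (n : ℕ) (ξ : Qb) (hξ : ξ ^ p ^ n = 1) :
    σ ξ = ξ ^ (PadicInt.toZModPow n ((chi p σ : ℤ_[p]ˣ) : ℤ_[p])).val :=
  cyclotomicCharacter.spec p (MulSemiringAction.toRingAut GQ Qb σ) ξ hξ

theorem chi_toZModPow_eq (σ : GQ) (n k : ℕ) (h : ∀ ξ : Qb, ξ ^ p ^ n = 1 → σ ξ = ξ ^ k) :
    PadicInt.toZModPow n ((chi p σ : ℤ_[p]ˣ) : ℤ_[p]) = (k : ZMod (p ^ n)) := by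
  have hp : p.Prime := Fact.out
  have : NeZero (p ^ n) := ⟨(pow_pos hp.pos n).ne'⟩
  obtain ⟨ζ, hζ⟩ : ∃ ζ : Qb, IsPrimitiveRoot ζ (p ^ n) :=
    HasEnoughRootsOfUnity.exists_primitiveRoot Qb (p ^ n)
  have hpn : 0 < p ^ n := pow_pos hp.pos n
  have h1 := chi_spec σ n ζ hζ.pow_eq_one
  rw [h ζ hζ.pow_eq_one, Cyc.pow_eq_pow_mod hζ.pow_eq_one k,
    Cyc.pow_eq_pow_mod hζ.pow_eq_one (PadicInt.toZModPow n ((chi p σ : ℤ_[p]ˣ) : ℤ_[p])).val] at h1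
  have h2 := hζ.pow_inj (Nat.mod_lt _ hpn) (Nat.mod_lt _ hpn) h1
  have h3 := (ZMod.natCast_eq_natCast_iff' _ _ _).mpr h2
  rw [h3, ZMod.natCast_zmod_val]

theorem chi_eq_natCast (σ : GQ) (k : ℕ)
    (h : ∀ (n : ℕ) (ξ : Qb), ξ ^ p ^ n = 1 → σ ξ = ξ ^ k) :
    ((chi p σ : ℤ_[p]ˣ) : ℤ_[p]) = (k : ℤ_[p]) := by
  apply PadicInt.ext_of_toZModPow.mp
  intro n
  rw [chi_toZModPow_eq σ n k (h n), map_natCast]

theorem chi_eq_one (σ : GQ) (h : ∀ (n : ℕ) (ξ : Qb), ξ ^ p ^ n = 1 → σ ξ = ξ) :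
    chi p σ = 1 := by
  apply Units.ext
  rw [chi_eq_natCast σ 1 (fun n ξ hξ => by rw [h n ξ hξ, pow_one])]
  simp

theorem chi_eq_neg_one (c : GQ) (h : ∀ (n : ℕ) (ξ : Qb), ξ ^ p ^ n = 1 → c ξ = ξ⁻¹) :
    chi p c = -1 := by
  have hp : p.Prime := Fact.out
  apply Units.ext
  apply PadicInt.ext_of_toZModPow.mp
  intro n
  have hpn : 0 < p ^ n := pow_pos hp.pos n
  rw [chi_toZModPow_eq c n (p ^ n - 1)]
  · rw [Units.val_neg, Units.val_one, map_neg, map_one, Nat.cast_sub hpn]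
    simp
  · intro ξ hξ
    rw [h n ξ hξ]
    have h3 : ξ ^ (p ^ n - 1) * ξ = 1 := by
      rw [← pow_succ, Nat.sub_add_cancel hpn, hξ]
    exact (eq_inv_of_mul_eq_one_left h3).symm

theorem chi_frobenius {ℓ : ℕ} (hℓ : ℓ.Prime) (hℓp : ℓ ≠ p) (A : ValuationSubring Qb)
    (hA : A.LiesOverPrime ℓ) (σ : GQ) (hσ : A.IsFrobeniusAt σ ℓ) :
    ((chi p σ : ℤ_[p]ˣ) : ℤ_[p]) = (ℓ : ℤ_[p]) :=
  chi_eq_natCast σ ℓ (fun n ξ hξ => frob_root_pow A hℓ Fact.out hℓp hA hσ n ξ hξ)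

theorem chi_inertia {ℓ : ℕ} (hℓ : ℓ.Prime) (hℓp : ℓ ≠ p) (A : ValuationSubring Qb)
    (hA : A.LiesOverPrime ℓ) (τ : GQ) (hτ : τ ∈ A.inertiaSubgroupIn ℚ) :
    chi p τ = 1 :=
  chi_eq_one τ (fun n ξ hξ => inertia_root_pow A hℓ Fact.out hℓp hA hτ n ξ hξ)

end Chi

/-! ### The `R`-valued character -/

section CycChar

variable {p : ℕ} [Fact p.Prime] {R : Type*} [CommRing R] (I : Ideal R) [IsAdicComplete I R]
  (hp : (p : R) ∈ I)

/-- **the `p`-adic cyclotomic character with values in `R`**. -/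
noncomputable def cycChar : GQ →* Rˣ :=
  (Units.map (padicHom I hp : ℤ_[p] →* R)).comp (chi p)

theorem cycChar_apply (σ : GQ) :
    ((cycChar I hp σ : Rˣ) : R) = padicHom I hp ((chi p σ : ℤ_[p]ˣ) : ℤ_[p]) := rfl

/-- **the congruence**: if `σ` raises the `p ^ n`-th roots of unity to the `k`-th power,
then `d σ ≡ k` modulo `p ^ n · R`. -/
theorem cycChar_sub_dvd (σ : GQ) (n k : ℕ) (h : ∀ ξ : Qb, ξ ^ p ^ n = 1 → σ ξ = ξ ^ k) :
    (p : R) ^ n ∣ ((cycChar I hp σ : Rˣ) : R) - (k : R) := by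
  obtain ⟨y, hy⟩ := exists_eq_pow_mul_of_toZModPow (chi_toZModPow_eq σ n k h)
  refine ⟨padicHom I hp y, ?_⟩
  have h1 := congrArg (padicHom I hp) hy
  rw [map_sub, map_mul, map_pow, map_natCast, map_natCast] at h1
  rw [cycChar_apply]
  exact h1

/-- every `σ` acts on `μ_{p^n}` by some exponent `k` congruent to `d σ` modulo `p ^ n`. -/
theorem exists_exponent (σ : GQ) (n : ℕ) :
    ∃ k : ℕ, (∀ ξ : Qb, ξ ^ p ^ n = 1 → σ ξ = ξ ^ k) ∧
      (p : R) ^ n ∣ ((cycChar I hp σ : Rˣ) : R) - (k : R) := by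
  have h : ∀ ξ : Qb, ξ ^ p ^ n = 1 →
      σ ξ = ξ ^ (PadicInt.toZModPow n ((chi p σ : ℤ_[p]ˣ) : ℤ_[p])).val :=
    fun ξ hξ => chi_spec σ n ξ hξ
  exact ⟨_, h, cycChar_sub_dvd I hp σ n _ h⟩

/-- if `g` and `h` agree on `μ_{p^n}` then `d g ≡ d h` modulo `p ^ n · R`. -/
theorem cycChar_sub_dvd_of_agree (g h : GQ) (n : ℕ)
    (hgh : ∀ ξ : Qb, ξ ^ p ^ n = 1 → g ξ = h ξ) :
    (p : R) ^ n ∣ ((cycChar I hp g : Rˣ) : R) - ((cycChar I hp h : Rˣ) : R) := by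
  obtain ⟨k, hk, hdvd⟩ := exists_exponent I hp h n
  have h1 := cycChar_sub_dvd I hp g n k (fun ξ hξ => by rw [hgh ξ hξ, hk ξ hξ])
  have h2 := dvd_sub h1 hdvd
  rwa [sub_sub_sub_cancel_right] at h2

/-- `d σ = ℓ` for a Frobenius element `σ` at `A | ℓ`, `ℓ ≠ p`. -/
theorem cycChar_frobenius {ℓ : ℕ} (hℓ : ℓ.Prime) (hℓp : ℓ ≠ p) (A : ValuationSubring Qb)
    (hA : A.LiesOverPrime ℓ) (σ : GQ) (hσ : A.IsFrobeniusAt σ ℓ) :
    ((cycChar I hp σ : Rˣ) : R) = (ℓ : R) := by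
  rw [cycChar_apply, chi_frobenius hℓ hℓp A hA σ hσ, map_natCast]

/-- `d (σ ^ j) = ℓ ^ j` for a Frobenius element `σ` at `A | ℓ`, `ℓ ≠ p`. -/
theorem cycChar_frobenius_pow {ℓ : ℕ} (hℓ : ℓ.Prime) (hℓp : ℓ ≠ p) (A : ValuationSubring Qb)
    (hA : A.LiesOverPrime ℓ) (σ : GQ) (hσ : A.IsFrobeniusAt σ ℓ) (j : ℕ) :
    ((cycChar I hp (σ ^ j) : Rˣ) : R) = (ℓ : R) ^ j := by
  rw [map_pow, Units.val_pow_eq_pow_val, cycChar_frobenius I hp hℓ hℓp A hA σ hσ]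

/-- the form used with [FD]: if `g` agrees on `μ_{p^n}` with the `j`-th power of a Frobenius
element at `ℓ ≠ p`, then `d g ≡ ℓ ^ j` modulo `p ^ n · R`. -/
theorem cycChar_sub_dvd_of_frobenius_pow {ℓ : ℕ} (hℓ : ℓ.Prime) (hℓp : ℓ ≠ p)
    (A : ValuationSubring Qb) (hA : A.LiesOverPrime ℓ) (σ : GQ) (hσ : A.IsFrobeniusAt σ ℓ)
    (j : ℕ) (g : GQ) (n : ℕ) (hg : ∀ ξ : Qb, ξ ^ p ^ n = 1 → g ξ = (σ ^ j) ξ) :
    (p : R) ^ n ∣ ((cycChar I hp g : Rˣ) : R) - (ℓ : R) ^ j := by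
  rw [← cycChar_frobenius_pow I hp hℓ hℓp A hA σ hσ j]
  exact cycChar_sub_dvd_of_agree I hp g (σ ^ j) n hg

/-- `d = 1` on inertia at `A | ℓ`, `ℓ ≠ p`. -/
theorem cycChar_inertia {ℓ : ℕ} (hℓ : ℓ.Prime) (hℓp : ℓ ≠ p) (A : ValuationSubring Qb)
    (hA : A.LiesOverPrime ℓ) (τ : GQ) (hτ : τ ∈ A.inertiaSubgroupIn ℚ) :
    cycChar I hp τ = 1 := by
  rw [cycChar, MonoidHom.comp_apply, chi_inertia hℓ hℓp A hA τ hτ, map_one]

/-- `d c = -1` for an element acting by inversion on all roots of unity (complex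
conjugation). -/
theorem cycChar_conj (c : GQ)
    (hc : ∀ (ζ : Qb) (n : ℕ), n ≠ 0 → ζ ^ n = 1 → c ζ = ζ⁻¹) :
    cycChar I hp c = -1 := by
  have hpp : p.Prime := Fact.out
  have h1 : chi p c = -1 :=
    chi_eq_neg_one c (fun n ξ hξ => hc ξ (p ^ n) (pow_pos hpp.pos n).ne' hξ)
  apply Units.ext
  rw [cycChar_apply, h1]
  simp

/-- `d σ ≡ 1` modulo `p ^ n · R` if `σ` fixes the `p ^ n`-th roots of unity. -/
theorem cycChar_sub_one_dvd (σ : GQ) (n : ℕ) (h : ∀ ξ : Qb, ξ ^ p ^ n = 1 → σ ξ = ξ) :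
    (p : R) ^ n ∣ ((cycChar I hp σ : Rˣ) : R) - 1 := by
  have h1 := cycChar_sub_dvd I hp σ n 1 (fun ξ hξ => by rw [h ξ hξ, pow_one])
  simpa using h1

/-- **continuity of `d`**: `d ≡ 1` modulo `p ^ n · R` on the open subgroup fixing the finite
extension `ℚ(ζ_{p^n})`. -/
theorem cycChar_finiteLevel (n : ℕ) :
    ∃ L : IntermediateField ℚ Qb, FiniteDimensional ℚ L ∧
      (∀ ξ : Qb, ξ ^ p ^ n = 1 → ξ ∈ L) ∧
      ∀ σ : GQ, (∀ x ∈ L, σ x = x) → (p : R) ^ n ∣ ((cycChar I hp σ : Rˣ) : R) - 1 := by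
  have hpp : p.Prime := Fact.out
  have hpn : 0 < p ^ n := pow_pos hpp.pos n
  obtain ⟨ζ, hζ⟩ : ∃ ζ : Qb, IsPrimitiveRoot ζ (p ^ n) :=
    HasEnoughRootsOfUnity.exists_primitiveRoot Qb (p ^ n)
  have hζint : IsIntegral ℚ ζ := (hζ.isIntegral hpn).tower_top
  have hmem : ∀ ξ : Qb, ξ ^ p ^ n = 1 → ξ ∈ IntermediateField.adjoin ℚ ({ζ} : Set Qb) := by
    intro ξ hξ
    obtain ⟨i, -, rfl⟩ := hζ.eq_pow_of_pow_eq_one hξ
    exact pow_mem (IntermediateField.mem_adjoin_simple_self ℚ ζ) i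
  refine ⟨IntermediateField.adjoin ℚ ({ζ} : Set Qb),
    IntermediateField.adjoin.finiteDimensional hζint, hmem, ?_⟩
  intro σ hσ
  exact cycChar_sub_one_dvd I hp σ n (fun ξ hξ => hσ ξ (hmem ξ hξ))

include I hp in
/-- **[Cyc∞] packaged**: a character `d : GQ →* Rˣ` with the SPEC (`σ ξ = ξ ^ k` on `μ_{p^n}`
⇒ `p ^ n ∣ d σ - k`), `d (Frob_ℓ) = ℓ` and `d = 1` on inertia at `ℓ ≠ p`, `d c = -1` for every
`c` inverting the roots of unity, and the finite levels `ℚ(ζ_{p^n})`. -/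
theorem exists_cycChar :
    ∃ d : GQ →* Rˣ,
      (∀ (g : GQ) (n k : ℕ), (∀ ζ : Qb, ζ ^ p ^ n = 1 → g ζ = ζ ^ k) →
        (p : R) ^ n ∣ ((d g : Rˣ) : R) - (k : R)) ∧
      (∀ ℓ : ℕ, ℓ.Prime → ℓ ≠ p → ∀ A : ValuationSubring Qb, A.LiesOverPrime ℓ →
        ∀ σ : GQ, A.IsFrobeniusAt σ ℓ → ((d σ : Rˣ) : R) = (ℓ : R)) ∧
      (∀ ℓ : ℕ, ℓ.Prime → ℓ ≠ p → ∀ A : ValuationSubring Qb, A.LiesOverPrime ℓ →
        ∀ τ ∈ A.inertiaSubgroupIn ℚ, d τ = 1) ∧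
      (∀ c : GQ, (∀ (ζ : Qb) (n : ℕ), n ≠ 0 → ζ ^ n = 1 → c ζ = ζ⁻¹) → d c = -1) ∧
      (∀ n : ℕ, ∃ L : IntermediateField ℚ Qb, FiniteDimensional ℚ L ∧
        (∀ ξ : Qb, ξ ^ p ^ n = 1 → ξ ∈ L) ∧
        ∀ σ : GQ, (∀ x ∈ L, σ x = x) → (p : R) ^ n ∣ ((d σ : Rˣ) : R) - 1) :=
  ⟨cycChar I hp, fun g n k h => cycChar_sub_dvd I hp g n k h,
    fun _ hℓ hℓp A hA σ hσ => cycChar_frobenius I hp hℓ hℓp A hA σ hσ,
    fun _ hℓ hℓp A hA τ hτ => cycChar_inertia I hp hℓ hℓp A hA τ hτ,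
    fun c hc => cycChar_conj I hp c hc,
    fun n => cycChar_finiteLevel I hp n⟩

end CycChar

end Fermat.Agent.S30.CycO
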