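/-
S30, leaf (1) [Eig∞], level `p ^ n` form for the `[K]` input `KAway N p n` of `S30/Defs`
(owner: helper97) — the supplier of the distinguished vector `w_n` of `[Level]`.

For a ring homomorphism `χ : heckeAlgebra N 2 S →+* 𝒪` into a valuation ring of characteristic
zero, `p ∈ S`, and the comparison `θ` of `KAway N p n`, there is `w ∈ 𝒪 ⊗ J₀(N)[p ^ n]` with
`a • w = 0 → p ^ n ∣ a` which is an eigenvector of all `T_ℓ` (`ℓ ∤ N` prime, `ℓ ∉ S`) with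
eigenvalue `χ (T_ℓ)`; it is given by the explicit finite presentation
`w = ∑ k, x k ⊗ₜ θ' (b k)` (`b` a `ℤ`-basis of `Lpar N`, one coordinate of `x` equal to `1`).

* `exists_eigen_level_away_pres` : with the presentation;
* `exists_eigen_level_away`      : without it.
-/
import Mathlib
import Fermat.Agent.S30.EigInf
import Fermat.Agent.S30.EigLevel
import Fermat.Agent.S30.Defs

set_option autoImplicit false

open ModularCurve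
open scoped TensorProduct

namespace Fermat.Agent.S30.EigInf

open Fermat.Agent.S41 (Lpar)
open Fermat.Agent.S29 (Jp heckeJp heckeLpar mem_Jp_iff)
open Fermat.Agent.S30 (KAway)

/-- The level-`p ^ n` eigenvector from `KAway N p n`, with its explicit presentation. -/
theorem exists_eigen_level_away_pres (N p : ℕ) [NeZero N] (S : Set ℕ) (hpS : p ∈ S)
    {𝒪 : Type*} [CommRing 𝒪] [IsDomain 𝒪] [ValuationRing 𝒪] [CharZero 𝒪]
    (χ : CuspForm.heckeAlgebra N 2 S →+* 𝒪) (n : ℕ) (hK : KAway N p n) :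
    ∃ (r : ℕ) (b : Module.Basis (Fin r) ℤ (Lpar N)) (x : Fin r → 𝒪)
      (θ' : Lpar N →+ Jp N (p ^ n)) (w : 𝒪 ⊗[ℤ] (Jp N (p ^ n))),
      (∃ i, x i = 1) ∧ w = ∑ k, x k ⊗ₜ[ℤ] θ' (b k) ∧
      (∀ a : 𝒪, a • w = 0 → (p : 𝒪) ^ n ∣ a) ∧
      ∀ (ℓ : ℕ) (hℓ : ℓ.Prime) (hℓN : ¬ ℓ ∣ N) (hℓS : ℓ ∉ S),
        (heckeJp N (p ^ n) ⟨ℓ, hℓ⟩).baseChange 𝒪 w
          = χ (CuspForm.heckeAlgebra.T hℓ hℓN hℓS) • w := by
  classical
  have hfin : Module.Finite ℤ (Lpar N) := Fermat.Agent.S41.LparFree.lpar_finite N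
  have hfree : Module.Free ℤ (Lpar N) := Fermat.Agent.S41.LparFree.lpar_free N
  obtain ⟨x, hx1, hx⟩ := exists_primitive_coord N S (Module.finBasis ℤ (Lpar N)) χ
  obtain ⟨θ, hθ1, hθ2, hθ3⟩ := hK
  -- corestriction of `θ` to the `p ^ n`-torsion
  let θ' : Lpar N →+ Jp N (p ^ n) :=
    { toFun := fun u => ⟨θ u, (mem_Jp_iff N (p ^ n) (θ u)).mpr (hθ1 u)⟩
      map_zero' := Subtype.ext (map_zero θ)
      map_add' := fun u v => Subtype.ext (map_add θ u v) }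
  have hker : ∀ u, θ'.toIntLinearMap u = 0 → ∃ z, u = ((p ^ n : ℕ) : ℤ) • z := by
    intro u hu
    apply hθ2 u
    have h : ((θ' u : Jp N (p ^ n)) : JZero N) = 0 := congrArg Subtype.val hu
    exact h
  have hheck : ∀ (ℓ : ℕ) (hℓ : ℓ.Prime) (hℓN : ¬ ℓ ∣ N), ℓ ≠ p → ∀ u,
      heckeJp N (p ^ n) ⟨ℓ, hℓ⟩ (θ' u) = θ' (heckeLpar N ℓ hℓ hℓN u) := by
    intro ℓ hℓ hℓN hℓp u
    apply Subtype.ext
    change heckeOperatorBar N ⟨ℓ, hℓ⟩ (θ u) = θ (heckeLpar N ℓ hℓ hℓN u)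
    exact (hθ3 ℓ hℓ hℓN hℓp u).symm
  refine ⟨_, Module.finBasis ℤ (Lpar N), x, θ',
    ∑ k, x k ⊗ₜ[ℤ] θ' (Module.finBasis ℤ (Lpar N) k), hx1, rfl, ?_, ?_⟩
  · intro a ha
    have h1 := Fermat.Agent.S30.EigLevel.dvd_of_smul_sum_tmul_eq_zero
      (Module.finBasis ℤ (Lpar N)) θ'.toIntLinearMap (p ^ n) hker x hx1 a ha
    rwa [Nat.cast_pow] at h1
  · intro ℓ hℓ hℓN hℓS
    have hℓp : ℓ ≠ p := fun h => hℓS (h ▸ hpS)
    rw [map_sum]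
    simp_rw [LinearMap.baseChange_tmul, hheck ℓ hℓ hℓN hℓp]
    exact Fermat.Agent.S30.EigLevel.sum_tmul_map_eq_smul (Module.finBasis ℤ (Lpar N))
      (heckeLpar N ℓ hℓ hℓN) θ'.toIntLinearMap x _ (fun k => hx ℓ hℓ hℓN hℓS k)

/-- The level-`p ^ n` eigenvector from `KAway N p n`: `w ∈ 𝒪 ⊗ J₀(N)[p ^ n]` with
`a • w = 0 → p ^ n ∣ a` and `(1 ⊗ T_ℓ) w = χ (T_ℓ) • w` for all primes `ℓ ∤ N`, `ℓ ∉ S`. -/
theorem exists_eigen_level_away (N p : ℕ) [NeZero N] (S : Set ℕ) (hpS : p ∈ S)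
    {𝒪 : Type*} [CommRing 𝒪] [IsDomain 𝒪] [ValuationRing 𝒪] [CharZero 𝒪]
    (χ : CuspForm.heckeAlgebra N 2 S →+* 𝒪) (n : ℕ) (hK : KAway N p n) :
    ∃ w : 𝒪 ⊗[ℤ] (Jp N (p ^ n)),
      (∀ a : 𝒪, a • w = 0 → (p : 𝒪) ^ n ∣ a) ∧
      ∀ (ℓ : ℕ) (hℓ : ℓ.Prime) (hℓN : ¬ ℓ ∣ N) (hℓS : ℓ ∉ S),
        (heckeJp N (p ^ n) ⟨ℓ, hℓ⟩).baseChange 𝒪 w
          = χ (CuspForm.heckeAlgebra.T hℓ hℓN hℓS) • w := by
  obtain ⟨_, _, _, _, w, -, -, hann, heig⟩ := exists_eigen_level_away_pres N p S hpS χ n hK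
  exact ⟨w, hann, heig⟩

end Fermat.Agent.S30.EigInf
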