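/-
S30, leaf (1) [Eig∞], level-`m` form (owner: helper97) — the wrapper
`EigInf.exists_primitive_coord` (helper97) + `EigLevel.exists_eigen_level_of_coord` (helper11).

For a ring homomorphism `χ : heckeAlgebra N 2 S →+* 𝒪` into a valuation ring of characteristic
zero and a comparison `θ` of block [K] at torsion order `m` (`KStatement N m`, used with
`m = p ^ n`), there is `w ∈ 𝒪 ⊗ J₀(N)[m]` whose annihilator is contained in `m 𝒪` and which is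
an eigenvector of all `T_ℓ` (`ℓ ∤ N` prime, `ℓ ∉ S`, `ℓ ≠ m`) with eigenvalue `χ (T_ℓ)`.

* `exists_eigen_level`      : **(D)** the statement above;
* `exists_eigen_level_pres` : **(D′)** the same with the explicit finite presentation
  `w = ∑ n, x n ⊗ₜ θ' (b n)` (`b` a `ℤ`-basis of `Lpar N`, `θ' : Lpar N →+ J[m]`, one coordinate
  of `x` equal to `1`), for the finite-level step.
-/
import Mathlib
import Fermat.Agent.S30.EigInf
import Fermat.Agent.S30.EigLevel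

set_option autoImplicit false

open scoped TensorProduct

namespace Fermat.Agent.S30.EigInf

open Fermat.Agent.S41 (Lpar)
open Fermat.Agent.S29 (Jp heckeJp heckeLpar KStatement)

/-- **(D′)** The level-`m` eigenvector with its explicit presentation. -/
theorem exists_eigen_level_pres (N : ℕ) [NeZero N] (S : Set ℕ)
    {𝒪 : Type*} [CommRing 𝒪] [IsDomain 𝒪] [ValuationRing 𝒪] [CharZero 𝒪]
    (χ : CuspForm.heckeAlgebra N 2 S →+* 𝒪) (m : ℕ) (hK : KStatement N m) :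
    ∃ (r : ℕ) (b : Module.Basis (Fin r) ℤ (Lpar N)) (x : Fin r → 𝒪) (θ' : Lpar N →+ Jp N m)
      (w : 𝒪 ⊗[ℤ] (Jp N m)),
      (∃ i, x i = 1) ∧ w = ∑ n, x n ⊗ₜ[ℤ] θ' (b n) ∧
      (∀ a : 𝒪, a • w = 0 → (m : 𝒪) ∣ a) ∧
      ∀ (ℓ : ℕ) (hℓ : ℓ.Prime) (hℓN : ¬ ℓ ∣ N) (hℓS : ℓ ∉ S), ℓ ≠ m →
        (heckeJp N m ⟨ℓ, hℓ⟩).baseChange 𝒪 w = χ (CuspForm.heckeAlgebra.T hℓ hℓN hℓS) • w := by
  classical
  have hfin : Module.Finite ℤ (Lpar N) := Fermat.Agent.S41.LparFree.lpar_finite N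
  have hfree : Module.Free ℤ (Lpar N) := Fermat.Agent.S41.LparFree.lpar_free N
  obtain ⟨x, hx1, hx⟩ := exists_primitive_coord N S (Module.finBasis ℤ (Lpar N)) χ
  obtain ⟨θ', w, hw, hann, heig⟩ :=
    Fermat.Agent.S30.EigLevel.exists_eigen_level_of_coord N S χ (Module.finBasis ℤ (Lpar N))
      x hx1 hx m hK
  exact ⟨_, Module.finBasis ℤ (Lpar N), x, θ', w, hx1, hw, hann, heig⟩

/-- **(D)** The level-`m` eigenvector: for `χ : 𝕋 → 𝒪` and `KStatement N m` there is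
`w ∈ 𝒪 ⊗ J₀(N)[m]` with `a • w = 0 → m ∣ a` and `(1 ⊗ T_ℓ) w = χ (T_ℓ) • w` for all primes
`ℓ ∤ N`, `ℓ ∉ S`, `ℓ ≠ m`. -/
theorem exists_eigen_level (N : ℕ) [NeZero N] (S : Set ℕ)
    {𝒪 : Type*} [CommRing 𝒪] [IsDomain 𝒪] [ValuationRing 𝒪] [CharZero 𝒪]
    (χ : CuspForm.heckeAlgebra N 2 S →+* 𝒪) (m : ℕ) (hK : KStatement N m) :
    ∃ w : 𝒪 ⊗[ℤ] (Jp N m),
      (∀ a : 𝒪, a • w = 0 → (m : 𝒪) ∣ a) ∧
      ∀ (ℓ : ℕ) (hℓ : ℓ.Prime) (hℓN : ¬ ℓ ∣ N) (hℓS : ℓ ∉ S), ℓ ≠ m →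
        (heckeJp N m ⟨ℓ, hℓ⟩).baseChange 𝒪 w = χ (CuspForm.heckeAlgebra.T hℓ hℓN hℓS) • w := by
  obtain ⟨_, _, _, _, w, -, -, hann, heig⟩ := exists_eigen_level_pres N S χ m hK
  exact ⟨w, hann, heig⟩

end Fermat.Agent.S30.EigInf
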