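/-
S30 — EigLevelAway.lean (helper11).  The `KAway` variant of `S30/EigLevel.lean` (asked by the
[Det] architect, helper63): level-`p ^ n` transport of a primitive eigen-coordinate vector when
the `[K]` input is `S30.KAway N p n` (Hecke clause only for primes `ℓ ≠ p`), plus the one-call
wrappers with `EigInf.exists_primitive_coord` (helper97).

* `exists_eigen_level_of_coord_away` : coordinate form (the analogue of
  `EigLevel.exists_eigen_level_of_coord`), with the explicit presentation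
  `w = ∑ k, x k ⊗ₜ θ' (b k)`;
* `exists_eigen_level_away_pres`     : the same with the basis and the coordinates produced by
  `EigInf.exists_primitive_coord`;
* `exists_eigen_level_away`          : `∃ w ∈ 𝒪 ⊗ J₀(N)[p ^ n]` with `a • w = 0 → p ^ n ∣ a` and
  `(1 ⊗ T_ℓ) w = χ (T_ℓ) • w` for all primes `ℓ ∤ N`, `ℓ ∉ S`, `ℓ ≠ p`;
* `exists_eigen_level_good`          : the same, indexed by the good primes of `LimLevel`
  (`goodPrime N S ℓ`, eigenvalue `heckeEig N S χ ℓ`) for a set `S ∋ p`, in the shape of the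
  hypothesis `hv` of `ModOrbitR.exists_orbit_module_ann`.
-/
import Mathlib
import Fermat.Agent.S30.Defs
import Fermat.Agent.S30.EigLevel
import Fermat.Agent.S30.EigInf

set_option autoImplicit false

open scoped TensorProduct

namespace Fermat.Agent.S30.EigLevelAway

open ModularCurve AlgebraicCurve CongruenceSubgroup
open Fermat.Agent.S41 (Lpar)
open Fermat.Agent.S29 (Jp heckeJp heckeLpar mem_Jp_iff)
open Fermat.Agent.S30 (KAway)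
open Fermat.Agent.S30.LimLevel (goodPrime heckeEig heckeEig_eq)

/-- **Level-`p ^ n` transport of a primitive eigen-coordinate vector, `KAway` form.**  `hx` is
the conclusion of `EigInf.exists_primitive_coord`. -/
theorem exists_eigen_level_of_coord_away (N : ℕ) [NeZero N] (S : Set ℕ) {𝒪 : Type*}
    [CommRing 𝒪] [IsDomain 𝒪] [CharZero 𝒪] (χ : CuspForm.heckeAlgebra N 2 S →+* 𝒪) {r : ℕ}
    (b : Module.Basis (Fin r) ℤ (Lpar N)) (x : Fin r → 𝒪) (hx1 : ∃ i, x i = 1)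
    (hx : ∀ (ℓ : ℕ) (hℓ : ℓ.Prime) (hℓN : ¬ ℓ ∣ N) (hℓS : ℓ ∉ S) (m : Fin r),
      ∑ k, ((b.repr (heckeLpar N ℓ hℓ hℓN (b k)) m : ℤ) : 𝒪) * x k
        = χ (CuspForm.heckeAlgebra.T hℓ hℓN hℓS) * x m)
    (p n : ℕ) (hK : KAway N p n) :
    ∃ (θ' : Lpar N →+ Jp N (p ^ n)) (w : 𝒪 ⊗[ℤ] (Jp N (p ^ n))),
      w = ∑ k, x k ⊗ₜ[ℤ] θ' (b k) ∧
      (∀ a : 𝒪, a • w = 0 → (p : 𝒪) ^ n ∣ a) ∧
      ∀ (ℓ : ℕ) (hℓ : ℓ.Prime) (hℓN : ¬ ℓ ∣ N) (hℓS : ℓ ∉ S), ℓ ≠ p →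
        (heckeJp N (p ^ n) ⟨ℓ, hℓ⟩).baseChange 𝒪 w
          = χ (CuspForm.heckeAlgebra.T hℓ hℓN hℓS) • w := by
  classical
  obtain ⟨θ, hθ1, hθ2, hθ3⟩ := hK
  -- corestriction of `θ` to the `p ^ n`-torsion
  let θ' : Lpar N →+ Jp N (p ^ n) :=
    { toFun := fun u => ⟨θ u, (mem_Jp_iff N (p ^ n) (θ u)).mpr (hθ1 u)⟩
      map_zero' := Subtype.ext (map_zero θ)
      map_add' := fun u v => Subtype.ext (map_add θ u v) }
  have hker : ∀ u, θ'.toIntLinearMap u = 0 → ∃ z, u = ((p ^ n : ℕ) : ℤ) • z := by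
    intro u hu
    apply hθ2 u
    have h : ((θ' u : Jp N (p ^ n)) : JZero N) = 0 := congrArg Subtype.val hu
    exact h
  have hheck : ∀ (ℓ : ℕ) (hℓ : ℓ.Prime) (hℓN : ¬ ℓ ∣ N), ℓ ≠ p → ∀ u,
      heckeJp N (p ^ n) ⟨ℓ, hℓ⟩ (θ' u) = θ' (heckeLpar N ℓ hℓ hℓN u) := by
    intro ℓ hℓ hℓN hℓp u
    apply Subtype.ext
    change heckeOperatorBar N ⟨ℓ, hℓ⟩ (θ u) = θ (heckeLpar N ℓ hℓ hℓN u)
    exact (hθ3 ℓ hℓ hℓN hℓp u).symm
  refine ⟨θ', ∑ k, x k ⊗ₜ[ℤ] θ' (b k), rfl, ?_, ?_⟩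
  · intro a ha
    have h := Fermat.Agent.S30.EigLevel.dvd_of_smul_sum_tmul_eq_zero b θ'.toIntLinearMap
      (p ^ n) hker x hx1 a ha
    rwa [Nat.cast_pow] at h
  · intro ℓ hℓ hℓN hℓS hℓp
    rw [map_sum]
    simp_rw [LinearMap.baseChange_tmul, hheck ℓ hℓ hℓN hℓp]
    exact Fermat.Agent.S30.EigLevel.sum_tmul_map_eq_smul b (heckeLpar N ℓ hℓ hℓN)
      θ'.toIntLinearMap x _ (fun k => hx ℓ hℓ hℓN hℓS k)

/-- The level-`p ^ n` eigenvector from `KAway N p n`, with its explicit presentation. -/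
theorem exists_eigen_level_away_pres (N : ℕ) [NeZero N] (S : Set ℕ)
    {𝒪 : Type*} [CommRing 𝒪] [IsDomain 𝒪] [ValuationRing 𝒪] [CharZero 𝒪]
    (χ : CuspForm.heckeAlgebra N 2 S →+* 𝒪) (p n : ℕ) (hK : KAway N p n) :
    ∃ (r : ℕ) (b : Module.Basis (Fin r) ℤ (Lpar N)) (x : Fin r → 𝒪)
      (θ' : Lpar N →+ Jp N (p ^ n)) (w : 𝒪 ⊗[ℤ] (Jp N (p ^ n))),
      (∃ i, x i = 1) ∧ w = ∑ k, x k ⊗ₜ[ℤ] θ' (b k) ∧
      (∀ a : 𝒪, a • w = 0 → (p : 𝒪) ^ n ∣ a) ∧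
      ∀ (ℓ : ℕ) (hℓ : ℓ.Prime) (hℓN : ¬ ℓ ∣ N) (hℓS : ℓ ∉ S), ℓ ≠ p →
        (heckeJp N (p ^ n) ⟨ℓ, hℓ⟩).baseChange 𝒪 w
          = χ (CuspForm.heckeAlgebra.T hℓ hℓN hℓS) • w := by
  classical
  have hfin : Module.Finite ℤ (Lpar N) := Fermat.Agent.S41.LparFree.lpar_finite N
  have hfree : Module.Free ℤ (Lpar N) := Fermat.Agent.S41.LparFree.lpar_free N
  obtain ⟨x, hx1, hx⟩ :=
    Fermat.Agent.S30.EigInf.exists_primitive_coord N S (Module.finBasis ℤ (Lpar N)) χ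
  obtain ⟨θ', w, hw, hann, heig⟩ :=
    exists_eigen_level_of_coord_away N S χ (Module.finBasis ℤ (Lpar N)) x hx1 hx p n hK
  exact ⟨_, Module.finBasis ℤ (Lpar N), x, θ', w, hx1, hw, hann, heig⟩

/-- **The level-`p ^ n` eigenvector from `KAway N p n`**: for `χ : 𝕋 → 𝒪` there is
`w ∈ 𝒪 ⊗ J₀(N)[p ^ n]` with `a • w = 0 → p ^ n ∣ a` and `(1 ⊗ T_ℓ) w = χ (T_ℓ) • w` for all
primes `ℓ ∤ N`, `ℓ ∉ S`, `ℓ ≠ p`. -/
theorem exists_eigen_level_away (N : ℕ) [NeZero N] (S : Set ℕ)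
    {𝒪 : Type*} [CommRing 𝒪] [IsDomain 𝒪] [ValuationRing 𝒪] [CharZero 𝒪]
    (χ : CuspForm.heckeAlgebra N 2 S →+* 𝒪) (p n : ℕ) (hK : KAway N p n) :
    ∃ w : 𝒪 ⊗[ℤ] (Jp N (p ^ n)),
      (∀ a : 𝒪, a • w = 0 → (p : 𝒪) ^ n ∣ a) ∧
      ∀ (ℓ : ℕ) (hℓ : ℓ.Prime) (hℓN : ¬ ℓ ∣ N) (hℓS : ℓ ∉ S), ℓ ≠ p →
        (heckeJp N (p ^ n) ⟨ℓ, hℓ⟩).baseChange 𝒪 w
          = χ (CuspForm.heckeAlgebra.T hℓ hℓN hℓS) • w := by
  obtain ⟨_, _, _, _, w, -, -, hann, heig⟩ := exists_eigen_level_away_pres N S χ p n hK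
  exact ⟨w, hann, heig⟩

/-- **Good-prime form** (the shape of `hv` in `ModOrbitR.exists_orbit_module_ann`, with
`I := {ℓ // goodPrime N S ℓ}`, `TM ℓ := (heckeJp N (p ^ n) ⟨ℓ, _⟩).toAddMonoidHom`,
`lam ℓ := heckeEig N S χ ℓ`): for a set `S ∋ p`, there is `w ∈ 𝒪 ⊗ J₀(N)[p ^ n]` with
`a • w = 0 ↔ p ^ n ∣ a` which is an eigenvector of every `T_ℓ`, `ℓ` good, with eigenvalue
`heckeEig N S χ ℓ`. -/
theorem exists_eigen_level_good (N : ℕ) [NeZero N] (S : Set ℕ)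
    {𝒪 : Type} [CommRing 𝒪] [IsDomain 𝒪] [ValuationRing 𝒪] [CharZero 𝒪]
    (χ : CuspForm.heckeAlgebra N 2 S →+* 𝒪) (p n : ℕ) (hpS : p ∈ S) (hK : KAway N p n) :
    ∃ w : 𝒪 ⊗[ℤ] (Jp N (p ^ n)),
      (∀ a : 𝒪, a • w = 0 ↔ (p : 𝒪) ^ n ∣ a) ∧
      ∀ i : {ℓ : ℕ // goodPrime N S ℓ},
        LinearMap.baseChange 𝒪
            ((heckeJp N (p ^ n) ⟨i.1, i.2.1⟩).toAddMonoidHom).toIntLinearMap w
          = heckeEig N S χ i.1 • w := by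
  obtain ⟨w, hann, heig⟩ := exists_eigen_level_away N S χ p n hK
  refine ⟨w, fun a => ⟨hann a, ?_⟩, ?_⟩
  · rintro ⟨c, rfl⟩
    -- `p ^ n` kills `𝒪 ⊗ J₀(N)[p ^ n]`
    have hkill : ∀ y : 𝒪 ⊗[ℤ] (Jp N (p ^ n)), ((p : 𝒪) ^ n) • y = 0 := by
      intro y
      induction y using TensorProduct.induction_on with
      | zero => simp
      | tmul c u =>
        have hu : (p ^ n : ℕ) • u = 0 :=
          Subtype.ext ((mem_Jp_iff N (p ^ n) (u : JZero N)).mp u.2)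
        have h1 : ((p : 𝒪) ^ n) • (c ⊗ₜ[ℤ] u : 𝒪 ⊗[ℤ] (Jp N (p ^ n)))
            = c ⊗ₜ[ℤ] ((p ^ n : ℕ) • u) := by
          rw [TensorProduct.smul_tmul', smul_eq_mul, TensorProduct.tmul_smul,
            TensorProduct.smul_tmul', ← Nat.cast_pow, nsmul_eq_mul]
        rw [h1, hu, TensorProduct.tmul_zero]
      | add y₁ y₂ h₁ h₂ => rw [smul_add, h₁, h₂, add_zero]
    rw [mul_smul, smul_comm, hkill, smul_zero]
  · rintro ⟨ℓ, hℓ⟩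
    have hℓp : ℓ ≠ p := fun h => hℓ.2.2 (h ▸ hpS)
    rw [heckeEig_eq N S χ hℓ.1 hℓ.2.1 hℓ.2.2]
    exact heig ℓ hℓ.1 hℓ.2.1 hℓ.2.2 hℓp

end Fermat.Agent.S30.EigLevelAway
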