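/-
S30 route (lead's stage-2 plan), leaf [Flat] (helper41).

ABSTRACT (Mathlib only; `R` a flat `ℤ`-algebra, `θ : L → M` `ℤ`-linear with `ker θ ⊆ m • L`):
* `exists_eq_smul_of_baseChange_eq_zero`: the kernel of `1 ⊗ θ` on `R ⊗ L` lies in `m • (R ⊗ L)`;
* `dvd_of_smul_baseChange_eq_zero_of_prim`: if `e ∈ R ⊗ L` is primitive in the strong sense
  (`a • e = c • e' → c ∣ a`, the output shape of `EigInf.exists_eigen`), the annihilator of
  `(1 ⊗ θ) e` is contained in `m R`;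
* `dvd_of_smul_baseChange_eq_zero`: the same for `R` local, `L` finite free and
  `e ∉ 𝔪 • (R ⊗ L)`.

LEVEL-`m` VECTOR: `w := (1 ⊗ θ_m) e ∈ R ⊗ J₀(N)[m]` for a primitive `e ∈ R ⊗ Lpar N`:
its annihilator is contained in `m R` and it inherits the Hecke eigenvalues of `e`.
* `exists_level_vector`, `exists_level_vector_of_prim`: from `S29.KStatement N m`;
* `exists_level_vector_kAway`, `exists_level_vector_kAway_of_prim`: from `S30.KAway N p n`
  (torsion order `p ^ n`, conclusion `(p : R) ^ n ∣ a` as in `LimLevel.Level.ann`).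
-/
import Mathlib
import Fermat.Agent.S29.Defs
import Fermat.Agent.S41.LparFree
import Fermat.Agent.S30.Defs

set_option autoImplicit false

open scoped TensorProduct

namespace Fermat.Agent.S30.Flat

section Abstract

variable {R : Type*} [CommRing R] {L M : Type*} [AddCommGroup L] [AddCommGroup M]

/-- The image of `R ⊗ K` in `R ⊗ L` consists of multiples of `m`, when `K ⊆ m • L`. -/
theorem exists_eq_smul_of_lTensor_subtype (m : ℕ) (K : Submodule ℤ L)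
    (hK : ∀ u ∈ K, ∃ z : L, u = (m : ℤ) • z) (t : R ⊗[ℤ] K) :
    ∃ y : R ⊗[ℤ] L, (K.subtype.lTensor R) t = (m : R) • y := by
  induction t using TensorProduct.induction_on with
  | zero => exact ⟨0, by simp⟩
  | tmul r k =>
    obtain ⟨z, hz⟩ := hK k k.2
    refine ⟨r ⊗ₜ[ℤ] z, ?_⟩
    rw [LinearMap.lTensor_tmul, Submodule.subtype_apply, hz, TensorProduct.tmul_smul,
      natCast_zsmul, Nat.cast_smul_eq_nsmul]
  | add x y hx hy =>
    obtain ⟨x', hx'⟩ := hx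
    obtain ⟨y', hy'⟩ := hy
    exact ⟨x' + y', by rw [map_add, hx', hy', smul_add]⟩

/-- Flatness: the kernel of `1 ⊗ θ` consists of multiples of `m`, when `ker θ ⊆ m • L`. -/
theorem exists_eq_smul_of_baseChange_eq_zero [Module.Flat ℤ R] (m : ℕ) (θ : L →ₗ[ℤ] M)
    (hker : ∀ u : L, θ u = 0 → ∃ z : L, u = (m : ℤ) • z) (x : R ⊗[ℤ] L)
    (hx : LinearMap.baseChange R θ x = 0) : ∃ y : R ⊗[ℤ] L, x = (m : R) • y := by
  have hex : Function.Exact ((LinearMap.ker θ).subtype.lTensor R) (θ.lTensor R) :=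
    Module.Flat.lTensor_exact R θ.exact_subtype_ker_map
  have hx' : (θ.lTensor R) x = 0 := by
    rw [← LinearMap.baseChange_eq_ltensor]
    exact hx
  obtain ⟨t, ht⟩ := (hex x).mp hx'
  obtain ⟨y, hy⟩ := exists_eq_smul_of_lTensor_subtype (R := R) m (LinearMap.ker θ)
    (fun u hu => hker u (LinearMap.mem_ker.mp hu)) t
  exact ⟨y, by rw [← ht, hy]⟩

/-- A primitive vector of a free module over a local ring has a unit coordinate. -/
theorem exists_isUnit_repr {A : Type*} [CommRing A] [IsLocalRing A] {V : Type*} [AddCommGroup V]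
    [Module A V] {ι : Type*} [Fintype ι] (b : Module.Basis ι A V) (e : V)
    (he : e ∉ (IsLocalRing.maximalIdeal A) • (⊤ : Submodule A V)) : ∃ i, IsUnit (b.repr e i) := by
  by_contra hcon
  rw [not_exists] at hcon
  apply he
  rw [← b.sum_repr e]
  refine Submodule.sum_mem _ fun i _ => ?_
  exact Submodule.smul_mem_smul ((IsLocalRing.mem_maximalIdeal _).mpr (hcon i)) Submodule.mem_top

/-- `dvd_of_smul_baseChange_eq_zero` for the canonical `ℤ`-module structures. -/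
theorem dvd_of_smul_baseChange_eq_zero_aux [IsLocalRing R] [Module.Flat ℤ R] [Module.Free ℤ L]
    [Module.Finite ℤ L] (m : ℕ) (θ : L →ₗ[ℤ] M)
    (hker : ∀ u : L, θ u = 0 → ∃ z : L, u = (m : ℤ) • z) (e : R ⊗[ℤ] L)
    (he : e ∉ (IsLocalRing.maximalIdeal R) • (⊤ : Submodule R (R ⊗[ℤ] L)))
    (a : R) (ha : a • (LinearMap.baseChange R θ e) = 0) : (m : R) ∣ a := by
  have h1 : LinearMap.baseChange R θ (a • e) = 0 := by
    rw [map_smul, ha]
  obtain ⟨y, hy⟩ := exists_eq_smul_of_baseChange_eq_zero m θ hker (a • e) h1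
  let b := Algebra.TensorProduct.basis R (Module.Free.chooseBasis ℤ L)
  obtain ⟨i, hi⟩ := exists_isUnit_repr b e he
  have h2 : a * b.repr e i = (m : R) * b.repr y i := by
    have := congrArg (fun v => b.repr v i) hy
    simpa using this
  obtain ⟨u, hu⟩ := hi
  refine ⟨b.repr y i * (↑u⁻¹ : R), ?_⟩
  rw [← mul_assoc, ← h2, ← hu, mul_assoc, Units.mul_inv, mul_one]

/-- **[Flat]**, abstract form.  For a flat local `ℤ`-algebra `R`, a finite free `ℤ`-module `L`,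
a `ℤ`-linear map `θ : L → M` whose kernel is contained in `m • L`, and a primitive vector
`e ∈ R ⊗ L`: every `a ∈ R` killing `(1 ⊗ θ) e` is divisible by `m`.  (Stated for arbitrary
`Module ℤ` instances, so that it applies verbatim to submodules.) -/
theorem dvd_of_smul_baseChange_eq_zero [IsLocalRing R] [Module.Flat ℤ R] [instL : Module ℤ L]
    [instM : Module ℤ M] [Module.Free ℤ L] [Module.Finite ℤ L] (m : ℕ) (θ : L →ₗ[ℤ] M)
    (hker : ∀ u : L, θ u = 0 → ∃ z : L, u = (m : ℤ) • z) (e : R ⊗[ℤ] L)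
    (he : e ∉ (IsLocalRing.maximalIdeal R) • (⊤ : Submodule R (R ⊗[ℤ] L)))
    (a : R) (ha : a • (LinearMap.baseChange R θ e) = 0) : (m : R) ∣ a := by
  obtain rfl : instL = AddCommGroup.toIntModule L := Subsingleton.elim _ _
  obtain rfl : instM = AddCommGroup.toIntModule M := Subsingleton.elim _ _
  exact dvd_of_smul_baseChange_eq_zero_aux m θ hker e he a ha

/-- `dvd_of_smul_baseChange_eq_zero_of_prim` for the canonical `ℤ`-module structures. -/
theorem dvd_of_smul_baseChange_eq_zero_of_prim_aux [Module.Flat ℤ R] (m : ℕ) (θ : L →ₗ[ℤ] M)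
    (hker : ∀ u : L, θ u = 0 → ∃ z : L, u = (m : ℤ) • z) (e : R ⊗[ℤ] L)
    (hprim : ∀ (a c : R) (e' : R ⊗[ℤ] L), a • e = c • e' → c ∣ a)
    (a : R) (ha : a • (LinearMap.baseChange R θ e) = 0) : (m : R) ∣ a := by
  have h1 : LinearMap.baseChange R θ (a • e) = 0 := by
    rw [map_smul, ha]
  obtain ⟨y, hy⟩ := exists_eq_smul_of_baseChange_eq_zero m θ hker (a • e) h1
  exact hprim a (m : R) y hy

/-- **[Flat]**, abstract form with strong primitivity.  For a flat `ℤ`-algebra `R`, a `ℤ`-linear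
map `θ : L → M` whose kernel is contained in `m • L`, and `e ∈ R ⊗ L` such that
`a • e ∈ c • (R ⊗ L)` implies `c ∣ a`: every `a ∈ R` killing `(1 ⊗ θ) e` is divisible by `m`.
(No hypothesis on `L`; arbitrary `Module ℤ` instances.) -/
theorem dvd_of_smul_baseChange_eq_zero_of_prim [Module.Flat ℤ R] [instL : Module ℤ L]
    [instM : Module ℤ M] (m : ℕ) (θ : L →ₗ[ℤ] M)
    (hker : ∀ u : L, θ u = 0 → ∃ z : L, u = (m : ℤ) • z) (e : R ⊗[ℤ] L)
    (hprim : ∀ (a c : R) (e' : R ⊗[ℤ] L), a • e = c • e' → c ∣ a)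
    (a : R) (ha : a • (LinearMap.baseChange R θ e) = 0) : (m : R) ∣ a := by
  obtain rfl : instL = AddCommGroup.toIntModule L := Subsingleton.elim _ _
  obtain rfl : instM = AddCommGroup.toIntModule M := Subsingleton.elim _ _
  exact dvd_of_smul_baseChange_eq_zero_of_prim_aux m θ hker e hprim a ha

/-- Base change of a commuting square. -/
theorem baseChange_comm_apply [Module ℤ L] [Module ℤ M] (f : L →ₗ[ℤ] M) (g : L →ₗ[ℤ] L)
    (h : M →ₗ[ℤ] M) (hc : ∀ u : L, h (f u) = f (g u)) (x : R ⊗[ℤ] L) :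
    LinearMap.baseChange R h (LinearMap.baseChange R f x) =
      LinearMap.baseChange R f (LinearMap.baseChange R g x) := by
  induction x using TensorProduct.induction_on with
  | zero => simp
  | tmul r u => simp only [LinearMap.baseChange_tmul, hc]
  | add x y hx hy => rw [map_add, map_add, map_add, map_add, hx, hy]

end Abstract

/-! ### The level-`m` vector attached to a primitive vector of `R ⊗ Lpar N` -/

open Fermat.Agent.S29 (KStatement Jp heckeJp heckeLpar mem_Jp_iff)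
open Fermat.Agent.S30 (KAway)
open Fermat.Agent.S41 (Lpar)
open ModularCurve

/-- An additive map into `J₀(N)` killed by `m`, as a `ℤ`-linear map into `J₀(N)[m]`. -/
noncomputable def thetaLin (N m : ℕ) [NeZero N] (θ : Lpar N →+ JZero N)
    (hθ : ∀ u : Lpar N, m • θ u = 0) : Lpar N →ₗ[ℤ] Jp N m :=
  LinearMap.codRestrict (Jp N m) θ.toIntLinearMap (fun u => (mem_Jp_iff N m _).mpr (hθ u))

theorem coe_thetaLin_apply (N m : ℕ) [NeZero N] (θ : Lpar N →+ JZero N)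
    (hθ : ∀ u : Lpar N, m • θ u = 0) (u : Lpar N) :
    ((thetaLin N m θ hθ u : Jp N m) : JZero N) = θ u := rfl

theorem thetaLin_eq_zero_iff (N m : ℕ) [NeZero N] (θ : Lpar N →+ JZero N)
    (hθ : ∀ u : Lpar N, m • θ u = 0) (u : Lpar N) : thetaLin N m θ hθ u = 0 ↔ θ u = 0 := by
  rw [← Submodule.coe_eq_zero, coe_thetaLin_apply]

/-- The level-`m` vector `(1 ⊗ θ) e` inherits the Hecke eigenvalue of `e` at every prime `ℓ ∤ N`
at which `θ` is Hecke-equivariant. -/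
theorem hecke_baseChange_thetaLin (N m : ℕ) [NeZero N] (θ : Lpar N →+ JZero N)
    (hθ : ∀ u : Lpar N, m • θ u = 0) {R : Type*} [CommRing R] (e : R ⊗[ℤ] Lpar N)
    (ℓ : ℕ) (hℓ : ℓ.Prime) (hℓN : ¬ ℓ ∣ N)
    (h3 : ∀ u : Lpar N, θ (heckeLpar N ℓ hℓ hℓN u) = heckeOperatorBar N ⟨ℓ, hℓ⟩ (θ u))
    (lam : R) (hlam : LinearMap.baseChange R (heckeLpar N ℓ hℓ hℓN) e = lam • e) :
    LinearMap.baseChange R (heckeJp N m ⟨ℓ, hℓ⟩) (LinearMap.baseChange R (thetaLin N m θ hθ) e) =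
      lam • LinearMap.baseChange R (thetaLin N m θ hθ) e := by
  have hcomm : ∀ u : Lpar N, heckeJp N m ⟨ℓ, hℓ⟩ (thetaLin N m θ hθ u) =
      thetaLin N m θ hθ (heckeLpar N ℓ hℓ hℓN u) := by
    intro u
    apply Subtype.ext
    show heckeOperatorBar N ⟨ℓ, hℓ⟩ (θ u) = θ (heckeLpar N ℓ hℓ hℓN u)
    exact (h3 u).symm
  rw [baseChange_comm_apply (thetaLin N m θ hθ) (heckeLpar N ℓ hℓ hℓN) (heckeJp N m ⟨ℓ, hℓ⟩)
    hcomm e, hlam, map_smul]

/-- The annihilator of the level-`m` vector `(1 ⊗ θ) e`, `e` primitive in the strong sense. -/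
theorem dvd_of_smul_thetaLin_of_prim (N m : ℕ) [NeZero N] (θ : Lpar N →+ JZero N)
    (hθ : ∀ u : Lpar N, m • θ u = 0)
    (hker : ∀ u : Lpar N, θ u = 0 → ∃ z : Lpar N, u = (m : ℤ) • z)
    {R : Type*} [CommRing R] [Module.Flat ℤ R] (e : R ⊗[ℤ] Lpar N)
    (hprim : ∀ (a c : R) (e' : R ⊗[ℤ] Lpar N), a • e = c • e' → c ∣ a)
    (a : R) (ha : a • LinearMap.baseChange R (thetaLin N m θ hθ) e = 0) : (m : R) ∣ a :=
  dvd_of_smul_baseChange_eq_zero_of_prim m (thetaLin N m θ hθ)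
    (fun u hu => hker u ((thetaLin_eq_zero_iff N m θ hθ u).mp hu)) e hprim a ha

/-- The annihilator of the level-`m` vector `(1 ⊗ θ) e`, `R` local and `e ∉ 𝔪 • (R ⊗ Lpar N)`. -/
theorem dvd_of_smul_thetaLin (N m : ℕ) [NeZero N] (θ : Lpar N →+ JZero N)
    (hθ : ∀ u : Lpar N, m • θ u = 0)
    (hker : ∀ u : Lpar N, θ u = 0 → ∃ z : Lpar N, u = (m : ℤ) • z)
    {R : Type*} [CommRing R] [IsLocalRing R] [Module.Flat ℤ R] (e : R ⊗[ℤ] Lpar N)
    (he : e ∉ (IsLocalRing.maximalIdeal R) • (⊤ : Submodule R (R ⊗[ℤ] Lpar N)))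
    (a : R) (ha : a • LinearMap.baseChange R (thetaLin N m θ hθ) e = 0) : (m : R) ∣ a := by
  have hfree : Module.Free ℤ (Lpar N) := Fermat.Agent.S41.LparFree.lpar_free N
  have hfin : Module.Finite ℤ (Lpar N) := Fermat.Agent.S41.LparFree.lpar_finite N
  exact dvd_of_smul_baseChange_eq_zero m (thetaLin N m θ hθ)
    (fun u hu => hker u ((thetaLin_eq_zero_iff N m θ hθ u).mp hu)) e he a ha

/-- **[Flat]**, level-`m` vector.  Given `KStatement N m` and a primitive vector `e` of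
`R ⊗ Lpar N` (`R` a flat local `ℤ`-algebra), there is `w ∈ R ⊗ J₀(N)[m]` whose annihilator is
contained in `m R` and which inherits every Hecke eigenvalue of `e` (`ℓ ∤ N`, `ℓ ≠ m`). -/
theorem exists_level_vector (N m : ℕ) [NeZero N] (hK : KStatement N m) {R : Type*} [CommRing R]
    [IsLocalRing R] [Module.Flat ℤ R] (e : R ⊗[ℤ] Lpar N)
    (he : e ∉ (IsLocalRing.maximalIdeal R) • (⊤ : Submodule R (R ⊗[ℤ] Lpar N))) :
    ∃ w : R ⊗[ℤ] (Jp N m), (∀ a : R, a • w = 0 → (m : R) ∣ a) ∧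
      ∀ (ℓ : ℕ) (hℓ : ℓ.Prime) (hℓN : ¬ ℓ ∣ N), ℓ ≠ m → ∀ lam : R,
        LinearMap.baseChange R (heckeLpar N ℓ hℓ hℓN) e = lam • e →
        LinearMap.baseChange R (heckeJp N m ⟨ℓ, hℓ⟩) w = lam • w := by
  obtain ⟨θ, h1, h2, h3⟩ := hK
  exact ⟨LinearMap.baseChange R (thetaLin N m θ h1) e,
    fun a ha => dvd_of_smul_thetaLin N m θ h1 h2 e he a ha,
    fun ℓ hℓ hℓN hℓm lam hlam =>
      hecke_baseChange_thetaLin N m θ h1 e ℓ hℓ hℓN (h3 ℓ hℓ hℓN hℓm) lam hlam⟩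

/-- **[Flat]**, level-`m` vector, strong primitivity (the output shape of `EigInf.exists_eigen`);
`R` any flat `ℤ`-algebra. -/
theorem exists_level_vector_of_prim (N m : ℕ) [NeZero N] (hK : KStatement N m) {R : Type*}
    [CommRing R] [Module.Flat ℤ R] (e : R ⊗[ℤ] Lpar N)
    (hprim : ∀ (a c : R) (e' : R ⊗[ℤ] Lpar N), a • e = c • e' → c ∣ a) :
    ∃ w : R ⊗[ℤ] (Jp N m), (∀ a : R, a • w = 0 → (m : R) ∣ a) ∧
      ∀ (ℓ : ℕ) (hℓ : ℓ.Prime) (hℓN : ¬ ℓ ∣ N), ℓ ≠ m → ∀ lam : R,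
        LinearMap.baseChange R (heckeLpar N ℓ hℓ hℓN) e = lam • e →
        LinearMap.baseChange R (heckeJp N m ⟨ℓ, hℓ⟩) w = lam • w := by
  obtain ⟨θ, h1, h2, h3⟩ := hK
  exact ⟨LinearMap.baseChange R (thetaLin N m θ h1) e,
    fun a ha => dvd_of_smul_thetaLin_of_prim N m θ h1 h2 e hprim a ha,
    fun ℓ hℓ hℓN hℓm lam hlam =>
      hecke_baseChange_thetaLin N m θ h1 e ℓ hℓ hℓN (h3 ℓ hℓ hℓN hℓm) lam hlam⟩

/-- **[Flat]**, level-`p ^ n` vector from `KAway N p n`; `R` a flat local `ℤ`-algebra and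
`e ∉ 𝔪 • (R ⊗ Lpar N)`.  The annihilator clause is in the shape of `LimLevel.Level.ann`. -/
theorem exists_level_vector_kAway (N p n : ℕ) [NeZero N] (hK : KAway N p n) {R : Type*}
    [CommRing R] [IsLocalRing R] [Module.Flat ℤ R] (e : R ⊗[ℤ] Lpar N)
    (he : e ∉ (IsLocalRing.maximalIdeal R) • (⊤ : Submodule R (R ⊗[ℤ] Lpar N))) :
    ∃ w : R ⊗[ℤ] (Jp N (p ^ n)), (∀ a : R, a • w = 0 → (p : R) ^ n ∣ a) ∧
      ∀ (ℓ : ℕ) (hℓ : ℓ.Prime) (hℓN : ¬ ℓ ∣ N), ℓ ≠ p → ∀ lam : R,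
        LinearMap.baseChange R (heckeLpar N ℓ hℓ hℓN) e = lam • e →
        LinearMap.baseChange R (heckeJp N (p ^ n) ⟨ℓ, hℓ⟩) w = lam • w := by
  obtain ⟨θ, h1, h2, h3⟩ := hK
  refine ⟨LinearMap.baseChange R (thetaLin N (p ^ n) θ h1) e, fun a ha => ?_,
    fun ℓ hℓ hℓN hℓp lam hlam =>
      hecke_baseChange_thetaLin N (p ^ n) θ h1 e ℓ hℓ hℓN (h3 ℓ hℓ hℓN hℓp) lam hlam⟩
  have h := dvd_of_smul_thetaLin N (p ^ n) θ h1 h2 e he a ha
  rwa [Nat.cast_pow] at h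

/-- **[Flat]**, level-`p ^ n` vector from `KAway N p n`, strong primitivity (the output shape of
`EigInf.exists_eigen`); `R` any flat `ℤ`-algebra. -/
theorem exists_level_vector_kAway_of_prim (N p n : ℕ) [NeZero N] (hK : KAway N p n) {R : Type*}
    [CommRing R] [Module.Flat ℤ R] (e : R ⊗[ℤ] Lpar N)
    (hprim : ∀ (a c : R) (e' : R ⊗[ℤ] Lpar N), a • e = c • e' → c ∣ a) :
    ∃ w : R ⊗[ℤ] (Jp N (p ^ n)), (∀ a : R, a • w = 0 → (p : R) ^ n ∣ a) ∧
      ∀ (ℓ : ℕ) (hℓ : ℓ.Prime) (hℓN : ¬ ℓ ∣ N), ℓ ≠ p → ∀ lam : R,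
        LinearMap.baseChange R (heckeLpar N ℓ hℓ hℓN) e = lam • e →
        LinearMap.baseChange R (heckeJp N (p ^ n) ⟨ℓ, hℓ⟩) w = lam • w := by
  obtain ⟨θ, h1, h2, h3⟩ := hK
  refine ⟨LinearMap.baseChange R (thetaLin N (p ^ n) θ h1) e, fun a ha => ?_,
    fun ℓ hℓ hℓN hℓp lam hlam =>
      hecke_baseChange_thetaLin N (p ^ n) θ h1 e ℓ hℓ hℓN (h3 ℓ hℓ hℓN hℓp) lam hlam⟩
  have h := dvd_of_smul_thetaLin_of_prim N (p ^ n) θ h1 h2 e hprim a ha
  rwa [Nat.cast_pow] at h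

end Fermat.Agent.S30.Flat
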