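/-
S30 (p-adic Galois representation attached to a Hecke point), leaf [Lat] = item (5) of the lead's
route (board #2062): the DVR LATTICE.  B-copy (helper105); the A-copy is `S30/Lat.lean`.

Let `𝒪` be a discrete valuation ring with fraction field `K` and `ρ : G_ℚ → M₂(K)` a
multiplicative map which is
* bounded: `r • ρ(g) ∈ M₂(𝒪)` for one `r ≠ 0` and all `g`;
* continuous: for every `n` there is a number field `L` such that `ρ(σ) ≡ 1 mod 𝔪 ^ n` for all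
  `σ` fixing `L`.
Then there is a `GaloisRepAdic 𝒪` (free of rank two, adically continuous) whose characteristic
polynomials are those of `ρ`, and which is trivial wherever `ρ` is
(`exists_galoisRepAdic_of_matrix`, consumer form `exists_galoisRepAdic_of_matrix'`).

The lattice is `Λ := 𝒪-span of the columns of all ρ(g)`: it is stable, sandwiched
`𝒪² ≤ Λ ≤ r⁻¹𝒪²`, hence finitely generated and torsion free, hence free of rank two
(`exists_stable_lattice` is this statement for an arbitrary monoid and a principal ideal domain).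
No completeness, no hypothesis on the residue field or the characteristic is used.
-/
import Mathlib
import Fermat.Prelude.Def_GaloisRep_Adic

set_option autoImplicit false

namespace Fermat.Agent.S30.LatB

open IsLocalRing

noncomputable section

/-! ### The standard lattice -/

section Std

variable (𝒪 : Type*) [CommRing 𝒪] (K : Type*) [Field K] [Algebra 𝒪 K]

/-- The coordinatewise embedding `𝒪² → K²`. -/
def incl : (Fin 2 → 𝒪) →ₗ[𝒪] (Fin 2 → K) := (Algebra.linearMap 𝒪 K).compLeft (Fin 2)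

@[simp]
theorem incl_apply (v : Fin 2 → 𝒪) (i : Fin 2) : incl 𝒪 K v i = algebraMap 𝒪 K (v i) := rfl

/-- The standard lattice `𝒪² ⊆ K²`. -/
def std : Submodule 𝒪 (Fin 2 → K) := LinearMap.range (incl 𝒪 K)

variable {𝒪 K}

theorem mem_std_iff {v : Fin 2 → K} : v ∈ std 𝒪 K ↔ ∀ i, ∃ a : 𝒪, algebraMap 𝒪 K a = v i := by
  constructor
  · rintro ⟨w, rfl⟩ i
    exact ⟨w i, rfl⟩
  · intro h
    choose a ha using h
    exact ⟨a, funext ha⟩

theorem incl_injective [FaithfulSMul 𝒪 K] : Function.Injective (incl 𝒪 K) := by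
  intro v w h
  funext i
  exact FaithfulSMul.algebraMap_injective 𝒪 K (congrFun h i)

end Std

/-! ### The lattice spanned by the columns -/

section Lattice

variable (𝒪 : Type*) [CommRing 𝒪] {K : Type*} [Field K] [Algebra 𝒪 K]
variable {G : Type*} [Monoid G] (ρ : G →* Matrix (Fin 2) (Fin 2) K)

/-- The `𝒪`-span of the columns of all the matrices `ρ g`. -/
def lattice : Submodule 𝒪 (Fin 2 → K) :=
  Submodule.span 𝒪 {v | ∃ (g : G) (i : Fin 2), v = (ρ g).mulVec (Pi.single i 1)}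

variable {𝒪}

/-- Multiplication by a matrix, as an `𝒪`-linear map. -/
def mulVecO (M : Matrix (Fin 2) (Fin 2) K) : (Fin 2 → K) →ₗ[𝒪] (Fin 2 → K) :=
  (Matrix.mulVecLin M).restrictScalars 𝒪

@[simp]
theorem mulVecO_apply (M : Matrix (Fin 2) (Fin 2) K) (v : Fin 2 → K) :
    mulVecO (𝒪 := 𝒪) M v = M.mulVec v := rfl

theorem single_mem_lattice (i : Fin 2) : (Pi.single i 1 : Fin 2 → K) ∈ lattice 𝒪 ρ := by
  refine Submodule.subset_span ⟨1, i, ?_⟩
  rw [map_one, Matrix.one_mulVec]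

theorem std_le_lattice : std 𝒪 K ≤ lattice 𝒪 ρ := by
  rintro _ ⟨w, rfl⟩
  have h : incl 𝒪 K w = ∑ i, w i • (Pi.single i 1 : Fin 2 → K) := by
    funext j
    rw [Finset.sum_apply, Finset.sum_eq_single j]
    · simp [Algebra.smul_def]
    · intro i _ hij
      simp [Ne.symm hij]
    · intro hj
      exact absurd (Finset.mem_univ j) hj
  rw [h]
  exact Submodule.sum_mem _ fun i _ => Submodule.smul_mem _ _ (single_mem_lattice ρ i)

theorem mulVec_mem_lattice (h : G) {v : Fin 2 → K} (hv : v ∈ lattice 𝒪 ρ) :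
    (ρ h).mulVec v ∈ lattice 𝒪 ρ := by
  have hle : lattice 𝒪 ρ ≤ (lattice 𝒪 ρ).comap (mulVecO (𝒪 := 𝒪) (ρ h)) := by
    refine Submodule.span_le.mpr ?_
    rintro _ ⟨g, i, rfl⟩
    refine Submodule.subset_span ⟨h * g, i, ?_⟩
    rw [mulVecO_apply, Matrix.mulVec_mulVec, map_mul]
  exact hle hv

theorem smul_mem_std_of_mem_lattice {r : 𝒪}
    (hr : ∀ (g : G) (i j : Fin 2), ∃ a : 𝒪, algebraMap 𝒪 K a = algebraMap 𝒪 K r * ρ g i j)
    {v : Fin 2 → K} (hv : v ∈ lattice 𝒪 ρ) : r • v ∈ std 𝒪 K := by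
  have hle : lattice 𝒪 ρ ≤ (std 𝒪 K).comap (LinearMap.lsmul 𝒪 (Fin 2 → K) r) := by
    refine Submodule.span_le.mpr ?_
    rintro _ ⟨g, j, rfl⟩
    show r • (ρ g).mulVec (Pi.single j 1) ∈ std 𝒪 K
    rw [mem_std_iff]
    intro i
    obtain ⟨a, ha⟩ := hr g i j
    refine ⟨a, ?_⟩
    rw [ha, Pi.smul_apply, Matrix.mulVec_single_one, Matrix.col_apply, Algebra.smul_def]
  exact hle hv

end Lattice

/-! ### Finiteness, freeness and rank -/

section Rank

variable {𝒪 : Type*} [CommRing 𝒪] [IsDomain 𝒪] [IsPrincipalIdealRing 𝒪]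
variable {K : Type*} [Field K] [Algebra 𝒪 K] [IsFractionRing 𝒪 K]
variable {G : Type*} [Monoid G] (ρ : G →* Matrix (Fin 2) (Fin 2) K)

theorem lsmul_injective {r : 𝒪} (hr0 : r ≠ 0) :
    Function.Injective (LinearMap.lsmul 𝒪 (Fin 2 → K) r) := by
  intro v w h
  exact smul_right_injective (Fin 2 → K) hr0 h

omit [IsDomain 𝒪] [IsPrincipalIdealRing 𝒪] [IsFractionRing 𝒪 K] in
theorem map_lsmul_lattice_le_std {r : 𝒪}
    (hr : ∀ (g : G) (i j : Fin 2), ∃ a : 𝒪, algebraMap 𝒪 K a = algebraMap 𝒪 K r * ρ g i j) :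
    (lattice 𝒪 ρ).map (LinearMap.lsmul 𝒪 (Fin 2 → K) r) ≤ std 𝒪 K := by
  rintro _ ⟨v, hv, rfl⟩
  exact smul_mem_std_of_mem_lattice ρ hr hv

theorem lattice_fg {r : 𝒪} (hr0 : r ≠ 0)
    (hr : ∀ (g : G) (i j : Fin 2), ∃ a : 𝒪, algebraMap 𝒪 K a = algebraMap 𝒪 K r * ρ g i j) :
    (lattice 𝒪 ρ).FG := by
  refine Submodule.fg_of_fg_map_injective (LinearMap.lsmul 𝒪 (Fin 2 → K) r)
    (lsmul_injective hr0) ?_
  have h1 : (((lattice 𝒪 ρ).map (LinearMap.lsmul 𝒪 (Fin 2 → K) r)).comap (incl 𝒪 K)).map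
      (incl 𝒪 K) = (lattice 𝒪 ρ).map (LinearMap.lsmul 𝒪 (Fin 2 → K) r) :=
    Submodule.map_comap_eq_of_le (map_lsmul_lattice_le_std ρ hr)
  rw [← h1]
  exact Submodule.FG.map _ (IsNoetherian.noetherian _)

omit [IsDomain 𝒪] [IsPrincipalIdealRing 𝒪] [IsFractionRing 𝒪 K] in
theorem finite_std : Module.Finite 𝒪 (std 𝒪 K) :=
  Module.Finite.range (incl 𝒪 K)

omit [IsPrincipalIdealRing 𝒪] in
theorem finrank_std : Module.finrank 𝒪 (std 𝒪 K) = 2 := by
  have e : (Fin 2 → 𝒪) ≃ₗ[𝒪] std 𝒪 K := LinearEquiv.ofInjective (incl 𝒪 K) incl_injective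
  rw [← e.finrank_eq, Module.finrank_fin_fun]

theorem finite_lattice {r : 𝒪} (hr0 : r ≠ 0)
    (hr : ∀ (g : G) (i j : Fin 2), ∃ a : 𝒪, algebraMap 𝒪 K a = algebraMap 𝒪 K r * ρ g i j) :
    Module.Finite 𝒪 (lattice 𝒪 ρ) :=
  Module.Finite.iff_fg.mpr (lattice_fg ρ hr0 hr)

theorem free_lattice {r : 𝒪} (hr0 : r ≠ 0)
    (hr : ∀ (g : G) (i j : Fin 2), ∃ a : 𝒪, algebraMap 𝒪 K a = algebraMap 𝒪 K r * ρ g i j) :
    Module.Free 𝒪 (lattice 𝒪 ρ) := by
  have := finite_lattice ρ hr0 hr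
  infer_instance

theorem finrank_lattice {r : 𝒪} (hr0 : r ≠ 0)
    (hr : ∀ (g : G) (i j : Fin 2), ∃ a : 𝒪, algebraMap 𝒪 K a = algebraMap 𝒪 K r * ρ g i j) :
    Module.finrank 𝒪 (lattice 𝒪 ρ) = 2 := by
  have hfin := finite_lattice ρ hr0 hr
  have hfs : Module.Finite 𝒪 (std 𝒪 K) := finite_std
  refine le_antisymm ?_ ?_
  · have e : lattice 𝒪 ρ ≃ₗ[𝒪] (lattice 𝒪 ρ).map (LinearMap.lsmul 𝒪 (Fin 2 → K) r) :=
      Submodule.equivMapOfInjective _ (lsmul_injective hr0) _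
    have h := Submodule.finrank_mono (map_lsmul_lattice_le_std ρ hr)
    rw [finrank_std] at h
    rw [e.finrank_eq]
    exact h
  · have h := Submodule.finrank_mono (std_le_lattice (𝒪 := 𝒪) ρ)
    rwa [finrank_std] at h

end Rank

/-! ### The representation on the lattice -/

section Rep

variable {𝒪 : Type*} [CommRing 𝒪] {K : Type*} [Field K] [Algebra 𝒪 K]
variable {G : Type*} [Monoid G] (ρ : G →* Matrix (Fin 2) (Fin 2) K)

/-- The action of `G` on the lattice `lattice 𝒪 ρ`. -/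
def latticeRep : G →* Module.End 𝒪 (lattice 𝒪 ρ) where
  toFun g := (mulVecO (𝒪 := 𝒪) (ρ g)).restrict fun _ hv => mulVec_mem_lattice ρ g hv
  map_one' := by
    refine LinearMap.ext fun v => Subtype.ext ?_
    show (ρ 1).mulVec (v : Fin 2 → K) = v
    rw [map_one, Matrix.one_mulVec]
  map_mul' g h := by
    refine LinearMap.ext fun v => Subtype.ext ?_
    show (ρ (g * h)).mulVec (v : Fin 2 → K) = (ρ g).mulVec ((ρ h).mulVec (v : Fin 2 → K))
    rw [map_mul, Matrix.mulVec_mulVec]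

theorem coe_latticeRep_apply (g : G) (v : lattice 𝒪 ρ) :
    ((latticeRep ρ g v : lattice 𝒪 ρ) : Fin 2 → K) = (ρ g).mulVec (v : Fin 2 → K) := rfl

theorem latticeRep_eq_one {g : G} (h : ρ g = 1) : latticeRep (𝒪 := 𝒪) ρ g = 1 := by
  refine LinearMap.ext fun v => Subtype.ext ?_
  rw [coe_latticeRep_apply, h, Matrix.one_mulVec]
  rfl

/-- The characteristic polynomial of `ρ g` on the lattice is that of the matrix `ρ g`. -/
theorem charpoly_latticeRep [IsDomain 𝒪] [IsFractionRing 𝒪 K] [Module.Free 𝒪 (lattice 𝒪 ρ)]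
    [Module.Finite 𝒪 (lattice 𝒪 ρ)] (hrank : Module.finrank 𝒪 (lattice 𝒪 ρ) = 2) (g : G) :
    (LinearMap.charpoly (latticeRep (𝒪 := 𝒪) ρ g)).map (algebraMap 𝒪 K) = (ρ g).charpoly := by
  classical
  let b : Module.Basis (Fin 2) 𝒪 (lattice 𝒪 ρ) := Module.finBasisOfFinrankEq 𝒪 _ hrank
  have hliO : LinearIndependent 𝒪 (fun i => ((b i : lattice 𝒪 ρ) : Fin 2 → K)) :=
    b.linearIndependent.map' (lattice 𝒪 ρ).subtype (Submodule.ker_subtype _)
  have hliK : LinearIndependent K (fun i => ((b i : lattice 𝒪 ρ) : Fin 2 → K)) :=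
    (LinearIndependent.iff_fractionRing 𝒪 K).mp hliO
  let bK : Module.Basis (Fin 2) K (Fin 2 → K) :=
    basisOfLinearIndependentOfCardEqFinrank hliK (by simp)
  have hbK : ∀ i, bK i = ((b i : lattice 𝒪 ρ) : Fin 2 → K) := fun i => by
    simp only [bK, coe_basisOfLinearIndependentOfCardEqFinrank]
  have hmat : (LinearMap.toMatrix b b (latticeRep ρ g)).map (algebraMap 𝒪 K) =
      LinearMap.toMatrix bK bK (Matrix.toLin' (ρ g)) := by
    ext i j
    rw [Matrix.map_apply, LinearMap.toMatrix_apply, LinearMap.toMatrix_apply]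
    have h1 : Matrix.toLin' (ρ g) (bK j) =
        ∑ i, algebraMap 𝒪 K (b.repr (latticeRep ρ g (b j)) i) • bK i := by
      rw [Matrix.toLin'_apply, hbK]
      have h2 := congrArg (fun x : lattice 𝒪 ρ => (x : Fin 2 → K))
        (b.sum_repr (latticeRep ρ g (b j)))
      simp only [Submodule.coe_sum, Submodule.coe_smul, coe_latticeRep_apply] at h2
      rw [← h2]
      refine Finset.sum_congr rfl fun i _ => ?_
      rw [hbK, algebraMap_smul]
    rw [h1, bK.repr_sum_self]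
  calc (LinearMap.charpoly (latticeRep (𝒪 := 𝒪) ρ g)).map (algebraMap 𝒪 K)
      = ((LinearMap.toMatrix b b (latticeRep ρ g)).charpoly).map (algebraMap 𝒪 K) := by
        rw [LinearMap.charpoly_toMatrix]
    _ = ((LinearMap.toMatrix b b (latticeRep ρ g)).map (algebraMap 𝒪 K)).charpoly :=
        (Matrix.charpoly_map _ _).symm
    _ = (LinearMap.toMatrix bK bK (Matrix.toLin' (ρ g))).charpoly := by rw [hmat]
    _ = (Matrix.toLin' (ρ g)).charpoly := LinearMap.charpoly_toMatrix _ bK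
    _ = (ρ g).charpoly := Matrix.charpoly_toLin' _

end Rep

/-! ### Continuity -/

section Cont

variable {𝒪 : Type*} [CommRing 𝒪] [IsDomain 𝒪] [IsDiscreteValuationRing 𝒪]
variable {K : Type*} [Field K] [Algebra 𝒪 K] [IsFractionRing 𝒪 K]
variable {G : Type*} [Monoid G] (ρ : G →* Matrix (Fin 2) (Fin 2) K)

omit [IsFractionRing 𝒪 K] in
/-- The loss of precision is bounded: there is `k` (the valuation of the denominator `r`) such
that `ρ σ ≡ 1 mod 𝔪 ^ (n + k)` entrywise implies `ρ σ ≡ 1 mod 𝔪 ^ n` on the lattice. -/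
theorem exists_shift {r : 𝒪} (hr0 : r ≠ 0)
    (hr : ∀ (g : G) (i j : Fin 2), ∃ a : 𝒪, algebraMap 𝒪 K a = algebraMap 𝒪 K r * ρ g i j) :
    ∃ k : ℕ, ∀ (n : ℕ) (σ : G),
      (∀ i j : Fin 2, ∃ a ∈ maximalIdeal 𝒪 ^ (n + k), algebraMap 𝒪 K a = (ρ σ - 1) i j) →
      ∀ v : lattice 𝒪 ρ, latticeRep ρ σ v - v ∈
        (maximalIdeal 𝒪 ^ n) • (⊤ : Submodule 𝒪 (lattice 𝒪 ρ)) := by
  obtain ⟨ϖ, hϖ⟩ := IsDiscreteValuationRing.exists_irreducible 𝒪
  obtain ⟨k, hk⟩ := IsDiscreteValuationRing.associated_pow_irreducible hr0 hϖ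
  obtain ⟨u, hu⟩ := hk
  refine ⟨k, fun n σ hσ v => ?_⟩
  have hmax : ∀ m : ℕ, maximalIdeal 𝒪 ^ m = Ideal.span {ϖ ^ m} := fun m => by
    rw [hϖ.maximalIdeal_eq, Ideal.span_singleton_pow]
  have hσ' : ∀ i j : Fin 2, ∃ a' : 𝒪, algebraMap 𝒪 K (ϖ ^ (n + k) * a') = (ρ σ - 1) i j := by
    intro i j
    obtain ⟨a, ha, hae⟩ := hσ i j
    rw [hmax, Ideal.mem_span_singleton'] at ha
    obtain ⟨a', rfl⟩ := ha
    exact ⟨a', by rw [mul_comm]; exact hae⟩
  choose a' ha' using hσ'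
  have hc : ∀ j : Fin 2, ∃ c : 𝒪, algebraMap 𝒪 K c = (r • (v : Fin 2 → K)) j :=
    mem_std_iff.mp (smul_mem_std_of_mem_lattice ρ hr v.2)
  choose c hc using hc
  let w : Fin 2 → 𝒪 := fun i => ∑ j, a' i j * c j * (u : 𝒪)
  have hw : incl 𝒪 K w ∈ lattice 𝒪 ρ := std_le_lattice ρ ⟨w, rfl⟩
  have key : latticeRep ρ σ v - v = (ϖ ^ n) • (⟨incl 𝒪 K w, hw⟩ : lattice 𝒪 ρ) := by
    apply Subtype.ext
    rw [Submodule.coe_sub, coe_latticeRep_apply, Submodule.coe_smul]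
    funext i
    have h1 : ((ρ σ).mulVec (v : Fin 2 → K) - (v : Fin 2 → K)) i =
        ∑ j, (ρ σ - 1) i j * (v : Fin 2 → K) j := by
      have h2 : (ρ σ).mulVec (v : Fin 2 → K) - (v : Fin 2 → K) =
          (ρ σ - 1).mulVec (v : Fin 2 → K) := by
        rw [Matrix.sub_mulVec, Matrix.one_mulVec]
      rw [h2]
      rfl
    rw [h1]
    show _ = ϖ ^ n • algebraMap 𝒪 K (w i)
    rw [Algebra.smul_def, map_sum, Finset.mul_sum]
    refine Finset.sum_congr rfl fun j _ => ?_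
    rw [← ha' i j]
    have hcj : algebraMap 𝒪 K (c j) = algebraMap 𝒪 K r * (v : Fin 2 → K) j := by
      rw [hc j, Pi.smul_apply, Algebra.smul_def]
    have e1 : ϖ ^ (n + k) * a' i j = ϖ ^ n * a' i j * (r * (u : 𝒪)) := by
      rw [hu]
      ring
    rw [e1]
    simp only [map_mul]
    rw [hcj]
    ring
  rw [key]
  refine Submodule.smul_mem_smul ?_ Submodule.mem_top
  rw [hmax]
  exact Ideal.mem_span_singleton_self _

end Cont

/-! ### The main theorem -/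

section Main

open Polynomial

variable {𝒪 : Type} [CommRing 𝒪] [IsDomain 𝒪] [IsDiscreteValuationRing 𝒪]
variable {K : Type} [Field K] [Algebra 𝒪 K] [IsFractionRing 𝒪 K]

/-- **The DVR lattice.**  A bounded, continuous `ρ : G_ℚ → M₂(K)` has a stable lattice, which is
a `GaloisRepAdic 𝒪` with the same characteristic polynomials, trivial wherever `ρ` is. -/
theorem exists_galoisRepAdic_of_matrix
    (ρ : (AlgebraicClosure ℚ ≃ₐ[ℚ] AlgebraicClosure ℚ) →* Matrix (Fin 2) (Fin 2) K)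
    (hbdd : ∃ r : 𝒪, r ≠ 0 ∧ ∀ (g : AlgebraicClosure ℚ ≃ₐ[ℚ] AlgebraicClosure ℚ) (i j : Fin 2),
      ∃ a : 𝒪, algebraMap 𝒪 K a = algebraMap 𝒪 K r * ρ g i j)
    (hcont : ∀ n : ℕ, ∃ L : IntermediateField ℚ (AlgebraicClosure ℚ), FiniteDimensional ℚ L ∧
      ∀ σ : AlgebraicClosure ℚ ≃ₐ[ℚ] AlgebraicClosure ℚ, (∀ x ∈ L, σ x = x) →
        ∀ i j : Fin 2, ∃ a ∈ IsLocalRing.maximalIdeal 𝒪 ^ n, algebraMap 𝒪 K a = (ρ σ - 1) i j) :
    ∃ R : GaloisRepAdic 𝒪,
      (∀ g : AlgebraicClosure ℚ ≃ₐ[ℚ] AlgebraicClosure ℚ,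
        (LinearMap.charpoly (R.ρ g)).map (algebraMap 𝒪 K) = (ρ g).charpoly) ∧
      (∀ τ : AlgebraicClosure ℚ ≃ₐ[ℚ] AlgebraicClosure ℚ, ρ τ = 1 → R.ρ τ = 1) := by
  obtain ⟨r, hr0, hr⟩ := hbdd
  have hfin := finite_lattice ρ hr0 hr
  have hfree := free_lattice ρ hr0 hr
  have hrank := finrank_lattice ρ hr0 hr
  obtain ⟨k, hk⟩ := exists_shift ρ hr0 hr
  refine ⟨{ V := lattice 𝒪 ρ, finrank_eq := hrank, ρ := latticeRep ρ, isAdicContinuous := ?_ },
    ?_, ?_⟩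
  · intro n
    obtain ⟨L, hL, h⟩ := hcont (n + k)
    exact ⟨L, hL, fun σ hσ v => hk n σ (h σ hσ) v⟩
  · intro g
    exact charpoly_latticeRep ρ hrank g
  · intro τ hτ
    exact latticeRep_eq_one ρ hτ

/-- Consumer form of `exists_galoisRepAdic_of_matrix`: the characteristic polynomial over `𝒪`
in terms of integral trace and determinant, and the transfer of unramifiedness. -/
theorem exists_galoisRepAdic_of_matrix'
    (ρ : (AlgebraicClosure ℚ ≃ₐ[ℚ] AlgebraicClosure ℚ) →* Matrix (Fin 2) (Fin 2) K)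
    (hbdd : ∃ r : 𝒪, r ≠ 0 ∧ ∀ (g : AlgebraicClosure ℚ ≃ₐ[ℚ] AlgebraicClosure ℚ) (i j : Fin 2),
      ∃ a : 𝒪, algebraMap 𝒪 K a = algebraMap 𝒪 K r * ρ g i j)
    (hcont : ∀ n : ℕ, ∃ L : IntermediateField ℚ (AlgebraicClosure ℚ), FiniteDimensional ℚ L ∧
      ∀ σ : AlgebraicClosure ℚ ≃ₐ[ℚ] AlgebraicClosure ℚ, (∀ x ∈ L, σ x = x) →
        ∀ i j : Fin 2, ∃ a ∈ IsLocalRing.maximalIdeal 𝒪 ^ n, algebraMap 𝒪 K a = (ρ σ - 1) i j) :
    ∃ R : GaloisRepAdic 𝒪,
      (∀ (g : AlgebraicClosure ℚ ≃ₐ[ℚ] AlgebraicClosure ℚ) (t d : 𝒪),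
        (ρ g).trace = algebraMap 𝒪 K t → (ρ g).det = algebraMap 𝒪 K d →
          LinearMap.charpoly (R.ρ g) = X ^ 2 - C t * X + C d) ∧
      (∀ τ : AlgebraicClosure ℚ ≃ₐ[ℚ] AlgebraicClosure ℚ, ρ τ = 1 → R.ρ τ = 1) ∧
      (∀ q : ℕ, (∀ P : ValuationSubring (AlgebraicClosure ℚ), P.LiesOverPrime q →
        ∀ σ ∈ P.inertiaSubgroupIn ℚ, ρ σ = 1) → R.IsUnramifiedAt q) := by
  obtain ⟨R, hR1, hR2⟩ := exists_galoisRepAdic_of_matrix ρ hbdd hcont
  refine ⟨R, fun g t d ht hd => ?_, hR2, fun q hq P hP σ hσ => hR2 σ (hq P hP σ hσ)⟩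
  apply Polynomial.map_injective (algebraMap 𝒪 K) (IsFractionRing.injective 𝒪 K)
  rw [hR1 g, Matrix.charpoly_fin_two, ht, hd]
  simp only [Polynomial.map_add, Polynomial.map_sub, Polynomial.map_mul, Polynomial.map_pow,
    Polynomial.map_X, Polynomial.map_C]

end Main

/-! ### The generic core (no Galois group) -/

section Generic

variable {𝒪 : Type*} [CommRing 𝒪] [IsDomain 𝒪] [IsPrincipalIdealRing 𝒪]
variable {K : Type*} [Field K] [Algebra 𝒪 K] [IsFractionRing 𝒪 K]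
variable {G : Type*} [Monoid G]

/-- A bounded multiplicative family of matrices has a stable free lattice of rank two, sandwiched
between `𝒪²` and `r⁻¹𝒪²`. -/
theorem exists_stable_lattice (ρ : G →* Matrix (Fin 2) (Fin 2) K) {r : 𝒪} (hr0 : r ≠ 0)
    (hr : ∀ (g : G) (i j : Fin 2), ∃ a : 𝒪, algebraMap 𝒪 K a = algebraMap 𝒪 K r * ρ g i j) :
    ∃ Λ : Submodule 𝒪 (Fin 2 → K), Module.Free 𝒪 Λ ∧ Module.Finite 𝒪 Λ ∧
      Module.finrank 𝒪 Λ = 2 ∧ (∀ (g : G), ∀ v ∈ Λ, (ρ g).mulVec v ∈ Λ) ∧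
      std 𝒪 K ≤ Λ ∧ (∀ v ∈ Λ, r • v ∈ std 𝒪 K) :=
  ⟨lattice 𝒪 ρ, free_lattice ρ hr0 hr, finite_lattice ρ hr0 hr, finrank_lattice ρ hr0 hr,
    fun g _ hv => mulVec_mem_lattice ρ g hv, std_le_lattice ρ,
    fun _ hv => smul_mem_std_of_mem_lattice ρ hr hv⟩

end Generic

end

end Fermat.Agent.S30.LatB
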