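/-
S30 block [Lim] — LimFD.lean (helper31): the FD + Lucas step, in abstract (Defs-independent) form.

Let `𝒪` be a commutative ring, `ϖ ∈ 𝒪`, `d : G_ℚ →* 𝒪ˣ` a character which is `ℓ` at every
Frobenius element at a prime `ℓ ∉ S` and is `≡ 1 mod ϖ^m` on an open subgroup.  Let `X`, `Y` be
two `𝒪`-modules killed by `ϖ^m` with `G_ℚ`-actions of finite level on which every Frobenius
element `σ` at every prime `ℓ ∉ S` satisfies `σ² − a_ℓ σ + ℓ = 0`.  Then for every `g ∈ G_ℚ` there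
is ONE scalar `t' ∈ 𝒪` with

    `g + d(g) g⁻¹ = t'`   on `X`   and on `Y`.

(`t' = V_j(a_ℓ, ℓ)`, the Lucas number, where `g = σ^j` on a common finite level: weak Frobenius
density `S29.FDStatement`.)  This is the hypothesis `hrel` of `S30/LimCore.lean` / `hex` of
`S30/LimAbs.lean` for `X := X_n`, `Y := X_{n+1}`, `m := n + 1`.
-/
import Mathlib
import Fermat.Agent.S29.Defs
import Fermat.Agent.S29.Lucas

set_option autoImplicit false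

namespace Fermat.Agent.S30.LimFD

open Fermat.Agent.S29 (FDStatement)
open Fermat.Agent.S29.Lucas (lucasV)

local notation "Qb" => AlgebraicClosure ℚ
local notation "GQ" => (AlgebraicClosure ℚ ≃ₐ[ℚ] AlgebraicClosure ℚ)

/-- If `g = σ ^ j` on a field `L`, then `g⁻¹ * σ ^ j` fixes `L` pointwise. -/
theorem inv_mul_pow_fixes {L : IntermediateField ℚ Qb} {g σ : GQ} {j : ℕ}
    (h : ∀ x ∈ L, g x = (σ ^ j) x) : ∀ x ∈ L, (g⁻¹ * σ ^ j) x = x := by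
  intro x hx
  rw [AlgEquiv.mul_apply, ← h x hx]
  exact g.symm_apply_apply x

section OneModule

variable {𝒪 : Type*} [CommRing 𝒪] {X : Type*} [AddCommGroup X] [Module 𝒪 X]

/-- The level relation on one module, from a Frobenius power. -/
theorem relation_of_frobenius_pow (ϖ : 𝒪) (m : ℕ) (d : GQ →* 𝒪ˣ) (π : GQ →* Module.End 𝒪 X)
    (hX : ∀ x : X, ϖ ^ m • x = 0) (a : 𝒪) {g σ h : GQ} {j : ℕ} (hgh : σ ^ j = g * h)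
    (hπh : π h = 1) (hdh : ϖ ^ m ∣ ((d h : 𝒪ˣ) : 𝒪) - 1)
    (hq : π σ * π σ - a • π σ + ((d σ : 𝒪ˣ) : 𝒪) • (1 : Module.End 𝒪 X) = 0) :
    π g + ((d g : 𝒪ˣ) : 𝒪) • π g⁻¹ = lucasV a ((d σ : 𝒪ˣ) : 𝒪) j • (1 : Module.End 𝒪 X) := by
  have hL := Fermat.Agent.S29.Lucas.map_pow_add_smul_inv π d σ a hq j
  have hπ1 : π (σ ^ j) = π g := by rw [hgh, map_mul, hπh, mul_one]
  have hπh' : π h⁻¹ = 1 := by
    have e : π h⁻¹ * π h = 1 := by rw [← map_mul, inv_mul_cancel, map_one]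
    rwa [hπh, mul_one] at e
  have hπ2 : π (σ ^ j)⁻¹ = π g⁻¹ := by rw [hgh, mul_inv_rev, map_mul, hπh', one_mul]
  have hd : ((d (σ ^ j) : 𝒪ˣ) : 𝒪) = ((d g : 𝒪ˣ) : 𝒪) * ((d h : 𝒪ˣ) : 𝒪) := by
    rw [hgh, map_mul, Units.val_mul]
  rw [hπ1, hπ2, hd] at hL
  obtain ⟨c, hc⟩ := hdh
  have hkill : ∀ f : Module.End 𝒪 X, (((d g : 𝒪ˣ) : 𝒪) * ((d h : 𝒪ˣ) : 𝒪)) • f
      = ((d g : 𝒪ˣ) : 𝒪) • f := by
    intro f
    apply LinearMap.ext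
    intro x
    have e : ((d h : 𝒪ˣ) : 𝒪) = 1 + ϖ ^ m * c := by rw [← hc]; ring
    rw [LinearMap.smul_apply, LinearMap.smul_apply, e, mul_add, mul_one, add_smul,
      mul_comm (ϖ ^ m) c, ← mul_assoc, mul_smul, hX (f x), smul_zero, add_zero]
  rw [hkill] at hL
  exact hL

end OneModule

/-- **The FD + Lucas step**: one scalar serving two modules (two consecutive levels). -/
theorem exists_level_relation (hFD : FDStatement) {𝒪 : Type*} [CommRing 𝒪] (ϖ : 𝒪) (m : ℕ)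
    (S : Finset ℕ) (a : ℕ → 𝒪) (d : GQ →* 𝒪ˣ)
    (hdFrob : ∀ ℓ : ℕ, ℓ.Prime → ℓ ∉ S → ∀ A : ValuationSubring Qb, A.LiesOverPrime ℓ →
      ∀ σ : GQ, A.IsFrobeniusAt σ ℓ → ((d σ : 𝒪ˣ) : 𝒪) = (ℓ : 𝒪))
    (hdcont : ∃ C : IntermediateField ℚ Qb, FiniteDimensional ℚ C ∧
      ∀ σ : GQ, (∀ x ∈ C, σ x = x) → ϖ ^ m ∣ ((d σ : 𝒪ˣ) : 𝒪) - 1)
    {X Y : Type*} [AddCommGroup X] [Module 𝒪 X] [AddCommGroup Y] [Module 𝒪 Y]
    (πX : GQ →* Module.End 𝒪 X) (πY : GQ →* Module.End 𝒪 Y)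
    (hX : ∀ x : X, ϖ ^ m • x = 0) (hY : ∀ y : Y, ϖ ^ m • y = 0)
    (hLX : ∃ L : IntermediateField ℚ Qb, FiniteDimensional ℚ L ∧
      ∀ σ : GQ, (∀ x ∈ L, σ x = x) → πX σ = 1)
    (hLY : ∃ L : IntermediateField ℚ Qb, FiniteDimensional ℚ L ∧
      ∀ σ : GQ, (∀ x ∈ L, σ x = x) → πY σ = 1)
    (hESX : ∀ ℓ : ℕ, ℓ.Prime → ℓ ∉ S → ∀ A : ValuationSubring Qb, A.LiesOverPrime ℓ →
      ∀ σ : GQ, A.IsFrobeniusAt σ ℓ →
        πX σ * πX σ - a ℓ • πX σ + (ℓ : 𝒪) • (1 : Module.End 𝒪 X) = 0)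
    (hESY : ∀ ℓ : ℕ, ℓ.Prime → ℓ ∉ S → ∀ A : ValuationSubring Qb, A.LiesOverPrime ℓ →
      ∀ σ : GQ, A.IsFrobeniusAt σ ℓ →
        πY σ * πY σ - a ℓ • πY σ + (ℓ : 𝒪) • (1 : Module.End 𝒪 Y) = 0)
    (g : GQ) :
    ∃ t' : 𝒪, πX g + ((d g : 𝒪ˣ) : 𝒪) • πX g⁻¹ = t' • (1 : Module.End 𝒪 X) ∧
      πY g + ((d g : 𝒪ˣ) : 𝒪) • πY g⁻¹ = t' • (1 : Module.End 𝒪 Y) := by
  obtain ⟨LX, hLXfd, hLX⟩ := hLX
  obtain ⟨LY, hLYfd, hLY⟩ := hLY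
  obtain ⟨C, hCfd, hC⟩ := hdcont
  have hfd : FiniteDimensional ℚ ↥(LX ⊔ LY ⊔ C) := inferInstance
  obtain ⟨ℓ, A, σ, j, hℓ, hℓS, hA, hσ, hg⟩ := hFD (LX ⊔ LY ⊔ C) hfd S g
  have hfix := inv_mul_pow_fixes hg
  set h : GQ := g⁻¹ * σ ^ j with hh
  have hgh : σ ^ j = g * h := by rw [hh, mul_inv_cancel_left]
  have hleX : LX ≤ LX ⊔ LY ⊔ C := le_sup_of_le_left le_sup_left
  have hleY : LY ≤ LX ⊔ LY ⊔ C := le_sup_of_le_left le_sup_right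
  have hleC : C ≤ LX ⊔ LY ⊔ C := le_sup_right
  have hπX : πX h = 1 := hLX h fun x hx => hfix x (hleX hx)
  have hπY : πY h = 1 := hLY h fun x hx => hfix x (hleY hx)
  have hdh : ϖ ^ m ∣ ((d h : 𝒪ˣ) : 𝒪) - 1 := hC h fun x hx => hfix x (hleC hx)
  have hdσ : ((d σ : 𝒪ˣ) : 𝒪) = (ℓ : 𝒪) := hdFrob ℓ hℓ hℓS A hA σ hσ
  refine ⟨lucasV (a ℓ) ((d σ : 𝒪ˣ) : 𝒪) j, ?_, ?_⟩
  · refine relation_of_frobenius_pow ϖ m d πX hX (a ℓ) hgh hπX hdh ?_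
    rw [hdσ]
    exact hESX ℓ hℓ hℓS A hA σ hσ
  · refine relation_of_frobenius_pow ϖ m d πY hY (a ℓ) hgh hπY hdh ?_
    rw [hdσ]
    exact hESY ℓ hℓ hℓS A hA σ hσ

/-- **`hrel` of `S30/LimCore.exists_trace`** (and, applied to vectors, `hex` of `S30/LimAbs`):
for a tower of modules `X n` killed by `ϖ ^ n`, of finite level, with the Eichler–Shimura
relation at every Frobenius element outside `S`, and a character `d` which is `ℓ` at Frobenius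
elements and `ϖ`-adically continuous. -/
theorem hrel_of_levels (hFD : FDStatement) {𝒪 : Type*} [CommRing 𝒪] (ϖ : 𝒪)
    (S : Finset ℕ) (a : ℕ → 𝒪) (d : GQ →* 𝒪ˣ)
    (hdFrob : ∀ ℓ : ℕ, ℓ.Prime → ℓ ∉ S → ∀ A : ValuationSubring Qb, A.LiesOverPrime ℓ →
      ∀ σ : GQ, A.IsFrobeniusAt σ ℓ → ((d σ : 𝒪ˣ) : 𝒪) = (ℓ : 𝒪))
    (hdcont : ∀ m : ℕ, ∃ C : IntermediateField ℚ Qb, FiniteDimensional ℚ C ∧
      ∀ σ : GQ, (∀ x ∈ C, σ x = x) → ϖ ^ m ∣ ((d σ : 𝒪ˣ) : 𝒪) - 1)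
    {X : ℕ → Type*} [∀ n, AddCommGroup (X n)] [∀ n, Module 𝒪 (X n)]
    (π : ∀ n, GQ →* Module.End 𝒪 (X n))
    (htors : ∀ (n : ℕ) (x : X n), ϖ ^ n • x = 0)
    (hlevel : ∀ n : ℕ, ∃ L : IntermediateField ℚ Qb, FiniteDimensional ℚ L ∧
      ∀ σ : GQ, (∀ x ∈ L, σ x = x) → π n σ = 1)
    (hES : ∀ (n : ℕ) (ℓ : ℕ), ℓ.Prime → ℓ ∉ S → ∀ A : ValuationSubring Qb, A.LiesOverPrime ℓ →
      ∀ σ : GQ, A.IsFrobeniusAt σ ℓ →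
        π n σ * π n σ - a ℓ • π n σ + (ℓ : 𝒪) • (1 : Module.End 𝒪 (X n)) = 0) :
    ∀ (g : GQ) (n : ℕ), ∃ t' : 𝒪,
      (π n g + ((d g : 𝒪ˣ) : 𝒪) • π n g⁻¹ = t' • (1 : Module.End 𝒪 (X n))) ∧
      (π (n + 1) g + ((d g : 𝒪ˣ) : 𝒪) • π (n + 1) g⁻¹ = t' • (1 : Module.End 𝒪 (X (n + 1)))) := by
  intro g n
  refine exists_level_relation hFD ϖ (n + 1) S a d hdFrob (hdcont (n + 1)) (π n) (π (n + 1))
    (fun x => ?_) (htors (n + 1)) (hlevel n) (hlevel (n + 1)) (hES n) (hES (n + 1)) g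
  rw [pow_succ', mul_smul, htors n x, smul_zero]

end Fermat.Agent.S30.LimFD
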