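/-
S30 route, block [Det] — LimGlue.lean (helper9): the concrete limit step.

From level data `LimLevel.Level 𝒪 p n good a unr` for every `n` (modules `X_n` killed by `p ^ n`
with a vector of annihilator `⊆ p ^ n 𝒪`, of finite level, with the Eichler–Shimura relation at
the Frobenius elements of the good primes and trivial inertia at the unramified primes), weak
Frobenius density `S29.FDStatement`, and a `p`-adic cyclotomic character `d : G_ℚ →* 𝒪ˣ`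
(specified by its action on the `p`-power roots of unity), we get the determinant `(t, d)`:

* (P1) `t 1 = 2`, `t (g h) = t (h g)`, `t (g h) + d(h) t (g h⁻¹) = t g * t h`;
* (P2) `t` is continuous: `t (σ g) ≡ t g mod p ^ n` for `σ` in an open subgroup;
* (P3) `t σ = a ℓ`, `d σ = ℓ` at every Frobenius element at a good prime `ℓ`;
       `t (τ g) = t g` for `τ` in an inertia group at an unramified prime;
* (P4) a complex conjugation `c` with `c * c = 1`, `t c = 0`, `d c = -1`.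

Inputs on main: `S30/LimCore.lean` (helper65: the abstract limit), `S30/LimFD.lean` (helper31:
FD + Lucas), `S30/Conj.lean` (helper93), `S30/LimLevel.lean`.
-/
import Mathlib
import Fermat.Agent.S29.Defs
import Fermat.Agent.S29.Lucas
import Fermat.Agent.S30.LimLevel
import Fermat.Agent.S30.LimCore
import Fermat.Agent.S30.LimFD
import Fermat.Agent.S30.Conj

set_option autoImplicit false

namespace Fermat.Agent.S30.LimGlue

open Fermat.Agent.S29 (FDStatement)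
open Fermat.Agent.S30.LimLevel (Level)
open Fermat.Agent.S30.LimCore (IsTrace)

/-- `ℚ̄`. -/
local notation "Qb" => AlgebraicClosure ℚ

/-- `Gal(ℚ̄/ℚ)`. -/
local notation "GQ" => (AlgebraicClosure ℚ ≃ₐ[ℚ] AlgebraicClosure ℚ)

section Cyc

variable {𝒪 : Type} [CommRing 𝒪] (p : ℕ)

/-- A Galois element acting on the `p ^ n`-th roots of unity by the `k`-th power map acts on them
by the `k ^ j`-th power map after `j` iterations. -/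
theorem pow_apply_of_apply (n : ℕ) (σ : GQ) (k : ℕ)
    (h : ∀ ζ : Qb, ζ ^ (p ^ n) = 1 → σ ζ = ζ ^ k) (j : ℕ) :
    ∀ ζ : Qb, ζ ^ (p ^ n) = 1 → (σ ^ j) ζ = ζ ^ (k ^ j) := by
  induction j with
  | zero =>
    intro ζ _
    rw [pow_zero, pow_zero, pow_one]
    rfl
  | succ j ih =>
    intro ζ hζ
    have h1 : (ζ ^ k) ^ (p ^ n) = 1 := by
      rw [← pow_mul, mul_comm, pow_mul, hζ, one_pow]
    rw [pow_succ, AlgEquiv.mul_apply, h ζ hζ, ih (ζ ^ k) h1, ← pow_mul, ← pow_succ']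

variable {p}
variable (hsep : ∀ a : 𝒪, (∀ n : ℕ, (p : 𝒪) ^ n ∣ a) → a = 0) (d : GQ →* 𝒪ˣ)
  (hd : ∀ (g : GQ) (n k : ℕ), (∀ ζ : Qb, ζ ^ (p ^ n) = 1 → g ζ = ζ ^ k) →
    (p : 𝒪) ^ n ∣ ((d g : 𝒪ˣ) : 𝒪) - (k : 𝒪))

include hsep hd

/-- An element acting on all `p`-power roots of unity by the `k`-th power map has `d = k`. -/
theorem d_eq_natCast (g : GQ) (k : ℕ)
    (h : ∀ (n : ℕ) (ζ : Qb), ζ ^ (p ^ n) = 1 → g ζ = ζ ^ k) : ((d g : 𝒪ˣ) : 𝒪) = (k : 𝒪) := by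
  have h0 : ((d g : 𝒪ˣ) : 𝒪) - (k : 𝒪) = 0 := hsep _ fun n => hd g n k (h n)
  exact sub_eq_zero.mp h0

/-- An element fixing all `p`-power roots of unity has `d = 1`. -/
theorem d_eq_one (g : GQ) (h : ∀ (n : ℕ) (ζ : Qb), ζ ^ (p ^ n) = 1 → g ζ = ζ) : d g = 1 := by
  apply Units.ext
  rw [Units.val_one]
  have h1 := d_eq_natCast hsep d hd g 1 (fun n ζ hζ => by rw [pow_one]; exact h n ζ hζ)
  rw [h1, Nat.cast_one]

omit hsep in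
/-- An element fixing the `p ^ n`-th roots of unity has `d ≡ 1` modulo `p ^ n`. -/
theorem d_sub_one_dvd (n : ℕ) (g : GQ) (h : ∀ ζ : Qb, ζ ^ (p ^ n) = 1 → g ζ = ζ) :
    (p : 𝒪) ^ n ∣ ((d g : 𝒪ˣ) : 𝒪) - 1 := by
  have h1 := hd g n 1 (fun ζ hζ => by rw [pow_one]; exact h ζ hζ)
  rwa [Nat.cast_one] at h1

/-- An element inverting all `p`-power roots of unity has `d = -1` (`p ≠ 0`). -/
theorem d_eq_neg_one (hp : p ≠ 0) (c : GQ)
    (h : ∀ (n : ℕ) (ζ : Qb), ζ ^ (p ^ n) = 1 → c ζ = ζ⁻¹) : d c = -1 := by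
  apply Units.ext
  rw [Units.val_neg, Units.val_one]
  have h0 : ((d c : 𝒪ˣ) : 𝒪) + 1 = 0 := by
    apply hsep
    intro n
    have hpn : 1 ≤ p ^ n := Nat.one_le_pow _ _ (Nat.pos_of_ne_zero hp)
    have h1 := hd c n (p ^ n - 1) (fun ζ hζ => by
      rw [h n ζ hζ]
      have hζ0 : ζ ≠ 0 := by
        rintro rfl
        rw [zero_pow (by omega)] at hζ
        exact zero_ne_one hζ
      apply inv_eq_of_mul_eq_one_right
      rw [← pow_succ', Nat.sub_add_cancel hpn, hζ])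
    have e : ((d c : 𝒪ˣ) : 𝒪) + 1
        = (((d c : 𝒪ˣ) : 𝒪) - ((p ^ n - 1 : ℕ) : 𝒪)) + (p : 𝒪) ^ n := by
      rw [Nat.cast_sub hpn, Nat.cast_pow, Nat.cast_one]
      ring
    rw [e]
    exact dvd_add h1 (dvd_refl _)
  exact eq_neg_of_add_eq_zero_left h0

end Cyc

/-- **The concrete limit step.**  Level data for every `n`, weak Frobenius density and a `p`-adic
cyclotomic character give the determinant `(t, d)` with (P1)–(P4). -/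
theorem exists_pseudo {𝒪 : Type} [CommRing 𝒪] (p : ℕ) (hp : p ≠ 0)
    (hsep : ∀ a : 𝒪, (∀ n : ℕ, (p : 𝒪) ^ n ∣ a) → a = 0)
    (hcompl : ∀ f : ℕ → 𝒪, (∀ n : ℕ, (p : 𝒪) ^ n ∣ f (n + 1) - f n) →
      ∃ L : 𝒪, ∀ n : ℕ, (p : 𝒪) ^ n ∣ f n - L)
    (good : ℕ → Prop) (a : ℕ → 𝒪) (unr : ℕ → Prop) (S : Finset ℕ)
    (hS : ∀ ℓ : ℕ, ℓ.Prime → ℓ ∉ S → good ℓ) (hFD : FDStatement)
    (d : GQ →* 𝒪ˣ)
    (hd : ∀ (g : GQ) (n k : ℕ), (∀ ζ : Qb, ζ ^ (p ^ n) = 1 → g ζ = ζ ^ k) →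
      (p : 𝒪) ^ n ∣ ((d g : 𝒪ˣ) : 𝒪) - (k : 𝒪))
    (hcycL : ∀ n : ℕ, ∃ L : IntermediateField ℚ Qb, FiniteDimensional ℚ L ∧
      ∀ σ : GQ, (∀ x ∈ L, σ x = x) → ∀ ζ : Qb, ζ ^ (p ^ n) = 1 → σ ζ = ζ)
    (hcycF : ∀ ℓ : ℕ, good ℓ → ∀ A : ValuationSubring Qb, A.LiesOverPrime ℓ →
      ∀ σ : GQ, A.IsFrobeniusAt σ ℓ → ∀ (n : ℕ) (ζ : Qb), ζ ^ (p ^ n) = 1 → σ ζ = ζ ^ ℓ)
    (hcycI : ∀ q : ℕ, unr q → ∀ P : ValuationSubring Qb, P.LiesOverPrime q →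
      ∀ τ ∈ P.inertiaSubgroupIn ℚ, ∀ (n : ℕ) (ζ : Qb), ζ ^ (p ^ n) = 1 → τ ζ = ζ)
    (lev : ∀ n : ℕ, Nonempty (Level 𝒪 p n good a unr)) :
    ∃ t : GQ → 𝒪,
      t 1 = 2 ∧ (∀ g h : GQ, t (g * h) = t (h * g)) ∧
      (∀ g h : GQ, t (g * h) + ((d h : 𝒪ˣ) : 𝒪) * t (g * h⁻¹) = t g * t h) ∧
      (∀ n : ℕ, ∃ L : IntermediateField ℚ Qb, FiniteDimensional ℚ L ∧
        ∀ σ : GQ, (∀ x ∈ L, σ x = x) → ∀ g : GQ, (p : 𝒪) ^ n ∣ t (σ * g) - t g) ∧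
      (∀ ℓ : ℕ, good ℓ → ∀ A : ValuationSubring Qb, A.LiesOverPrime ℓ →
        ∀ σ : GQ, A.IsFrobeniusAt σ ℓ → t σ = a ℓ ∧ ((d σ : 𝒪ˣ) : 𝒪) = (ℓ : 𝒪)) ∧
      (∀ q : ℕ, unr q → ∀ P : ValuationSubring Qb, P.LiesOverPrime q →
        ∀ τ ∈ P.inertiaSubgroupIn ℚ, ∀ g : GQ, t (τ * g) = t g) ∧
      (∃ c : GQ, c * c = 1 ∧ t c = 0 ∧ d c = -1) := by
  classical
  -- the level data
  let Lv : ∀ n : ℕ, Level 𝒪 p n good a unr := fun n => (lev n).some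
  let X : ℕ → Type := fun n => (Lv n).V
  let π : ∀ n : ℕ, GQ →* Module.End 𝒪 (X n) := fun n => (Lv n).r
  let w : ∀ n : ℕ, X n := fun n => (Lv n).w
  have htors : ∀ (n : ℕ) (x : X n), (p : 𝒪) ^ n • x = 0 := fun n => (Lv n).tors
  have hann : ∀ (n : ℕ) (c : 𝒪), c • w n = 0 → (p : 𝒪) ^ n ∣ c := fun n => (Lv n).ann
  have hlevel : ∀ n : ℕ, ∃ L : IntermediateField ℚ Qb, FiniteDimensional ℚ L ∧
      ∀ σ : GQ, (∀ x ∈ L, σ x = x) → π n σ = 1 := fun n => (Lv n).level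
  -- the cyclotomic character at Frobenius and inertia
  have hdFrob : ∀ ℓ : ℕ, good ℓ → ∀ A : ValuationSubring Qb, A.LiesOverPrime ℓ →
      ∀ σ : GQ, A.IsFrobeniusAt σ ℓ → ((d σ : 𝒪ˣ) : 𝒪) = (ℓ : 𝒪) :=
    fun ℓ hℓ A hA σ hσ => d_eq_natCast hsep d hd σ ℓ (hcycF ℓ hℓ A hA σ hσ)
  have hdIn : ∀ q : ℕ, unr q → ∀ P : ValuationSubring Qb, P.LiesOverPrime q →
      ∀ τ ∈ P.inertiaSubgroupIn ℚ, d τ = 1 :=
    fun q hq P hP τ hτ => d_eq_one hsep d hd τ (hcycI q hq P hP τ hτ)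
  have hdcont : ∀ m : ℕ, ∃ C : IntermediateField ℚ Qb, FiniteDimensional ℚ C ∧
      ∀ σ : GQ, (∀ x ∈ C, σ x = x) → (p : 𝒪) ^ m ∣ ((d σ : 𝒪ˣ) : 𝒪) - 1 := by
    intro m
    obtain ⟨C, hC, h⟩ := hcycL m
    exact ⟨C, hC, fun σ hσ => d_sub_one_dvd d hd m σ (h σ hσ)⟩
  -- the relation on two consecutive levels (FD + Lucas)
  have hrel : ∀ (g : GQ) (n : ℕ), ∃ t' : 𝒪,
      (π n g + ((d g : 𝒪ˣ) : 𝒪) • π n g⁻¹ = t' • (1 : Module.End 𝒪 (X n))) ∧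
      (π (n + 1) g + ((d g : 𝒪ˣ) : 𝒪) • π (n + 1) g⁻¹
        = t' • (1 : Module.End 𝒪 (X (n + 1)))) :=
    LimFD.hrel_of_levels hFD (p : 𝒪) S a d
      (fun ℓ hℓ hℓS A hA σ hσ => hdFrob ℓ (hS ℓ hℓ hℓS) A hA σ hσ) hdcont π htors hlevel
      (fun n ℓ hℓ hℓS A hA σ hσ => (Lv n).frob ℓ (hS ℓ hℓ hℓS) A hA σ hσ)
  -- the limit
  obtain ⟨t, ht, ht1, htcomm, htmul, -⟩ :=
    LimCore.exists_trace (ϖ := (p : 𝒪)) (d := d) (X := X) (π := π) (w := w)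
      hsep hcompl htors hann hrel
  have hT : IsTrace d X π t := ht
  refine ⟨t, ht1, htcomm, htmul, ?_, ?_, ?_, ?_⟩
  · -- (P2)
    intro n
    obtain ⟨L₁, hL₁, h₁⟩ := hlevel n
    obtain ⟨L₂, hL₂, h₂⟩ := hdcont n
    refine ⟨L₁ ⊔ L₂, inferInstance, fun σ hσ g => ?_⟩
    exact hT.dvd_sub_of_eq htors hann n σ g
      (h₁ σ fun x hx => hσ x ((le_sup_left : L₁ ≤ L₁ ⊔ L₂) hx))
      (h₂ σ fun x hx => hσ x ((le_sup_right : L₂ ≤ L₁ ⊔ L₂) hx))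
  · -- (P3), Frobenius
    intro ℓ hℓ A hA σ hσ
    have hdσ := hdFrob ℓ hℓ A hA σ hσ
    refine ⟨?_, hdσ⟩
    apply hT.eq_of_forall_rel hsep hann σ (a ℓ)
    intro n
    have hq := (Lv n).frob ℓ hℓ A hA σ hσ
    have h1 := Fermat.Agent.S29.Lucas.add_smul_inv_of_quadratic (π n) σ (a ℓ) (ℓ : 𝒪) hq
    have h2 := congrArg (fun f : Module.End 𝒪 (X n) => f (w n)) h1
    simp only [LinearMap.add_apply, LinearMap.smul_apply, Module.End.one_apply] at h2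
    rw [hdσ]
    exact h2
  · -- (P3), inertia
    intro q hq P hP τ hτ g
    exact hT.apply_mul_of_forall_eq_one hsep htors hann τ
      (fun n => (Lv n).inert q hq P hP τ hτ) (hdIn q hq P hP τ hτ) g
  · -- (P4)
    obtain ⟨c, hc, hcζ⟩ := Fermat.Agent.S30.Conj.exists_conj
    have hdc : d c = -1 := d_eq_neg_one hsep d hd hp c
      (fun n ζ hζ => hcζ ζ (p ^ n) (pow_ne_zero n hp) hζ)
    exact ⟨c, hc, hT.eq_zero_of_involution hsep hann c hc hdc, hdc⟩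

end Fermat.Agent.S30.LimGlue
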