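/-
S30 leaf [OddDet] (helper130): a 2-dimensional pseudo-representation `(t, d)` of a group `G` over a
field `K` with `2 ≠ 0`, together with an element `c` with `c * c = 1` and `t c = 0`
("complex conjugation"), is the trace/determinant of a genuine representation
`G →* Matrix (Fin 2) (Fin 2) K`, given by Wiles' explicit formulas.

Method: extend `t` linearly to the group algebra `A = K[G]`; the identities
`t (g * h) = t (h * g)` and `t (g * h) + d h * t (g * h⁻¹) = t g * t h` give the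
pseudo-character identity
`T (u y z) + T (u z y) = T (u z) T y + T (u y) T z + T u T (y z) - T u T y T z` on `A`;
with the idempotents `e₁ = (1 + c) / 2`, `e₂ = (1 - c) / 2` this yields
`T (u e₁ y e₁) = T (e₁ y) T (u e₁)` and all of Wiles' relations.
-/
import Mathlib

set_option autoImplicit false

namespace Fermat.Agent.S30.OddDetC

open Matrix

/-! ### The abstract computation in a `K`-algebra with a "trace" -/

section Abstract

variable {K : Type*} [Field K] {A : Type*} [Ring A] [Algebra K A]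

/-- A central linear functional satisfying the 2-dimensional pseudo-character identity, together
with two orthogonal idempotents of trace one summing to one. -/
structure PCData (T : A →ₗ[K] K) (e₁ e₂ : A) : Prop where
  comm : ∀ x y, T (x * y) = T (y * x)
  pc : ∀ u y z, T (u * y * z) + T (u * z * y) =
      T (u * z) * T y + T (u * y) * T z + T u * T (y * z) - T u * T y * T z
  e₁_sq : e₁ * e₁ = e₁
  e₂_sq : e₂ * e₂ = e₂
  e₁e₂ : e₁ * e₂ = 0
  e₂e₁ : e₂ * e₁ = 0
  sum : e₁ + e₂ = 1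
  T₁ : T e₁ = 1
  T₂ : T e₂ = 1

namespace PCData

variable {T : A →ₗ[K] K} {e₁ e₂ : A}

theorem symm (h : PCData T e₁ e₂) : PCData T e₂ e₁ where
  comm := h.comm
  pc := h.pc
  e₁_sq := h.e₂_sq
  e₂_sq := h.e₁_sq
  e₁e₂ := h.e₂e₁
  e₂e₁ := h.e₁e₂
  sum := by rw [add_comm]; exact h.sum
  T₁ := h.T₂
  T₂ := h.T₁

theorem e₁e₂' (h : PCData T e₁ e₂) (z : A) : e₁ * (e₂ * z) = 0 := by
  rw [← mul_assoc, h.e₁e₂, zero_mul]

theorem e₂e₁' (h : PCData T e₁ e₂) (z : A) : e₂ * (e₁ * z) = 0 := by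
  rw [← mul_assoc, h.e₂e₁, zero_mul]

theorem split (h : PCData T e₁ e₂) (z : A) : z = e₁ * z + e₂ * z := by
  rw [← add_mul, h.sum, one_mul]

/-- The key relation: `e₁ A e₁` is "one-dimensional modulo the kernel of the trace form". -/
theorem F1 (h : PCData T e₁ e₂) (u y : A) :
    T (u * (e₁ * (y * e₁))) = T (e₁ * y) * T (u * e₁) := by
  have h1 := h.pc u (e₁ * y * e₁) e₂
  have hu : T u = T (u * e₁) + T (u * e₂) := by rw [← map_add, ← mul_add, h.sum, mul_one]
  have hy : T (e₁ * (y * e₁)) = T (e₁ * y) := by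
    have := h.comm (e₁ * y) e₁
    rw [← mul_assoc, h.e₁_sq] at this
    rw [← mul_assoc, this]
  simp only [mul_assoc, h.e₁e₂, h.e₂e₁', mul_zero, map_zero, h.T₂] at h1
  linear_combination (-1 : K) * h1 + T (u * e₁) * hy + T (e₁ * (y * e₁)) * hu

theorem F2 (h : PCData T e₁ e₂) (u y : A) :
    T (u * (e₂ * (y * e₂))) = T (e₂ * y) * T (u * e₂) :=
  h.symm.F1 u y

/-- Wiles' relation `a (y z) = a y * a z + x (y, z)`. -/
theorem a_mul (h : PCData T e₁ e₂) (y z : A) :
    T (e₁ * (y * z)) = T (e₁ * y) * T (e₁ * z) + T (e₁ * (y * (e₂ * z))) := by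
  have c1 : T (e₁ * (y * (e₁ * z))) = T (z * (e₁ * (y * e₁))) := by
    have := h.comm (e₁ * (y * e₁)) z
    simpa only [mul_assoc] using this
  have s : e₁ * (y * z) = e₁ * (y * (e₁ * z)) + e₁ * (y * (e₂ * z)) := by
    rw [← mul_add, ← mul_add, ← h.split]
  rw [s, map_add, c1, h.F1, h.comm z e₁]

/-- Wiles' relation `δ (y z) = δ y * δ z + x (z, y)`. -/
theorem d_mul (h : PCData T e₁ e₂) (y z : A) :
    T (e₂ * (y * z)) = T (e₂ * y) * T (e₂ * z) + T (e₁ * (z * (e₂ * y))) := by
  have c1 : T (e₂ * (y * (e₁ * z))) = T (e₁ * (z * (e₂ * y))) := by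
    have := h.comm (e₂ * y) (e₁ * z)
    simpa only [mul_assoc] using this
  rw [h.symm.a_mul y z, c1]

/-- Wiles' relation `x (y z, w) = a y * x (z, w) + δ z * x (y, w)`. -/
theorem x_mul_left (h : PCData T e₁ e₂) (y z w : A) :
    T (e₁ * (y * z * (e₂ * w))) =
      T (e₁ * y) * T (e₁ * (z * (e₂ * w))) + T (e₂ * z) * T (e₁ * (y * (e₂ * w))) := by
  have s : e₁ * (y * z * (e₂ * w)) =
      e₁ * (y * (e₁ * (z * (e₂ * w)))) + e₁ * (y * (e₂ * (z * (e₂ * w)))) := by
    rw [← mul_add, ← mul_add, ← h.split, mul_assoc]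
  have c1 : T (e₁ * (y * (e₁ * (z * (e₂ * w))))) = T (z * (e₂ * w) * (e₁ * (y * e₁))) := by
    have := h.comm (e₁ * (y * e₁)) (z * (e₂ * w))
    simpa only [mul_assoc] using this
  have c2 : T (z * (e₂ * w) * e₁) = T (e₁ * (z * (e₂ * w))) := h.comm _ _
  have c3 : T (e₁ * (y * (e₂ * (z * (e₂ * w))))) = T (w * (e₁ * y) * (e₂ * (z * e₂))) := by
    have := h.comm (e₁ * (y * (e₂ * (z * e₂)))) w
    simpa only [mul_assoc] using this
  have c4 : T (w * (e₁ * y) * e₂) = T (e₁ * (y * (e₂ * w))) := by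
    have := h.comm w (e₁ * (y * e₂))
    simpa only [mul_assoc] using this
  rw [s, map_add, c1, h.F1, c2, c3, h.F2, c4]

/-- Wiles' relation `x (w, y z) = x (w, y) * a z + δ y * x (w, z)`. -/
theorem x_mul_right (h : PCData T e₁ e₂) (w y z : A) :
    T (e₁ * (w * (e₂ * (y * z)))) =
      T (e₁ * (w * (e₂ * y))) * T (e₁ * z) + T (e₂ * y) * T (e₁ * (w * (e₂ * z))) := by
  have s : e₁ * (w * (e₂ * (y * z))) =
      e₁ * (w * (e₂ * (y * (e₁ * z)))) + e₁ * (w * (e₂ * (y * (e₂ * z)))) := by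
    rw [← mul_add, ← mul_add, ← mul_add, ← mul_add, ← h.split]
  have c1 : T (e₁ * (w * (e₂ * (y * (e₁ * z))))) = T (z * (e₁ * (w * (e₂ * y) * e₁))) := by
    have := h.comm (e₁ * (w * (e₂ * y) * e₁)) z
    simpa only [mul_assoc] using this
  have c3 : T (e₁ * (w * (e₂ * (y * (e₂ * z))))) = T (z * (e₁ * w) * (e₂ * (y * e₂))) := by
    have := h.comm (e₁ * (w * (e₂ * (y * e₂)))) z
    simpa only [mul_assoc] using this
  have c4 : T (z * (e₁ * w) * e₂) = T (e₁ * (w * (e₂ * z))) := by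
    have := h.comm z (e₁ * (w * e₂))
    simpa only [mul_assoc] using this
  rw [s, map_add, c1, h.F1, c3, h.F2, c4, h.comm z e₁]

/-- Wiles' relation `x (y, z) * x (y', z') = x (y, z') * x (y', z)`. -/
theorem x_mul_x (h : PCData T e₁ e₂) (y z y' z' : A) :
    T (e₁ * (y * (e₂ * z))) * T (e₁ * (y' * (e₂ * z'))) =
      T (e₁ * (y * (e₂ * z'))) * T (e₁ * (y' * (e₂ * z))) := by
  have q1 : T (y' * (e₂ * z') * (e₁ * (y * (e₂ * z) * e₁))) =
      T (e₁ * (y * (e₂ * z))) * T (y' * (e₂ * z') * e₁) := h.F1 _ _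
  have q2 : T (z * (e₁ * y') * (e₂ * (z' * (e₁ * y) * e₂))) =
      T (e₂ * (z' * (e₁ * y))) * T (z * (e₁ * y') * e₂) := h.F2 _ _
  have c0 : T (y' * (e₂ * z') * (e₁ * (y * (e₂ * z) * e₁))) =
      T (z * (e₁ * y') * (e₂ * (z' * (e₁ * y) * e₂))) := by
    have := h.comm (y' * (e₂ * (z' * (e₁ * (y * e₂))))) (z * e₁)
    simpa only [mul_assoc] using this
  have c1 : T (y' * (e₂ * z') * e₁) = T (e₁ * (y' * (e₂ * z'))) := h.comm _ _
  have c2 : T (e₂ * (z' * (e₁ * y))) = T (e₁ * (y * (e₂ * z'))) := by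
    have := h.comm (e₂ * z') (e₁ * y)
    simpa only [mul_assoc] using this
  have c3 : T (z * (e₁ * y') * e₂) = T (e₁ * (y' * (e₂ * z))) := by
    have := h.comm z (e₁ * (y' * e₂))
    simpa only [mul_assoc] using this
  rw [← c1, ← q1, c0, q2, c2, c3]

theorem a_add_d (h : PCData T e₁ e₂) (y : A) : T (e₁ * y) + T (e₂ * y) = T y := by
  rw [← map_add, ← h.split]

theorem x_one_left (h : PCData T e₁ e₂) (z : A) : T (e₁ * (1 * (e₂ * z))) = 0 := by
  rw [one_mul, h.e₁e₂', map_zero]

theorem x_one_right (h : PCData T e₁ e₂) (y : A) : T (e₁ * (y * (e₂ * 1))) = 0 := by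
  have := h.comm (e₁ * y) e₂
  rw [mul_one, ← mul_assoc, this, ← mul_assoc, h.e₂e₁, zero_mul, map_zero]

end PCData

/-- Wiles' matrix attached to a pair `(g₀, h₀)`. -/
noncomputable def rhoA (T : A →ₗ[K] K) (e₁ e₂ g₀ h₀ y : A) : Matrix (Fin 2) (Fin 2) K :=
  !![T (e₁ * y), T (e₁ * (y * (e₂ * h₀))) / T (e₁ * (g₀ * (e₂ * h₀)));
     T (e₁ * (g₀ * (e₂ * y))), T (e₂ * y)]

theorem rhoA_one {T : A →ₗ[K] K} {e₁ e₂ : A} (h : PCData T e₁ e₂) (g₀ h₀ : A) :
    rhoA T e₁ e₂ g₀ h₀ 1 = 1 := by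
  have h1 : T (e₁ * (e₂ * h₀)) = 0 := by simpa only [one_mul] using h.x_one_left h₀
  have h2 : T (e₁ * (g₀ * e₂)) = 0 := by simpa only [mul_one] using h.x_one_right g₀
  ext i j
  fin_cases i
  · fin_cases j
    · simp [rhoA, h.T₁]
    · simp [rhoA, h1]
  · fin_cases j
    · simp [rhoA, h2]
    · simp [rhoA, h.T₂]

theorem rhoA_mul {T : A →ₗ[K] K} {e₁ e₂ : A} (h : PCData T e₁ e₂) (g₀ h₀ : A)
    (hx : T (e₁ * (g₀ * (e₂ * h₀))) ≠ 0) (y z : A) :
    rhoA T e₁ e₂ g₀ h₀ (y * z) = rhoA T e₁ e₂ g₀ h₀ y * rhoA T e₁ e₂ g₀ h₀ z := by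
  have w1 := h.a_mul y z
  have w2 := h.d_mul y z
  have w3 := h.x_mul_left y z h₀
  have w4 := h.x_mul_right g₀ y z
  have w5 := h.x_mul_x y z g₀ h₀
  have w6 := h.x_mul_x z y g₀ h₀
  ext i j
  fin_cases i <;> fin_cases j
  · simp only [rhoA, Matrix.mul_apply, Fin.sum_univ_two, Fin.zero_eta, Fin.isValue,
      Matrix.of_apply, Matrix.cons_val', Matrix.cons_val_zero, Matrix.cons_val_fin_one,
      Matrix.cons_val_one]
    field_simp
    linear_combination T (e₁ * (g₀ * (e₂ * h₀))) * w1 + w5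
  · simp only [rhoA, Matrix.mul_apply, Fin.sum_univ_two, Fin.zero_eta, Fin.isValue, Fin.mk_one,
      Matrix.of_apply, Matrix.cons_val', Matrix.cons_val_zero, Matrix.cons_val_fin_one,
      Matrix.cons_val_one]
    field_simp
    linear_combination w3
  · simp only [rhoA, Matrix.mul_apply, Fin.sum_univ_two, Fin.zero_eta, Fin.isValue, Fin.mk_one,
      Matrix.of_apply, Matrix.cons_val', Matrix.cons_val_zero, Matrix.cons_val_fin_one,
      Matrix.cons_val_one]
    linear_combination w4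
  · simp only [rhoA, Matrix.mul_apply, Fin.sum_univ_two, Fin.isValue, Fin.mk_one,
      Matrix.of_apply, Matrix.cons_val', Matrix.cons_val_zero, Matrix.cons_val_fin_one,
      Matrix.cons_val_one]
    field_simp
    linear_combination T (e₁ * (g₀ * (e₂ * h₀))) * w2 + w6

end Abstract

/-! ### The group algebra -/

section Group

variable {K : Type*} [Field K] {G : Type*} [Group G]

/-- The linear extension of `t : G → K` to the group algebra. -/
noncomputable def TG (t : G → K) : MonoidAlgebra K G →ₗ[K] K :=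
  (Finsupp.linearCombination K t) ∘ₗ (MonoidAlgebra.coeffLinearEquiv K).toLinearMap

theorem TG_of (t : G → K) (g : G) : TG t (MonoidAlgebra.of K G g) = t g := by
  simp [TG]

theorem TG_one (t : G → K) : TG t (1 : MonoidAlgebra K G) = t 1 := by
  rw [← map_one (MonoidAlgebra.of K G), TG_of]

/-- The idempotent `(1 + c) / 2`. -/
noncomputable def e1 (K : Type*) [Field K] {G : Type*} [Group G] (c : G) : MonoidAlgebra K G :=
  (2⁻¹ : K) • (1 + MonoidAlgebra.of K G c)

/-- The idempotent `(1 - c) / 2`. -/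
noncomputable def e2 (K : Type*) [Field K] {G : Type*} [Group G] (c : G) : MonoidAlgebra K G :=
  (2⁻¹ : K) • (1 - MonoidAlgebra.of K G c)

/-- `a (g) = (t g + t (c g)) / 2`, the upper left entry. -/
noncomputable def aT (t : G → K) (c g : G) : K := (t g + t (c * g)) / 2

/-- `δ (g) = (t g - t (c g)) / 2`, the lower right entry. -/
noncomputable def dT (t : G → K) (c g : G) : K := (t g - t (c * g)) / 2

/-- `x (g, h) = a (g h) - a g * a h`, the product of the off-diagonal entries. -/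
noncomputable def xT (t : G → K) (c g h : G) : K := aT t c (g * h) - aT t c g * aT t c h

variable {t : G → K} {d : G →* Kˣ}

/-- The pseudo-character identity in dimension two, on group elements. -/
theorem pc_group (hcomm : ∀ g h, t (g * h) = t (h * g))
    (hmul : ∀ g h, t (g * h) + (d h : K) * t (g * h⁻¹) = t g * t h) (u y z : G) :
    t (u * y * z) + t (u * z * y) =
      t (u * z) * t y + t (u * y) * t z + t u * t (y * z) - t u * t y * t z := by
  have E1 : t (u * y * z) + (d y : K) * (d z : K) * t (u * z⁻¹ * y⁻¹) = t u * t (y * z) := by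
    have := hmul u (y * z)
    rw [_root_.mul_inv_rev, map_mul, Units.val_mul, ← mul_assoc, ← mul_assoc] at this
    exact this
  have E2 : t (y * u * z⁻¹) + (d y : K) * t (u * z⁻¹ * y⁻¹) = t (u * z⁻¹) * t y := by
    have := hmul (u * z⁻¹) y
    rw [hcomm (u * z⁻¹) y, ← mul_assoc] at this
    exact this
  have E3 : t (u * z) + (d z : K) * t (u * z⁻¹) = t u * t z := hmul u z
  have E4 : t (u * z * y) + (d z : K) * t (y * u * z⁻¹) = t (u * y) * t z := by
    have := hmul (y * u) z
    rw [mul_assoc y u z, hcomm y (u * z), hcomm y u] at this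
    exact this
  linear_combination E1 - (d z : K) * E2 - t y * E3 + E4

theorem TG_comm (hcomm : ∀ g h, t (g * h) = t (h * g)) (x y : MonoidAlgebra K G) :
    TG t (x * y) = TG t (y * x) := by
  induction x using MonoidAlgebra.induction_on with
  | of g =>
    induction y using MonoidAlgebra.induction_on with
    | of h => rw [← map_mul, ← map_mul, TG_of, TG_of, hcomm]
    | add y₁ y₂ h₁ h₂ => rw [mul_add, add_mul, map_add, map_add, h₁, h₂]
    | smul r y hy => rw [mul_smul_comm, smul_mul_assoc, map_smul, map_smul, hy]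
  | add x₁ x₂ h₁ h₂ => rw [add_mul, mul_add, map_add, map_add, h₁, h₂]
  | smul r x hx => rw [smul_mul_assoc, mul_smul_comm, map_smul, map_smul, hx]

theorem TG_pc (hcomm : ∀ g h, t (g * h) = t (h * g))
    (hmul : ∀ g h, t (g * h) + (d h : K) * t (g * h⁻¹) = t g * t h)
    (u y z : MonoidAlgebra K G) :
    TG t (u * y * z) + TG t (u * z * y) =
      TG t (u * z) * TG t y + TG t (u * y) * TG t z + TG t u * TG t (y * z)
        - TG t u * TG t y * TG t z := by
  induction u using MonoidAlgebra.induction_on with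
  | of a =>
    induction y using MonoidAlgebra.induction_on with
    | of b =>
      induction z using MonoidAlgebra.induction_on with
      | of c =>
        simp only [← map_mul, TG_of]
        exact pc_group hcomm hmul a b c
      | add z₁ z₂ h₁ h₂ =>
        simp only [mul_add, add_mul, map_add]
        linear_combination h₁ + h₂
      | smul r z hz =>
        simp only [mul_smul_comm, smul_mul_assoc, map_smul, smul_eq_mul]
        linear_combination r * hz
    | add y₁ y₂ h₁ h₂ =>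
      simp only [mul_add, add_mul, map_add]
      linear_combination h₁ + h₂
    | smul r y hy =>
      simp only [mul_smul_comm, smul_mul_assoc, map_smul, smul_eq_mul]
      linear_combination r * hy
  | add u₁ u₂ h₁ h₂ =>
    simp only [add_mul, map_add]
    linear_combination h₁ + h₂
  | smul r u hu =>
    simp only [smul_mul_assoc, map_smul, smul_eq_mul]
    linear_combination r * hu

theorem of_mul_self {c : G} (hc : c * c = 1) :
    MonoidAlgebra.of K G c * MonoidAlgebra.of K G c = 1 := by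
  rw [← map_mul, hc, map_one]

theorem e1_mul_e1 (h2 : (2 : K) ≠ 0) {c : G} (hc : c * c = 1) : e1 K c * e1 K c = e1 K c := by
  have hC := of_mul_self (K := K) hc
  have key : (1 + MonoidAlgebra.of K G c) * (1 + MonoidAlgebra.of K G c) =
      (2 : K) • (1 + MonoidAlgebra.of K G c) := by
    rw [two_smul]
    simp only [mul_add, add_mul, one_mul, mul_one, hC]
    abel
  unfold e1
  rw [smul_mul_smul_comm, key, smul_smul]
  congr 1
  field_simp

theorem e2_mul_e2 (h2 : (2 : K) ≠ 0) {c : G} (hc : c * c = 1) : e2 K c * e2 K c = e2 K c := by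
  have hC := of_mul_self (K := K) hc
  have key : (1 - MonoidAlgebra.of K G c) * (1 - MonoidAlgebra.of K G c) =
      (2 : K) • (1 - MonoidAlgebra.of K G c) := by
    rw [two_smul]
    simp only [mul_sub, sub_mul, one_mul, mul_one, hC]
    abel
  unfold e2
  rw [smul_mul_smul_comm, key, smul_smul]
  congr 1
  field_simp

theorem e1_mul_e2 {c : G} (hc : c * c = 1) : e1 K c * e2 K c = 0 := by
  have hC := of_mul_self (K := K) hc
  have key : (1 + MonoidAlgebra.of K G c) * (1 - MonoidAlgebra.of K G c) = 0 := by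
    simp only [mul_sub, add_mul, one_mul, mul_one, hC]
    abel
  unfold e1 e2
  rw [smul_mul_smul_comm, key, smul_zero]

theorem e2_mul_e1 {c : G} (hc : c * c = 1) : e2 K c * e1 K c = 0 := by
  have hC := of_mul_self (K := K) hc
  have key : (1 - MonoidAlgebra.of K G c) * (1 + MonoidAlgebra.of K G c) = 0 := by
    simp only [mul_add, sub_mul, one_mul, mul_one, hC]
    abel
  unfold e1 e2
  rw [smul_mul_smul_comm, key, smul_zero]

theorem e1_add_e2 (h2 : (2 : K) ≠ 0) (c : G) : e1 K c + e2 K c = 1 := by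
  unfold e1 e2
  rw [← smul_add]
  have : (1 + MonoidAlgebra.of K G c) + (1 - MonoidAlgebra.of K G c) =
      (2 : K) • (1 : MonoidAlgebra K G) := by
    rw [two_smul]; abel
  rw [this, smul_smul, inv_mul_cancel₀ h2, one_smul]

theorem TG_e1_mul_of (t : G → K) (c g : G) :
    TG t (e1 K c * MonoidAlgebra.of K G g) = aT t c g := by
  unfold e1 aT
  rw [smul_mul_assoc, map_smul, add_mul, one_mul, map_add, ← map_mul, TG_of, TG_of, smul_eq_mul]
  ring

theorem TG_e2_mul_of (t : G → K) (c g : G) :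
    TG t (e2 K c * MonoidAlgebra.of K G g) = dT t c g := by
  unfold e2 dT
  rw [smul_mul_assoc, map_smul, sub_mul, one_mul, map_sub, ← map_mul, TG_of, TG_of, smul_eq_mul]
  ring

theorem TG_e1 (h2 : (2 : K) ≠ 0) (hone : t 1 = 2) {c : G} (htc : t c = 0) :
    TG t (e1 K c) = 1 := by
  have := TG_e1_mul_of t c 1
  rw [map_one, mul_one] at this
  rw [this, aT, mul_one, hone, htc, add_zero, div_self h2]

theorem TG_e2 (h2 : (2 : K) ≠ 0) (hone : t 1 = 2) {c : G} (htc : t c = 0) :
    TG t (e2 K c) = 1 := by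
  have := TG_e2_mul_of t c 1
  rw [map_one, mul_one] at this
  rw [this, dT, mul_one, hone, htc, sub_zero, div_self h2]

/-- The group algebra with the linear extension of `t` and the idempotents `(1 ± c) / 2` is an
instance of the abstract set-up. -/
theorem pcData (h2 : (2 : K) ≠ 0) (hone : t 1 = 2) (hcomm : ∀ g h, t (g * h) = t (h * g))
    (hmul : ∀ g h, t (g * h) + (d h : K) * t (g * h⁻¹) = t g * t h)
    {c : G} (hc : c * c = 1) (htc : t c = 0) :
    PCData (TG t) (e1 K c) (e2 K c) where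
  comm := TG_comm hcomm
  pc := TG_pc hcomm hmul
  e₁_sq := e1_mul_e1 h2 hc
  e₂_sq := e2_mul_e2 h2 hc
  e₁e₂ := e1_mul_e2 hc
  e₂e₁ := e2_mul_e1 hc
  sum := e1_add_e2 h2 c
  T₁ := TG_e1 h2 hone htc
  T₂ := TG_e2 h2 hone htc

/-- Wiles' relation `a (g h) = a g * a h + x (g, h)` (this one holds by definition). -/
theorem aT_mul (t : G → K) (c g h : G) :
    aT t c (g * h) = aT t c g * aT t c h + xT t c g h := by
  rw [xT]; ring

section Relations

variable (h2 : (2 : K) ≠ 0) (hone : t 1 = 2) (hcomm : ∀ g h, t (g * h) = t (h * g))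
  (hmul : ∀ g h, t (g * h) + (d h : K) * t (g * h⁻¹) = t g * t h)
  {c : G} (hc : c * c = 1) (htc : t c = 0)

include h2 hone hcomm hmul hc htc

theorem TG_x (g h : G) :
    TG t (e1 K c * (MonoidAlgebra.of K G g * (e2 K c * MonoidAlgebra.of K G h))) =
      xT t c g h := by
  have := (pcData h2 hone hcomm hmul hc htc).a_mul (MonoidAlgebra.of K G g)
    (MonoidAlgebra.of K G h)
  rw [← map_mul, TG_e1_mul_of, TG_e1_mul_of, TG_e1_mul_of] at this
  rw [xT, this]
  ring

/-- Wiles' relation `δ (g h) = δ g * δ h + x (h, g)`. -/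
theorem dT_mul (g h : G) : dT t c (g * h) = dT t c g * dT t c h + xT t c h g := by
  have := (pcData h2 hone hcomm hmul hc htc).d_mul (MonoidAlgebra.of K G g)
    (MonoidAlgebra.of K G h)
  rw [← map_mul, TG_e2_mul_of, TG_e2_mul_of, TG_e2_mul_of,
    TG_x h2 hone hcomm hmul hc htc] at this
  exact this

/-- Wiles' relation `x (g h, k) = a g * x (h, k) + δ h * x (g, k)`. -/
theorem xT_mul_left (g h k : G) :
    xT t c (g * h) k = aT t c g * xT t c h k + dT t c h * xT t c g k := by
  have := (pcData h2 hone hcomm hmul hc htc).x_mul_left (MonoidAlgebra.of K G g)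
    (MonoidAlgebra.of K G h) (MonoidAlgebra.of K G k)
  rw [← map_mul, TG_e1_mul_of, TG_e2_mul_of, TG_x h2 hone hcomm hmul hc htc,
    TG_x h2 hone hcomm hmul hc htc, TG_x h2 hone hcomm hmul hc htc] at this
  exact this

/-- Wiles' relation `x (k, g h) = x (k, g) * a h + δ g * x (k, h)`. -/
theorem xT_mul_right (k g h : G) :
    xT t c k (g * h) = xT t c k g * aT t c h + dT t c g * xT t c k h := by
  have := (pcData h2 hone hcomm hmul hc htc).x_mul_right (MonoidAlgebra.of K G k)
    (MonoidAlgebra.of K G g) (MonoidAlgebra.of K G h)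
  rw [← map_mul, TG_e1_mul_of, TG_e2_mul_of, TG_x h2 hone hcomm hmul hc htc,
    TG_x h2 hone hcomm hmul hc htc, TG_x h2 hone hcomm hmul hc htc] at this
  exact this

/-- Wiles' relation `x (g, h) * x (g', h') = x (g, h') * x (g', h)`. -/
theorem xT_mul_xT (g h g' h' : G) :
    xT t c g h * xT t c g' h' = xT t c g h' * xT t c g' h := by
  have := (pcData h2 hone hcomm hmul hc htc).x_mul_x (MonoidAlgebra.of K G g)
    (MonoidAlgebra.of K G h) (MonoidAlgebra.of K G g') (MonoidAlgebra.of K G h')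
  simp only [TG_x h2 hone hcomm hmul hc htc] at this
  exact this

end Relations

/-! ### Elementary facts about `aT`, `dT`, `xT` -/

theorem aT_add_dT (h2 : (2 : K) ≠ 0) (t : G → K) (c g : G) : aT t c g + dT t c g = t g := by
  unfold aT dT
  field_simp
  ring

theorem aT_one (h2 : (2 : K) ≠ 0) (hone : t 1 = 2) {c : G} (htc : t c = 0) : aT t c 1 = 1 := by
  rw [aT, mul_one, hone, htc, add_zero, div_self h2]

theorem dT_one (h2 : (2 : K) ≠ 0) (hone : t 1 = 2) {c : G} (htc : t c = 0) : dT t c 1 = 1 := by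
  rw [dT, mul_one, hone, htc, sub_zero, div_self h2]

/-- The explicit formula for `x`. -/
theorem four_mul_xT (h2 : (2 : K) ≠ 0) (t : G → K) (c g h : G) :
    4 * xT t c g h = 2 * (t (g * h) + t (c * (g * h)))
      - (t g + t (c * g)) * (t h + t (c * h)) := by
  unfold xT aT
  field_simp
  ring

/-- An element `τ` with `t (τ g) = t g` for all `g` has `a τ = 1`. -/
theorem aT_of_invariant (h2 : (2 : K) ≠ 0) (hone : t 1 = 2)
    (hcomm : ∀ g h, t (g * h) = t (h * g)) {c : G} (htc : t c = 0) {τ : G}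
    (hτ : ∀ g, t (τ * g) = t g) : aT t c τ = 1 := by
  have h1 : t τ = 2 := by rw [← mul_one τ, hτ, hone]
  have h3 : t (c * τ) = 0 := by rw [hcomm, hτ, htc]
  rw [aT, h1, h3, add_zero, div_self h2]

theorem dT_of_invariant (h2 : (2 : K) ≠ 0) (hone : t 1 = 2)
    (hcomm : ∀ g h, t (g * h) = t (h * g)) {c : G} (htc : t c = 0) {τ : G}
    (hτ : ∀ g, t (τ * g) = t g) : dT t c τ = 1 := by
  have h1 : t τ = 2 := by rw [← mul_one τ, hτ, hone]
  have h3 : t (c * τ) = 0 := by rw [hcomm, hτ, htc]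
  rw [dT, h1, h3, sub_zero, div_self h2]

theorem aT_invariant_mul (hcomm : ∀ g h, t (g * h) = t (h * g)) (c : G) {τ : G}
    (hτ : ∀ g, t (τ * g) = t g) (g : G) : aT t c (τ * g) = aT t c g := by
  have h3 : t (c * (τ * g)) = t (c * g) := by
    rw [hcomm c (τ * g), mul_assoc, hτ, hcomm]
  rw [aT, aT, hτ, h3]

theorem aT_mul_invariant (hcomm : ∀ g h, t (g * h) = t (h * g)) (c : G) {τ : G}
    (hτ : ∀ g, t (τ * g) = t g) (g : G) : aT t c (g * τ) = aT t c g := by
  have h1 : t (g * τ) = t g := by rw [hcomm, hτ]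
  have h3 : t (c * (g * τ)) = t (c * g) := by
    rw [← mul_assoc, hcomm (c * g) τ, hτ]
  rw [aT, aT, h1, h3]

theorem xT_invariant_left (h2 : (2 : K) ≠ 0) (hone : t 1 = 2)
    (hcomm : ∀ g h, t (g * h) = t (h * g)) {c : G} (htc : t c = 0) {τ : G}
    (hτ : ∀ g, t (τ * g) = t g) (h : G) : xT t c τ h = 0 := by
  rw [xT, aT_invariant_mul hcomm c hτ, aT_of_invariant h2 hone hcomm htc hτ, one_mul, sub_self]

theorem xT_invariant_right (h2 : (2 : K) ≠ 0) (hone : t 1 = 2)
    (hcomm : ∀ g h, t (g * h) = t (h * g)) {c : G} (htc : t c = 0) {τ : G}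
    (hτ : ∀ g, t (τ * g) = t g) (g : G) : xT t c g τ = 0 := by
  rw [xT, aT_mul_invariant hcomm c hτ, aT_of_invariant h2 hone hcomm htc hτ, mul_one, sub_self]

/-- For a representation with trace `t`, the determinant is `d`. -/
theorem det_eq_of_trace (h2 : (2 : K) ≠ 0) (hone : t 1 = 2)
    (hmul : ∀ g h, t (g * h) + (d h : K) * t (g * h⁻¹) = t g * t h)
    (ρ : G →* Matrix (Fin 2) (Fin 2) K) (htr : ∀ g, (ρ g).trace = t g) (g : G) :
    (ρ g).det = (d g : K) := by
  have h1 : (ρ g * ρ g).trace = t (g * g) := by rw [← map_mul, htr]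
  have h3 := htr g
  have h4 := hmul g g
  rw [mul_inv_cancel, hone] at h4
  rw [Matrix.trace_fin_two] at h1 h3
  simp only [Matrix.mul_apply, Fin.sum_univ_two] at h1
  rw [Matrix.det_fin_two]
  apply mul_left_cancel₀ h2
  linear_combination (t g + ρ g 0 0 + ρ g 1 1) * h3 - h1 - h4

/-! ### The main theorems -/

section Main

variable (h2 : (2 : K) ≠ 0) (hone : t 1 = 2) (hcomm : ∀ g h, t (g * h) = t (h * g))
  (hmul : ∀ g h, t (g * h) + (d h : K) * t (g * h⁻¹) = t g * t h)
  {c : G} (hc : c * c = 1) (htc : t c = 0)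

include h2 hone hcomm hmul hc htc

/-- **(E1)** Wiles' representation attached to any pair `(g₀, h₀)` with `x (g₀, h₀) ≠ 0`. -/
theorem exists_rep_of_xT_ne_zero (g₀ h₀ : G) (hx : xT t c g₀ h₀ ≠ 0) :
    ∃ ρ : G →* Matrix (Fin 2) (Fin 2) K,
      (∀ g, ρ g = !![aT t c g, xT t c g h₀ / xT t c g₀ h₀; xT t c g₀ g, dT t c g]) ∧
      (∀ g, (ρ g).trace = t g) ∧ (∀ g, (ρ g).det = (d g : K)) := by
  have hP := pcData h2 hone hcomm hmul hc htc
  have hx' : TG t (e1 K c * (MonoidAlgebra.of K G g₀ * (e2 K c * MonoidAlgebra.of K G h₀))) ≠ 0 := by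
    rw [TG_x h2 hone hcomm hmul hc htc]; exact hx
  let ρ : G →* Matrix (Fin 2) (Fin 2) K :=
    { toFun := fun g => rhoA (TG t) (e1 K c) (e2 K c) (MonoidAlgebra.of K G g₀)
        (MonoidAlgebra.of K G h₀) (MonoidAlgebra.of K G g)
      map_one' := by rw [map_one]; exact rhoA_one hP _ _
      map_mul' := fun g h => by rw [map_mul]; exact rhoA_mul hP _ _ hx' _ _ }
  have hρ : ∀ g, ρ g = !![aT t c g, xT t c g h₀ / xT t c g₀ h₀; xT t c g₀ g, dT t c g] := by
    intro g
    show rhoA (TG t) (e1 K c) (e2 K c) (MonoidAlgebra.of K G g₀)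
        (MonoidAlgebra.of K G h₀) (MonoidAlgebra.of K G g) = _
    rw [rhoA, TG_e1_mul_of, TG_e2_mul_of, TG_x h2 hone hcomm hmul hc htc,
      TG_x h2 hone hcomm hmul hc htc, TG_x h2 hone hcomm hmul hc htc]
  have htr : ∀ g, (ρ g).trace = t g := by
    intro g
    rw [hρ, Matrix.trace_fin_two_of, aT_add_dT h2]
  exact ⟨ρ, hρ, htr, det_eq_of_trace h2 hone hmul ρ htr⟩

/-- **(E2)** If `x` vanishes identically, `a` and `δ` are characters and `diag (a, δ)` works. -/
theorem exists_rep_of_xT_eq_zero (hx : ∀ g h, xT t c g h = 0) :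
    ∃ ρ : G →* Matrix (Fin 2) (Fin 2) K,
      (∀ g, ρ g = !![aT t c g, 0; 0, dT t c g]) ∧
      (∀ g, (ρ g).trace = t g) ∧ (∀ g, (ρ g).det = (d g : K)) := by
  let ρ : G →* Matrix (Fin 2) (Fin 2) K :=
    { toFun := fun g => !![aT t c g, 0; 0, dT t c g]
      map_one' := by rw [aT_one h2 hone htc, dT_one h2 hone htc, Matrix.one_fin_two]
      map_mul' := fun g h => by
        rw [Matrix.mul_fin_two, aT_mul t c g h,
          dT_mul h2 hone hcomm hmul hc htc g h, hx, hx]
        simp }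
  have hρ : ∀ g, ρ g = !![aT t c g, 0; 0, dT t c g] := fun g => rfl
  have htr : ∀ g, (ρ g).trace = t g := by
    intro g
    rw [hρ, Matrix.trace_fin_two_of, aT_add_dT h2]
  exact ⟨ρ, hρ, htr, det_eq_of_trace h2 hone hmul ρ htr⟩

/-- **(E3)** A two-dimensional pseudo-representation `(t, d)` with a "complex conjugation" `c`
(`c * c = 1`, `t c = 0`) over a field with `2 ≠ 0` is the trace and determinant of a
representation, trivial on every `τ` with `t (τ g) = t g` for all `g`. -/
theorem exists_rep :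
    ∃ ρ : G →* Matrix (Fin 2) (Fin 2) K,
      (∀ g, (ρ g).trace = t g ∧ (ρ g).det = (d g : K)) ∧
      (∀ τ, (∀ g, t (τ * g) = t g) → ρ τ = 1) := by
  by_cases hx : ∀ g h, xT t c g h = 0
  · obtain ⟨ρ, hρ, htr, hdet⟩ := exists_rep_of_xT_eq_zero h2 hone hcomm hmul hc htc hx
    refine ⟨ρ, fun g => ⟨htr g, hdet g⟩, fun τ hτ => ?_⟩
    rw [hρ, aT_of_invariant h2 hone hcomm htc hτ, dT_of_invariant h2 hone hcomm htc hτ,
      Matrix.one_fin_two]
  · obtain ⟨g₀, hx⟩ := not_forall.mp hx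
    obtain ⟨h₀, hx⟩ := not_forall.mp hx
    obtain ⟨ρ, hρ, htr, hdet⟩ := exists_rep_of_xT_ne_zero h2 hone hcomm hmul hc htc g₀ h₀ hx
    refine ⟨ρ, fun g => ⟨htr g, hdet g⟩, fun τ hτ => ?_⟩
    rw [hρ, aT_of_invariant h2 hone hcomm htc hτ, dT_of_invariant h2 hone hcomm htc hτ,
      xT_invariant_left h2 hone hcomm htc hτ, xT_invariant_right h2 hone hcomm htc hτ,
      zero_div, Matrix.one_fin_two]

end Main

end Group

end Fermat.Agent.S30.OddDetC
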