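/-
S30 block [PS-C] — PSConj.lean (helper66).  Mathlib-only.

**From a quadratic relation and a "complex conjugation" to a rank-two lattice.**
`R` a discrete valuation ring with `2 ≠ 0`, `G` a group, `d : G →* Rˣ` a character, `M ≠ 0` a
torsion-free, `𝔪`-adically separated `R`-module (NOT assumed finitely generated) with an action
`π` of `G` such that for every `g`

    (R)   π g + d(g) • π g⁻¹ = t(g) • 1        on `M`,

and `c : G` with `c * c = 1`, `d c = -1`.  Then there is a free `R`-module `V` of rank two with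
an action `ρ` of `G` such that `charpoly ρ(g) = X² − t(g) X + d(g)` for EVERY `g`, together with
two test vectors `y 0, y 1 : M` such that `ρ g ≡ 1 mod 𝔪ⁿ` as soon as `π g (y i) ≡ y i mod 𝔪ⁿ`
and `d g ≡ 1 mod 𝔪ⁿ`.

Proof.  `t c = 0`.  The key identity (from (R) at `g`, `h`, `g h`) with `h = c` reads
`g c + c g = t(g) c + t(g c)`, so for `w` with `c w = ε w` (`ε = ± 1`):
`g w + ε c g w = a_ε(g) w`, `a_ε(g) := t(g) + ε t(g c)`, and `e_{-ε}(g w) := g w − ε c g w` lies
in the `(-ε)`-eigenspace; `2 g w = a_ε(g) w + e_{-ε}(g w)`.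
* If some eigenvector `w ≠ 0` has `e_{-ε}(g w) = 0` for all `g`, the line through `w` is stable,
  `g w = ψ(g) w` with `ψ(g) ∈ R` (a root of `X² − t(g) X + d(g)`, `R` integrally closed), and
  `V := R²` with `ρ := diag(ψ, d ψ⁻¹)`.
* Otherwise there are `w₁` (eigenvalue `ε`), `w₂ := e_{-ε}(h₀ w₁) ≠ 0`, and `g₁` with
  `e_ε(g₁ w₂) ≠ 0`; then `e_ε(g w₂) = B(g) w₁`, `B(g) := 2 a_ε(g h₀) − a_ε(g) a_ε(h₀)`, and
  `B(g₁) e_{-ε}(g w₁) = (2 a_{-ε}(g g₁) − a_{-ε}(g) a_{-ε}(g₁)) w₂`, so the saturation `V` of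
  `R w₁ + R w₂` is `G`-stable; `2 V ⊆ R y₁ + R y₂` for the primitive vectors `y_i` of the two
  lines, so `V` is free of rank two; `tr (c|V) = 0`, and the trace of `g + c g c = t(g) + t(g c) c`
  gives `tr (g|V) = t(g)`, then `det (g|V) = d(g)` by Cayley–Hamilton.
-/
import Mathlib

set_option autoImplicit false

namespace Fermat.Agent.S30.PSConj

open Polynomial Module

section Ring

variable {R : Type*} [CommRing R] {G : Type*} [Group G]
variable {M : Type*} [AddCommGroup M] [Module R M]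
variable (π : G →* Module.End R M) (d : G →* Rˣ) (t : G → R)

/-- (R) pointwise. -/
theorem rel_apply (hR : ∀ g, π g + (d g : R) • π g⁻¹ = t g • (1 : Module.End R M)) (g : G)
    (v : M) : π g v + (d g : R) • π g⁻¹ v = t g • v := by
  have h := congrArg (fun f : Module.End R M => f v) (hR g)
  simpa using h

theorem inv_apply_apply (g : G) (v : M) : π g⁻¹ (π g v) = v := by
  rw [← Module.End.mul_apply, ← map_mul, inv_mul_cancel, map_one, Module.End.one_apply]

/-- The quadratic relation `X² − t X + d = 0` for `X = π g`. -/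
theorem quad_apply (hR : ∀ g, π g + (d g : R) • π g⁻¹ = t g • (1 : Module.End R M)) (g : G)
    (v : M) : π g (π g v) + (d g : R) • v = t g • π g v := by
  have h := rel_apply π d t hR g (π g v)
  rw [inv_apply_apply] at h
  exact h

/-- **Key identity** (pointwise): `X Y + Y X = t(g) Y + t(h) X + (t(gh) − t(g) t(h))`. -/
theorem key_identity (hR : ∀ g, π g + (d g : R) • π g⁻¹ = t g • (1 : Module.End R M))
    (g h : G) (v : M) :
    π g (π h v) + π h (π g v) =
      t g • π h v + t h • π g v + (t (g * h) - t g * t h) • v := by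
  have hgh := rel_apply π d t hR (g * h) v
  rw [map_mul, mul_inv_rev, map_mul, map_mul] at hgh
  simp only [Module.End.mul_apply, Units.val_mul] at hgh
  have hg := rel_apply π d t hR g v
  have hg' : (d g : R) • π g⁻¹ v = t g • v - π g v := by
    rw [← hg]; abel
  have hh := rel_apply π d t hR h ((d g : R) • π g⁻¹ v)
  have e1 : ((d g : R) * (d h : R)) • π h⁻¹ (π g⁻¹ v) =
      (d h : R) • π h⁻¹ ((d g : R) • π g⁻¹ v) := by
    rw [map_smul, smul_smul, mul_comm]
  rw [e1] at hgh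
  have e2 : (d h : R) • π h⁻¹ ((d g : R) • π g⁻¹ v) =
      t h • ((d g : R) • π g⁻¹ v) - π h ((d g : R) • π g⁻¹ v) := by
    rw [← hh]; abel
  rw [e2, hg', map_sub, map_smul, smul_sub, smul_smul] at hgh
  have : π g (π h v) + π h (π g v) =
      t (g * h) • v - (t h * t g) • v + t h • π g v + t g • π h v := by
    rw [← hgh]; abel
  rw [this, sub_smul, mul_comm (t g) (t h)]
  abel

end Ring

section Field

variable {K : Type*} [Field K] {G : Type*} [Group G]
variable {W : Type*} [AddCommGroup W] [Module K W]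
variable (π : G →* Module.End K W) (d : G →* Kˣ) (t : G → K) (c : G)

/-- `a_ε(g) := t(g) + ε t(g c)`. -/
def aE (t : G → K) (c : G) (ε : K) (g : G) : K := t g + ε * t (g * c)

/-- `E_ε(x) := x − ε c x`; it lies in the `(-ε)`-eigenspace of `c`. -/
def eE (π : G →* Module.End K W) (c : G) (ε : K) (x : W) : W := x - ε • π c x

theorem cc_apply (hc : c * c = 1) (v : W) : π c (π c v) = v := by
  rw [← Module.End.mul_apply, ← map_mul, hc, map_one, Module.End.one_apply]

theorem mul_apply' (g h : G) (v : W) : π (g * h) v = π g (π h v) := by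
  rw [map_mul, Module.End.mul_apply]

theorem eE_add (ε : K) (x y : W) : eE π c ε (x + y) = eE π c ε x + eE π c ε y := by
  unfold eE
  rw [map_add]
  module

theorem eE_sub (ε : K) (x y : W) : eE π c ε (x - y) = eE π c ε x - eE π c ε y := by
  unfold eE
  rw [map_sub]
  module

theorem eE_smul (ε a : K) (x : W) : eE π c ε (a • x) = a • eE π c ε x := by
  unfold eE
  rw [map_smul]
  module

/-- `c E_ε(x) = −ε E_ε(x)`. -/
theorem c_eE (hc : c * c = 1) {ε : K} (hε : ε * ε = 1) (x : W) :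
    π c (eE π c ε x) = (-ε) • eE π c ε x := by
  unfold eE
  rw [map_sub, map_smul, cc_apply π c hc]
  have h1 : (ε * ε) • π c x = π c x := by rw [hε, one_smul]
  linear_combination (norm := module) -h1

/-- For an eigenvector `w` of `c` with eigenvalue `ε = ±1`: `g w + ε c g w = a_ε(g) w`. -/
theorem eigen_rel (hR : ∀ g, π g + (d g : K) • π g⁻¹ = t g • (1 : Module.End K W))
    (htc0 : t c = 0) {ε : K} (hε : ε * ε = 1) {w : W} (hw : π c w = ε • w) (g : G) :
    π g w + ε • π c (π g w) = aE t c ε g • w := by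
  have key := key_identity π d t hR g c w
  rw [hw, map_smul, htc0] at key
  have h1 : (ε * ε) • π g w = π g w := by rw [hε, one_smul]
  have h2 : (ε * ε) • w = w := by rw [hε, one_smul]
  unfold aE
  linear_combination (norm := module) ε • key - h1 + t g • h2

/-- `2 g w = a_ε(g) w + E_ε(g w)` for an eigenvector `w` of `c` with eigenvalue `ε`. -/
theorem two_smul_apply (hR : ∀ g, π g + (d g : K) • π g⁻¹ = t g • (1 : Module.End K W))
    (htc0 : t c = 0) {ε : K} (hε : ε * ε = 1) {w : W} (hw : π c w = ε • w) (g : G) :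
    (2 : K) • π g w = aE t c ε g • w + eE π c ε (π g w) := by
  have h := eigen_rel π d t c hR htc0 hε hw g
  unfold eE
  linear_combination (norm := module) h

/-- `E_ε(g w) = a_{-ε}(g) w` for an eigenvector `w` of `c` with eigenvalue `-ε`. -/
theorem eE_apply_of_neg (hR : ∀ g, π g + (d g : K) • π g⁻¹ = t g • (1 : Module.End K W))
    (htc0 : t c = 0) {ε : K} (hε : ε * ε = 1) {w : W} (hw : π c w = (-ε) • w) (g : G) :
    eE π c ε (π g w) = aE t c (-ε) g • w := by
  have h := eigen_rel π d t c hR htc0 (ε := -ε) (by linear_combination hε) hw g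
  unfold eE
  linear_combination (norm := module) h

/-- `B(g) := 2 a_ε(g h₀) − a_ε(g) a_ε(h₀)`. -/
def bE (t : G → K) (c : G) (ε : K) (h₀ g : G) : K :=
  2 * aE t c ε (g * h₀) - aE t c ε g * aE t c ε h₀

/-- With `w₂ := E_ε(h₀ w₁)`: `E_{-ε}(g w₂) = B(g) w₁`. -/
theorem eE_neg_apply (hR : ∀ g, π g + (d g : K) • π g⁻¹ = t g • (1 : Module.End K W))
    (htc0 : t c = 0) {ε : K} (hε : ε * ε = 1) {w₁ : W} (hw₁ : π c w₁ = ε • w₁) (h₀ g : G) :
    eE π c (-ε) (π g (eE π c ε (π h₀ w₁))) = bE t c ε h₀ g • w₁ := by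
  have h0 := two_smul_apply π d t c hR htc0 hε hw₁ h₀
  have e0 : eE π c ε (π h₀ w₁) = (2 : K) • π h₀ w₁ - aE t c ε h₀ • w₁ := by
    linear_combination (norm := module) -h0
  have e1 := eigen_rel π d t c hR htc0 hε hw₁ (g * h₀)
  have e2 := eigen_rel π d t c hR htc0 hε hw₁ g
  rw [mul_apply'] at e1
  rw [e0, map_sub, map_smul, map_smul]
  unfold eE bE
  rw [map_sub, map_smul, map_smul]
  linear_combination (norm := module) (2 : K) • e1 - aE t c ε h₀ • e2

/-- `2 g w₂ = a_{-ε}(g) w₂ + B(g) w₁` for `w₂ := E_ε(h₀ w₁)`. -/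
theorem two_smul_apply₂ (hR : ∀ g, π g + (d g : K) • π g⁻¹ = t g • (1 : Module.End K W))
    (hc : c * c = 1) (htc0 : t c = 0) {ε : K} (hε : ε * ε = 1) {w₁ : W}
    (hw₁ : π c w₁ = ε • w₁) (h₀ g : G) :
    (2 : K) • π g (eE π c ε (π h₀ w₁)) =
      aE t c (-ε) g • eE π c ε (π h₀ w₁) + bE t c ε h₀ g • w₁ := by
  have hw₂ := c_eE π c hc hε (π h₀ w₁)
  have h := two_smul_apply π d t c hR htc0 (ε := -ε) (by linear_combination hε) hw₂ g
  rw [eE_neg_apply π d t c hR htc0 hε hw₁ h₀ g] at h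
  exact h

/-- `B(g₁) E_ε(g w₁) = C(g) w₂`, `C(g) := 2 a_{-ε}(g g₁) − a_{-ε}(g) a_{-ε}(g₁)`. -/
theorem bE_smul_eE (hR : ∀ g, π g + (d g : K) • π g⁻¹ = t g • (1 : Module.End K W))
    (hc : c * c = 1) (htc0 : t c = 0) {ε : K} (hε : ε * ε = 1) {w₁ : W}
    (hw₁ : π c w₁ = ε • w₁) (h₀ g₁ g : G) :
    bE t c ε h₀ g₁ • eE π c ε (π g w₁) =
      (2 * aE t c (-ε) (g * g₁) - aE t c (-ε) g * aE t c (-ε) g₁) • eE π c ε (π h₀ w₁) := by
  set w₂ := eE π c ε (π h₀ w₁) with hw₂def
  have hw₂ : π c w₂ = (-ε) • w₂ := c_eE π c hc hε (π h₀ w₁)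
  have h1 := two_smul_apply₂ π d t c hR hc htc0 hε hw₁ h₀ g₁
  rw [← hw₂def] at h1
  -- B(g₁) w₁ = 2 g₁ w₂ − a_{-ε}(g₁) w₂
  have e0 : bE t c ε h₀ g₁ • w₁ = (2 : K) • π g₁ w₂ - aE t c (-ε) g₁ • w₂ := by
    linear_combination (norm := module) -h1
  have e1 := eE_apply_of_neg π d t c hR htc0 hε hw₂ (g * g₁)
  have e2 := eE_apply_of_neg π d t c hR htc0 hε hw₂ g
  rw [mul_apply'] at e1
  have e3 : bE t c ε h₀ g₁ • eE π c ε (π g w₁) = eE π c ε (π g (bE t c ε h₀ g₁ • w₁)) := by
    rw [map_smul, eE_smul]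
  rw [e3, e0, map_sub, map_smul, map_smul, eE_sub, eE_smul, eE_smul, e1, e2]
  module

end Field

section Entries

variable {K : Type*} [Field K] {G : Type*} [Group G] (t : G → K) (c : G)

theorem aE_add_neg (ε : K) (g : G) : aE t c ε g + aE t c (-ε) g = 2 * t g := by
  unfold aE
  ring

/-- If `t (τ g) = t g` for all `g`, then `a_ε(τ x) = a_ε(x)`. -/
theorem aE_mul_of_inv {τ : G} (hτ : ∀ g, t (τ * g) = t g) (ε : K) (x : G) :
    aE t c ε (τ * x) = aE t c ε x := by
  unfold aE
  rw [hτ, mul_assoc, hτ]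

/-- If `t (τ g) = t g` for all `g`, then `a_ε(τ) = 2`. -/
theorem aE_of_inv (ht1 : t 1 = 2) (htc0 : t c = 0) {τ : G} (hτ : ∀ g, t (τ * g) = t g) (ε : K) :
    aE t c ε τ = 2 := by
  have h1 := hτ 1
  have h2 := hτ c
  rw [mul_one] at h1
  unfold aE
  rw [h1, h2, ht1, htc0]
  ring

theorem bE_of_inv (ht1 : t 1 = 2) (htc0 : t c = 0) {τ : G} (hτ : ∀ g, t (τ * g) = t g) (ε : K)
    (h₀ : G) : bE t c ε h₀ τ = 0 := by
  unfold bE
  rw [aE_mul_of_inv t c hτ, aE_of_inv t c ht1 htc0 hτ]
  ring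

variable (A : Subring K)

theorem aE_mem (hA : ∀ g, t g ∈ A) {ε : K} (hε : ε ∈ A) (g : G) : aE t c ε g ∈ A :=
  A.add_mem (hA g) (A.mul_mem hε (hA _))

theorem bE_mem (hA : ∀ g, t g ∈ A) {ε : K} (hε : ε ∈ A) (h₀ g : G) : bE t c ε h₀ g ∈ A := by
  have h2 : (2 : K) ∈ A := by
    have : (2 : K) = 1 + 1 := by norm_num
    rw [this]
    exact A.add_mem A.one_mem A.one_mem
  exact A.sub_mem (A.mul_mem h2 (aE_mem t c A hA hε _))
    (A.mul_mem (aE_mem t c A hA hε _) (aE_mem t c A hA hε _))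

variable (I : AddSubgroup K)

/-- `a_ε(σ x) − a_ε(x) ∈ I` if `t (σ g) − t g ∈ I` for all `g`. -/
theorem aE_sub_mem (hI : ∀ a ∈ A, ∀ x ∈ I, a * x ∈ I) {σ : G} (hσ : ∀ g, t (σ * g) - t g ∈ I)
    {ε : K} (hε : ε ∈ A) (x : G) : aE t c ε (σ * x) - aE t c ε x ∈ I := by
  have e : aE t c ε (σ * x) - aE t c ε x =
      (t (σ * x) - t x) + ε * (t (σ * (x * c)) - t (x * c)) := by
    unfold aE
    rw [mul_assoc]
    ring
  rw [e]
  exact I.add_mem (hσ x) (hI ε hε _ (hσ _))

/-- `a_ε(σ) − 2 ∈ I` if `t (σ g) − t g ∈ I` for all `g`. -/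
theorem aE_sub_two_mem (ht1 : t 1 = 2) (htc0 : t c = 0) (hI : ∀ a ∈ A, ∀ x ∈ I, a * x ∈ I)
    {σ : G} (hσ : ∀ g, t (σ * g) - t g ∈ I) {ε : K} (hε : ε ∈ A) : aE t c ε σ - 2 ∈ I := by
  have h := aE_sub_mem t c A I hI hσ hε 1
  have e : aE t c ε 1 = 2 := by
    unfold aE
    rw [one_mul, ht1, htc0]
    ring
  rwa [mul_one, e] at h

/-- `B(σ) ∈ I` if `t (σ g) − t g ∈ I` for all `g`. -/
theorem bE_mem_of_sub (ht1 : t 1 = 2) (htc0 : t c = 0) (hA : ∀ g, t g ∈ A)
    (hI : ∀ a ∈ A, ∀ x ∈ I, a * x ∈ I)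
    {σ : G} (hσ : ∀ g, t (σ * g) - t g ∈ I) {ε : K} (hε : ε ∈ A) (h₀ : G) :
    bE t c ε h₀ σ ∈ I := by
  have h2 : (2 : K) ∈ A := by
    have : (2 : K) = 1 + 1 := by norm_num
    rw [this]
    exact A.add_mem A.one_mem A.one_mem
  have e : bE t c ε h₀ σ = 2 * (aE t c ε (σ * h₀) - aE t c ε h₀) -
      aE t c ε h₀ * (aE t c ε σ - 2) := by
    unfold bE
    ring
  rw [e]
  exact I.sub_mem (hI 2 h2 _ (aE_sub_mem t c A I hI hσ hε h₀))
    (hI _ (aE_mem t c A hA hε h₀) _ (aE_sub_two_mem t c A I ht1 htc0 hI hσ hε))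

end Entries

section Rep

variable {K : Type*} [Field K] {G : Type*} [Group G]

/-- Cayley–Hamilton for `2 × 2` matrices. -/
theorem mul_self_fin_two (M : Matrix (Fin 2) (Fin 2) K) :
    M * M = M.trace • M - M.det • (1 : Matrix (Fin 2) (Fin 2) K) := by
  ext i j
  fin_cases i <;> fin_cases j <;>
    simp [Matrix.mul_apply, Fin.sum_univ_two, Matrix.trace_fin_two, Matrix.det_fin_two] <;> ring

/-- **The output package**: `ρ` has trace `t` and determinant `d`, is trivial on every `τ`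
with `t (τ g) = t g` for all `g`, and — whenever `t` takes its values in a subring `A` — has
bounded denominators (`r • ρ(g) ∈ M₂(A)` for one `r ≠ 0` in `A`) and is "trace-continuous":
`r • (ρ(σ) − 1) ∈ M₂(I)` for every `A`-submodule `I` of `K` containing all `t (σ g) − t g`. -/
def Good (t : G → K) (d : G →* Kˣ) (ρ : G →* Matrix (Fin 2) (Fin 2) K) : Prop :=
  (∀ g, (ρ g).trace = t g) ∧ (∀ g, (ρ g).det = (d g : K)) ∧
  (∀ τ, (∀ g, t (τ * g) = t g) → ρ τ = 1) ∧
  ∀ A : Subring K, (∀ g, t g ∈ A) → ∃ r ∈ A, r ≠ 0 ∧ (∀ g i j, r * ρ g i j ∈ A) ∧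
    ∀ I : AddSubgroup K, (∀ a ∈ A, ∀ x ∈ I, a * x ∈ I) → ∀ σ, (∀ g, t (σ * g) - t g ∈ I) →
      ∀ i j, r * (ρ σ - 1) i j ∈ I

variable {W : Type*} [AddCommGroup W] [Module K W]

theorem matrix_ext_of_action (v : Fin 2 → W) (hv : LinearIndependent K v)
    (P Q : Matrix (Fin 2) (Fin 2) K) (h : ∀ j, ∑ i, P i j • v i = ∑ i, Q i j • v i) : P = Q := by
  ext i j
  have h0 : ∑ i, (P i j - Q i j) • v i = 0 := by
    simp only [sub_smul, Finset.sum_sub_distrib]
    rw [h j, sub_self]
  have := Fintype.linearIndependent_iff.mp hv (fun i => P i j - Q i j) h0 i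
  exact sub_eq_zero.mp this

/-- The matrices of an action on an independent family form a monoid homomorphism. -/
theorem exists_monoidHom_of_action (π : G →* Module.End K W) (v : Fin 2 → W)
    (hv : LinearIndependent K v) (M : G → Matrix (Fin 2) (Fin 2) K)
    (hM : ∀ g j, π g (v j) = ∑ i, M g i j • v i) :
    ∃ ρ : G →* Matrix (Fin 2) (Fin 2) K, ∀ g, ρ g = M g := by
  refine ⟨{ toFun := M, map_one' := ?_, map_mul' := ?_ }, fun g => rfl⟩
  · apply matrix_ext_of_action v hv
    intro j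
    rw [← hM 1 j, map_one, Module.End.one_apply]
    simp [Matrix.one_apply]
  · intro g h
    apply matrix_ext_of_action v hv
    intro j
    rw [← hM (g * h) j, map_mul, Module.End.mul_apply, hM h j, map_sum]
    simp only [map_smul, hM g, Matrix.mul_apply, Finset.smul_sum, smul_smul, Finset.sum_smul]
    rw [Finset.sum_comm]
    refine Finset.sum_congr rfl fun i _ => Finset.sum_congr rfl fun k _ => ?_
    rw [mul_comm]

/-- The matrices of an action with (R) satisfy `M² + d = t M`. -/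
theorem matrix_quad (π : G →* Module.End K W) (d : G →* Kˣ) (t : G → K)
    (hR : ∀ g, π g + (d g : K) • π g⁻¹ = t g • (1 : Module.End K W))
    (v : Fin 2 → W) (hv : LinearIndependent K v) (M : G → Matrix (Fin 2) (Fin 2) K)
    (hM : ∀ g j, π g (v j) = ∑ i, M g i j • v i) (g : G) :
    M g * M g + (d g : K) • (1 : Matrix (Fin 2) (Fin 2) K) = t g • M g := by
  apply matrix_ext_of_action v hv
  intro j
  have hq := quad_apply π d t hR g (v j)
  have e1 : ∑ i, (M g * M g) i j • v i = π g (π g (v j)) := by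
    rw [hM g j, map_sum]
    simp only [map_smul, hM g, Matrix.mul_apply, Finset.smul_sum, smul_smul, Finset.sum_smul]
    rw [Finset.sum_comm]
    refine Finset.sum_congr rfl fun i _ => Finset.sum_congr rfl fun k _ => ?_
    rw [mul_comm]
  have e2 : ∑ i, ((d g : K) • (1 : Matrix (Fin 2) (Fin 2) K)) i j • v i = (d g : K) • v j := by
    simp [Matrix.one_apply]
  have e3 : ∑ i, (t g • M g) i j • v i = t g • π g (v j) := by
    rw [hM g j, Finset.smul_sum]
    simp [smul_smul]
  simp only [Matrix.add_apply, add_smul, Finset.sum_add_distrib]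
  rw [e1, e2, e3, hq]

/-- Trace `t` and (R) give determinant `d`. -/
theorem det_eq_of_quad (M : Matrix (Fin 2) (Fin 2) K) (tt dd : K) (htr : M.trace = tt)
    (hq : M * M + dd • (1 : Matrix (Fin 2) (Fin 2) K) = tt • M) : M.det = dd := by
  have h := mul_self_fin_two M
  rw [htr] at h
  rw [h] at hq
  have h00 := congrFun (congrFun hq 0) 0
  simp only [Matrix.add_apply, Matrix.sub_apply, Matrix.smul_apply, Matrix.one_apply_eq,
    smul_eq_mul, mul_one] at h00
  linear_combination -h00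

theorem two_mem (A : Subring K) : (2 : K) ∈ A := by
  have : (2 : K) = 1 + 1 := by norm_num
  rw [this]
  exact A.add_mem A.one_mem A.one_mem

theorem eps_mem (A : Subring K) {ε : K} (hε : ε = 1 ∨ ε = -1) : ε ∈ A := by
  rcases hε with rfl | rfl
  · exact A.one_mem
  · exact A.neg_mem A.one_mem

theorem eps_mul_self {ε : K} (hε : ε = 1 ∨ ε = -1) : ε * ε = 1 := by
  rcases hε with rfl | rfl <;> ring

theorem neg_eps {ε : K} (hε : ε = 1 ∨ ε = -1) : -ε = 1 ∨ -ε = -1 := by
  rcases hε with rfl | rfl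
  · exact Or.inr rfl
  · exact Or.inl (neg_neg 1)

/-- **The plane case.** -/
theorem good_of_plane (h2 : (2 : K) ≠ 0) (π : G →* Module.End K W) (d : G →* Kˣ) (t : G → K)
    (c : G) (hR : ∀ g, π g + (d g : K) • π g⁻¹ = t g • (1 : Module.End K W))
    (hc : c * c = 1) (ht1 : t 1 = 2) (htc0 : t c = 0) {ε : K} (hε : ε = 1 ∨ ε = -1)
    {w₁ : W} (hw₁0 : w₁ ≠ 0) (hw₁ : π c w₁ = ε • w₁) (h₀ g₁ : G)
    (hw₂0 : eE π c ε (π h₀ w₁) ≠ 0)
    (hb : eE π c (-ε) (π g₁ (eE π c ε (π h₀ w₁))) ≠ 0) :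
    ∃ ρ : G →* Matrix (Fin 2) (Fin 2) K, Good t d ρ := by
  have hεε : ε * ε = 1 := eps_mul_self hε
  have hε0 : ε ≠ 0 := by
    rintro rfl
    simp at hεε
  set w₂ : W := eE π c ε (π h₀ w₁) with hw₂def
  have hw₂ : π c w₂ = (-ε) • w₂ := c_eE π c hc hεε (π h₀ w₁)
  set b : K := bE t c ε h₀ g₁ with hbdef
  have hb0 : b ≠ 0 := by
    intro h0
    apply hb
    rw [eE_neg_apply π d t c hR htc0 hεε hw₁ h₀ g₁, ← hbdef, h0, zero_smul]
  -- the matrices
  set M : G → Matrix (Fin 2) (Fin 2) K := fun g =>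
    !![aE t c ε g / 2, bE t c ε h₀ g / 2; bE t c (-ε) g₁ g / (2 * b), aE t c (-ε) g / 2] with hMdef
  set v : Fin 2 → W := ![w₁, w₂] with hvdef
  have hv : LinearIndependent K v := by
    rw [hvdef, LinearIndependent.pair_iff]
    intro x y hxy
    have h1 := congrArg (π c) hxy
    rw [map_add, map_smul, map_smul, hw₁, hw₂, map_zero] at h1
    -- x ε w₁ − y ε w₂ = 0 and x w₁ + y w₂ = 0
    have hx : ((2 : K) * ε * x) • w₁ = 0 := by
      linear_combination (norm := module) h1 + ε • hxy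
    have hy : ((2 : K) * ε * y) • w₂ = 0 := by
      linear_combination (norm := module) -h1 + ε • hxy
    have hne : (2 : K) * ε ≠ 0 := mul_ne_zero h2 hε0
    constructor
    · rcases smul_eq_zero.mp hx with h | h
      · exact (mul_eq_zero.mp h).resolve_left hne
      · exact absurd h hw₁0
    · rcases smul_eq_zero.mp hy with h | h
      · exact (mul_eq_zero.mp h).resolve_left hne
      · exact absurd h hw₂0
  have hM : ∀ g j, π g (v j) = ∑ i, M g i j • v i := by
    intro g j
    fin_cases j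
    · -- first column
      have h1 := two_smul_apply π d t c hR htc0 hεε hw₁ g
      have h3 := bE_smul_eE π d t c hR hc htc0 hεε hw₁ h₀ g₁ g
      rw [← hbdef, ← hw₂def] at h3
      have h4 : eE π c ε (π g w₁) = (b⁻¹ * bE t c (-ε) g₁ g) • w₂ := by
        have : eE π c ε (π g w₁) = b⁻¹ • (b • eE π c ε (π g w₁)) := by
          rw [smul_smul, inv_mul_cancel₀ hb0, one_smul]
        rw [this, h3, smul_smul]
        rfl
      rw [h4] at h1
      have h5 : π g w₁ = (2 : K)⁻¹ • ((2 : K) • π g w₁) := by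
        rw [smul_smul, inv_mul_cancel₀ h2, one_smul]
      simp only [hMdef, hvdef, Fin.sum_univ_two, Fin.zero_eta, Matrix.of_apply,
        Matrix.cons_val', Matrix.cons_val_zero, Matrix.cons_val_fin_one, Matrix.cons_val_one]
      rw [h5, h1]
      match_scalars <;> field_simp
    · -- second column
      have h1 := two_smul_apply₂ π d t c hR hc htc0 hεε hw₁ h₀ g
      rw [← hw₂def] at h1
      have h5 : π g w₂ = (2 : K)⁻¹ • ((2 : K) • π g w₂) := by
        rw [smul_smul, inv_mul_cancel₀ h2, one_smul]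
      simp only [hMdef, hvdef, Fin.sum_univ_two, Fin.mk_one, Matrix.of_apply,
        Matrix.cons_val', Matrix.cons_val_zero, Matrix.cons_val_fin_one, Matrix.cons_val_one]
      rw [h5, h1]
      match_scalars <;> field_simp
  obtain ⟨ρ, hρ⟩ := exists_monoidHom_of_action π v hv M hM
  have htr : ∀ g, (ρ g).trace = t g := by
    intro g
    rw [hρ, Matrix.trace_fin_two]
    simp only [hMdef, Matrix.of_apply, Matrix.cons_val', Matrix.cons_val_zero,
      Matrix.cons_val_fin_one, Matrix.cons_val_one]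
    have := aE_add_neg t c ε g
    field_simp
    linear_combination this
  refine ⟨ρ, htr, ?_, ?_, ?_⟩
  · intro g
    refine det_eq_of_quad (ρ g) (t g) (d g : K) (htr g) ?_
    rw [hρ]
    exact matrix_quad π d t hR v hv M hM g
  · intro τ hτ
    rw [hρ]
    have ha1 := aE_of_inv t c ht1 htc0 hτ ε
    have ha2 := aE_of_inv t c ht1 htc0 hτ (-ε)
    have hb1 := bE_of_inv t c ht1 htc0 hτ ε h₀
    have hb2 := bE_of_inv t c ht1 htc0 hτ (-ε) g₁
    ext i j
    fin_cases i <;> fin_cases j <;> simp [hMdef, ha1, ha2, hb1, hb2, h2]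
  · intro A hA
    have hεA : ε ∈ A := eps_mem A hε
    have hεA' : -ε ∈ A := A.neg_mem hεA
    have hbA : b ∈ A := bE_mem t c A hA hεA h₀ g₁
    refine ⟨2 * b, A.mul_mem (two_mem A) hbA, mul_ne_zero h2 hb0, ?_, ?_⟩
    · intro g i j
      rw [hρ]
      fin_cases i <;> fin_cases j
      · have : 2 * b * M g 0 0 = b * aE t c ε g := by
          simp only [hMdef, Matrix.of_apply, Matrix.cons_val', Matrix.cons_val_zero,
            Matrix.cons_val_fin_one]
          field_simp
        show 2 * b * M g 0 0 ∈ A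
        rw [this]
        exact A.mul_mem hbA (aE_mem t c A hA hεA g)
      · have : 2 * b * M g 0 1 = b * bE t c ε h₀ g := by
          simp only [hMdef, Matrix.of_apply, Matrix.cons_val', Matrix.cons_val_zero,
            Matrix.cons_val_fin_one, Matrix.cons_val_one]
          field_simp
        show 2 * b * M g 0 1 ∈ A
        rw [this]
        exact A.mul_mem hbA (bE_mem t c A hA hεA h₀ g)
      · have : 2 * b * M g 1 0 = bE t c (-ε) g₁ g := by
          simp only [hMdef, Matrix.of_apply, Matrix.cons_val', Matrix.cons_val_zero,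
            Matrix.cons_val_fin_one, Matrix.cons_val_one]
          field_simp
        show 2 * b * M g 1 0 ∈ A
        rw [this]
        exact bE_mem t c A hA hεA' g₁ g
      · have : 2 * b * M g 1 1 = b * aE t c (-ε) g := by
          simp only [hMdef, Matrix.of_apply, Matrix.cons_val',
            Matrix.cons_val_fin_one, Matrix.cons_val_one]
          field_simp
        show 2 * b * M g 1 1 ∈ A
        rw [this]
        exact A.mul_mem hbA (aE_mem t c A hA hεA' g)
    · intro I hI σ hσ i j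
      rw [hρ]
      fin_cases i <;> fin_cases j
      · have : 2 * b * (M σ - 1) 0 0 = b * (aE t c ε σ - 2) := by
          simp only [hMdef, Matrix.sub_apply, Matrix.of_apply, Matrix.cons_val',
            Matrix.cons_val_zero, Matrix.cons_val_fin_one, Matrix.one_apply_eq]
          field_simp
        show 2 * b * (M σ - 1) 0 0 ∈ I
        rw [this]
        exact hI b hbA _ (aE_sub_two_mem t c A I ht1 htc0 hI hσ hεA)
      · have : 2 * b * (M σ - 1) 0 1 = b * bE t c ε h₀ σ := by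
          simp only [hMdef, Matrix.sub_apply, Matrix.of_apply, Matrix.cons_val',
            Matrix.cons_val_zero, Matrix.cons_val_fin_one, Matrix.cons_val_one]
          simp
          field_simp
        show 2 * b * (M σ - 1) 0 1 ∈ I
        rw [this]
        exact hI b hbA _ (bE_mem_of_sub t c A I ht1 htc0 hA hI hσ hεA h₀)
      · have : 2 * b * (M σ - 1) 1 0 = bE t c (-ε) g₁ σ := by
          simp only [hMdef, Matrix.sub_apply, Matrix.of_apply, Matrix.cons_val',
            Matrix.cons_val_zero, Matrix.cons_val_fin_one, Matrix.cons_val_one]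
          simp
          field_simp
        show 2 * b * (M σ - 1) 1 0 ∈ I
        rw [this]
        exact bE_mem_of_sub t c A I ht1 htc0 hA hI hσ hεA' g₁
      · have : 2 * b * (M σ - 1) 1 1 = b * (aE t c (-ε) σ - 2) := by
          simp only [hMdef, Matrix.sub_apply, Matrix.of_apply, Matrix.cons_val',
            Matrix.cons_val_fin_one, Matrix.cons_val_one,
            Matrix.one_apply_eq]
          field_simp
        show 2 * b * (M σ - 1) 1 1 ∈ I
        rw [this]
        exact hI b hbA _ (aE_sub_two_mem t c A I ht1 htc0 hI hσ hεA')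

/-- **The line case.** -/
theorem good_of_line (h2 : (2 : K) ≠ 0) (π : G →* Module.End K W) (d : G →* Kˣ) (t : G → K)
    (c : G) (hR : ∀ g, π g + (d g : K) • π g⁻¹ = t g • (1 : Module.End K W))
    (ht1 : t 1 = 2) (htc0 : t c = 0) {ε : K} (hε : ε = 1 ∨ ε = -1)
    {w : W} (hw0 : w ≠ 0) (hw : π c w = ε • w) (hline : ∀ g, eE π c ε (π g w) = 0) :
    ∃ ρ : G →* Matrix (Fin 2) (Fin 2) K, Good t d ρ := by
  have hεε : ε * ε = 1 := eps_mul_self hε
  set ψ : G → K := fun g => aE t c ε g / 2 with hψdef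
  set χ₂ : G → K := fun g => aE t c (-ε) g / 2 with hχdef
  have hψ : ∀ g, π g w = ψ g • w := by
    intro g
    have h1 := two_smul_apply π d t c hR htc0 hεε hw g
    rw [hline g, add_zero] at h1
    have h5 : π g w = (2 : K)⁻¹ • ((2 : K) • π g w) := by
      rw [smul_smul, inv_mul_cancel₀ h2, one_smul]
    rw [h5, h1, smul_smul, hψdef]
    congr 1
    field_simp
  have hinj : ∀ x y : K, x • w = y • w → x = y := by
    intro x y h
    have h0 : (x - y) • w = 0 := by rw [sub_smul, h, sub_self]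
    rcases smul_eq_zero.mp h0 with h1 | h1
    · exact sub_eq_zero.mp h1
    · exact absurd h1 hw0
  have hψ1 : ψ 1 = 1 := by
    apply hinj
    rw [← hψ 1, map_one, Module.End.one_apply, one_smul]
  have hψmul : ∀ g h, ψ (g * h) = ψ g * ψ h := by
    intro g h
    apply hinj
    rw [← hψ (g * h), map_mul, Module.End.mul_apply, hψ h, map_smul, hψ g, smul_smul, mul_comm]
  have hsum : ∀ g, ψ g + χ₂ g = t g := by
    intro g
    have := aE_add_neg t c ε g
    simp only [hψdef, hχdef]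
    field_simp
    linear_combination this
  have hrel : ∀ g, ψ g + (d g : K) * ψ g⁻¹ = t g := by
    intro g
    apply hinj
    have h := rel_apply π d t hR g w
    rw [hψ g, hψ g⁻¹, smul_smul] at h
    rw [add_smul, h]
  have hχ : ∀ g, χ₂ g = (d g : K) * ψ g⁻¹ := by
    intro g
    linear_combination hsum g - hrel g
  have hχ1 : χ₂ 1 = 1 := by
    rw [hχ, inv_one, hψ1, map_one, Units.val_one, mul_one]
  have hχmul : ∀ g h, χ₂ (g * h) = χ₂ g * χ₂ h := by
    intro g h
    rw [hχ, hχ, hχ, mul_inv_rev, hψmul, map_mul, Units.val_mul]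
    ring
  let ρ : G →* Matrix (Fin 2) (Fin 2) K :=
    { toFun := fun g => !![ψ g, 0; 0, χ₂ g]
      map_one' := by
        ext i j
        fin_cases i <;> fin_cases j <;> simp [hψ1, hχ1]
      map_mul' := by
        intro g h
        ext i j
        fin_cases i <;> fin_cases j <;> simp [Matrix.mul_apply, Fin.sum_univ_two, hψmul, hχmul] }
  have hρ : ∀ g, ρ g = !![ψ g, 0; 0, χ₂ g] := fun g => rfl
  refine ⟨ρ, ?_, ?_, ?_, ?_⟩
  · intro g
    rw [hρ, Matrix.trace_fin_two]
    simpa using hsum g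
  · intro g
    rw [hρ, Matrix.det_fin_two]
    have h1 : ψ g * ψ g⁻¹ = 1 := by rw [← hψmul, mul_inv_cancel, hψ1]
    simp only [Matrix.of_apply, Matrix.cons_val', Matrix.cons_val_zero, Matrix.cons_val_fin_one,
      Matrix.cons_val_one, mul_zero, sub_zero]
    rw [hχ]
    linear_combination (d g : K) * h1
  · intro τ hτ
    rw [hρ]
    have ha1 := aE_of_inv t c ht1 htc0 hτ ε
    have ha2 := aE_of_inv t c ht1 htc0 hτ (-ε)
    ext i j
    fin_cases i <;> fin_cases j <;> simp [hψdef, hχdef, ha1, ha2, h2]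
  · intro A hA
    have hεA : ε ∈ A := eps_mem A hε
    have hεA' : -ε ∈ A := A.neg_mem hεA
    refine ⟨2, two_mem A, h2, ?_, ?_⟩
    · intro g i j
      rw [hρ]
      fin_cases i <;> fin_cases j
      · have : (2 : K) * (!![ψ g, 0; 0, χ₂ g] : Matrix (Fin 2) (Fin 2) K) 0 0 = aE t c ε g := by
          simp only [hψdef, Matrix.of_apply, Matrix.cons_val', Matrix.cons_val_zero,
            Matrix.cons_val_fin_one]
          field_simp
        show (2 : K) * (!![ψ g, 0; 0, χ₂ g] : Matrix (Fin 2) (Fin 2) K) 0 0 ∈ A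
        rw [this]
        exact aE_mem t c A hA hεA g
      · show (2 : K) * (!![ψ g, 0; 0, χ₂ g] : Matrix (Fin 2) (Fin 2) K) 0 1 ∈ A
        simp
      · show (2 : K) * (!![ψ g, 0; 0, χ₂ g] : Matrix (Fin 2) (Fin 2) K) 1 0 ∈ A
        simp
      · have : (2 : K) * (!![ψ g, 0; 0, χ₂ g] : Matrix (Fin 2) (Fin 2) K) 1 1 = aE t c (-ε) g := by
          simp only [hχdef, Matrix.of_apply, Matrix.cons_val', Matrix.cons_val_fin_one,
            Matrix.cons_val_one]
          field_simp
        show (2 : K) * (!![ψ g, 0; 0, χ₂ g] : Matrix (Fin 2) (Fin 2) K) 1 1 ∈ A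
        rw [this]
        exact aE_mem t c A hA hεA' g
    · intro I hI σ hσ i j
      rw [hρ]
      fin_cases i <;> fin_cases j
      · have : (2 : K) * ((!![ψ σ, 0; 0, χ₂ σ] : Matrix (Fin 2) (Fin 2) K) - 1) 0 0 =
            aE t c ε σ - 2 := by
          simp only [hψdef, Matrix.sub_apply, Matrix.of_apply, Matrix.cons_val',
            Matrix.cons_val_zero, Matrix.cons_val_fin_one, Matrix.one_apply_eq]
          field_simp
        show (2 : K) * ((!![ψ σ, 0; 0, χ₂ σ] : Matrix (Fin 2) (Fin 2) K) - 1) 0 0 ∈ I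
        rw [this]
        exact aE_sub_two_mem t c A I ht1 htc0 hI hσ hεA
      · show (2 : K) * ((!![ψ σ, 0; 0, χ₂ σ] : Matrix (Fin 2) (Fin 2) K) - 1) 0 1 ∈ I
        simp
      · show (2 : K) * ((!![ψ σ, 0; 0, χ₂ σ] : Matrix (Fin 2) (Fin 2) K) - 1) 1 0 ∈ I
        simp
      · have : (2 : K) * ((!![ψ σ, 0; 0, χ₂ σ] : Matrix (Fin 2) (Fin 2) K) - 1) 1 1 =
            aE t c (-ε) σ - 2 := by
          simp only [hχdef, Matrix.sub_apply, Matrix.of_apply, Matrix.cons_val',
            Matrix.cons_val_fin_one, Matrix.cons_val_one, Matrix.one_apply_eq]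
          field_simp
        show (2 : K) * ((!![ψ σ, 0; 0, χ₂ σ] : Matrix (Fin 2) (Fin 2) K) - 1) 1 1 ∈ I
        rw [this]
        exact aE_sub_two_mem t c A I ht1 htc0 hI hσ hεA'

/-- **[PS-C], module form.**  A nonzero module `W` (of any dimension) over a field of
characteristic `≠ 2` with an action of `G` satisfying (R), and `c` with `c * c = 1`,
`t c = 0`, gives a `2 × 2` matrix representation with trace `t` and determinant `d`. -/
theorem exists_good_of_module (h2 : (2 : K) ≠ 0) (π : G →* Module.End K W) (d : G →* Kˣ)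
    (t : G → K) (c : G) (hR : ∀ g, π g + (d g : K) • π g⁻¹ = t g • (1 : Module.End K W))
    (hc : c * c = 1) (ht1 : t 1 = 2) (htc0 : t c = 0) (hW : ∃ w : W, w ≠ 0) :
    ∃ ρ : G →* Matrix (Fin 2) (Fin 2) K, Good t d ρ := by
  obtain ⟨w, hw0⟩ := hW
  -- an eigenvector of `c`
  obtain ⟨ε, w₁, hε, hw₁0, hw₁⟩ : ∃ (ε : K) (w₁ : W), (ε = 1 ∨ ε = -1) ∧ w₁ ≠ 0 ∧
      π c w₁ = ε • w₁ := by
    by_cases h : w + π c w = 0
    · refine ⟨-1, w, Or.inr rfl, hw0, ?_⟩
      rw [neg_one_smul]
      exact (eq_neg_of_add_eq_zero_right h)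
    · refine ⟨1, w + π c w, Or.inl rfl, h, ?_⟩
      rw [map_add, cc_apply π c hc, one_smul, add_comm]
  by_cases hline : ∃ (ε : K) (w : W), (ε = 1 ∨ ε = -1) ∧ w ≠ 0 ∧ π c w = ε • w ∧
      ∀ g, eE π c ε (π g w) = 0
  · obtain ⟨ε', w', hε', hw'0, hw', hl⟩ := hline
    exact good_of_line h2 π d t c hR ht1 htc0 hε' hw'0 hw' hl
  · push Not at hline
    obtain ⟨h₀, hh₀⟩ := hline ε w₁ hε hw₁0 hw₁
    have hεε : ε * ε = 1 := eps_mul_self hε
    have hw₂ : π c (eE π c ε (π h₀ w₁)) = (-ε) • eE π c ε (π h₀ w₁) :=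
      c_eE π c hc hεε (π h₀ w₁)
    obtain ⟨g₁, hg₁⟩ := hline (-ε) (eE π c ε (π h₀ w₁)) (neg_eps hε) hh₀ hw₂
    exact good_of_plane h2 π d t c hR hc ht1 htc0 hε hw₁0 hw₁ h₀ g₁ hh₀ hg₁

end Rep

section Pseudo

variable {K : Type*} [Field K] {G : Type*} [Group G]

/-- Right translation: the action `(g • f)(h) = f (h * g)` of `G` on functions `G → K`. -/
def rtRep (K : Type*) [Field K] (G : Type*) [Group G] : G →* Module.End K (G → K) where
  toFun g :=
    { toFun := fun f h => f (h * g)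
      map_add' := fun _ _ => rfl
      map_smul' := fun _ _ => rfl }
  map_one' := by
    ext f h
    simp
  map_mul' g g' := by
    ext f h
    simp [mul_assoc]

theorem rtRep_apply (g : G) (f : G → K) (h : G) : rtRep K G g f h = f (h * g) := rfl

/-- `φ_u(h) := t (h * u)`. -/
def phi (t : G → K) (u : G) : G → K := fun h => t (h * u)

/-- The span of the right translates of `t`. -/
def spanPhi (t : G → K) : Submodule K (G → K) := Submodule.span K (Set.range (phi t))

theorem rtRep_phi (t : G → K) (g u : G) : rtRep K G g (phi t u) = phi t (g * u) := by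
  ext h
  simp [rtRep_apply, phi, mul_assoc]

theorem rtRep_mem (t : G → K) (g : G) {f : G → K} (hf : f ∈ spanPhi t) :
    rtRep K G g f ∈ spanPhi t := by
  induction hf using Submodule.span_induction with
  | mem x hx =>
    obtain ⟨u, rfl⟩ := hx
    rw [rtRep_phi]
    exact Submodule.subset_span ⟨_, rfl⟩
  | zero => simp
  | add x y _ _ hx hy =>
    rw [map_add]
    exact Submodule.add_mem _ hx hy
  | smul a x _ hx =>
    rw [map_smul]
    exact Submodule.smul_mem _ _ hx

/-- (R) on the span of the translates of a pseudo-character. -/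
theorem rtRep_rel (t : G → K) (d : G →* Kˣ) (htc : ∀ g h, t (g * h) = t (h * g))
    (hP : ∀ g h, t (g * h) + (d h : K) * t (g * h⁻¹) = t g * t h) (g : G) {f : G → K}
    (hf : f ∈ spanPhi t) : rtRep K G g f + (d g : K) • rtRep K G g⁻¹ f = t g • f := by
  induction hf using Submodule.span_induction with
  | mem x hx =>
    obtain ⟨u, rfl⟩ := hx
    ext h
    simp only [Pi.add_apply, Pi.smul_apply, rtRep_apply, phi, smul_eq_mul]
    have h1 := hP (u * h) g
    have e1 : t (h * g * u) = t (u * h * g) := by rw [htc (h * g) u, mul_assoc]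
    have e2 : t (h * g⁻¹ * u) = t (u * h * g⁻¹) := by rw [htc (h * g⁻¹) u, mul_assoc]
    have e3 : t (h * u) = t (u * h) := htc h u
    rw [e1, e2, e3, h1, mul_comm]
  | zero => simp
  | add x y _ _ hx hy =>
    rw [map_add, map_add, smul_add, smul_add, ← hx, ← hy]
    abel
  | smul a x _ hx =>
    rw [map_smul, map_smul, smul_comm (d g : K) a, ← smul_add, hx, smul_comm]

/-- The restriction of the translation action to the span of the translates of `t`. -/
def piW (t : G → K) : G →* Module.End K (spanPhi t) where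
  toFun g := (rtRep K G g).restrict (fun _ hf => rtRep_mem t g hf)
  map_one' := by
    ext f
    simp
  map_mul' g h := by
    ext f
    simp

theorem coe_piW_apply (t : G → K) (g : G) (f : spanPhi t) :
    ((piW t g f : spanPhi t) : G → K) = rtRep K G g (f : G → K) := rfl

/-- **[OddDet], field form** (module proof).  An odd pseudo-character `(t, d)` of dimension two
with values in a field of characteristic `≠ 2` is the (trace, determinant) of a representation
`ρ : G →* M₂(K)` with the integrality/continuity package `Good`. -/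
theorem exists_rep_of_pseudo (h2 : (2 : K) ≠ 0) (t : G → K) (d : G →* Kˣ) (ht1 : t 1 = 2)
    (htc : ∀ g h, t (g * h) = t (h * g))
    (hP : ∀ g h, t (g * h) + (d h : K) * t (g * h⁻¹) = t g * t h)
    (c : G) (hc : c * c = 1) (htc0 : t c = 0) :
    ∃ ρ : G →* Matrix (Fin 2) (Fin 2) K, Good t d ρ := by
  refine exists_good_of_module h2 (piW t) d t c ?_ hc ht1 htc0 ?_
  · intro g
    ext f : 1
    apply Subtype.ext
    have h := rtRep_rel t d htc hP g f.2
    simpa [coe_piW_apply] using h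
  · refine ⟨⟨phi t 1, Submodule.subset_span ⟨1, rfl⟩⟩, ?_⟩
    intro h0
    have h1 := congrArg (fun f : spanPhi t => (f : G → K) 1) h0
    simp only [phi, mul_one, ZeroMemClass.coe_zero, Pi.zero_apply] at h1
    rw [ht1] at h1
    exact h2 h1

end Pseudo

section Int

variable {𝒪 : Type*} [CommRing 𝒪] {K : Type*} [Field K] [Algebra 𝒪 K] {G : Type*} [Group G]

/-- **[OddDet], integral form** (what [Lat] consumes).  `(t, d)` an odd pseudo-character with
values in a ring `𝒪 ⊆ K` (`K` a field, `2 ≠ 0`): there is `ρ : G →* M₂(K)` with trace `t`,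
determinant `d`, trivial at every `τ` with `t (τ g) = t g` for all `g`, and ONE `r ≠ 0` in `𝒪`
such that `r • ρ(g) ∈ M₂(𝒪)` for all `g` (bounded denominators) and
`r • (ρ(σ) − 1) ∈ M₂(I)` for every ideal `I` of `𝒪` and every `σ` with
`t (σ g) − t g ∈ I` for all `g` (trace-continuity ⇒ entrywise continuity). -/
theorem exists_rep_of_pseudo_int (h2 : (2 : K) ≠ 0)
    (t : G → 𝒪) (d : G →* 𝒪ˣ) (ht1 : t 1 = 2) (htc : ∀ g h, t (g * h) = t (h * g))
    (hP : ∀ g h, t (g * h) + ((d h : 𝒪ˣ) : 𝒪) * t (g * h⁻¹) = t g * t h)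
    (c : G) (hc : c * c = 1) (htc0 : t c = 0) :
    ∃ ρ : G →* Matrix (Fin 2) (Fin 2) K,
      (∀ g, (ρ g).trace = algebraMap 𝒪 K (t g)) ∧
      (∀ g, (ρ g).det = algebraMap 𝒪 K ((d g : 𝒪ˣ) : 𝒪)) ∧
      (∀ g, (ρ g).charpoly =
        X ^ 2 - C (algebraMap 𝒪 K (t g)) * X + C (algebraMap 𝒪 K ((d g : 𝒪ˣ) : 𝒪))) ∧
      (∀ τ, (∀ g, t (τ * g) = t g) → ρ τ = 1) ∧
      ∃ r : 𝒪, r ≠ 0 ∧ (∀ g i j, ∃ a : 𝒪, algebraMap 𝒪 K a = algebraMap 𝒪 K r * ρ g i j) ∧
        ∀ (I : Ideal 𝒪) (σ : G), (∀ g, t (σ * g) - t g ∈ I) →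
          ∀ i j, ∃ a ∈ I, algebraMap 𝒪 K a = algebraMap 𝒪 K r * (ρ σ - 1) i j := by
  set tK : G → K := fun g => algebraMap 𝒪 K (t g) with htK
  set dK : G →* Kˣ := (Units.map (algebraMap 𝒪 K : 𝒪 →* K)).comp d with hdK
  have hdKv : ∀ g, ((dK g : Kˣ) : K) = algebraMap 𝒪 K ((d g : 𝒪ˣ) : 𝒪) := fun g => rfl
  obtain ⟨ρ, htr, hdet, htriv, hint⟩ := exists_rep_of_pseudo h2 tK dK
    (by simp only [htK]; rw [ht1]; exact map_ofNat _ 2)
    (fun g h => by simp only [htK]; rw [htc g h])
    (fun g h => by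
      simp only [htK]
      rw [hdKv, ← map_mul, ← map_add, hP g h, map_mul])
    c hc (by simp only [htK]; rw [htc0, map_zero])
  refine ⟨ρ, htr, fun g => by rw [hdet, hdKv], ?_, ?_, ?_⟩
  · intro g
    rw [Matrix.charpoly_fin_two, htr, hdet, hdKv]
  · intro τ hτ
    exact htriv τ (fun g => by simp only [htK]; rw [hτ g])
  · obtain ⟨r, hrA, hr0, hb, hcnt⟩ := hint (algebraMap 𝒪 K).range (fun g => ⟨t g, rfl⟩)
    obtain ⟨r₀, rfl⟩ := hrA
    refine ⟨r₀, fun h => hr0 (by rw [h, map_zero]), ?_, ?_⟩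
    · intro g i j
      obtain ⟨a, ha⟩ := hb g i j
      exact ⟨a, ha⟩
    · intro I σ hσ i j
      have key := hcnt (I.toAddSubgroup.map (algebraMap 𝒪 K).toAddMonoidHom) ?_ σ ?_ i j
      · obtain ⟨a, ha, hae⟩ := key
        exact ⟨a, ha, hae⟩
      · rintro _ ⟨a, rfl⟩ _ ⟨x, hx, rfl⟩
        exact ⟨a * x, I.mul_mem_left a hx, by simp⟩
      · intro g
        exact ⟨t (σ * g) - t g, hσ g, by simp [htK]⟩

end Int

end Fermat.Agent.S30.PSConj
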