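/-
S30 route, block [Det] — Pseudo.lean (helper9): leaf (L1) of `S30/Defs.lean`,

    theorem pseudoStatement : Fermat.Agent.S30.PseudoStatement

i.e. `LimGlue.exists_pseudo` (S30/LimGlue.lean) in the binding Prop form.  The Prop does not
assume `p ≠ 0`; for `p = 0` its hypotheses are contradictory: weak Frobenius density gives a
Frobenius element `σ` at a good prime `ℓ`, and the hypothesis on the action of Frobenius on the
`p ^ n`-th roots of unity (all of `ℚ̄ˣ` when `p = 0`, `n = 1`) would give `2 = σ 2 = 2 ^ ℓ`.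
-/
import Mathlib
import Fermat.Agent.S30.Defs
import Fermat.Agent.S30.LimGlue

set_option autoImplicit false

namespace Fermat.Agent.S30.LimGlue

/-- **Leaf (L1) of the [Det] half of S30**: the determinant `(t, d)` from the levels. -/
theorem pseudoStatement : Fermat.Agent.S30.PseudoStatement := by
  intro 𝒪 _ p hsep hcompl good a unr S hS hFD d hd hcycL hcycF hcycI lev
  rcases Nat.eq_zero_or_pos p with hp | hp
  · -- `p = 0`: contradictory hypotheses
    exfalso
    subst hp
    obtain ⟨ℓ, A, σ, j, hℓ, hℓS, hA, hσ, -⟩ := hFD ⊥ inferInstance S 1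
    have h := hcycF ℓ (hS ℓ hℓ hℓS) A hA σ hσ 1 (2 : AlgebraicClosure ℚ)
      (by rw [pow_one, pow_zero])
    have h2 : σ (2 : AlgebraicClosure ℚ) = 2 := map_ofNat σ 2
    rw [h2] at h
    have h3 : ((2 : ℕ) : AlgebraicClosure ℚ) ^ 1 = ((2 : ℕ) : AlgebraicClosure ℚ) ^ ℓ := by
      rw [pow_one]
      exact_mod_cast h
    have h4 : (2 : ℕ) ^ 1 = (2 : ℕ) ^ ℓ := by exact_mod_cast h3
    have h5 : 1 = ℓ := Nat.pow_right_injective (le_refl 2) h4
    exact hℓ.one_lt.ne h5
  · obtain ⟨t, h1, h2, h3, h4, h5, h6, c, hc, htc, hdc⟩ :=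
      exists_pseudo p hp.ne' hsep hcompl good a unr S hS hFD d hd hcycL hcycF hcycI lev
    exact ⟨t, h1, h2, h3, h4, h5, h6, c, hc, htc, by rw [hdc, Units.val_neg, Units.val_one]⟩

end Fermat.Agent.S30.LimGlue
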